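/-
PT-G3 (reciprocity, fundamental class, local-global injectivity) — INTERFACE FILE, part 1:
the ABSTRACT pieces (finite groups and `Rep ℤ G` only; no number theory).
Project PT = Poitou–Tate campaign for S55 (captain helper55, NOTES/S55-plan.md);
PT-G3 sub-captain: helper47; mathematics and piece table: NOTES/PT-G3.md.

Every `Stmt…` below is a `Prop`; the piece `X` is DONE when `theorem stmtX : StmtX` is landed
(sorry-free) in its own file `Fermat/Agent/PT/G3/<File>.lean`.
-/
import Fermat.Agent.PT.A.Plan2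
import Fermat.Agent.PT.G3.Comparison

set_option autoImplicit false

namespace Fermat.Agent.PT.G3

open CategoryTheory groupCohomology Fermat.Agent.PT

/-- **Layer hypothesis** for `(G, C)` at `p`: for every `p`-subgroup `P ≤ G` and every normal
subgroup `P' ◁ P` of index `p`, the cyclic group `P / P'` of order `p` acting on `C ^ P'` has
`H¹ = 0` and `|H²| ≤ p`.  (Arithmetic: first + second inequality for the cyclic layer
`L^{P'} / L^P` of degree `p`.) -/
def LayerHyp (p : ℕ) {G : Type} [Group G] (C : Rep.{0} ℤ G) : Prop :=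
  ∀ (P : Subgroup G), IsPGroup p P → ∀ (P' : Subgroup ↥P) [P'.Normal], P'.index = p →
    Subsingleton (H1 ((Rep.res P.subtype C).quotientToInvariants P')) ∧
    Finite (H2 ((Rep.res P.subtype C).quotientToInvariants P')) ∧
    Nat.card (H2 ((Rep.res P.subtype C).quotientToInvariants P')) ≤ p

/-- `H¹(P, C) = 0` and `|H²(P, C)| ≤ |P|` for every `p`-subgroup `P`. -/
def PBound (p : ℕ) {G : Type} [Group G] (C : Rep.{0} ℤ G) : Prop :=
  ∀ (P : Subgroup G), IsPGroup p P →
    Subsingleton (H1 (Rep.res P.subtype C)) ∧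
    Finite (H2 (Rep.res P.subtype C)) ∧
    Nat.card (H2 (Rep.res P.subtype C)) ≤ Nat.card P

/-- **G3-dev** (dévissage): the layer hypothesis implies the bounds for all `p`-subgroups.
Induction on `|P|`: a nontrivial `p`-group has a normal subgroup `P'` of index `p`;
inflation–restriction in degrees 1 and 2 (`StmtInfRes₂`, landed) for `P' ◁ P`. -/
def StmtDevissage : Prop :=
  ∀ (p : ℕ) [Fact p.Prime] (G : Type) [Group G] [Finite G] (C : Rep.{0} ℤ G),
    LayerHyp p C → PBound p C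

/-- **G3-fund** (fundamental class from the order): if the bounds hold and the order of
`u ∈ H²(G, C)` is divisible by the full power of `p` in `|G|`, then `u` is a `p`-fundamental
class.  (`cor ∘ res = index`: PT/A/Sylow.lean.) -/
def StmtFundOfOrder : Prop :=
  ∀ (p : ℕ) [Fact p.Prime] (G : Type) [Group G] [Finite G] (C : Rep.{0} ℤ G) (u : H2 C),
    PBound p C →
    (∀ k : ℕ, k • u = 0 → p ^ (Nat.card G).factorization p ∣ k) →
    IsPFundClass p C u

/-- **G3-carry** (the carry class detects Sylow norms): let `θ : G ↠ ℤ/h` (`h` a power of `p`)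
with kernel `A`, `P` a Sylow `p`-subgroup with `H¹(P ∩ A, C) = 0`, and `a ∈ C^G`.  If the carry
cocycle `cmpCarry h θ a` (the inflation of the periodicity class of `a`) is a coboundary on `G`,
then `a = N_{P/(P ∩ A)} d` for some `d ∈ C^{P ∩ A}`.
(Restrict to `P`, where `θ` stays onto; inflation from `P/(P ∩ A)` is injective by `StmtInfRes₂`;
then `cmpCarry_norm_of_mem_coboundaries₂`.) -/
def StmtCarryZero : Prop :=
  ∀ (p : ℕ) [Fact p.Prime] (G : Type) [Group G] [Finite G] (C : Rep.{0} ℤ G)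
    (A : Subgroup G) [A.Normal] (h : ℕ) [NeZero h] (θ : G →* Multiplicative (ZMod h)),
    Function.Surjective θ → θ.ker = A → (∃ j : ℕ, h = p ^ j) →
    ∀ (P : Sylow p G), Subsingleton (H1 (Rep.res ((P : Subgroup G) ⊓ A).subtype C)) →
    ∀ a : C.V, (∀ g : G, C.ρ g a = a) → cmpCarry h θ a ∈ coboundaries₂ C →
      ∃ d : C.V, (∀ x ∈ (P : Subgroup G) ⊓ A, C.ρ x d = d) ∧
        a = ∑ᶠ t : ↥(P : Subgroup G) ⧸ (A.subgroupOf (P : Subgroup G)),
          C.ρ ((Quotient.out t : ↥(P : Subgroup G)) : G) d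

/-- **G3-carryres**: the carry class of a norm from a subgroup `B` dies on `B`, and the order of
the carry class of `a₀` is divisible by `h` as soon as no multiple `k a₀`, `h ∤ k`, is a Sylow
norm.  Output: a class `y ∈ H²(G, C)` with `res_B y = 0` of order divisible by `h`. -/
def StmtCarryClass : Prop :=
  ∀ (p : ℕ) [Fact p.Prime] (G : Type) [Group G] [Finite G] (C : Rep.{0} ℤ G)
    (A B : Subgroup G) [A.Normal] (h : ℕ) [NeZero h] (θ : G →* Multiplicative (ZMod h)),
    Function.Surjective θ → θ.ker = A → (∃ j : ℕ, h = p ^ j) →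
    ∀ (P : Sylow p G), Subsingleton (H1 (Rep.res ((P : Subgroup G) ⊓ A).subtype C)) →
    ∀ a₀ : C.V, (∀ g : G, C.ρ g a₀ = a₀) →
      (∃ e : C.V, a₀ = ∑ᶠ b : ↥B, C.ρ (b : G) e) →
      (∀ k : ℕ, (∃ d : C.V, (∀ x ∈ (P : Subgroup G) ⊓ A, C.ρ x d = d) ∧
          k • a₀ = ∑ᶠ t : ↥(P : Subgroup G) ⧸ (A.subgroupOf (P : Subgroup G)),
            C.ρ ((Quotient.out t : ↥(P : Subgroup G)) : G) d) → h ∣ k) →
      ∃ y : H2 C, (resSub C B 2).hom y = 0 ∧ ∀ k : ℕ, k • y = 0 → h ∣ k

/-- **G3-infsurj** (inflation–restriction along a surjection): for `f : G ↠ Q`, a `Q`-module `D`,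
a `G`-module `C` and a `G`-map `φ : D → C` which identifies `D` with `C ^ ker f`: if
`H¹(ker f, C) = 0` then `Inf = groupCohomology.map f φ 2 : H²(Q, D) → H²(G, C)` is injective
with image the kernel of the restriction to `ker f`.
(`StmtInfRes₂` + transport along `G ⧸ ker f ≃* Q`, `D ≃ C ^ ker f`.)  Used with
`G = Gal(N/ℚ)`, `Q = Gal(L/ℚ)`, `D = C_S(L)`, `C = C_S(N)`; also locally (PT-L L4a/L4b). -/
def StmtInfSurj : Prop :=
  ∀ (G Q : Type) [Group G] [Group Q] (f : G →* Q), Function.Surjective f →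
    ∀ (D : Rep.{0} ℤ Q) (C : Rep.{0} ℤ G) (φ : Rep.res f D ⟶ C),
      Function.Injective φ.hom →
      (∀ c : C.V, (∀ g ∈ f.ker, C.ρ g c = c) → ∃ d : D.V, φ.hom d = c) →
      Subsingleton (H1 (Rep.res f.ker.subtype C)) →
      Function.Injective (groupCohomology.map f φ 2).hom ∧
      ∀ x : H2 C, (resSub C f.ker 2).hom x = 0 →
        ∃ y : H2 D, (groupCohomology.map f φ 2).hom y = x

/-- **G3-abs** (abstract assembly of the fundamental class).  Data: `f : G ↠ Q` with `p`-group
kernel (`Q = Gal(L/ℚ)`, `G = Gal(N/ℚ)`, `N = L·ℚ_m`), `D ≃ C ^ ker f`, the layer hypothesis for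
`C` and for `D`, `θ : G ↠ ℤ/h` with `h` = the `p`-part of `|Q|`, and `a₀ ∈ C^G` which is a norm
from `ker f` and no multiple `k a₀` of which (`h ∤ k`) is a Sylow norm.
Then `D` has a `p`-fundamental class. -/
def StmtFundAbs : Prop :=
  ∀ (p : ℕ) [Fact p.Prime] (G Q : Type) [Group G] [Group Q] [Finite G] [Finite Q] (f : G →* Q),
    Function.Surjective f → IsPGroup p f.ker →
    ∀ (D : Rep.{0} ℤ Q) (C : Rep.{0} ℤ G) (φ : Rep.res f D ⟶ C),
      Function.Injective φ.hom →
      (∀ c : C.V, (∀ g ∈ f.ker, C.ρ g c = c) → ∃ d : D.V, φ.hom d = c) →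
      LayerHyp p C → LayerHyp p D →
      ∀ (A : Subgroup G) [A.Normal] (h : ℕ) [NeZero h] (θ : G →* Multiplicative (ZMod h)),
        Function.Surjective θ → θ.ker = A → h = p ^ (Nat.card Q).factorization p →
        ∀ (P : Sylow p G) (a₀ : C.V), (∀ g : G, C.ρ g a₀ = a₀) →
          (∃ e : C.V, a₀ = ∑ᶠ b : ↥f.ker, C.ρ (b : G) e) →
          (∀ k : ℕ, (∃ d : C.V, (∀ x ∈ (P : Subgroup G) ⊓ A, C.ρ x d = d) ∧
              k • a₀ = ∑ᶠ t : ↥(P : Subgroup G) ⧸ (A.subgroupOf (P : Subgroup G)),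
                C.ρ ((Quotient.out t : ↥(P : Subgroup G)) : G) d) → h ∣ k) →
          ∃ u : H2 D, IsPFundClass p D u

end Fermat.Agent.PT.G3
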