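import Mathlib

/-!
# Project PT, piece G3-S1: the explicit norm symbol

For a number field `K`, a prime `p` and `n : ℕ`, the *norm symbol* of an ideal `I` of `𝓞 K` prime
to `p` is `ψ_K(I) = (N I)^(p-1) mod p^(n+1)`, a unit of `ZMod (p^(n+1))`.  It plays the role of the
Artin symbol of `K·ℚ_n / K` (`ℚ_n` the `n`-th layer of the cyclotomic `ℤ_p`-extension):

* `normSymbol_mul` : multiplicative on ideals prime to `p`;
* `normSymbol_span_singleton` (reciprocity): `ψ_K((α)) = 1` if `α ≡ 1 mod p^(n+1)` (`p` odd);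
* `normSymbol_relNorm`, `normSymbol_map` : `ψ_K(N_{L/K} J) = ψ_L(J)`, `ψ_L(I·𝓞_L) = ψ_K(I)^[L:K]`.
-/

set_option autoImplicit false

open NumberField

namespace Fermat.Agent.PT.G3

section Coprime

variable {K : Type*} [Field K] [NumberField K]

/-- If `(m)` is the unit ideal of `𝓞 K` then `m = 1`. -/
theorem eq_one_of_span_natCast_eq_top (m : ℕ) (h : Ideal.span {(m : 𝓞 K)} = ⊤) : m = 1 := by
  have h1 : Ideal.absNorm (Ideal.span {(m : 𝓞 K)}) = 1 := by rw [h]; simp
  rw [Ideal.absNorm_span_singleton] at h1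
  have h2 : Algebra.norm ℤ ((m : ℕ) : 𝓞 K) = (m : ℤ) ^ Module.finrank ℤ (𝓞 K) := by
    have := Algebra.norm_algebraMap (R := ℤ) (S := 𝓞 K) (m : ℤ)
    simpa using this
  rw [h2, Int.natAbs_pow, Int.natAbs_natCast] at h1
  have hpos : 0 < Module.finrank ℤ (𝓞 K) := Module.finrank_pos
  exact (Nat.pow_eq_one.mp h1).resolve_right hpos.ne'

/-- An ideal coprime to `(m)` has absolute norm prime to `m`. -/
theorem absNorm_coprime_of_isCoprime (m : ℕ) (I : Ideal (𝓞 K))
    (h : IsCoprime I (Ideal.span {(m : 𝓞 K)})) : (Ideal.absNorm I).Coprime m := by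
  classical
  by_cases hI0 : I = ⊥
  · subst hI0
    rw [Ideal.isCoprime_iff_sup_eq, bot_sup_eq] at h
    rw [eq_one_of_span_natCast_eq_top m h]
    exact Nat.coprime_one_right _
  by_contra hcop
  obtain ⟨ℓ, hℓ, hℓN, hℓm⟩ := Nat.Prime.not_coprime_iff_dvd.mp hcop
  have hfact : Fact ℓ.Prime := ⟨hℓ⟩
  have hfin : Finite (𝓞 K ⧸ I) := Ideal.finiteQuotientOfFreeOfNeBot I hI0
  have hcard : Nat.card (𝓞 K ⧸ I) = Ideal.absNorm I := rfl
  obtain ⟨x, hx⟩ := exists_prime_addOrderOf_dvd_card' (G := 𝓞 K ⧸ I) ℓ (by rw [hcard]; exact hℓN)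
  -- `m` is invertible modulo `I`
  rw [Ideal.isCoprime_iff_exists] at h
  obtain ⟨i, hi, j, hj, hij⟩ := h
  obtain ⟨b, rfl⟩ := Ideal.mem_span_singleton'.mp hj
  obtain ⟨c, rfl⟩ := hℓm
  have hx0 : (ℓ : ℕ) • x = 0 := by
    rw [← hx]; exact addOrderOf_nsmul_eq_zero x
  have h1 : (Ideal.Quotient.mk I (b * ((ℓ * c : ℕ) : 𝓞 K))) = 1 := by
    rw [← map_one (Ideal.Quotient.mk I), ← hij, map_add, Ideal.Quotient.eq_zero_iff_mem.mpr hi,
      zero_add]
  have h2 : x = 0 := by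
    calc x = (Ideal.Quotient.mk I (b * ((ℓ * c : ℕ) : 𝓞 K))) * x := by rw [h1, one_mul]
      _ = (Ideal.Quotient.mk I (b * (c : 𝓞 K))) * ((ℓ : ℕ) • x) := by
          rw [nsmul_eq_mul, ← mul_assoc]
          congr 1
          have : ((ℓ : ℕ) : 𝓞 K ⧸ I) = Ideal.Quotient.mk I ((ℓ : ℕ) : 𝓞 K) := by simp
          rw [this, ← map_mul]
          congr 1
          push_cast; ring
      _ = 0 := by rw [hx0, mul_zero]
  have h3 : addOrderOf x = 1 := by rw [h2]; exact addOrderOf_zero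
  rw [h3] at hx
  exact hℓ.one_lt.ne hx

end Coprime

section PrimitiveRoot

variable {K : Type*} [Field K] [NumberField K]

/-- In a number field containing a primitive `m`-th root of unity, a prime ideal not containing
`m` has norm `≡ 1 mod m`. -/
theorem absNorm_prime_eq_one_of_primitiveRoot {m : ℕ} (hm : m ≠ 0) {ζ : 𝓞 K}
    (hζ : IsPrimitiveRoot ζ m) (Q : Ideal (𝓞 K)) [hQ : Q.IsMaximal] (hmQ : (m : 𝓞 K) ∉ Q) :
    ((Ideal.absNorm Q : ℕ) : ZMod m) = 1 := by
  classical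
  have hQ0 : Q ≠ ⊥ := Ring.ne_bot_of_isMaximal_of_not_isField hQ (RingOfIntegers.not_isField K)
  have hfin : Finite (𝓞 K ⧸ Q) := Ideal.finiteQuotientOfFreeOfNeBot Q hQ0
  let _ : Field (𝓞 K ⧸ Q) := Ideal.Quotient.field Q
  let _ : Fintype (𝓞 K ⧸ Q) := Fintype.ofFinite _
  have hcard : Fintype.card (𝓞 K ⧸ Q) = Ideal.absNorm Q := by
    rw [← Nat.card_eq_fintype_card]; rfl
  -- the image of `ζ` in the residue field is a primitive `m`-th root of unity
  set z : 𝓞 K ⧸ Q := Ideal.Quotient.mk Q ζ with hz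
  have hzm : z ^ m = 1 := by rw [hz, ← map_pow, hζ.pow_eq_one, map_one]
  have hzprim : IsPrimitiveRoot z m := by
    refine IsPrimitiveRoot.mk_of_lt z (Nat.pos_of_ne_zero hm) hzm ?_
    intro l hl0 hlm hl
    obtain ⟨m', rfl⟩ : ∃ m', m = m' + 1 := ⟨m - 1, by omega⟩
    have hprod := hζ.prod_one_sub_pow_eq_order
    have h2 := congrArg (Ideal.Quotient.mk Q) hprod
    rw [map_prod] at h2
    have h3 : ∏ k ∈ Finset.range m', (Ideal.Quotient.mk Q) (1 - ζ ^ (k + 1)) = 0 := by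
      apply Finset.prod_eq_zero (i := l - 1)
      · rw [Finset.mem_range]; omega
      · have : l - 1 + 1 = l := by omega
        rw [this, map_sub, map_one, map_pow, ← hz, hl, sub_self]
    rw [h3] at h2
    apply hmQ
    rw [← Ideal.Quotient.eq_zero_iff_mem]
    have h4 : ((m' + 1 : ℕ) : 𝓞 K) = (m' : 𝓞 K) + 1 := by push_cast; ring
    rw [h4, h2.symm]
  have hz0 : z ≠ 0 := by
    intro h0
    rw [h0, zero_pow hm] at hzm
    exact zero_ne_one hzm
  have hdvd : m ∣ Fintype.card (𝓞 K ⧸ Q) - 1 := by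
    have h1 : z ^ (Fintype.card (𝓞 K ⧸ Q) - 1) = 1 := FiniteField.pow_card_sub_one_eq_one z hz0
    exact (hzprim.pow_eq_one_iff_dvd _).mp h1
  rw [hcard] at hdvd
  have hpos : 1 ≤ Ideal.absNorm Q := by
    have := Ideal.absNorm_eq_zero_iff.not.mpr hQ0
    omega
  obtain ⟨c, hc⟩ := hdvd
  have : Ideal.absNorm Q = m * c + 1 := by omega
  rw [this]; push_cast; simp

/-- In a number field containing a primitive `m`-th root of unity, an ideal coprime to `m` has
norm `≡ 1 mod m`. -/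
theorem absNorm_eq_one_of_primitiveRoot {m : ℕ} (hm : m ≠ 0) {ζ : 𝓞 K}
    (hζ : IsPrimitiveRoot ζ m) (I : Ideal (𝓞 K))
    (hI : IsCoprime I (Ideal.span {(m : 𝓞 K)})) :
    ((Ideal.absNorm I : ℕ) : ZMod m) = 1 := by
  classical
  by_cases hI0 : I = ⊥
  · subst hI0
    rw [Ideal.isCoprime_iff_sup_eq, bot_sup_eq] at hI
    obtain rfl := eq_one_of_span_natCast_eq_top m hI
    exact Subsingleton.elim _ _
  rw [← Ideal.prod_normalizedFactors_eq_self hI0]
  refine Multiset.prod_induction (fun J : Ideal (𝓞 K) => ((Ideal.absNorm J : ℕ) : ZMod m) = 1)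
    _ ?_ ?_ ?_
  · intro J₁ J₂ h₁ h₂
    rw [map_mul, Nat.cast_mul, h₁, h₂, mul_one]
  · simp
  · intro Q hQ
    have hQ' : Q ≠ ⊥ := UniqueFactorizationMonoid.ne_zero_of_mem_normalizedFactors hQ
    rw [Ideal.mem_normalizedFactors_iff hI0] at hQ
    have hQmax : Q.IsMaximal := Ring.DimensionLEOne.maximalOfPrime hQ' hQ.1
    refine absNorm_prime_eq_one_of_primitiveRoot hm hζ Q ?_
    intro hmQ
    have h1 : Ideal.span {(m : 𝓞 K)} ≤ Q := (Ideal.span_singleton_le_iff_mem Q).mpr hmQ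
    have h2 : I ⊔ Ideal.span {(m : 𝓞 K)} ≤ Q := sup_le hQ.2 h1
    rw [Ideal.isCoprime_iff_sup_eq] at hI
    rw [hI] at h2
    exact hQmax.ne_top (top_le_iff.mp h2)

end PrimitiveRoot

section Symbol

variable (p n : ℕ)

/-- The **norm symbol** `ψ_K(I) = (N I)^(p-1) mod p^(n+1)` (`1` if `N I` is not prime to `p`). -/
noncomputable def normSymbol {K : Type*} [Field K] [NumberField K] (I : Ideal (𝓞 K)) :
    (ZMod (p ^ (n + 1)))ˣ :=
  if h : (Ideal.absNorm I).Coprime (p ^ (n + 1)) then ZMod.unitOfCoprime _ h ^ (p - 1) else 1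

variable {p n}

theorem normSymbol_of_coprime {K : Type*} [Field K] [NumberField K] {I : Ideal (𝓞 K)}
    (h : (Ideal.absNorm I).Coprime (p ^ (n + 1))) :
    normSymbol p n I = ZMod.unitOfCoprime _ h ^ (p - 1) := by
  rw [normSymbol, dif_pos h]

theorem coe_normSymbol_of_coprime {K : Type*} [Field K] [NumberField K] {I : Ideal (𝓞 K)}
    (h : (Ideal.absNorm I).Coprime (p ^ (n + 1))) :
    ((normSymbol p n I : (ZMod (p ^ (n + 1)))ˣ) : ZMod (p ^ (n + 1))) =
      ((Ideal.absNorm I : ℕ) : ZMod (p ^ (n + 1))) ^ (p - 1) := by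
  rw [normSymbol_of_coprime h]; simp

/-- The norm symbol of an ideal coprime to `(p^(n+1))`. -/
theorem coprime_of_isCoprime_span {K : Type*} [Field K] [NumberField K] {I : Ideal (𝓞 K)}
    (h : IsCoprime I (Ideal.span {((p ^ (n + 1) : ℕ) : 𝓞 K)})) :
    (Ideal.absNorm I).Coprime (p ^ (n + 1)) :=
  absNorm_coprime_of_isCoprime _ I h

@[simp] theorem normSymbol_top {K : Type*} [Field K] [NumberField K] :
    normSymbol p n (⊤ : Ideal (𝓞 K)) = 1 := by
  have h : (Ideal.absNorm (⊤ : Ideal (𝓞 K))).Coprime (p ^ (n + 1)) := by simp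
  apply Units.ext
  rw [coe_normSymbol_of_coprime h]; simp

/-- The norm symbol is multiplicative on ideals of norm prime to `p`. -/
theorem normSymbol_mul {K : Type*} [Field K] [NumberField K] {I J : Ideal (𝓞 K)}
    (hI : (Ideal.absNorm I).Coprime (p ^ (n + 1))) (hJ : (Ideal.absNorm J).Coprime (p ^ (n + 1))) :
    normSymbol p n (I * J) = normSymbol p n I * normSymbol p n J := by
  have hIJ : (Ideal.absNorm (I * J)).Coprime (p ^ (n + 1)) := by
    rw [map_mul]; exact Nat.Coprime.mul_left hI hJ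
  apply Units.ext
  rw [Units.val_mul, coe_normSymbol_of_coprime hIJ, coe_normSymbol_of_coprime hI,
    coe_normSymbol_of_coprime hJ, map_mul, Nat.cast_mul, mul_pow]

theorem normSymbol_pow {K : Type*} [Field K] [NumberField K] {I : Ideal (𝓞 K)}
    (hI : (Ideal.absNorm I).Coprime (p ^ (n + 1))) (k : ℕ) :
    normSymbol p n (I ^ k) = normSymbol p n I ^ k := by
  have hIk : (Ideal.absNorm (I ^ k)).Coprime (p ^ (n + 1)) := by
    rw [map_pow]; exact Nat.Coprime.pow_left k hI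
  apply Units.ext
  rw [Units.val_pow_eq_pow_val, coe_normSymbol_of_coprime hIk, coe_normSymbol_of_coprime hI,
    map_pow, Nat.cast_pow, ← pow_mul, ← pow_mul, mul_comm]

/-- **Reciprocity law** for the norm symbol: a principal ideal `(α)` with `α ≡ 1 mod p^(n+1)` has
trivial symbol (`p` odd). -/
theorem normSymbol_span_singleton {K : Type*} [Field K] [NumberField K] (hp : Odd p)
    (α : 𝓞 K) (hα : α - 1 ∈ Ideal.span {((p ^ (n + 1) : ℕ) : 𝓞 K)}) :
    normSymbol p n (Ideal.span {α}) = 1 := by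
  obtain ⟨β, hβ⟩ := Ideal.mem_span_singleton'.mp hα
  have hα' : α = 1 + ((p ^ (n + 1) : ℕ) : ℤ) • β := by
    have : α = 1 + β * ((p ^ (n + 1) : ℕ) : 𝓞 K) := by rw [hβ]; ring
    rw [this, zsmul_eq_mul, mul_comm]; push_cast; ring
  obtain ⟨r, hr⟩ := Algebra.norm_one_add_smul (A := ℤ) (B := 𝓞 K) ((p ^ (n + 1) : ℕ) : ℤ) β
  rw [← hα'] at hr
  -- the norm is `≡ 1 mod p^(n+1)`
  have hN : ((Algebra.norm ℤ α : ℤ) : ZMod (p ^ (n + 1))) = 1 := by
    rw [hr]; push_cast
    have : ((p : ZMod (p ^ (n + 1))) ^ (n + 1)) = 0 := by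
      have h0 := ZMod.natCast_self (p ^ (n + 1))
      rwa [Nat.cast_pow] at h0
    rw [this]; ring
  have habs : ((Ideal.absNorm (Ideal.span {α}) : ℕ) : ZMod (p ^ (n + 1))) ^ 2 = 1 := by
    rw [Ideal.absNorm_span_singleton]
    have h2 : (((Algebra.norm ℤ α).natAbs : ℕ) : ZMod (p ^ (n + 1))) ^ 2 =
        ((Algebra.norm ℤ α : ℤ) : ZMod (p ^ (n + 1))) ^ 2 := by
      have h3 : (((Algebra.norm ℤ α).natAbs : ℕ) : ℤ) ^ 2 = (Algebra.norm ℤ α) ^ 2 := by
        rw [Int.natCast_natAbs, sq_abs]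
      have h4 := congrArg (fun z : ℤ => (z : ZMod (p ^ (n + 1)))) h3
      simp only [Int.cast_pow, Int.cast_natCast] at h4
      exact h4
    rw [h2, hN, one_pow]
  have hcop : (Ideal.absNorm (Ideal.span {α})).Coprime (p ^ (n + 1)) := by
    have hu : IsUnit ((Ideal.absNorm (Ideal.span {α}) : ℕ) : ZMod (p ^ (n + 1))) :=
      IsUnit.of_pow_eq_one habs two_ne_zero
    exact (ZMod.isUnit_iff_coprime _ _).mp hu
  apply Units.ext
  rw [coe_normSymbol_of_coprime hcop, Units.val_one]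
  obtain ⟨k, hk⟩ := hp
  have : p - 1 = 2 * k := by omega
  rw [this, pow_mul, habs, one_pow]

end Symbol

section Functoriality

variable {p n : ℕ}
variable {K L : Type*} [Field K] [NumberField K] [Field L] [NumberField L] [Algebra K L]

/-- `ψ_K(N_{L/K} J) = ψ_L(J)`. -/
theorem normSymbol_relNorm (J : Ideal (𝓞 L)) :
    normSymbol p n (Ideal.relNorm (𝓞 K) J) = normSymbol p n J := by
  unfold normSymbol
  rw [Ideal.absNorm_relNorm]

/-- `ψ_L(I 𝓞_L) = ψ_K(I)^[L:K]`. -/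
theorem normSymbol_map (I : Ideal (𝓞 K)) (hI : (Ideal.absNorm I).Coprime (p ^ (n + 1))) :
    normSymbol p n (I.map (algebraMap (𝓞 K) (𝓞 L))) = normSymbol p n I ^ Module.finrank K L := by
  have h1 : Ideal.absNorm (I.map (algebraMap (𝓞 K) (𝓞 L))) =
      Ideal.absNorm I ^ Module.finrank K L := by
    rw [Ideal.absNorm_algebraMap]
    congr 1
    exact (IsFractionRing.finrank_eq (𝓞 K) K (𝓞 L) L).symm
  have hIk : (Ideal.absNorm (I.map (algebraMap (𝓞 K) (𝓞 L)))).Coprime (p ^ (n + 1)) := by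
    rw [h1]; exact Nat.Coprime.pow_left _ hI
  apply Units.ext
  rw [Units.val_pow_eq_pow_val, coe_normSymbol_of_coprime hIk, coe_normSymbol_of_coprime hI,
    h1, Nat.cast_pow, ← pow_mul, ← pow_mul, mul_comm]

end Functoriality

section Cyclotomic

variable {p n : ℕ}

/-- The norm symbol is killed by `p^n`: it lies in the `p`-part of `(ℤ/p^(n+1))ˣ`. -/
theorem normSymbol_pow_prime_pow (hp : p.Prime) {K : Type*} [Field K] [NumberField K]
    (I : Ideal (𝓞 K)) : normSymbol p n I ^ (p ^ n) = 1 := by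
  unfold normSymbol
  split_ifs with h
  · rw [← pow_mul]
    have h1 : (p - 1) * p ^ n = Nat.totient (p ^ (n + 1)) := by
      rw [Nat.totient_prime_pow_succ hp, mul_comm]
    rw [h1]
    exact ZMod.pow_totient _
  · exact one_pow _

/-- (Z) In a number field containing the `p^(n+1)`-th roots of unity the norm symbol is
trivial. -/
theorem normSymbol_eq_one_of_primitiveRoot (hp : p.Prime) {K : Type*} [Field K] [NumberField K]
    {ζ : 𝓞 K} (hζ : IsPrimitiveRoot ζ (p ^ (n + 1))) (I : Ideal (𝓞 K))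
    (hI : IsCoprime I (Ideal.span {((p ^ (n + 1) : ℕ) : 𝓞 K)})) :
    normSymbol p n I = 1 := by
  have hcop := coprime_of_isCoprime_span hI
  apply Units.ext
  rw [coe_normSymbol_of_coprime hcop,
    absNorm_eq_one_of_primitiveRoot (pow_ne_zero _ hp.ne_zero) hζ I hI, one_pow, Units.val_one]

/-- (Z') If `L/K` has degree prime to `p` and `L` contains the `p^(n+1)`-th roots of unity
(e.g. `K ⊇ ℚ_n`, `L = K(ζ)`), then the norm symbol of `K` is trivial. -/
theorem normSymbol_eq_one_of_tower (hp : p.Prime) {K L : Type*} [Field K] [NumberField K]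
    [Field L] [NumberField L] [Algebra K L] (hdeg : (Module.finrank K L).Coprime p)
    {ζ : 𝓞 L} (hζ : IsPrimitiveRoot ζ (p ^ (n + 1))) (I : Ideal (𝓞 K))
    (hI : IsCoprime I (Ideal.span {((p ^ (n + 1) : ℕ) : 𝓞 K)})) :
    normSymbol p n I = 1 := by
  have hcop := coprime_of_isCoprime_span hI
  have hmap : IsCoprime (I.map (algebraMap (𝓞 K) (𝓞 L)))
      (Ideal.span {((p ^ (n + 1) : ℕ) : 𝓞 L)}) := by
    have h1 := hI.map (Ideal.mapHom (algebraMap (𝓞 K) (𝓞 L)))
    have h2 : (Ideal.mapHom (algebraMap (𝓞 K) (𝓞 L))) (Ideal.span {((p ^ (n + 1) : ℕ) : 𝓞 K)}) =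
        Ideal.span {((p ^ (n + 1) : ℕ) : 𝓞 L)} := by
      simp [Ideal.mapHom, Ideal.map_span]
    rw [h2] at h1
    exact h1
  have h1 : normSymbol p n I ^ Module.finrank K L = 1 := by
    rw [← normSymbol_map (L := L) I hcop]
    exact normSymbol_eq_one_of_primitiveRoot hp hζ _ hmap
  have h2 : normSymbol p n I ^ (p ^ n) = 1 := normSymbol_pow_prime_pow hp I
  have h3 : orderOf (normSymbol p n I) ∣ Nat.gcd (Module.finrank K L) (p ^ n) :=
    Nat.dvd_gcd (orderOf_dvd_of_pow_eq_one h1) (orderOf_dvd_of_pow_eq_one h2)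
  have h4 : Nat.gcd (Module.finrank K L) (p ^ n) = 1 := Nat.Coprime.pow_right n hdeg
  rw [h4, Nat.dvd_one, orderOf_eq_one_iff] at h3
  exact h3

end Cyclotomic

end Fermat.Agent.PT.G3
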