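/-
PT-G3 — INTERFACE FILE, part 2: the MODEL pieces that do not mention the class symbol `Ψ`
(tensor model of PT/G/Defs.lean; `csMap` of PT/G/Map.lean; descent statements of PT/G/Plan2.lean).
Sub-captain helper47; mathematics and piece table: NOTES/PT-G3.md.

Every `Stmt…` below is a `Prop`; the piece `X` is DONE when `theorem stmtX : StmtX` is landed.
-/
import Fermat.Agent.PT.G.Plan2
import Fermat.Agent.PT.G.Reps
import Fermat.Agent.PT.G3.Plan
import Fermat.Agent.PT.G3.Symbol

set_option autoImplicit false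
set_option linter.unusedSectionVars false

namespace Fermat.Agent.PT.G3

open CategoryTheory groupCohomology NumberField IsDedekindDomain
open Fermat.Agent.PT Fermat.Agent.PT.G Fermat.Agent.PT.G1

/-! ### Layers -/

/-- **G3-layer**: if `L / ℚ` is unramified outside `S ≠ ∅` and `p` is odd, then `C_S(L)` satisfies
the layer hypothesis at `p`: for `P ≤ Aut(L)` a `p`-subgroup and `P' ◁ P` of index `p`,
`H¹(P/P', C_S(L)^{P'}) = 0` and `|H²(P/P', C_S(L)^{P'})| ≤ p`.
(`K' := L^{P'}`, `σ'` := a generator of `P/P'` on `K'`; `StmtCSCyclic` for `(K', σ')`;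
`StmtCSDescent` + `StmtCSMapInj`: `C_S(K') ≃ C_S(L)^{P'}`; `G1.stmtBridge`.) -/
def StmtLayer : Prop :=
  ∀ (p : ℕ) [Fact p.Prime], p ≠ 2 → ∀ (S : Finset Nat.Primes), S.Nonempty →
    ∀ (L : Type) [Field L] [NumberField L], UnramOffRel S ℚ L → LayerHyp p (csRep S L)

/-! ### Transitivity of `csMap` -/

/-- **G3-comp**: `csMap` is transitive in towers `K ⊂ L ⊂ M`
(`e(P | P ∩ K) = e(P | P ∩ L) · e(P ∩ L | P ∩ K)`; Mathlib `Ideal.ramificationIdx_algebra_tower`
or via valuations as in `ramIdx_primeMap`). -/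
def StmtCSMapComp : Prop :=
  ∀ (S : Finset Nat.Primes) (K L M : Type) [Field K] [NumberField K] [Field L] [NumberField L]
    [Field M] [NumberField M] [Algebra K L] [Algebra L M] [Algebra K M] [IsScalarTower K L M]
    (c : CS S K), csMap S L M (csMap S K L c) = csMap S K M c

/-- **G3-unramtower**: unramifiedness outside `S` in towers: if `M / K` is unramified outside `S`
then so are `M / L` and `L / K`. -/
def StmtUnramTower : Prop :=
  ∀ (S : Finset Nat.Primes) (K L M : Type) [Field K] [NumberField K] [Field L] [NumberField L]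
    [Field M] [NumberField M] [Algebra K L] [Algebra L M] [Algebra K M] [IsScalarTower K L M],
    UnramOffRel S K M → UnramOffRel S L M ∧ UnramOffRel S K L

/-! ### The norm subgroup -/

section NormSub

variable (S : Finset Nat.Primes) (F M : Type) [Field F] [NumberField F] [Field M] [NumberField M]
  [Algebra F M]

/-- `Gal(M / F)` as a subgroup of `Aut(M) = M ≃ₐ[ℚ] M`. -/
def relAut : Subgroup (M ≃ₐ[ℚ] M) where
  carrier := {σ | ∀ x : F, σ (algebraMap F M x) = algebraMap F M x}
  mul_mem' := by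
    intro σ τ hσ hτ x
    show σ (τ (algebraMap F M x)) = algebraMap F M x
    rw [hτ x, hσ x]
  one_mem' := fun _ => rfl
  inv_mem' := by
    intro σ hσ x
    have h := hσ x
    show σ⁻¹ (algebraMap F M x) = algebraMap F M x
    conv_lhs => rw [← h]
    exact σ.symm_apply_apply _

lemma mem_relAut (σ : M ≃ₐ[ℚ] M) :
    σ ∈ relAut F M ↔ ∀ x : F, σ (algebraMap F M x) = algebraMap F M x := Iff.rfl

/-- The norm `N_{Gal(M/F)} = Σ_{σ ∈ Gal(M/F)} σ` on `C_S(M)`. -/
noncomputable def galNorm (c : CS S M) : CS S M :=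
  ∑ᶠ σ : ↥(relAut F M), csEnd S (σ : M ≃ₐ[ℚ] M) c

/-- **The norm subgroup** `{c ∈ C_S(F) | csMap c ∈ N_{Gal(M/F)} C_S(M)}` of `C_S(F)`
(`= csNorm (C_S(M))` when `M / F` is Galois and `csMap` is injective). -/
def NormSub : Set (CS S F) := {c | ∃ d : CS S M, csMap S F M c = galNorm S F M d}

end NormSub

/-- **G3-normsub**: `NormSub` is a subgroup: `galNorm` is additive. -/
def StmtGalNormAdd : Prop :=
  ∀ (S : Finset Nat.Primes) (F M : Type) [Field F] [NumberField F] [Field M] [NumberField M]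
    [Algebra F M] (c d : CS S M),
    galNorm S F M (c + d) = galNorm S F M c + galNorm S F M d ∧
    galNorm S F M (-c) = -galNorm S F M c

/-- **G3-normJ**: `[M : F] • (image of J_F)` lies in the norm subgroup (`M / F` Galois):
`csMap (csOfJ y)` is `Gal(M/F)`-invariant, so `N (csMap (csOfJ y)) = [M : F] • csMap (csOfJ y)`. -/
def StmtNormSubJ : Prop :=
  ∀ (S : Finset Nat.Primes) (F M : Type) [Field F] [NumberField F] [Field M] [NumberField M]
    [Algebra F M] [IsGalois F M] (c : CS S F),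
    (Module.finrank F M) • c ∈ NormSub S F M

/-- **G3-normsplit**: if `M / F` is Galois and unramified outside `S`, the class of a prime `v`
of `F` off `S` with a prime `w` of `M` of degree one above it is in the norm subgroup
(`v` splits completely: `divMap [v] = Σ_{σ ∈ Gal(M/F)} σ [w]`). -/
def StmtNormSubSplit : Prop :=
  ∀ (S : Finset Nat.Primes) (F M : Type) [Field F] [NumberField F] [Field M] [NumberField M]
    [Algebra F M] [IsGalois F M], UnramOffRel S F M → ∀ v : OffS S F,
    (∃ w : HeightOneSpectrum (𝓞 M),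
      Ideal.comap (algebraMap (𝓞 F) (𝓞 M)) w.asIdeal = v.1.asIdeal ∧
        Ideal.absNorm w.asIdeal = Ideal.absNorm v.1.asIdeal) →
    csOfDiv S F (Finsupp.single v 1) ∈ NormSub S F M

/-- **G3-normindex** (second inequality in norm-subgroup form): for `M / F` Galois and unramified
outside `S`, at most `[M : F]` classes of `C_S(F)` modulo the norm subgroup.
(`G2.StmtIdelicSecond` with `B = NormSub`, `d = [M : F]`, + G3-normJ, G3-normsplit.) -/
def StmtNormIndexLe : Prop :=
  ∀ (S : Finset Nat.Primes) (F M : Type) [Field F] [NumberField F] [Field M] [NumberField M]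
    [Algebra F M] [IsGalois F M], UnramOffRel S F M →
    ∃ B : Submodule ℤ (CS S F), (B : Set (CS S F)) = NormSub S F M ∧
      Finite (CS S F ⧸ B) ∧ Nat.card (CS S F ⧸ B) ≤ Module.finrank F M

/-! ### From Sylow norms to the norm subgroup -/

/-- **G3-sylownorm**: let `N / ℚ` be Galois, unramified outside `S ≠ ∅`, and `F₀ ⊂ M₀ ⊂ N` a
tower with `M₀ / F₀` Galois; put `P = Gal(N/F₀)`, `P₁ = Gal(N/M₀)` (subgroups of `Aut(N)`).
If `c₀ ∈ C_S(ℚ)` and `csMap c₀ ∈ C_S(N)` is `Σ_{t ∈ P/P₁} t • d` for a `P₁`-invariant `d`, then the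
image of `c₀` in `C_S(F₀)` lies in the norm subgroup of `M₀ / F₀`.
(Descent for `N / M₀`: `d = csMap d'`; equivariance; injectivity of `csMap S M₀ N`;
`StmtCSMapComp`.)  Used with `F₀ = N^P`, `M₀ = N^{P ∩ A}`, `P` a Sylow `p`-subgroup. -/
def StmtSylowNorm : Prop :=
  ∀ (S : Finset Nat.Primes), S.Nonempty → ∀ (N : Type) [Field N] [NumberField N] [IsGalois ℚ N],
    UnramOffRel S ℚ N →
    ∀ (F₀ M₀ : Type) [Field F₀] [NumberField F₀] [Field M₀] [NumberField M₀] [Algebra F₀ M₀]
      [Algebra M₀ N] [Algebra F₀ N] [IsScalarTower F₀ M₀ N] [IsGalois F₀ M₀]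
      (c₀ : CS S ℚ) (d : CS S N),
    (∀ x ∈ relAut M₀ N, csEnd S x d = d) →
    csMap S ℚ N c₀ = ∑ᶠ t : ↥(relAut F₀ N) ⧸ ((relAut M₀ N).subgroupOf (relAut F₀ N)),
      csEnd S ((Quotient.out t : ↥(relAut F₀ N)) : N ≃ₐ[ℚ] N) d →
    csMap S ℚ F₀ c₀ ∈ NormSub S F₀ M₀

end Fermat.Agent.PT.G3
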