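/-
Project PT — PT-G3 / comp (helper56): `csMap` is transitive in towers `K ⊂ L ⊂ M`, the
ramification index is multiplicative, unramifiedness outside `S` passes to the two layers.
-/
import Fermat.Agent.PT.G3.Plan2

set_option autoImplicit false

namespace Fermat.Agent.PT.G3

open NumberField IsDedekindDomain
open Fermat.Agent.PT Fermat.Agent.PT.G Fermat.Agent.PT.G1

section Tower

variable (S : Finset Nat.Primes) (K L M : Type) [Field K] [NumberField K] [Field L]
  [NumberField L] [Field M] [NumberField M] [Algebra K L] [Algebra L M] [Algebra K M]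
  [IsScalarTower K L M]

lemma mcomp_semiIncl (q : ℕ) [Fact q.Prime] (x : semiAlg q K) :
    semiIncl L M q (semiIncl K L q x) = semiIncl K M q x := by
  have h : (semiIncl L M q).comp (semiIncl K L q) = semiIncl K M q := by
    apply Algebra.TensorProduct.ext'
    intro a b
    simp [semiIncl, ← IsScalarTower.algebraMap_apply]
  exact DFunLike.congr_fun h x

lemma mcomp_jlMapLin (j : Additive (JL S K)) :
    jlMapLin S L M (jlMapLin S K L j) = jlMapLin S K M j := by
  apply Additive.toMul.injective
  funext q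
  apply Units.ext
  exact mcomp_semiIncl K L M _ _

omit [NumberField K] [NumberField L] [NumberField M] in
lemma mcomp_algebraMap_int (x : 𝓞 K) :
    algebraMap (𝓞 L) (𝓞 M) (algebraMap (𝓞 K) (𝓞 L) x) = algebraMap (𝓞 K) (𝓞 M) x := by
  apply RingOfIntegers.ext
  show algebraMap L M (algebraMap K L (x : K)) = algebraMap K M (x : K)
  rw [← IsScalarTower.algebraMap_apply]

variable {M}

lemma mcomp_primeUnder (P : HeightOneSpectrum (𝓞 M)) :
    primeUnder K (primeUnder L P) = primeUnder K P := by
  apply HeightOneSpectrum.ext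
  ext x
  rw [mem_primeUnder, mem_primeUnder, mem_primeUnder, mcomp_algebraMap_int]

/-- **Multiplicativity of the ramification index.** -/
lemma mcomp_ramIdx (P : HeightOneSpectrum (𝓞 M)) :
    ramIdx K P = ramIdx L P * ramIdx K (primeUnder L P) := by
  obtain ⟨π, hπ⟩ := (primeUnder K P).valuation_exists_uniformizer K
  have h1 : P.valuation M (algebraMap K M π) = WithZero.exp (-1 : ℤ) ^ ramIdx K P := by
    rw [valuation_algebraMap_eq_pow, hπ]
  have h2 : P.valuation M (algebraMap K M π) =
      WithZero.exp (-1 : ℤ) ^ (ramIdx L P * ramIdx K (primeUnder L P)) := by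
    rw [IsScalarTower.algebraMap_apply K L M, valuation_algebraMap_eq_pow L P,
      valuation_algebraMap_eq_pow K (primeUnder L P), mcomp_primeUnder, hπ, ← pow_mul, mul_comm]
  rw [h1] at h2
  rw [← WithZero.exp_nsmul, ← WithZero.exp_nsmul, WithZero.exp_inj] at h2
  have h3 : ((ramIdx K P : ℕ) : ℤ) = ((ramIdx L P * ramIdx K (primeUnder L P) : ℕ) : ℤ) := by
    simpa using h2
  exact_mod_cast h3

lemma mcomp_offUnder (P : OffS S M) : offUnder S K (offUnder S L P) = offUnder S K P :=
  Subtype.ext (mcomp_primeUnder K L P.1)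

variable (M)

lemma mcomp_divMap (d : DivS S K) : divMap S L M (divMap S K L d) = divMap S K M d := by
  ext P
  rw [divMap_apply, divMap_apply, divMap_apply, mcomp_offUnder, mcomp_ramIdx K L P.1]
  have h : (offUnder S L P).1 = primeUnder L P.1 := rfl
  rw [h]
  push_cast
  ring

lemma mcomp_jdMap (y : Additive (JL S K) × DivS S K) :
    jdMap S L M (jdMap S K L y) = jdMap S K M y := by
  apply Prod.ext
  · exact mcomp_jlMapLin S K L M y.1
  · exact mcomp_divMap S K L M y.2

lemma mcomp_csMap (c : CS S K) : csMap S L M (csMap S K L c) = csMap S K M c := by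
  induction c using Submodule.Quotient.induction_on with
  | _ y =>
    show csMk S M (jdMap S L M (jdMap S K L y)) = csMk S M (jdMap S K M y)
    rw [mcomp_jdMap]

variable {L} in
/-- Every prime of `L` off `S` lies under a prime of `M` off `S`. -/
lemma mcomp_exists_over (Q : OffS S L) : ∃ P : OffS S M, offUnder S L P = Q := by
  haveI := Q.1.isPrime
  obtain ⟨⟨P, hP1, hP2⟩⟩ := Q.1.asIdeal.nonempty_primesOver (S := 𝓞 M)
  have hP0 : P ≠ ⊥ := by
    rintro rfl
    apply Q.1.ne_bot
    rw [hP2.over, Ideal.under, eq_bot_iff]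
    intro x hx
    rw [Ideal.mem_comap, Ideal.mem_bot] at hx
    rw [Ideal.mem_bot]
    exact FaithfulSMul.algebraMap_injective (𝓞 L) (𝓞 M) (hx.trans (map_zero _).symm)
  have hu : primeUnder L (⟨P, hP1, hP0⟩ : HeightOneSpectrum (𝓞 M)) = Q.1 := by
    apply HeightOneSpectrum.ext
    exact hP2.over.symm
  have hN : ((sProd S : ℕ) : 𝓞 M) ∉ P := by
    intro h
    apply Q.2
    rw [← hu]
    exact (natCast_mem_primeUnder_iff L M _ _).2 h
  exact ⟨⟨⟨P, hP1, hP0⟩, hN⟩, Subtype.ext hu⟩

end Tower

/-- **G3-comp.** -/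
theorem stmtCSMapComp : StmtCSMapComp := by
  intro S K L M _ _ _ _ _ _ _ _ _ _ c
  exact mcomp_csMap S K L M c

/-- **G3-unramtower.** -/
theorem stmtUnramTower : StmtUnramTower := by
  intro S K L M _ _ _ _ _ _ _ _ _ _ hun
  have key : ∀ P : OffS S M, ramIdx L P.1 = 1 ∧ ramIdx K (primeUnder L P.1) = 1 := by
    intro P
    have h := hun P
    rw [mcomp_ramIdx K L P.1] at h
    exact ⟨Nat.eq_one_of_mul_eq_one_right h, Nat.eq_one_of_mul_eq_one_left h⟩
  refine ⟨fun P => (key P).1, fun Q => ?_⟩
  obtain ⟨P, rfl⟩ := mcomp_exists_over S (L := L) M Q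
  exact (key P).2

end Fermat.Agent.PT.G3
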