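/-
Project PT — PT-G3 / normsub (helper56): the norm subgroup `NormSub S F M` of `C_S(F)`:
`galNorm` is additive, `[M : F] • c` is a norm, split primes are norms.
-/
import Fermat.Agent.PT.G3.Plan2
import Fermat.Agent.PT.G.DivInv

set_option autoImplicit false

namespace Fermat.Agent.PT.G3

open NumberField IsDedekindDomain
open Fermat.Agent.PT Fermat.Agent.PT.G Fermat.Agent.PT.G1

section Norm

variable (S : Finset Nat.Primes) (F M : Type) [Field F] [NumberField F] [Field M] [NumberField M]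
  [Algebra F M]

instance nsub_finite_relAut : Finite ↥(relAut F M) :=
  Finite.of_injective (fun σ : ↥(relAut F M) => (σ : M ≃ₐ[ℚ] M)) Subtype.val_injective

lemma nsub_galNorm_eq_sum [Fintype ↥(relAut F M)] (c : CS S M) :
    galNorm S F M c = ∑ σ : ↥(relAut F M), csEnd S (σ : M ≃ₐ[ℚ] M) c :=
  finsum_eq_sum_of_fintype _

lemma nsub_galNorm_add (c d : CS S M) :
    galNorm S F M (c + d) = galNorm S F M c + galNorm S F M d := by
  classical
  letI : Fintype ↥(relAut F M) := Fintype.ofFinite _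
  rw [nsub_galNorm_eq_sum, nsub_galNorm_eq_sum, nsub_galNorm_eq_sum, ← Finset.sum_add_distrib]
  exact Finset.sum_congr rfl fun σ _ => map_add _ _ _

lemma nsub_galNorm_neg (c : CS S M) : galNorm S F M (-c) = -galNorm S F M c := by
  classical
  letI : Fintype ↥(relAut F M) := Fintype.ofFinite _
  rw [nsub_galNorm_eq_sum, nsub_galNorm_eq_sum, ← Finset.sum_neg_distrib]
  exact Finset.sum_congr rfl fun σ _ => map_neg _ _

/-- The norm of an invariant class. -/
lemma nsub_galNorm_of_inv (c : CS S M) (hc : ∀ σ ∈ relAut F M, csEnd S σ c = c) :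
    galNorm S F M c = Nat.card ↥(relAut F M) • c := by
  classical
  letI : Fintype ↥(relAut F M) := Fintype.ofFinite _
  rw [nsub_galNorm_eq_sum, Finset.sum_congr rfl fun σ _ => hc σ.1 σ.2, Finset.sum_const,
    Finset.card_univ, Nat.card_eq_fintype_card]

/-- `Gal(M/F)` inside `Aut(M)` versus `M ≃ₐ[F] M`. -/
noncomputable def nsubEquiv : ↥(relAut F M) ≃ (M ≃ₐ[F] M) where
  toFun σ := { ((σ : M ≃ₐ[ℚ] M) : M ≃+* M) with commutes' := σ.2 }
  invFun τ := ⟨dinvAut τ, dinvAut_fixes τ⟩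
  left_inv σ := Subtype.ext (AlgEquiv.ext fun _ => rfl)
  right_inv τ := AlgEquiv.ext fun _ => rfl

@[simp] lemma nsubEquiv_symm_coe (τ : M ≃ₐ[F] M) :
    (((nsubEquiv F M).symm τ : ↥(relAut F M)) : M ≃ₐ[ℚ] M) = dinvAut τ := rfl

lemma nsub_card_relAut [IsGalois F M] : Nat.card ↥(relAut F M) = Module.finrank F M := by
  rw [Nat.card_congr (nsubEquiv F M), IsGalois.card_aut_eq_finrank]

end Norm

section Split

open scoped Pointwise

variable (S : Finset Nat.Primes) {F M : Type} [Field F] [NumberField F] [Field M] [NumberField M]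
  [Algebra F M] [IsGalois F M]

lemma nsub_two_le_absNorm (v : HeightOneSpectrum (𝓞 F)) : 2 ≤ Ideal.absNorm v.asIdeal := by
  have h0 : Ideal.absNorm v.asIdeal ≠ 0 := by
    rw [Ne, Ideal.absNorm_eq_zero_iff]
    exact v.ne_bot
  have h1 : Ideal.absNorm v.asIdeal ≠ 1 := by
    rw [Ne, Ideal.absNorm_eq_one_iff]
    exact v.isPrime.ne_top
  omega

/-- The decomposition group of an unramified prime of degree one is trivial. -/
lemma nsub_stabilizer_card (w : HeightOneSpectrum (𝓞 M)) (he : ramIdx F w = 1)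
    (hf : Ideal.absNorm w.asIdeal = Ideal.absNorm (primeUnder F w).asIdeal) :
    Nat.card (MulAction.stabilizer (M ≃ₐ[F] M) w.asIdeal) = 1 := by
  haveI : w.asIdeal.IsPrime := w.isPrime
  haveI : (primeUnder F w).asIdeal.IsPrime := (primeUnder F w).isPrime
  haveI : w.asIdeal.LiesOver (primeUnder F w).asIdeal := primeUnder_liesOver F w
  have h1 := Ideal.card_stabilizer_eq (G := M ≃ₐ[F] M) (primeUnder F w).asIdeal w.asIdeal
  have h2 : (primeUnder F w).asIdeal.ramificationIdxIn (𝓞 M) = w.asIdeal.ramificationIdx (𝓞 F) :=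
    Ideal.ramificationIdxIn_eq_ramificationIdx (primeUnder F w).asIdeal w.asIdeal (M ≃ₐ[F] M)
  have h3 : (primeUnder F w).asIdeal.ramificationIdx' w.asIdeal =
      w.asIdeal.ramificationIdx (𝓞 F) :=
    Ideal.ramificationIdx'_eq_ramificationIdx (primeUnder F w).asIdeal w.asIdeal
      (primeUnder F w).ne_bot
  have h4 : (primeUnder F w).asIdeal.inertiaDegIn (𝓞 M) = w.asIdeal.inertiaDeg (𝓞 F) :=
    Ideal.inertiaDegIn_eq_inertiaDeg (primeUnder F w).asIdeal w.asIdeal (M ≃ₐ[F] M)
  have h5 : (primeUnder F w).asIdeal.absNorm ^ w.asIdeal.inertiaDeg (𝓞 F) = w.asIdeal.absNorm :=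
    Ideal.absNorm_pow_inertiaDeg (primeUnder F w).asIdeal w.asIdeal
  have h6 : w.asIdeal.inertiaDeg (𝓞 F) = 1 := by
    rw [hf] at h5
    exact Nat.pow_right_injective (nsub_two_le_absNorm (primeUnder F w))
      (h5.trans (pow_one _).symm)
  have h7 : w.asIdeal.ramificationIdx (𝓞 F) = 1 := by
    rw [← h3]; exact he
  rw [h1, h2, h4, h6, h7]

/-- The orbit map of an unramified prime of degree one is injective. -/
lemma nsub_orbit_injective (w : HeightOneSpectrum (𝓞 M)) (he : ramIdx F w = 1)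
    (hf : Ideal.absNorm w.asIdeal = Ideal.absNorm (primeUnder F w).asIdeal)
    (σ τ : M ≃ₐ[F] M) (h : primeMap (dinvAut σ) w = primeMap (dinvAut τ) w) : σ = τ := by
  have h1 : σ • w.asIdeal = τ • w.asIdeal := by
    rw [← dinv_primeMap_asIdeal, ← dinv_primeMap_asIdeal, h]
  have h2 : (τ⁻¹ * σ) • w.asIdeal = w.asIdeal := by
    rw [mul_smul, h1, inv_smul_smul]
  have h3 : τ⁻¹ * σ ∈ MulAction.stabilizer (M ≃ₐ[F] M) w.asIdeal :=
    MulAction.mem_stabilizer_iff.2 h2
  have h4 : MulAction.stabilizer (M ≃ₐ[F] M) w.asIdeal = ⊥ :=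
    Subgroup.card_eq_one.1 (nsub_stabilizer_card w he hf)
  rw [h4, Subgroup.mem_bot] at h3
  exact (inv_mul_eq_one.1 h3).symm

lemma nsub_divEnd_single (σ : M ≃ₐ[ℚ] M) (w : OffS S M) :
    divEnd S σ (Finsupp.single w 1) = Finsupp.single (offEquiv S σ w) 1 := by
  simp [divEnd]

lemma nsub_offUnder_relAut (σ : ↥(relAut F M)) (w : OffS S M) :
    offUnder S F (offEquiv S (σ : M ≃ₐ[ℚ] M) w) = offUnder S F w := by
  have h : Restricts (σ : M ≃ₐ[ℚ] M) (1 : F ≃ₐ[ℚ] F) := fun x => σ.2 x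
  rw [offUnder_offEquiv S h, offEquiv_one]
  rfl

/-- **A split prime is the norm of a prime above it** (divisor form, any Galois extension). -/
lemma nsub_divMap_single [Fintype ↥(relAut F M)] (hun : UnramOffRel S F M) (v : OffS S F)
    (w : OffS S M) (hwv : offUnder S F w = v)
    (hf : Ideal.absNorm w.1.asIdeal = Ideal.absNorm v.1.asIdeal) :
    divMap S F M (Finsupp.single v 1) =
      ∑ σ : ↥(relAut F M), divEnd S (σ : M ≃ₐ[ℚ] M) (Finsupp.single w 1) := by
  classical
  have hf' : Ideal.absNorm w.1.asIdeal = Ideal.absNorm (primeUnder F w.1).asIdeal := by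
    rw [hf, ← hwv]; rfl
  ext P
  rw [divMap_apply, hun P, Nat.cast_one, one_mul, Finsupp.finsetSum_apply]
  simp only [nsub_divEnd_single, Finsupp.single_apply]
  by_cases hP : offUnder S F P = v
  · have h0 : primeUnder F w.1 = primeUnder F P.1 :=
      congrArg Subtype.val (hwv.trans hP.symm)
    obtain ⟨τ, hτ⟩ := dinv_exists_primeMap_eq (K := F) w.1 P.1 h0
    have key : ∀ σ : ↥(relAut F M),
        offEquiv S (σ : M ≃ₐ[ℚ] M) w = P ↔ σ = (nsubEquiv F M).symm τ := by
      intro σ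
      constructor
      · intro h
        have h1 : primeMap (dinvAut (nsubEquiv F M σ)) w.1 = primeMap (dinvAut τ) w.1 := by
          rw [hτ]
          exact congrArg Subtype.val h
        have h2 := nsub_orbit_injective w.1 (hun w) hf' _ _ h1
        rw [← h2, Equiv.symm_apply_apply]
      · rintro rfl
        exact Subtype.ext hτ
    rw [if_pos hP.symm]
    simp only [key]
    rw [Finset.sum_ite_eq' Finset.univ ((nsubEquiv F M).symm τ) (fun _ => (1 : ℤ)),
      if_pos (Finset.mem_univ _)]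
  · rw [if_neg (fun h => hP h.symm)]
    symm
    apply Finset.sum_eq_zero
    intro σ _
    rw [if_neg]
    intro h
    apply hP
    rw [← h, nsub_offUnder_relAut, hwv]

lemma nsub_csEnd_csOfDiv (σ : M ≃ₐ[ℚ] M) (d : DivS S M) :
    csEnd S σ (csOfDiv S M d) = csOfDiv S M (divEnd S σ d) := by
  rw [csOfDiv_apply, csEnd_mk, csOfDiv_apply]
  congr 1
  apply Prod.ext
  · exact map_zero (jlEnd S σ)
  · rfl

end Split

/-- **G3-normsub**, additivity of the norm. -/
theorem stmtGalNormAdd : StmtGalNormAdd := by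
  intro S F M _ _ _ _ _ c d
  exact ⟨nsub_galNorm_add S F M c d, nsub_galNorm_neg S F M c⟩

/-- **G3-normJ.** -/
theorem stmtNormSubJ : StmtNormSubJ := by
  intro S F M _ _ _ _ _ _ c
  refine ⟨csMap S F M c, ?_⟩
  rw [nsub_galNorm_of_inv S F M _ (fun σ hσ => csEnd_csMap_of_fixes S hσ c), nsub_card_relAut,
    map_nsmul]

/-- **G3-normsplit.** -/
theorem stmtNormSubSplit : StmtNormSubSplit := by
  classical
  intro S F M _ _ _ _ _ _ hun v hw
  obtain ⟨w, hw1, hw2⟩ := hw
  letI : Fintype ↥(relAut F M) := Fintype.ofFinite _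
  have hu : primeUnder F w = v.1 := HeightOneSpectrum.ext hw1
  have hN : ((sProd S : ℕ) : 𝓞 M) ∉ w.asIdeal := by
    intro h
    apply v.2
    rw [← hu]
    exact (natCast_mem_primeUnder_iff F M w _).2 h
  have hwv : offUnder S F (⟨w, hN⟩ : OffS S M) = v := Subtype.ext hu
  refine ⟨csOfDiv S M (Finsupp.single (⟨w, hN⟩ : OffS S M) 1), ?_⟩
  rw [csMap_csOfDiv, nsub_galNorm_eq_sum, nsub_divMap_single S hun v ⟨w, hN⟩ hwv hw2, map_sum]
  exact Finset.sum_congr rfl fun σ _ => (nsub_csEnd_csOfDiv S _ _).symm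

end Fermat.Agent.PT.G3
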