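import Mathlib

/-!
# Project PT, piece G3-S3: the local norm symbols on `ℚ_[q]ˣ` and the product formula

For primes `p`, `q` and `n : ℕ` we define `psiQ p n q : ℚ_[q]ˣ →* (ZMod (p^(n+1)))ˣ`:

* `q ≠ p` : `x ↦ q ^ ((p-1) * v_q(x))`  (the unramified symbol, `Frob_q ^ v_q(x)`);
* `q = p` : `x ↦ (x / p^(v_p x) mod p^(n+1)) ^ (-(p-1))`  (the cyclotomic symbol).

**Product formula** (`finprod_psiRat`): for `x : ℚˣ`, `∏ᶠ q, psiQ p n q x = 1` (`p` odd).
This is the reciprocity law of the cyclotomic `ℤ_p`-extension of `ℚ` in idelic form.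
-/

set_option autoImplicit false

namespace Fermat.Agent.PT.G3

section UnitPart

variable (p : ℕ) [hp : Fact p.Prime]

theorem norm_mul_zpow_neg_valuation {x : ℚ_[p]} (hx : x ≠ 0) :
    ‖x * (p : ℚ_[p]) ^ (-x.valuation)‖ = 1 := by
  have hp0 : (p : ℝ) ≠ 0 := by exact_mod_cast hp.out.ne_zero
  rw [norm_mul, Padic.norm_p_zpow, Padic.norm_eq_zpow_neg_valuation hx, neg_neg,
    ← zpow_add₀ hp0]
  simp

/-- The unit part `x ↦ x · p^(-v_p(x))`, as a homomorphism `ℚ_[p]ˣ →* ℤ_[p]ˣ`. -/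
noncomputable def padicUnitPart : ℚ_[p]ˣ →* ℤ_[p]ˣ where
  toFun x := PadicInt.mkUnits (norm_mul_zpow_neg_valuation p x.ne_zero)
  map_one' := by
    apply Units.ext
    apply Subtype.ext
    simp [PadicInt.val_mkUnits]
  map_mul' x y := by
    apply Units.ext
    apply Subtype.ext
    simp only [Units.val_mul, PadicInt.val_mkUnits]
    show (x : ℚ_[p]) * y * (p : ℚ_[p]) ^ (-((x : ℚ_[p]) * y).valuation) =
      ((x : ℚ_[p]) * (p : ℚ_[p]) ^ (-(x : ℚ_[p]).valuation)) *
        ((y : ℚ_[p]) * (p : ℚ_[p]) ^ (-(y : ℚ_[p]).valuation))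
    rw [Padic.valuation_mul x.ne_zero y.ne_zero, neg_add,
      zpow_add₀ (by exact_mod_cast hp.out.ne_zero : (p : ℚ_[p]) ≠ 0)]
    ring

theorem coe_padicUnitPart (x : ℚ_[p]ˣ) :
    (((padicUnitPart p x : ℤ_[p]ˣ) : ℤ_[p]) : ℚ_[p]) = (x : ℚ_[p]) * (p : ℚ_[p]) ^ (-(x : ℚ_[p]).valuation) :=
  rfl

end UnitPart

section Local

variable (p n : ℕ) [hp : Fact p.Prime]

/-- The symbol at `p`: `x ↦ (unit part of x mod p^(n+1)) ^ (-(p-1))`. -/
noncomputable def psiP : ℚ_[p]ˣ →* (ZMod (p ^ (n + 1)))ˣ :=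
  (((Units.map (PadicInt.toZModPow (n + 1) : ℤ_[p] →+* ZMod (p ^ (n + 1))).toMonoidHom).comp
    (padicUnitPart p)) ^ (p - 1))⁻¹

theorem psiP_apply (x : ℚ_[p]ˣ) :
    psiP p n x = ((Units.map (PadicInt.toZModPow (n + 1) : ℤ_[p] →+* ZMod (p ^ (n + 1))).toMonoidHom
      (padicUnitPart p x)) ^ (p - 1))⁻¹ := rfl

theorem coprime_pow_of_ne {q : ℕ} (hq : q.Prime) (h : q ≠ p) : q.Coprime (p ^ (n + 1)) :=
  Nat.Coprime.pow_right _ ((Nat.coprime_primes hq hp.out).mpr h)

/-- The symbol at `q ≠ p`: `x ↦ q ^ ((p-1) * v_q(x))`. -/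
noncomputable def psiAway (q : ℕ) [hq : Fact q.Prime] (h : q ≠ p) :
    ℚ_[q]ˣ →* (ZMod (p ^ (n + 1)))ˣ where
  toFun x := (ZMod.unitOfCoprime q (coprime_pow_of_ne p n hq.out h)) ^
    (((p - 1 : ℕ) : ℤ) * (x : ℚ_[q]).valuation)
  map_one' := by simp
  map_mul' x y := by
    rw [Units.val_mul, Padic.valuation_mul x.ne_zero y.ne_zero, mul_add, zpow_add]

/-- The local symbol `ψ_q : ℚ_[q]ˣ →* (ℤ/p^(n+1))ˣ`. -/
noncomputable def psiQ (q : ℕ) [hq : Fact q.Prime] : ℚ_[q]ˣ →* (ZMod (p ^ (n + 1)))ˣ :=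
  if h : q = p then h ▸ psiP p n else psiAway p n q h

theorem psiQ_self : psiQ p n p = psiP p n := by
  simp [psiQ]

theorem psiQ_of_ne (q : ℕ) [hq : Fact q.Prime] (h : q ≠ p) : psiQ p n q = psiAway p n q h := by
  simp [psiQ, h]

/-- The local symbol restricted to `ℚˣ` (trivial if `q` is not prime). -/
noncomputable def psiRat (q : ℕ) : ℚˣ →* (ZMod (p ^ (n + 1)))ˣ :=
  if hq : q.Prime then
    haveI : Fact q.Prime := ⟨hq⟩
    (psiQ p n q).comp (Units.map (Rat.castHom ℚ_[q]).toMonoidHom)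
  else 1

end Local

section Rational

variable (p n : ℕ) [hp : Fact p.Prime]

theorem psiRat_of_not_prime {q : ℕ} (hq : ¬ q.Prime) (x : ℚˣ) : psiRat p n q x = 1 := by
  simp [psiRat, hq]

theorem psiRat_of_ne {q : ℕ} (hq : q.Prime) (h : q ≠ p) (x : ℚˣ) :
    psiRat p n q x = (ZMod.unitOfCoprime q (coprime_pow_of_ne p n hq h)) ^
      (((p - 1 : ℕ) : ℤ) * padicValRat q (x : ℚ)) := by
  haveI : Fact q.Prime := ⟨hq⟩
  simp only [psiRat, hq, dif_pos, MonoidHom.comp_apply]
  rw [psiQ_of_ne p n q h]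
  simp only [psiAway, MonoidHom.coe_mk, OneHom.coe_mk, Units.coe_map, RingHom.toMonoidHom_eq_coe,
    MonoidHom.coe_coe, Rat.coe_castHom, Padic.valuation_ratCast]

theorem psiRat_of_ne_of_padicValRat_eq_zero {q : ℕ} (h : q ≠ p) (x : ℚˣ)
    (hx : padicValRat q (x : ℚ) = 0) : psiRat p n q x = 1 := by
  by_cases hq : q.Prime
  · rw [psiRat_of_ne p n hq h, hx, mul_zero, zpow_zero]
  · exact psiRat_of_not_prime p n hq x

theorem psiRat_self (x : ℚˣ) :
    psiRat p n p x = ((Units.map (PadicInt.toZModPow (n + 1) : ℤ_[p] →+* ZMod (p ^ (n + 1))).toMonoidHom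
      (padicUnitPart p (Units.map (Rat.castHom ℚ_[p]).toMonoidHom x))) ^ (p - 1))⁻¹ := by
  simp only [psiRat, hp.out, dif_pos, MonoidHom.comp_apply]
  rw [psiQ_self, psiP_apply]

/-- For an integer `a` prime to `p`, the symbol at `p` is `a ^ (-(p-1))`. -/
theorem coe_psiRat_self_inv_of_int (x : ℚˣ) (a : ℤ) (hxa : (x : ℚ) = a) (ha : ¬ (p : ℤ) ∣ a) :
    (((psiRat p n p x)⁻¹ : (ZMod (p ^ (n + 1)))ˣ) : ZMod (p ^ (n + 1))) =
      (a : ZMod (p ^ (n + 1))) ^ (p - 1) := by
  rw [psiRat_self, inv_inv, Units.val_pow_eq_pow_val]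
  congr 1
  have ha0 : a ≠ 0 := by rintro rfl; exact ha (dvd_zero _)
  have hval : ((a : ℚ_[p])).valuation = 0 := by
    rw [Padic.valuation_intCast]
    exact_mod_cast padicValInt.eq_zero_of_not_dvd ha
  have h1 : (padicUnitPart p (Units.map (Rat.castHom ℚ_[p]).toMonoidHom x) : ℤ_[p]) =
      (a : ℤ_[p]) := by
    apply Subtype.ext
    rw [coe_padicUnitPart]
    have : ((Units.map (Rat.castHom ℚ_[p]).toMonoidHom x : ℚ_[p]ˣ) : ℚ_[p]) = (a : ℚ_[p]) := by
      simp [hxa]
    rw [this, hval]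
    simp
  simp only [Units.coe_map, RingHom.toMonoidHom_eq_coe, MonoidHom.coe_coe]
  have h2 := congrArg (PadicInt.toZModPow (n + 1) : ℤ_[p] →+* ZMod (p ^ (n + 1))) h1
  rw [map_intCast] at h2
  exact h2

/-- The support of `q ↦ ψ_q(x)` is finite. -/
theorem finite_mulSupport_psiRat (x : ℚˣ) :
    (Function.mulSupport fun q : ℕ => psiRat p n q x).Finite := by
  have hsub : (Function.mulSupport fun q : ℕ => psiRat p n q x) ⊆
      insert p (((x : ℚ).num.natAbs.primeFactors ∪ (x : ℚ).den.primeFactors : Finset ℕ) : Set ℕ) := by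
    intro q hq
    rw [Function.mem_mulSupport] at hq
    by_cases hqp : q = p
    · left; exact hqp
    right
    by_cases hqprime : q.Prime
    · by_contra hmem
      apply hq
      apply psiRat_of_ne_of_padicValRat_eq_zero p n hqp x
      haveI : Fact q.Prime := ⟨hqprime⟩
      simp only [Finset.coe_union, Set.mem_union, Finset.mem_coe, Nat.mem_primeFactors,
        not_or, not_and, not_not] at hmem
      have hnum : (x : ℚ).num ≠ 0 := Rat.num_ne_zero.mpr x.ne_zero
      have h1 : ¬ q ∣ (x : ℚ).num.natAbs := fun hd =>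
        (Int.natAbs_ne_zero.mpr hnum) (hmem.1 hqprime hd)
      have h2 : ¬ q ∣ (x : ℚ).den := fun hd => (x : ℚ).den_ne_zero (hmem.2 hqprime hd)
      rw [padicValRat, padicValInt, padicValNat.eq_zero_of_not_dvd h1,
        padicValNat.eq_zero_of_not_dvd h2]
      simp
    · exact absurd (psiRat_of_not_prime p n hqprime x) hq
  exact Set.Finite.subset (Set.Finite.insert _ (Finset.finite_toSet _)) hsub

/-- The total symbol `x ↦ ∏_q ψ_q(x)` on `ℚˣ`. -/
noncomputable def psiTot : ℚˣ →* (ZMod (p ^ (n + 1)))ˣ where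
  toFun x := ∏ᶠ q : ℕ, psiRat p n q x
  map_one' := by simp
  map_mul' x y := by
    simp_rw [map_mul]
    exact finprod_mul_distrib (finite_mulSupport_psiRat p n x) (finite_mulSupport_psiRat p n y)

theorem psiTot_apply (x : ℚˣ) : psiTot p n x = ∏ᶠ q : ℕ, psiRat p n q x := rfl

/-- `ψ_p(p) = 1`. -/
theorem psiRat_self_prime (x : ℚˣ) (hx : (x : ℚ) = p) : psiRat p n p x = 1 := by
  rw [psiRat_self]
  have h1 : padicUnitPart p (Units.map (Rat.castHom ℚ_[p]).toMonoidHom x) = 1 := by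
    apply Units.ext
    apply Subtype.ext
    rw [coe_padicUnitPart]
    have : ((Units.map (Rat.castHom ℚ_[p]).toMonoidHom x : ℚ_[p]ˣ) : ℚ_[p]) = (p : ℚ_[p]) := by
      simp [hx]
    rw [this, Padic.valuation_p]
    have hp0 : (p : ℚ_[p]) ≠ 0 := by exact_mod_cast hp.out.ne_zero
    simp [hp0]
  rw [h1]; simp

/-- The product formula at a prime `ℓ`. -/
theorem psiTot_prime (hodd : Odd p) (ℓ : ℕ) (hℓ : ℓ.Prime) (x : ℚˣ) (hx : (x : ℚ) = ℓ) :
    psiTot p n x = 1 := by
  rw [psiTot_apply]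
  by_cases hℓp : ℓ = p
  · subst hℓp
    have hsupp : ∀ q : ℕ, q ≠ ℓ → psiRat ℓ n q x = 1 := by
      intro q hq
      apply psiRat_of_ne_of_padicValRat_eq_zero ℓ n hq x
      by_cases hqprime : q.Prime
      · haveI : Fact q.Prime := ⟨hqprime⟩
        rw [hx]
        have : padicValRat q (ℓ : ℚ) = padicValNat q ℓ := by exact_mod_cast padicValRat.of_nat
        rw [this]
        have hnd : ¬ q ∣ ℓ := fun hd => hq ((Nat.prime_dvd_prime_iff_eq hqprime hℓ).mp hd)
        exact_mod_cast padicValNat.eq_zero_of_not_dvd hnd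
      · rw [hx]
        have : padicValRat q (ℓ : ℚ) = padicValNat q ℓ := by exact_mod_cast padicValRat.of_nat
        rw [this]
        have h0 : padicValNat q ℓ = 0 := by
          rcases Nat.lt_or_ge 1 q with h1 | h1
          · apply padicValNat.eq_zero_of_not_dvd
            intro hd
            rcases (Nat.dvd_prime hℓ).mp hd with h2 | h2
            · omega
            · exact hqprime (h2 ▸ hℓ)
          · interval_cases q <;> simp
        exact_mod_cast h0
    rw [finprod_eq_single _ ℓ hsupp]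
    exact psiRat_self_prime ℓ n x hx
  · -- two factors: at `ℓ` and at `p`
    have hsupp : ∀ q : ℕ, q ∉ ({ℓ, p} : Finset ℕ) → psiRat p n q x = 1 := by
      intro q hq
      simp only [Finset.mem_insert, Finset.mem_singleton, not_or] at hq
      apply psiRat_of_ne_of_padicValRat_eq_zero p n hq.2 x
      rw [hx]
      have : padicValRat q (ℓ : ℚ) = padicValNat q ℓ := by exact_mod_cast padicValRat.of_nat
      rw [this]
      have h0 : padicValNat q ℓ = 0 := by
        rcases Nat.lt_or_ge 1 q with h1 | h1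
        · apply padicValNat.eq_zero_of_not_dvd
          intro hd
          rcases (Nat.dvd_prime hℓ).mp hd with h2 | h2
          · omega
          · exact hq.1 h2
        · interval_cases q <;> simp
      exact_mod_cast h0
    rw [finprod_eq_prod_of_mulSupport_subset (s := ({ℓ, p} : Finset ℕ))]
    · rw [Finset.prod_pair hℓp]
      -- `ψ_ℓ(ℓ) = ℓ^(p-1)`, `ψ_p(ℓ) = ℓ^(-(p-1))`
      have h1 : psiRat p n ℓ x = (ZMod.unitOfCoprime ℓ (coprime_pow_of_ne p n hℓ hℓp)) ^ (p - 1) := by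
        rw [psiRat_of_ne p n hℓ hℓp, hx]
        haveI : Fact ℓ.Prime := ⟨hℓ⟩
        have : padicValRat ℓ (ℓ : ℚ) = 1 := by
          have := padicValRat.self (p := ℓ) hℓ.one_lt
          exact_mod_cast this
        rw [this, mul_one, zpow_natCast]
      have h2 : (psiRat p n p x)⁻¹ =
          (ZMod.unitOfCoprime ℓ (coprime_pow_of_ne p n hℓ hℓp)) ^ (p - 1) := by
        apply Units.ext
        have hnd : ¬ (p : ℤ) ∣ (ℓ : ℤ) := by
          intro hd
          have : p ∣ ℓ := by exact_mod_cast hd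
          exact hℓp ((Nat.prime_dvd_prime_iff_eq hp.out hℓ).mp this).symm
        rw [coe_psiRat_self_inv_of_int p n x (ℓ : ℤ) (by rw [hx]; simp) hnd]
        simp
      rw [h1, ← h2, inv_mul_cancel]
    · intro q hq
      rw [Function.mem_mulSupport] at hq
      by_contra hmem
      exact hq (hsupp q hmem)

/-- The product formula at `-1`. -/
theorem psiTot_neg_one (hodd : Odd p) : psiTot p n (-1) = 1 := by
  rw [psiTot_apply]
  have hsupp : ∀ q : ℕ, q ≠ p → psiRat p n q (-1) = 1 := by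
    intro q hq
    apply psiRat_of_ne_of_padicValRat_eq_zero p n hq
    simp
  rw [finprod_eq_single _ p hsupp]
  have hnd : ¬ (p : ℤ) ∣ (-1 : ℤ) := by
    intro hd
    have : (p : ℤ) ∣ 1 := (dvd_neg).mp hd
    have : p ∣ 1 := by exact_mod_cast this
    exact hp.out.one_lt.ne' (Nat.dvd_one.mp this)
  have h := coe_psiRat_self_inv_of_int p n (-1 : ℚˣ) (-1 : ℤ) (by simp) hnd
  obtain ⟨k, hk⟩ := hodd
  have hp1 : p - 1 = 2 * k := by omega
  rw [hp1, pow_mul] at h
  simp only [Int.cast_neg, Int.cast_one, even_two, Even.neg_pow, one_pow] at h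
  have h2 : (psiRat p n p (-1))⁻¹ = 1 := Units.ext (by rw [h]; simp)
  exact inv_eq_one.mp h2

/-- The product formula on positive integers. -/
theorem psiTot_natCast (hodd : Odd p) (m : ℕ) : ∀ (x : ℚˣ), (x : ℚ) = m → psiTot p n x = 1 := by
  induction m using Nat.recOnMul with
  | zero => intro x hx; exact absurd hx (by simp)
  | one =>
    intro x hx
    have : x = 1 := Units.ext (by simpa using hx)
    rw [this, map_one]
  | prime ℓ hℓ => intro x hx; exact psiTot_prime p n hodd ℓ hℓ x hx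
  | mul a b iha ihb =>
    intro x hx
    have hab : ((a : ℚ) * b) ≠ 0 := by
      rw [← Nat.cast_mul, ← hx]; exact x.ne_zero
    have ha : (a : ℚ) ≠ 0 := left_ne_zero_of_mul hab
    have hb : (b : ℚ) ≠ 0 := right_ne_zero_of_mul hab
    have hxab : x = Units.mk0 (a : ℚ) ha * Units.mk0 (b : ℚ) hb := by
      apply Units.ext
      rw [hx]; simp
    rw [hxab, map_mul, iha _ rfl, ihb _ rfl, one_mul]

/-- **Product formula** (reciprocity law for the cyclotomic `ℤ_p`-extension of `ℚ`):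
`∏_q ψ_q(x) = 1` for every `x ∈ ℚˣ`. -/
theorem psiTot_eq_one (hodd : Odd p) (x : ℚˣ) : psiTot p n x = 1 := by
  have hnum : ((x : ℚ).num : ℚ) ≠ 0 := by exact_mod_cast Rat.num_ne_zero.mpr x.ne_zero
  have hden : (((x : ℚ).den : ℕ) : ℚ) ≠ 0 := by exact_mod_cast (x : ℚ).den_ne_zero
  have habs : (((x : ℚ).num.natAbs : ℕ) : ℚ) ≠ 0 := by
    exact_mod_cast Int.natAbs_ne_zero.mpr (Rat.num_ne_zero.mpr x.ne_zero)
  have hx : x = Units.mk0 _ hnum * (Units.mk0 _ hden)⁻¹ := by
    apply Units.ext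
    simp only [Units.val_mul, Units.val_mk0, Units.val_inv_eq_inv_val]
    rw [← div_eq_mul_inv, Rat.num_div_den]
  have h1 : psiTot p n (Units.mk0 _ hden) = 1 := psiTot_natCast p n hodd _ _ rfl
  have h2 : psiTot p n (Units.mk0 _ habs) = 1 := psiTot_natCast p n hodd _ _ rfl
  have h3 : psiTot p n (Units.mk0 _ hnum) = 1 := by
    rcases Int.natAbs_eq (x : ℚ).num with h | h
    · have : Units.mk0 _ hnum = Units.mk0 _ habs := by
        apply Units.ext
        simp only [Units.val_mk0]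
        conv_lhs => rw [h]
        simp
      rw [this, h2]
    · have : Units.mk0 _ hnum = -1 * Units.mk0 _ habs := by
        apply Units.ext
        simp only [Units.val_mk0, Units.val_mul, Units.val_neg, Units.val_one]
        conv_lhs => rw [h]
        simp
      rw [this, map_mul, psiTot_neg_one p n hodd, h2, one_mul]
  rw [hx, map_mul, map_inv, h1, h3, inv_one, one_mul]

/-- Product formula in finprod form. -/
theorem finprod_psiRat (hodd : Odd p) (x : ℚˣ) : ∏ᶠ q : ℕ, psiRat p n q x = 1 :=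
  psiTot_eq_one p n hodd x

end Rational

section LocalField

variable (p n q : ℕ) [hp : Fact p.Prime] [hq : Fact q.Prime]

/-- The symbol of a local field `F/ℚ_q`: `ψ_F = ψ_q ∘ N_{F/ℚ_q}`. -/
noncomputable def psiF (F : Type*) [Field F] [Algebra ℚ_[q] F] : Fˣ →* (ZMod (p ^ (n + 1)))ˣ :=
  (psiQ p n q).comp (Units.map (Algebra.norm ℚ_[q] : F →* ℚ_[q]))

theorem psiF_apply (F : Type*) [Field F] [Algebra ℚ_[q] F] (x : Fˣ) :
    psiF p n q F x = psiQ p n q (Units.map (Algebra.norm ℚ_[q] : F →* ℚ_[q]) x) := rfl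

/-- `ψ_F(N_{F'/F} y) = ψ_{F'}(y)`. -/
theorem psiF_norm (F F' : Type*) [Field F] [Field F'] [Algebra ℚ_[q] F] [Algebra ℚ_[q] F']
    [Algebra F F'] [IsScalarTower ℚ_[q] F F'] [FiniteDimensional ℚ_[q] F]
    [FiniteDimensional F F'] (y : F'ˣ) :
    psiF p n q F (Units.map (Algebra.norm F : F' →* F) y) = psiF p n q F' y := by
  rw [psiF_apply, psiF_apply]
  congr 1
  apply Units.ext
  simp only [Units.coe_map]
  exact Algebra.norm_norm (R := ℚ_[q]) (S := F) (A := F') (a := (y : F'))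

/-- `ψ_{F'}(x) = ψ_F(x)^[F':F]` for `x ∈ F`. -/
theorem psiF_algebraMap (F F' : Type*) [Field F] [Field F'] [Algebra ℚ_[q] F] [Algebra ℚ_[q] F']
    [Algebra F F'] [IsScalarTower ℚ_[q] F F'] [FiniteDimensional ℚ_[q] F]
    [FiniteDimensional F F'] (x : Fˣ) :
    psiF p n q F' (Units.map (algebraMap F F').toMonoidHom x) =
      psiF p n q F x ^ Module.finrank F F' := by
  rw [← psiF_norm p n q F F', ← map_pow]
  congr 1
  apply Units.ext
  simp only [Units.coe_map, MonoidHom.coe_coe, RingHom.toMonoidHom_eq_coe, Units.val_pow_eq_pow_val]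
  exact Algebra.norm_algebraMap (x : F)

end LocalField

end Fermat.Agent.PT.G3
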