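import Fermat.Agent.PT.G1.Plan2
import Fermat.Agent.PT.G3.LocalSymbol

/-!
# Project PT, piece G3-S4: the idelic norm symbol on `J_L = ∏_{q ∈ S} (ℚ_q ⊗ L)ˣ`

In the tensor model of `PT/G1/Plan2.lean`:

* `psiSemi p n q L : (ℚ_[q] ⊗[ℚ] L)ˣ →* (ZMod (p^(n+1)))ˣ`, `x ↦ ψ_q (N_{(ℚ_q ⊗ L)/ℚ_q} x)`;
* `psiJ p n S L : J_L →* (ZMod (p^(n+1)))ˣ`, the product over `q ∈ S`;
* `psiSemi_includeRight` : on the diagonal, `ψ(1 ⊗ a) = ψ_q (N_{L/ℚ} a)`;
* `psiSemi_semiMap`, `psiJ_jlHom` : invariance under `Aut(L)`;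
* `psiJ_jlDiag` : `ψ_J(a) = ∏_{q ∈ S} ψ_q(N_{L/ℚ} a)`.
-/

set_option autoImplicit false

namespace Fermat.Agent.PT.G3

open NumberField TensorProduct Fermat.Agent.PT.G1

/-- Base change of the norm: `N_{(A ⊗ B)/A} (1 ⊗ b) = N_{B/R} b`. -/
theorem norm_one_tmul {R A B : Type*} [CommRing R] [CommRing A] [CommRing B] [Algebra R A]
    [Algebra R B] [Module.Free R B] [Module.Finite R B] (b : B) :
    Algebra.norm A ((1 : A) ⊗ₜ[R] b) = algebraMap R A (Algebra.norm R b) := by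
  rw [Algebra.norm_apply, Algebra.norm_apply, ← LinearMap.det_baseChange]
  congr 1
  exact (Algebra.baseChange_lmul (A := A) b).symm

section Semi

variable (p n q : ℕ) [hp : Fact p.Prime] [hq : Fact q.Prime]
variable (L : Type) [Field L] [NumberField L]

/-- The semilocal symbol at `q`: `x ↦ ψ_q (N x)` on `(ℚ_q ⊗ L)ˣ`. -/
noncomputable def psiSemi : (semiAlg q L)ˣ →* (ZMod (p ^ (n + 1)))ˣ :=
  (psiQ p n q).comp (Units.map (Algebra.norm ℚ_[q] : semiAlg q L →* ℚ_[q]))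

theorem psiSemi_apply (x : (semiAlg q L)ˣ) :
    psiSemi p n q L x = psiQ p n q (Units.map (Algebra.norm ℚ_[q] : semiAlg q L →* ℚ_[q]) x) :=
  rfl

/-- On the diagonal: `ψ(1 ⊗ a) = ψ_q(N_{L/ℚ} a)`. -/
theorem psiSemi_includeRight (a : Lˣ) :
    psiSemi p n q L (Units.map (Algebra.TensorProduct.includeRight :
      L →ₐ[ℚ] semiAlg q L).toMonoidHom a) =
      psiRat p n q (Units.map (Algebra.norm ℚ : L →* ℚ) a) := by
  have hq' : q.Prime := hq.out
  simp only [psiRat, hq', dif_pos, MonoidHom.comp_apply, psiSemi_apply]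
  congr 1
  apply Units.ext
  simp only [Units.coe_map, MonoidHom.coe_coe, RingHom.toMonoidHom_eq_coe, Rat.coe_castHom]
  have h2 := norm_one_tmul (R := ℚ) (A := ℚ_[q]) (B := L) (a : L)
  refine Eq.trans ?_ (h2.trans ?_)
  · rfl
  · simp

/-- The automorphism of `ℚ_q ⊗ L` induced by `σ ∈ Aut(L)`. -/
noncomputable def semiEquiv {L : Type} [Field L] [NumberField L] (σ : L ≃ₐ[ℚ] L) :
    semiAlg q L ≃ₐ[ℚ_[q]] semiAlg q L :=
  Algebra.TensorProduct.congr (AlgEquiv.refl (R := ℚ_[q]) (A₁ := ℚ_[q])) σ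

theorem semiEquiv_apply {L : Type} [Field L] [NumberField L] (σ : L ≃ₐ[ℚ] L) (x : semiAlg q L) :
    semiEquiv q σ x = semiMap q σ x := by
  induction x using TensorProduct.induction_on with
  | zero => simp
  | tmul a b => simp [semiEquiv, semiMap]
  | add x y hx hy => simp [hx, hy]

/-- The semilocal symbol is invariant under `Aut(L)`. -/
theorem psiSemi_semiMap {L : Type} [Field L] [NumberField L] (σ : L ≃ₐ[ℚ] L)
    (x : (semiAlg q L)ˣ) :
    psiSemi p n q L (Units.map (semiMap q σ : semiAlg q L →* semiAlg q L) x) =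
      psiSemi p n q L x := by
  rw [psiSemi_apply, psiSemi_apply]
  congr 1
  apply Units.ext
  simp only [Units.coe_map, MonoidHom.coe_coe]
  rw [← semiEquiv_apply]
  exact Algebra.norm_eq_of_algEquiv (semiEquiv q σ) (x : semiAlg q L)

end Semi

section JL

variable (p n : ℕ) [hp : Fact p.Prime] (S : Finset Nat.Primes)
variable (L : Type) [Field L] [NumberField L]

/-- The idelic symbol `ψ_J : J_L = ∏_{q ∈ S} (ℚ_q ⊗ L)ˣ →* (ℤ/p^(n+1))ˣ`. -/
noncomputable def psiJ : JL S L →* (ZMod (p ^ (n + 1)))ˣ :=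
  ∏ q : ↥S, (psiSemi p n ((q : Nat.Primes) : ℕ) L).comp (Pi.evalMonoidHom _ q)

theorem psiJ_apply (x : JL S L) :
    psiJ p n S L x = ∏ q : ↥S, psiSemi p n ((q : Nat.Primes) : ℕ) L (x q) := by
  simp [psiJ]

/-- `ψ_J` on the diagonal: `ψ_J(a) = ∏_{q ∈ S} ψ_q(N_{L/ℚ} a)`. -/
theorem psiJ_jlDiag (a : Lˣ) :
    psiJ p n S L (jlDiag S L a) =
      ∏ q : ↥S, psiRat p n ((q : Nat.Primes) : ℕ) (Units.map (Algebra.norm ℚ : L →* ℚ) a) := by
  rw [psiJ_apply]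
  refine Finset.prod_congr rfl fun q _ => ?_
  exact psiSemi_includeRight p n ((q : Nat.Primes) : ℕ) L a

/-- `ψ_J` is invariant under `Aut(L)`. -/
theorem psiJ_jlHom {L : Type} [Field L] [NumberField L] (σ : L ≃ₐ[ℚ] L) (x : JL S L) :
    psiJ p n S L (jlHom S σ x) = psiJ p n S L x := by
  rw [psiJ_apply, psiJ_apply]
  refine Finset.prod_congr rfl fun q _ => ?_
  exact psiSemi_semiMap p n ((q : Nat.Primes) : ℕ) σ (x q)

/-- The part of the product formula outside `S`: for `a ∈ Lˣ`,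
`ψ_J(a) · ∏_{ℓ ∉ S} ψ_ℓ(N_{L/ℚ} a) = 1`. -/
theorem psiJ_jlDiag_mul_finprod (hodd : Odd p) (a : Lˣ) :
    psiJ p n S L (jlDiag S L a) *
      ∏ᶠ (ℓ : ℕ) (_ : ∀ q : ↥S, ((q : Nat.Primes) : ℕ) ≠ ℓ),
        psiRat p n ℓ (Units.map (Algebra.norm ℚ : L →* ℚ) a) = 1 := by
  classical
  set A : ℚˣ := Units.map (Algebra.norm ℚ : L →* ℚ) a with hA
  have htot := finprod_psiRat p n hodd A
  have hfin := finite_mulSupport_psiRat p n A
  -- split the total product into the part in `S` and the part outside `S`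
  let T : Set ℕ := {ℓ | ∃ q : ↥S, ((q : Nat.Primes) : ℕ) = ℓ}
  have hsplit := finprod_mem_mul_sdiff' (s := T) (t := Set.univ) (f := fun ℓ => psiRat p n ℓ A)
    (Set.subset_univ _) (hfin.subset Set.inter_subset_right)
  rw [finprod_mem_univ, htot, ← Set.compl_eq_univ_sdiff] at hsplit
  rw [psiJ_jlDiag]
  have h1 : ∏ q : ↥S, psiRat p n ((q : Nat.Primes) : ℕ) A = ∏ᶠ ℓ ∈ T, psiRat p n ℓ A := by
    have hinj : Function.Injective (fun q : ↥S => ((q : Nat.Primes) : ℕ)) := by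
      intro q₁ q₂ h
      exact Subtype.ext (Subtype.ext h)
    have hT : T = Set.range (fun q : ↥S => ((q : Nat.Primes) : ℕ)) := by
      ext ℓ; simp [T]
    rw [hT, finprod_mem_range hinj, finprod_eq_prod_of_fintype]
  have h2 : (∏ᶠ (ℓ : ℕ) (_ : ∀ q : ↥S, ((q : Nat.Primes) : ℕ) ≠ ℓ), psiRat p n ℓ A) =
      ∏ᶠ ℓ ∈ Tᶜ, psiRat p n ℓ A := by
    apply finprod_congr
    intro ℓ
    have : (∀ q : ↥S, ((q : Nat.Primes) : ℕ) ≠ ℓ) ↔ ℓ ∈ Tᶜ := by
      simp [T]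
    simp only [this]
  rw [h1, h2, hsplit]

end JL

end Fermat.Agent.PT.G3
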