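import Fermat.Agent.PT.G.Defs
import Fermat.Agent.PT.G3.Symbol
import Fermat.Agent.PT.G3.IdeleSymbol

/-!
# Project PT, piece G3-psi: the norm symbol on the `S`-idèle class module `C_S(L)`

`psiC p n S L : CS S L →+ Additive (ZMod (p^(n+1)))ˣ`, for `p ∈ S`, `p` odd:
the class of `(x, d) ∈ J_L × Div_S(L)` goes to `ψ_J(x) · ∏_P ψ(P)^(d P)`, where `ψ(P) = N(P)^(p-1)`
is the ideal norm symbol of `Symbol.lean`.  It is well defined on `C_S(L) = (J_L × Div_S)/Lˣ` by the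
product formula (`psiJ_jlDiag_mul_psiDiv`), and invariant under `Aut(L)`.
-/

set_option autoImplicit false

namespace Fermat.Agent.PT.G3

open NumberField IsDedekindDomain Fermat.Agent.PT.G1 Fermat.Agent.PT.X Fermat.Agent.PT.G
open scoped nonZeroDivisors

section Sigma

variable (p n : ℕ) [hp : Fact p.Prime] (S : Finset Nat.Primes)

/-- `σ_S = ∏_{q ∈ S} ψ_q` on `ℚˣ`. -/
noncomputable def sigmaS : ℚˣ →* (ZMod (p ^ (n + 1)))ˣ :=
  ∏ q : ↥S, psiRat p n ((q : Nat.Primes) : ℕ)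

theorem sigmaS_apply (x : ℚˣ) :
    sigmaS p n S x = ∏ q : ↥S, psiRat p n ((q : Nat.Primes) : ℕ) x := by
  simp [sigmaS]

/-- Product formula, split at `S`. -/
theorem sigmaS_mul_finprod_off (hodd : Odd p) (A : ℚˣ) :
    sigmaS p n S A *
      ∏ᶠ (ℓ : ℕ) (_ : ∀ q : ↥S, ((q : Nat.Primes) : ℕ) ≠ ℓ), psiRat p n ℓ A = 1 := by
  classical
  have htot := finprod_psiRat p n hodd A
  have hfin := finite_mulSupport_psiRat p n A
  let T : Set ℕ := {ℓ | ∃ q : ↥S, ((q : Nat.Primes) : ℕ) = ℓ}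
  have hsplit := finprod_mem_mul_sdiff' (s := T) (t := Set.univ) (f := fun ℓ => psiRat p n ℓ A)
    (Set.subset_univ _) (hfin.subset Set.inter_subset_right)
  rw [finprod_mem_univ, htot, ← Set.compl_eq_univ_sdiff] at hsplit
  rw [sigmaS_apply]
  have h1 : ∏ q : ↥S, psiRat p n ((q : Nat.Primes) : ℕ) A = ∏ᶠ ℓ ∈ T, psiRat p n ℓ A := by
    have hinj : Function.Injective (fun q : ↥S => ((q : Nat.Primes) : ℕ)) := by
      intro q₁ q₂ h
      exact Subtype.ext (Subtype.ext h)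
    have hT : T = Set.range (fun q : ↥S => ((q : Nat.Primes) : ℕ)) := by
      ext ℓ; simp [T]
    rw [hT, finprod_mem_range hinj, finprod_eq_prod_of_fintype]
  have h2 : (∏ᶠ (ℓ : ℕ) (_ : ∀ q : ↥S, ((q : Nat.Primes) : ℕ) ≠ ℓ), psiRat p n ℓ A) =
      ∏ᶠ ℓ ∈ Tᶜ, psiRat p n ℓ A := by
    apply finprod_congr
    intro ℓ
    have : (∀ q : ↥S, ((q : Nat.Primes) : ℕ) ≠ ℓ) ↔ ℓ ∈ Tᶜ := by
      simp [T]
    simp only [this]
  rw [h1, h2, hsplit]

/-- `σ_S` of an `S`-smooth positive integer is trivial. -/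
theorem sigmaS_eq_one_of_smooth (hodd : Odd p) (hpS : (⟨p, hp.out⟩ : Nat.Primes) ∈ S)
    (x : ℚˣ) (m : ℕ) (hx : (x : ℚ) = m)
    (hm : ∀ ℓ : ℕ, ℓ.Prime → ℓ ∣ m → ∃ q : ↥S, ((q : Nat.Primes) : ℕ) = ℓ) :
    sigmaS p n S x = 1 := by
  have h := sigmaS_mul_finprod_off p n S hodd x
  have hoff : ∏ᶠ (ℓ : ℕ) (_ : ∀ q : ↥S, ((q : Nat.Primes) : ℕ) ≠ ℓ), psiRat p n ℓ x = 1 := by
    apply finprod_eq_one_of_forall_eq_one
    intro ℓ
    rw [finprod_eq_if]
    split_ifs with hℓ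
    · by_cases hprime : ℓ.Prime
      · have hℓp : ℓ ≠ p := fun h => hℓ ⟨⟨p, hp.out⟩, hpS⟩ h.symm
        apply psiRat_of_ne_of_padicValRat_eq_zero p n hℓp
        rw [hx]
        have : padicValRat ℓ (m : ℚ) = padicValNat ℓ m := by exact_mod_cast padicValRat.of_nat
        rw [this]
        have hnd : ¬ ℓ ∣ m := fun hd => by
          obtain ⟨q, hq⟩ := hm ℓ hprime hd
          exact hℓ q hq
        exact_mod_cast padicValNat.eq_zero_of_not_dvd hnd
      · exact psiRat_of_not_prime p n hprime x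
    · rfl
  rw [hoff, mul_one] at h
  exact h

/-- `σ_S(-1) = 1`. -/
theorem sigmaS_neg_one (hodd : Odd p) : sigmaS p n S (-1) = 1 := by
  rw [sigmaS_apply]
  apply Finset.prod_eq_one
  intro q _
  by_cases hq : ((q : Nat.Primes) : ℕ) = p
  · rw [hq]
    have hnd : ¬ (p : ℤ) ∣ (-1 : ℤ) := by
      intro h
      have h1 : (p : ℤ) ∣ 1 := (dvd_neg).mp h
      have h2 : p ∣ 1 := by exact_mod_cast h1
      exact hp.out.one_lt.ne' (Nat.dvd_one.mp h2)
    have h := coe_psiRat_self_inv_of_int p n (-1 : ℚˣ) (-1 : ℤ) (by simp) hnd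
    have heven : Even (p - 1) := by
      obtain ⟨k, hk⟩ := hodd
      exact ⟨k, by omega⟩
    have h1 : (((-1 : ℤ) : ZMod (p ^ (n + 1)))) ^ (p - 1) = 1 := by
      push_cast
      exact heven.neg_one_pow
    rw [h1] at h
    have h2 : (psiRat p n p (-1))⁻¹ = 1 := Units.ext h
    exact inv_eq_one.mp h2
  · apply psiRat_of_ne_of_padicValRat_eq_zero p n hq
    simp

/-- For a positive integer `m` prime to all `q ∈ S`: `σ_S(m)⁻¹ = m^(p-1)`. -/
theorem coe_sigmaS_inv_of_coprime (hpS : (⟨p, hp.out⟩ : Nat.Primes) ∈ S)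
    (x : ℚˣ) (m : ℕ) (hx : (x : ℚ) = m) (hm : m.Coprime (sProd S)) :
    (((sigmaS p n S x)⁻¹ : (ZMod (p ^ (n + 1)))ˣ) : ZMod (p ^ (n + 1))) =
      (m : ZMod (p ^ (n + 1))) ^ (p - 1) := by
  classical
  have hdvd : ∀ q : ↥S, ((q : Nat.Primes) : ℕ) ∣ sProd S := fun q =>
    Finset.dvd_prod_of_mem (fun q : Nat.Primes => (q : ℕ)) q.2
  have hnd : ∀ q : ↥S, ¬ ((q : Nat.Primes) : ℕ) ∣ m := by
    intro q hq
    have h1 : ((q : Nat.Primes) : ℕ) ∣ Nat.gcd m (sProd S) := Nat.dvd_gcd hq (hdvd q)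
    rw [hm] at h1
    exact (q : Nat.Primes).2.one_lt.ne' (Nat.dvd_one.mp h1)
  have hsingle : sigmaS p n S x = psiRat p n p x := by
    rw [sigmaS_apply]
    rw [Finset.prod_eq_single (⟨⟨p, hp.out⟩, hpS⟩ : ↥S)]
    · intro q _ hq
      have hqp : ((q : Nat.Primes) : ℕ) ≠ p := by
        intro h
        apply hq
        exact Subtype.ext (Subtype.ext h)
      apply psiRat_of_ne_of_padicValRat_eq_zero p n hqp
      rw [hx]
      have : padicValRat ((q : Nat.Primes) : ℕ) (m : ℚ) = padicValNat ((q : Nat.Primes) : ℕ) m := by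
        exact_mod_cast padicValRat.of_nat
      rw [this]
      exact_mod_cast padicValNat.eq_zero_of_not_dvd (hnd q)
    · intro h
      exact absurd (Finset.mem_univ _) h
  rw [hsingle]
  have hpm : ¬ (p : ℤ) ∣ (m : ℤ) := by
    intro h
    have : p ∣ m := by exact_mod_cast h
    exact hnd ⟨⟨p, hp.out⟩, hpS⟩ this
  have h := coe_psiRat_self_inv_of_int p n x (m : ℤ) (by rw [hx]; simp) hpm
  rw [h]
  push_cast
  rfl

end Sigma

section Ideals

variable (p n : ℕ) [hp : Fact p.Prime] (S : Finset Nat.Primes)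
variable (L : Type) [Field L] [NumberField L]

/-- A prime of `𝓞 L`, as a unit of the monoid of fractional ideals. -/
noncomputable def primeUnit (v : HeightOneSpectrum (𝓞 L)) : (FractionalIdeal (𝓞 L)⁰ L)ˣ :=
  Units.mk0 (v.asIdeal : FractionalIdeal (𝓞 L)⁰ L) (FractionalIdeal.coeIdeal_ne_zero.mpr v.ne_bot)

@[simp] theorem coe_primeUnit (v : HeightOneSpectrum (𝓞 L)) :
    ((primeUnit L v : (FractionalIdeal (𝓞 L)⁰ L)ˣ) : FractionalIdeal (𝓞 L)⁰ L) =
      (v.asIdeal : FractionalIdeal (𝓞 L)⁰ L) := rfl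

/-- The absolute norm, on the group of invertible fractional ideals. -/
noncomputable def absNormUnits : (FractionalIdeal (𝓞 L)⁰ L)ˣ →* ℚˣ :=
  Units.map (FractionalIdeal.absNorm (R := 𝓞 L) (K := L)).toMonoidHom

@[simp] theorem coe_absNormUnits (I : (FractionalIdeal (𝓞 L)⁰ L)ˣ) :
    ((absNormUnits L I : ℚˣ) : ℚ) = FractionalIdeal.absNorm (I : FractionalIdeal (𝓞 L)⁰ L) := rfl

theorem coe_absNormUnits_primeUnit (v : HeightOneSpectrum (𝓞 L)) :
    ((absNormUnits L (primeUnit L v) : ℚˣ) : ℚ) = (Ideal.absNorm v.asIdeal : ℕ) := by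
  rw [coe_absNormUnits, coe_primeUnit, FractionalIdeal.coeIdeal_absNorm]

/-- `Φ = σ_S ∘ N` on invertible fractional ideals. -/
noncomputable def sigmaIdeal : (FractionalIdeal (𝓞 L)⁰ L)ˣ →* (ZMod (p ^ (n + 1)))ˣ :=
  (sigmaS p n S).comp (absNormUnits L)

theorem sigmaIdeal_apply (I : (FractionalIdeal (𝓞 L)⁰ L)ˣ) :
    sigmaIdeal p n S L I = sigmaS p n S (absNormUnits L I) := rfl

variable {L}

/-- The norm of a prime not over `S` is prime to `∏ S`. -/
theorem absNorm_coprime_sProd (P : OffS S L) :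
    (Ideal.absNorm P.1.asIdeal).Coprime (sProd S) := by
  apply absNorm_coprime_of_isCoprime
  rw [Ideal.isCoprime_iff_sup_eq]
  by_contra hne
  have hmax : P.1.asIdeal.IsMaximal := P.1.isMaximal
  have h1 : P.1.asIdeal = P.1.asIdeal ⊔ Ideal.span {((sProd S : ℕ) : 𝓞 L)} :=
    hmax.eq_of_le hne le_sup_left
  apply P.2
  rw [h1]
  exact Ideal.mem_sup_right (Ideal.subset_span rfl)

theorem absNorm_coprime_pow_of_off (hpS : (⟨p, hp.out⟩ : Nat.Primes) ∈ S) (P : OffS S L) :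
    (Ideal.absNorm P.1.asIdeal).Coprime (p ^ (n + 1)) := by
  apply Nat.Coprime.pow_right
  apply Nat.Coprime.coprime_dvd_right _ (absNorm_coprime_sProd S P)
  exact Finset.dvd_prod_of_mem (fun q : Nat.Primes => (q : ℕ)) hpS

/-- At a prime not over `S`: `Φ(P) = ψ(P)⁻¹`. -/
theorem sigmaIdeal_primeUnit_off (hpS : (⟨p, hp.out⟩ : Nat.Primes) ∈ S) (P : OffS S L) :
    sigmaIdeal p n S L (primeUnit L P.1) = (normSymbol p n P.1.asIdeal)⁻¹ := by
  rw [sigmaIdeal_apply]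
  have h1 := coe_sigmaS_inv_of_coprime p n S hpS (absNormUnits L (primeUnit L P.1))
    (Ideal.absNorm P.1.asIdeal) (coe_absNormUnits_primeUnit L P.1) (absNorm_coprime_sProd S P)
  have h2 := coe_normSymbol_of_coprime (absNorm_coprime_pow_of_off p n S hpS P)
  have h3 : (sigmaS p n S (absNormUnits L (primeUnit L P.1)))⁻¹ = normSymbol p n P.1.asIdeal :=
    Units.ext (h1.trans h2.symm)
  rw [← h3, inv_inv]

/-- At a prime over `S`: `Φ(v) = 1`. -/
theorem sigmaIdeal_primeUnit_on (hodd : Odd p) (hpS : (⟨p, hp.out⟩ : Nat.Primes) ∈ S)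
    (v : HeightOneSpectrum (𝓞 L)) (hv : ((sProd S : ℕ) : 𝓞 L) ∈ v.asIdeal) :
    sigmaIdeal p n S L (primeUnit L v) = 1 := by
  classical
  rw [sigmaIdeal_apply]
  have hprime : v.asIdeal.IsPrime := v.isPrime
  have hv' : ∏ q ∈ S, ((q : ℕ) : 𝓞 L) ∈ v.asIdeal := by
    have : ((sProd S : ℕ) : 𝓞 L) = ∏ q ∈ S, ((q : ℕ) : 𝓞 L) := by
      rw [sProd, Nat.cast_prod]
    rwa [this] at hv
  obtain ⟨q, hqS, hq⟩ := (Ideal.IsPrime.prod_mem_iff).mp hv'
  have hqprime : Prime ((q : ℕ) : ℤ) := Nat.prime_iff_prime_int.mp q.2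
  have hlies : v.asIdeal.LiesOver (Ideal.span {((q : ℕ) : ℤ)}) := by
    rw [Ideal.liesOver_span_iff hprime.ne_top hqprime]
    simpa using hq
  have hnorm := Ideal.absNorm_eq_pow_inertiaDeg' v.asIdeal q.2
  apply sigmaS_eq_one_of_smooth p n S hodd hpS _ (Ideal.absNorm v.asIdeal)
    (coe_absNormUnits_primeUnit L v)
  intro ℓ hℓ hdvd
  rw [hnorm] at hdvd
  have h1 : ℓ ∣ (q : ℕ) := hℓ.dvd_of_dvd_pow hdvd
  have h2 : ℓ = (q : ℕ) := (Nat.prime_dvd_prime_iff_eq hℓ q.2).mp h1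
  exact ⟨⟨q, hqS⟩, h2.symm⟩

/-! ### Factorisation in the group of invertible fractional ideals -/

variable (L) in
theorem finite_mulSupport_primeUnit_zpow (I : (FractionalIdeal (𝓞 L)⁰ L)ˣ) :
    (Function.mulSupport fun v : HeightOneSpectrum (𝓞 L) =>
      primeUnit L v ^ FractionalIdeal.count L v (I : FractionalIdeal (𝓞 L)⁰ L)).Finite := by
  have h := FractionalIdeal.finite_factors (R := 𝓞 L) (K := L)
    (I : FractionalIdeal (𝓞 L)⁰ L)
  rw [Filter.eventually_cofinite] at h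
  refine h.subset ?_
  intro v hv
  rw [Function.mem_mulSupport] at hv
  intro h0
  apply hv
  change FractionalIdeal.count L v (I : FractionalIdeal (𝓞 L)⁰ L) = 0 at h0
  rw [h0, zpow_zero]

variable (L) in
theorem prod_primeUnit_zpow_count (I : (FractionalIdeal (𝓞 L)⁰ L)ˣ) :
    ∏ᶠ v : HeightOneSpectrum (𝓞 L),
      primeUnit L v ^ FractionalIdeal.count L v (I : FractionalIdeal (𝓞 L)⁰ L) = I := by
  apply Units.ext
  have h := MonoidHom.map_finprod (Units.coeHom (FractionalIdeal (𝓞 L)⁰ L))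
    (finite_mulSupport_primeUnit_zpow L I)
  rw [Units.coeHom_apply] at h
  rw [h]
  have h2 := FractionalIdeal.finprod_heightOneSpectrum_factorization' (R := 𝓞 L) (K := L)
    (I := (I : FractionalIdeal (𝓞 L)⁰ L)) I.ne_zero
  conv_rhs => rw [← h2]
  apply finprod_congr
  intro v
  rw [Units.coeHom_apply, Units.val_zpow_eq_zpow_val, coe_primeUnit]

/-- `Φ(I) = ∏_{P ∉ S} ψ(P)^(-ord_P I)`. -/
theorem sigmaIdeal_eq_finprod (hodd : Odd p) (hpS : (⟨p, hp.out⟩ : Nat.Primes) ∈ S)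
    (I : (FractionalIdeal (𝓞 L)⁰ L)ˣ) :
    sigmaIdeal p n S L I = ∏ᶠ P : OffS S L,
      (normSymbol p n P.1.asIdeal)⁻¹ ^
        FractionalIdeal.count L P.1 (I : FractionalIdeal (𝓞 L)⁰ L) := by
  classical
  conv_lhs => rw [← prod_primeUnit_zpow_count L I]
  rw [MonoidHom.map_finprod _ (finite_mulSupport_primeUnit_zpow L I)]
  have h1 : ∀ v : HeightOneSpectrum (𝓞 L),
      sigmaIdeal p n S L
        (primeUnit L v ^ FractionalIdeal.count L v (I : FractionalIdeal (𝓞 L)⁰ L)) =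
      ∏ᶠ (_ : ((sProd S : ℕ) : 𝓞 L) ∉ v.asIdeal),
        (normSymbol p n v.asIdeal)⁻¹ ^
          FractionalIdeal.count L v (I : FractionalIdeal (𝓞 L)⁰ L) := by
    intro v
    rw [map_zpow, finprod_eq_if]
    split_ifs with hv
    · rw [sigmaIdeal_primeUnit_on p n S hodd hpS v hv, one_zpow]
    · rw [sigmaIdeal_primeUnit_off p n S hpS ⟨v, hv⟩]
  rw [finprod_congr h1]
  exact (finprod_subtype_eq_finprod_cond
    (f := fun v : HeightOneSpectrum (𝓞 L) => (normSymbol p n v.asIdeal)⁻¹ ^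
      FractionalIdeal.count L v (I : FractionalIdeal (𝓞 L)⁰ L))
    (fun v : HeightOneSpectrum (𝓞 L) => ((sProd S : ℕ) : 𝓞 L) ∉ v.asIdeal)).symm

variable (L) in
/-- The principal fractional ideal of `a ∈ Lˣ`, as a unit. -/
noncomputable def principalUnit (a : Lˣ) : (FractionalIdeal (𝓞 L)⁰ L)ˣ :=
  Units.mk0 (FractionalIdeal.spanSingleton (𝓞 L)⁰ (a : L)) (spanSingleton_units_ne_zero a)

/-- `Φ((a)) = σ_S(N_{L/ℚ} a)`. -/
theorem sigmaIdeal_principalUnit (hodd : Odd p) (a : Lˣ) :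
    sigmaIdeal p n S L (principalUnit L a) =
      sigmaS p n S (Units.map (Algebra.norm ℚ : L →* ℚ) a) := by
  rw [sigmaIdeal_apply]
  have habs : ((absNormUnits L (principalUnit L a) : ℚˣ) : ℚ) = |Algebra.norm ℚ (a : L)| := by
    rw [coe_absNormUnits]
    exact FractionalIdeal.absNorm_span_singleton (𝓞 L) (a : L)
  rcases abs_choice (Algebra.norm ℚ (a : L)) with h | h
  · congr 1
    apply Units.ext
    rw [habs, h]
    rfl
  · have : absNormUnits L (principalUnit L a) = -1 * Units.map (Algebra.norm ℚ : L →* ℚ) a := by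
      apply Units.ext
      rw [habs, h]
      simp
    rw [this, map_mul, sigmaS_neg_one p n S hodd, one_mul]

end Ideals

section ClassSymbol

variable (p n : ℕ) [hp : Fact p.Prime] (S : Finset Nat.Primes)
variable (L : Type) [Field L] [NumberField L]

/-- The symbol on `Div_S(L)`: `d ↦ ∏_P ψ(P)^(d P)`. -/
noncomputable def psiDiv : DivS S L →+ Additive (ZMod (p ^ (n + 1)))ˣ :=
  Finsupp.liftAddHom fun P : OffS S L =>
    zmultiplesHom (Additive (ZMod (p ^ (n + 1)))ˣ) (Additive.ofMul (normSymbol p n P.1.asIdeal))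

omit hp in
theorem psiDiv_single (P : OffS S L) (k : ℤ) :
    psiDiv p n S L (Finsupp.single P k) = Additive.ofMul (normSymbol p n P.1.asIdeal ^ k) := by
  rw [psiDiv, Finsupp.liftAddHom_apply_single]
  rfl

omit hp in
theorem toMul_psiDiv (d : DivS S L) :
    Additive.toMul (psiDiv p n S L d) = d.prod fun P k => normSymbol p n P.1.asIdeal ^ k := by
  rw [psiDiv, Finsupp.liftAddHom_apply, Finsupp.sum, Finsupp.prod, toMul_sum]
  rfl

omit hp in
theorem toMul_psiDiv_eq_finprod (d : DivS S L) :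
    Additive.toMul (psiDiv p n S L d) = ∏ᶠ P : OffS S L, normSymbol p n P.1.asIdeal ^ d P := by
  rw [toMul_psiDiv, Finsupp.prod]
  symm
  apply finprod_eq_prod_of_mulSupport_subset
  intro P hP
  rw [Function.mem_mulSupport] at hP
  rw [Finset.mem_coe, Finsupp.mem_support_iff]
  intro h0
  apply hP
  rw [h0, zpow_zero]

/-- **Product formula on `C_S`**: `ψ_J(a) · ψ_Div(div a) = 1` for `a ∈ Lˣ`. -/
theorem psiJ_jlDiag_mul_psiDiv (hodd : Odd p) (hpS : (⟨p, hp.out⟩ : Nat.Primes) ∈ S) (a : Lˣ) :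
    psiJ p n S L (jlDiag S L a) * Additive.toMul (psiDiv p n S L (divFun S L a)) = 1 := by
  have h1 : psiJ p n S L (jlDiag S L a) = sigmaIdeal p n S L (principalUnit L a) := by
    rw [psiJ_jlDiag, sigmaIdeal_principalUnit p n S hodd, sigmaS_apply]
  rw [h1, sigmaIdeal_eq_finprod p n S hodd hpS, toMul_psiDiv_eq_finprod]
  have h2 : ∀ P : OffS S L, (normSymbol p n P.1.asIdeal)⁻¹ ^
      FractionalIdeal.count L P.1 ((principalUnit L a : (FractionalIdeal (𝓞 L)⁰ L)ˣ) :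
        FractionalIdeal (𝓞 L)⁰ L) = (normSymbol p n P.1.asIdeal ^ divFun S L a P)⁻¹ := by
    intro P
    rw [inv_zpow]
    rfl
  rw [finprod_congr h2, finprod_inv_distrib, inv_mul_cancel]

/-- The symbol on `J_L × Div_S(L)`. -/
noncomputable def psiJD : Additive (JL S L) × DivS S L →ₗ[ℤ] Additive (ZMod (p ^ (n + 1)))ˣ :=
  ((MonoidHom.toAdditive (psiJ p n S L)).coprod (psiDiv p n S L)).toIntLinearMap

theorem psiJD_apply (y : Additive (JL S L) × DivS S L) :
    psiJD p n S L y =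
      Additive.ofMul (psiJ p n S L (Additive.toMul y.1)) + psiDiv p n S L y.2 := rfl

theorem psiJD_iotaHom (hodd : Odd p) (hpS : (⟨p, hp.out⟩ : Nat.Primes) ∈ S) (x : Additive Lˣ) :
    psiJD p n S L (iotaHom S L x) = 0 := by
  rw [psiJD_apply]
  apply Additive.toMul.injective
  rw [toMul_add, toMul_ofMul, toMul_zero]
  exact psiJ_jlDiag_mul_psiDiv p n S L hodd hpS (Additive.toMul x)

theorem range_iotaHom_le_ker_psiJD (hodd : Odd p) (hpS : (⟨p, hp.out⟩ : Nat.Primes) ∈ S) :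
    LinearMap.range (iotaHom S L) ≤ LinearMap.ker (psiJD p n S L) := by
  rintro _ ⟨x, rfl⟩
  exact psiJD_iotaHom p n S L hodd hpS x

/-- **The norm symbol on the `S`-idèle class module** `Ψ_L : C_S(L) → (ℤ/p^(n+1))ˣ`
(zero unless `p` is odd and `p ∈ S`). -/
noncomputable def psiC : CS S L →ₗ[ℤ] Additive (ZMod (p ^ (n + 1)))ˣ :=
  haveI := Classical.propDecidable (Odd p ∧ (⟨p, hp.out⟩ : Nat.Primes) ∈ S)
  if h : Odd p ∧ (⟨p, hp.out⟩ : Nat.Primes) ∈ S then
    (LinearMap.range (iotaHom S L)).liftQ (psiJD p n S L)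
      (range_iotaHom_le_ker_psiJD p n S L h.1 h.2)
  else 0

theorem psiC_mk (hodd : Odd p) (hpS : (⟨p, hp.out⟩ : Nat.Primes) ∈ S)
    (y : Additive (JL S L) × DivS S L) :
    psiC p n S L (csMk S L y) = psiJD p n S L y := by
  rw [psiC, dif_pos ⟨hodd, hpS⟩]
  rfl

theorem psiC_csOfJ (hodd : Odd p) (hpS : (⟨p, hp.out⟩ : Nat.Primes) ∈ S)
    (x : Additive (JL S L)) :
    psiC p n S L (csOfJ S L x) = Additive.ofMul (psiJ p n S L (Additive.toMul x)) := by
  rw [csOfJ_apply, psiC_mk p n S L hodd hpS, psiJD_apply, map_zero, add_zero]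

theorem psiC_csOfDiv (hodd : Odd p) (hpS : (⟨p, hp.out⟩ : Nat.Primes) ∈ S) (d : DivS S L) :
    psiC p n S L (csOfDiv S L d) = psiDiv p n S L d := by
  rw [csOfDiv_apply, psiC_mk p n S L hodd hpS, psiJD_apply]
  simp

/-- The value of `Ψ` on the class of a prime `P ∉ S` is the ideal norm symbol `N(P)^(p-1)`. -/
theorem psiC_csOfDiv_single (hodd : Odd p) (hpS : (⟨p, hp.out⟩ : Nat.Primes) ∈ S)
    (P : OffS S L) (k : ℤ) :
    psiC p n S L (csOfDiv S L (Finsupp.single P k)) =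
      Additive.ofMul (normSymbol p n P.1.asIdeal ^ k) := by
  rw [psiC_csOfDiv p n S L hodd hpS, psiDiv_single]

/-! ### Invariance under `Aut(L)` -/

variable {L}

theorem absNorm_primeMap (σ : L ≃ₐ[ℚ] L) (P : HeightOneSpectrum (𝓞 L)) :
    Ideal.absNorm (primeMap σ P).asIdeal = Ideal.absNorm P.asIdeal := by
  have hmap : P.asIdeal =
      ((primeMap σ P).asIdeal).map
        ((RingOfIntegers.mapRingEquiv (σ.symm : L ≃+* L) : 𝓞 L ≃+* 𝓞 L) : 𝓞 L →+* 𝓞 L) := by
    show P.asIdeal = (P.asIdeal.comap (RingOfIntegers.mapRingEquiv (σ.symm : L ≃+* L))).map _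
    exact (Ideal.map_comap_of_surjective _
      (RingOfIntegers.mapRingEquiv (σ.symm : L ≃+* L)).surjective _).symm
  rw [Ideal.absNorm_apply, Ideal.absNorm_apply, Submodule.cardQuot_apply,
    Submodule.cardQuot_apply]
  exact Nat.card_congr (Ideal.quotientEquiv _ _ _ hmap).toEquiv

omit hp in
theorem normSymbol_primeMap (σ : L ≃ₐ[ℚ] L) (P : HeightOneSpectrum (𝓞 L)) :
    normSymbol p n (primeMap σ P).asIdeal = normSymbol p n P.asIdeal := by
  unfold normSymbol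
  rw [absNorm_primeMap]

theorem divEnd_single (σ : L ≃ₐ[ℚ] L) (P : OffS S L) (k : ℤ) :
    divEnd S σ (Finsupp.single P k) = Finsupp.single (offEquiv S σ P) k := by
  simp [divEnd, Finsupp.domLCongr_apply, Finsupp.domCongr_apply]

omit hp in
theorem psiDiv_divEnd (σ : L ≃ₐ[ℚ] L) (d : DivS S L) :
    psiDiv p n S L (divEnd S σ d) = psiDiv p n S L d := by
  have h : (psiDiv p n S L).comp (divEnd S σ).toAddMonoidHom = psiDiv p n S L := by
    apply Finsupp.addHom_ext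
    intro P k
    rw [AddMonoidHom.comp_apply]
    show psiDiv p n S L (divEnd S σ (Finsupp.single P k)) = _
    rw [divEnd_single, psiDiv_single, psiDiv_single]
    congr 2
    exact normSymbol_primeMap p n σ P.1
  exact DFunLike.congr_fun h d

theorem psiJD_jdEnd (σ : L ≃ₐ[ℚ] L) (y : Additive (JL S L) × DivS S L) :
    psiJD p n S L (jdEnd S σ y) = psiJD p n S L y := by
  rw [psiJD_apply, psiJD_apply]
  have h1 : (jdEnd S σ y).1 = jlEnd S σ y.1 := rfl
  have h2 : (jdEnd S σ y).2 = divEnd S σ y.2 := rfl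
  rw [h1, h2, psiDiv_divEnd]
  congr 2
  exact psiJ_jlHom p n S σ (Additive.toMul y.1)

/-- `Ψ_L` is invariant under `Aut(L)`. -/
theorem psiC_csEnd (σ : L ≃ₐ[ℚ] L) (c : CS S L) :
    psiC p n S L (csEnd S σ c) = psiC p n S L c := by
  by_cases h : Odd p ∧ (⟨p, hp.out⟩ : Nat.Primes) ∈ S
  · induction c using Submodule.Quotient.induction_on with
    | _ y =>
      show psiC p n S L (csEnd S σ (csMk S L y)) = psiC p n S L (csMk S L y)
      rw [csEnd_mk, psiC_mk p n S L h.1 h.2, psiC_mk p n S L h.1 h.2, psiJD_jdEnd]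
  · rw [psiC, dif_neg h]
    rfl

/-- `Ψ_L` is invariant under the representation `csRep`. -/
theorem psiC_csRho (σ : L ≃ₐ[ℚ] L) (c : CS S L) :
    psiC p n S L (csRho S L σ c) = psiC p n S L c :=
  psiC_csEnd p n S σ c

end ClassSymbol

end Fermat.Agent.PT.G3
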