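/-
PT-G3 — INTERFACE FILE, part 3: the pieces about the class symbol `Ψ = psiC` (G3/SymbolCS.lean),
the cyclotomic auxiliary field `N = L·ℚ_n`, and the final statement (GA).
Sub-captain helper47; mathematics and piece table: NOTES/PT-G3.md.

`T = (ZMod (p^(n+1)))ˣ`; `psiC p n S F : CS S F →ₗ[ℤ] Additive T` takes values in the subgroup of
`(p-1)`-th powers, cyclic of order `p^n`.
-/
import Fermat.Agent.PT.G3.Plan2
import Fermat.Agent.PT.G3.SymbolCS

set_option autoImplicit false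
set_option linter.unusedSectionVars false

namespace Fermat.Agent.PT.G3

open CategoryTheory groupCohomology NumberField IsDedekindDomain
open Fermat.Agent.PT Fermat.Agent.PT.G Fermat.Agent.PT.G1

/-! ### Properties of the symbol -/

/-- **psi-M**: `Ψ_L ∘ csMap = [L : K] • Ψ_K`. -/
def StmtPsiMap : Prop :=
  ∀ (p n : ℕ) [hp : Fact p.Prime] (S : Finset Nat.Primes), Odd p →
    (⟨p, hp.out⟩ : Nat.Primes) ∈ S →
    ∀ (K L : Type) [Field K] [NumberField K] [Field L] [NumberField L] [Algebra K L]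
      (c : CS S K), psiC p n S L (csMap S K L c) = Module.finrank K L • psiC p n S K c

/-- **psi-N** (norm compatibility, Galois form): if `M / F` is Galois and
`csMap c = Σ_{σ ∈ Gal(M/F)} σ d`, then `Ψ_F c = Ψ_M d`.
(`Ψ` is defined through the norms to `ℚ_q` and the absolute norms of ideals; on `J`:
`N_{(ℚ_q⊗M)/(ℚ_q⊗F)}` is the product over `Gal(M/F)`; `csMap` is injective.) -/
def StmtPsiNormGal : Prop :=
  ∀ (p n : ℕ) [hp : Fact p.Prime] (S : Finset Nat.Primes), Odd p →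
    (⟨p, hp.out⟩ : Nat.Primes) ∈ S →
    ∀ (F M : Type) [Field F] [NumberField F] [Field M] [NumberField M] [Algebra F M]
      [IsGalois F M] (c : CS S F) (d : CS S M),
      csMap S F M c = galNorm S F M d → psiC p n S F c = psiC p n S M d

/-- **psi-up**: if `Ψ_E = 0` then `Ψ_M = 0` for every finite extension `M / E`
(`Ψ_M = Ψ_E ∘ csNorm`, PT/G/Norm.lean; no Galois hypothesis). -/
def StmtPsiUp : Prop :=
  ∀ (p n : ℕ) [hp : Fact p.Prime] (S : Finset Nat.Primes), Odd p →
    (⟨p, hp.out⟩ : Nat.Primes) ∈ S →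
    ∀ (E M : Type) [Field E] [NumberField E] [Field M] [NumberField M] [Algebra E M],
      (∀ c : CS S E, psiC p n S E c = 0) → ∀ c : CS S M, psiC p n S M c = 0

/-- **psi-zeta**: if `E'` contains a primitive `p^(n+1)`-th root of unity then `Ψ_{E'} = 0`.
(On divisors: `normSymbol_eq_one_of_primitiveRoot`.  On `J`: `ψ_q ∘ N` is trivial on
`1 + q^k (ℤ_q ⊗ 𝓞)` (continuity), weak approximation (`G2.StmtWeakApprox`) and the product
formula reduce to divisors.) -/
def StmtPsiZeta : Prop :=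
  ∀ (p n : ℕ) [hp : Fact p.Prime] (S : Finset Nat.Primes), Odd p →
    (⟨p, hp.out⟩ : Nat.Primes) ∈ S →
    ∀ (E' : Type) [Field E'] [NumberField E'] (ζ : 𝓞 E'), IsPrimitiveRoot ζ (p ^ (n + 1)) →
      ∀ c : CS S E', psiC p n S E' c = 0

/-- **psi-Z**: if `E` has an extension `E'` of degree prime to `p` containing a primitive
`p^(n+1)`-th root of unity (e.g. `E = ℚ_n`), then `Ψ_E = 0`.
(psi-M: `[E' : E] • Ψ_E c = Ψ_{E'} (csMap c) = 0`, and `Ψ_E c` is killed by `p^n`.) -/
def StmtPsiZ : Prop :=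
  ∀ (p n : ℕ) [hp : Fact p.Prime] (S : Finset Nat.Primes), Odd p →
    (⟨p, hp.out⟩ : Nat.Primes) ∈ S →
    ∀ (E E' : Type) [Field E] [NumberField E] [Field E'] [NumberField E'] [Algebra E E'],
      (Module.finrank E E').Coprime p → ∀ ζ : 𝓞 E', IsPrimitiveRoot ζ (p ^ (n + 1)) →
      ∀ c : CS S E, psiC p n S E c = 0

/-- **psi-pow**: the values of `Ψ` are killed by `p^n`. -/
def StmtPsiTors : Prop :=
  ∀ (p n : ℕ) [Fact p.Prime] (S : Finset Nat.Primes)
    (F : Type) [Field F] [NumberField F] (c : CS S F), p ^ n • psiC p n S F c = 0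

/-- **psi-gen**: there is a rational prime `ℓ ∉ S` whose class `[ℓ] ∈ C_S(ℚ)` has symbol of exact
order `p^n`: `k • Ψ_ℚ [ℓ] = 0 → p^n ∣ k`.
(`symCheb_absNorm_exists_generator` for `K = ℚ`: the `(p-1)`-th powers of the units mod `p^(n+1)`
form a cyclic group of order `p^n`, generated by `ℓ^(p-1)`.) -/
def StmtPsiGen : Prop :=
  ∀ (p n : ℕ) [hp : Fact p.Prime] (S : Finset Nat.Primes), p ≠ 2 →
    (⟨p, hp.out⟩ : Nat.Primes) ∈ S →
    ∃ v : OffS S ℚ, ∀ k : ℕ, k • psiC p n S ℚ (csOfDiv S ℚ (Finsupp.single v 1)) = 0 → p ^ n ∣ k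

/-- **G3-clt** (cyclic layer theorem): let `N / L` be Galois, unramified outside `S`, with
`Ψ_N = 0` and `[N : L] ≤ |image of the ideal symbol of L|`.  Then the kernel of `Ψ_L` is the norm
subgroup of `N / L`.
(`StmtNormIndexLe`: `|C_S(L)/B| ≤ [N : L]`; psi-N: `Ψ_L` kills `B`; the image of `Ψ_L` contains the
ideal symbols; count.) -/
def StmtCLT : Prop :=
  ∀ (p n : ℕ) [hp : Fact p.Prime] (S : Finset Nat.Primes), Odd p →
    (⟨p, hp.out⟩ : Nat.Primes) ∈ S →
    ∀ (L N : Type) [Field L] [NumberField L] [Field N] [NumberField N] [Algebra L N]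
      [IsGalois L N], UnramOffRel S L N →
      (∀ c : CS S N, psiC p n S N c = 0) →
      Module.finrank L N ≤ Nat.card {u : (ZMod (p ^ (n + 1)))ˣ | ∃ I : Ideal (𝓞 L),
        (Ideal.absNorm I).Coprime (p ^ (n + 1)) ∧ normSymbol p n I = u} →
      ∀ c : CS S L, psiC p n S L c = 0 → c ∈ NormSub S L N

/-! ### The cyclotomic auxiliary field -/

/-- The auxiliary field `N = L·ℚ_n` (`ℚ_n` = the `n`-th layer of the cyclotomic `ℤ_p`-extension)
with everything the construction of the fundamental class needs.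
Construction: `N' := CyclotomicField (p^(n+1)) L = L(ζ)`, `χ : Aut(N') → (ℤ/p^(n+1))ˣ` the
cyclotomic character, `R := {σ ∈ Gal(N'/L) | χ(σ)^(p-1) = 1}`, `N := N'^R`;
`θ(σ) := χ(σ̃)^(p-1)` (identify the `(p-1)`-th powers with `ℤ/p^n`); `E := N^{ker θ} = ℚ_n`,
`E' := E(ζ) ⊂ N'` of degree `p - 1` over `E`. -/
structure CycData (p n : ℕ) (S : Finset Nat.Primes) (L : Type) [Field L] [NumberField L] where
  /-- the field `N = L·ℚ_n` -/
  N : Type
  [fieldN : Field N]
  [nfN : NumberField N]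
  [algLN : Algebra L N]
  galQ : IsGalois ℚ N
  galL : IsGalois L N
  /-- `N / ℚ` is unramified outside `S` (`p ∈ S`) -/
  unram : UnramOffRel S ℚ N
  /-- `Gal(N/L)` is a `p`-group -/
  pgroup : IsPGroup p ↥(relAut L N)
  /-- `[N : L]` is at most the number of values of the ideal symbol of `L` -/
  card_le : Module.finrank L N ≤ Nat.card {u : (ZMod (p ^ (n + 1)))ˣ | ∃ I : Ideal (𝓞 L),
    (Ideal.absNorm I).Coprime (p ^ (n + 1)) ∧ normSymbol p n I = u}
  /-- `θ : Gal(N/ℚ) ↠ Gal(ℚ_n/ℚ) ≅ ℤ/p^n` -/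
  θ : (N ≃ₐ[ℚ] N) →* Multiplicative (ZMod (p ^ n))
  θ_surj : Function.Surjective θ
  /-- an extension of `E = N^{ker θ}` of degree prime to `p` containing `ζ_{p^(n+1)}` -/
  E' : Type
  [fieldE' : Field E']
  [nfE' : NumberField E']
  [algE' : Algebra ↥(IntermediateField.fixedField θ.ker) E']
  coprime : (Module.finrank ↥(IntermediateField.fixedField θ.ker) E').Coprime p
  ζ : 𝓞 E'
  hζ : IsPrimitiveRoot ζ (p ^ (n + 1))

attribute [instance] CycData.fieldN CycData.nfN CycData.algLN CycData.fieldE' CycData.nfE'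
  CycData.algE'

/-- **G3-cyc**: the auxiliary field exists for every `L` Galois over `ℚ`, unramified outside
`S ∋ p`, `p` odd, and every `n`. -/
def StmtCyc : Prop :=
  ∀ (p n : ℕ) [hp : Fact p.Prime] (S : Finset Nat.Primes), p ≠ 2 →
    (⟨p, hp.out⟩ : Nat.Primes) ∈ S →
    ∀ (L : Type) [Field L] [NumberField L] [IsGalois ℚ L], UnramOffRel S ℚ L →
      Nonempty (CycData p n S L)

/-! ### The final statement -/

/-- **(GA)**: for `L / ℚ` Galois, unramified outside `S ∋ p`, `p` odd, the `S`-idèle class module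
`C_S(L)` has a `p`-fundamental class. -/
def StmtGA : Prop :=
  ∀ (p : ℕ) [hp : Fact p.Prime] (S : Finset Nat.Primes), p ≠ 2 →
    (⟨p, hp.out⟩ : Nat.Primes) ∈ S →
    ∀ (L : Type) [Field L] [NumberField L] [IsGalois ℚ L], UnramOffRel S ℚ L →
      ∃ u : H2 (csRep S L), IsPFundClass p (csRep S L) u

end Fermat.Agent.PT.G3
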