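/-
PT-G3, piece S2 = (C): for a number field `K`, a prime `p` and `L = K(ζ)`, `ζ` a primitive
`p^(n+1)`-th root of unity, the classes `N(I) mod p^(n+1)` of the absolute norms of the ideals `I`
of `𝓞 K` prime to `p` are exactly the values of the cyclotomic character on `Gal(L/K)`.

* `symCheb_frob`  : `⊆`, by Frobenius elements (Mathlib `IsArithFrobAt`);
* `symCheb_gen`   : `⊇`, by the weak Chebotarev theorem for cyclic extensions (`Cheb.stmtCyclic`):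
  there is a prime `v ∤ p` of `K` such that every `σ ∈ Gal(L/K)` acts on `ζ` as a power of `N v`;
* `symbolCheb`    : the equality of the two sets;  `symbolCheb_pow` : the same for `(p-1)`-th powers.
-/
import Mathlib
import Fermat.Agent.Cheb.Final
import Fermat.Agent.PT.G3.Symbol

set_option autoImplicit false
set_option linter.style.haveILetI false

namespace Fermat.Agent.PT.G3

open NumberField IsDedekindDomain
open scoped Pointwise

/-- Roots of unity of order `m` are distinct modulo a proper ideal `Q` with `m ∉ Q` (in a domain). -/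
theorem symCheb_root_eq_of_sub_mem {S : Type*} [CommRing S] [IsDomain S] {Q : Ideal S} {m : ℕ}
    (hm : (m : S) ∉ Q) {x y : S} (hx : x ^ m = 1) (hy : y ^ m = 1) (h : x - y ∈ Q) : x = y := by
  have hm0 : m ≠ 0 := by
    rintro rfl
    exact hm (by simp)
  obtain ⟨k, rfl⟩ : ∃ k, m = k + 1 := Nat.exists_eq_succ_of_ne_zero hm0
  set η : S := x * y ^ k with hη
  have hy' : y * y ^ k = 1 := by rw [← pow_succ', hy]
  have hηm : η ^ (k + 1) = 1 := by
    rw [hη, mul_pow, hx, one_mul, ← pow_mul, mul_comm, pow_mul, hy, one_pow]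
  have hη1 : η - 1 ∈ Q := by
    have : η - 1 = (x - y) * y ^ k := by rw [hη, sub_mul, hy']
    rw [this]
    exact Q.mul_mem_right _ h
  have hgeom := geom_sum_mul η (k + 1)
  rw [hηm, sub_self, mul_eq_zero] at hgeom
  rcases hgeom with h0 | h1
  · exfalso
    apply hm
    have hsum : ∑ i ∈ Finset.range (k + 1), (η ^ i - 1) ∈ Q := by
      refine Q.sum_mem fun i _ => ?_
      obtain ⟨c, hc⟩ := sub_dvd_pow_sub_pow η 1 i
      rw [one_pow] at hc
      rw [hc]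
      exact Q.mul_mem_right _ hη1
    rw [Finset.sum_sub_distrib, h0, Finset.sum_const, Finset.card_range, zero_sub,
      nsmul_eq_mul, mul_one] at hsum
    simpa using Q.neg_mem hsum
  · have hη' : η = 1 := sub_eq_zero.mp h1
    calc x = x * (y ^ k * y) := by rw [mul_comm (y ^ k) y, hy', mul_one]
      _ = η * y := by rw [hη]; ring
      _ = y := by rw [hη', one_mul]

/-- A prime ideal whose norm is prime to `p` does not contain `p`. -/
theorem symCheb_notMem_of_coprime {K : Type*} [Field K] [NumberField K] (p : ℕ)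
    (Q : Ideal (𝓞 K)) [hQ : Q.IsPrime] (hcop : (Ideal.absNorm Q).Coprime p) :
    (p : 𝓞 K) ∉ Q := by
  intro hpQ
  have hN : ((Ideal.absNorm Q : ℕ) : 𝓞 K) ∈ Q := Ideal.absNorm_mem Q
  obtain ⟨a, b, hab⟩ := Nat.Coprime.isCoprime hcop
  have h1 := congrArg (Int.cast : ℤ → 𝓞 K) hab
  push_cast at h1
  have h2 : (1 : 𝓞 K) ∈ Q := by
    rw [← h1]
    exact Q.add_mem (Q.mul_mem_left _ hN) (Q.mul_mem_left _ hpQ)
  exact hQ.ne_top ((Ideal.eq_top_iff_one Q).mpr h2)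

section

variable (p n : ℕ) [Fact p.Prime] (K L : Type) [Field K] [NumberField K] [Field L] [NumberField L]
  [Algebra K L] [IsGalois K L] (ζ : L) (hζ : IsPrimitiveRoot ζ (p ^ (n + 1)))

include hζ

/-- `⊆` for a prime: the Frobenius at a prime `v ∤ p` raises `ζ` to the power `N v`. -/
theorem symCheb_frob_prime (v : Ideal (𝓞 K)) [v.IsPrime] (hv0 : v ≠ ⊥)
    (hpv : (p : 𝓞 K) ∉ v) : ∃ σ : L ≃ₐ[K] L, σ ζ = ζ ^ (Ideal.absNorm v) := by
  haveI : NeZero (p ^ (n + 1)) := ⟨pow_ne_zero _ (Fact.out : p.Prime).ne_zero⟩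
  obtain ⟨Q, hQ⟩ := Ideal.nonempty_primesOver (S := 𝓞 L) v
  haveI hQprime : Q.IsPrime := hQ.1
  haveI hQover : Q.LiesOver v := hQ.2
  have hQ0 : Q ≠ ⊥ := Ideal.ne_bot_of_liesOver_of_ne_bot hv0 Q
  haveI : Finite (𝓞 L ⧸ Q) := Ideal.finiteQuotientOfFreeOfNeBot Q hQ0
  obtain ⟨σ, hσ⟩ := IsArithFrobAt.exists_of_isInvariant (𝓞 K) (L ≃ₐ[K] L) Q
  refine ⟨σ, ?_⟩
  have hζ' : (hζ.toInteger : 𝓞 L) ^ (p ^ (n + 1)) = 1 := hζ.toInteger_isPrimitiveRoot.pow_eq_one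
  have hmQ : ((p ^ (n + 1) : ℕ) : 𝓞 L) ∉ Q := by
    intro hmem
    rw [Nat.cast_pow] at hmem
    have hp : (p : 𝓞 L) ∈ Q := hQprime.mem_of_pow_mem _ hmem
    apply hpv
    rw [hQover.over, Ideal.under_def, Ideal.mem_comap, map_natCast]
    exact hp
  have h := AlgHom.IsArithFrobAt.apply_of_pow_eq_one hσ hζ' hmQ
  have hcard : Nat.card (𝓞 K ⧸ Q.under (𝓞 K)) = Ideal.absNorm v := by
    rw [← hQover.over, Ideal.absNorm_apply, Submodule.cardQuot_apply]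
  rw [hcard] at h
  have h2 := congrArg (fun x : 𝓞 L => (x : L)) h
  have h3 : (((MulSemiringAction.toAlgHom (𝓞 K) (𝓞 L) σ) hζ.toInteger : 𝓞 L) : L) = σ ζ := rfl
  have h4 : ((hζ.toInteger ^ Ideal.absNorm v : 𝓞 L) : L) = ζ ^ Ideal.absNorm v :=
    (algebraMap (𝓞 L) L).map_pow _ _
  exact h3.symm.trans (h2.trans h4)


/-- `⊆`: for every ideal `I` of norm prime to `p` there is `σ ∈ Gal(L/K)` with
`σ ζ = ζ ^ N(I)`. -/
theorem symCheb_frob (I : Ideal (𝓞 K)) (hI : (Ideal.absNorm I).Coprime p) :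
    ∃ σ : L ≃ₐ[K] L, σ ζ = ζ ^ (Ideal.absNorm I) := by
  classical
  have hI0 : I ≠ ⊥ := by
    rintro rfl
    rw [Ideal.absNorm_bot, Nat.coprime_zero_left] at hI
    exact (Fact.out : p.Prime).one_lt.ne' hI
  have key : ∃ σ : L ≃ₐ[K] L,
      σ ζ = ζ ^ (Ideal.absNorm (UniqueFactorizationMonoid.normalizedFactors I).prod) := by
    refine Multiset.prod_induction
      (fun J : Ideal (𝓞 K) => ∃ σ : L ≃ₐ[K] L, σ ζ = ζ ^ (Ideal.absNorm J)) _ ?_ ?_ ?_
    · rintro J₁ J₂ ⟨σ₁, h₁⟩ ⟨σ₂, h₂⟩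
      refine ⟨σ₁ * σ₂, ?_⟩
      rw [AlgEquiv.mul_apply, h₂, map_pow, h₁, ← pow_mul, map_mul]
    · exact ⟨1, by simp⟩
    · intro Q hQ
      have hQ0 : Q ≠ ⊥ := UniqueFactorizationMonoid.ne_zero_of_mem_normalizedFactors hQ
      rw [Ideal.mem_normalizedFactors_iff hI0] at hQ
      haveI := hQ.1
      refine symCheb_frob_prime p n K L ζ hζ Q hQ0 ?_
      have hdvd : Ideal.absNorm Q ∣ Ideal.absNorm I := Ideal.absNorm_dvd_absNorm_of_le hQ.2
      exact symCheb_notMem_of_coprime p Q (Nat.Coprime.coprime_dvd_left hdvd hI)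
  rwa [Ideal.prod_normalizedFactors_eq_self hI0] at key

attribute [local instance] Ideal.Quotient.field in
/-- `⊇`, cyclic case: if `Gal(L/K)` is cyclic there is a prime `v` of `K` of prime norm `ℓ ∉ S`,
`ℓ ≠ p`, such that every `σ ∈ Gal(L/K)` raises `ζ` to a power of `N v`. -/
theorem symCheb_gen_of_isCyclic [IsCyclic (L ≃ₐ[K] L)] (S : Finset ℕ) :
    ∃ v : HeightOneSpectrum (𝓞 K), (Ideal.absNorm v.asIdeal).Prime ∧
      Ideal.absNorm v.asIdeal ∉ S ∧ Ideal.absNorm v.asIdeal ≠ p ∧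
      ∀ σ : L ≃ₐ[K] L, ∃ j : ℕ, σ ζ = ζ ^ ((Ideal.absNorm v.asIdeal) ^ j) := by
  classical
  haveI : NeZero (p ^ (n + 1)) := ⟨pow_ne_zero _ (Fact.out : p.Prime).ne_zero⟩
  obtain ⟨v, hvprime, hvS, hcard⟩ :=
    Fermat.Agent.Cheb.stmtCyclic Fermat.Agent.Cheb.stmtPrimeSum
      (Fermat.Agent.Cheb.stmtSplit Fermat.Agent.Cheb.stmtPrimeSum)
      Fermat.Agent.Cheb.stmtCyclicSplit K L (insert p S)
  have hvp : Ideal.absNorm v.asIdeal ≠ p := fun h => hvS (h ▸ Finset.mem_insert_self _ _)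
  refine ⟨v, hvprime, fun h => hvS (Finset.mem_insert_of_mem h), hvp, ?_⟩
  intro σ
  obtain ⟨Q, hQ⟩ : ∃ Q, Ideal.primesOver v.asIdeal (𝓞 L) = {Q} := Set.ncard_eq_one.mp hcard
  have hQmem : Q ∈ Ideal.primesOver v.asIdeal (𝓞 L) := by rw [hQ]; rfl
  haveI hQprime : Q.IsPrime := hQmem.1
  haveI hQover : Q.LiesOver v.asIdeal := hQmem.2
  have hσQ : σ • Q = Q := by
    have h1 : σ • Q ∈ Ideal.primesOver v.asIdeal (𝓞 L) := ⟨inferInstance, inferInstance⟩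
    rw [hQ] at h1
    exact h1
  have hv0 : v.asIdeal ≠ ⊥ := v.ne_bot
  haveI hvprime' : v.asIdeal.IsPrime := v.isPrime
  have hQ0 : Q ≠ ⊥ := Ideal.ne_bot_of_liesOver_of_ne_bot hv0 Q
  haveI : Finite (𝓞 L ⧸ Q) := Ideal.finiteQuotientOfFreeOfNeBot Q hQ0
  haveI : Finite (𝓞 K ⧸ v.asIdeal) := Ideal.finiteQuotientOfFreeOfNeBot _ hv0
  haveI hvmax : v.asIdeal.IsMaximal := v.isMaximal
  haveI hQmax : Q.IsMaximal := Ideal.IsPrime.isMaximal inferInstance hQ0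
  let σs : MulAction.stabilizer (L ≃ₐ[K] L) Q := ⟨σ, hσQ⟩
  letI : Fintype (𝓞 K ⧸ v.asIdeal) := Fintype.ofFinite _
  obtain ⟨j, hj⟩ := (FiniteField.bijective_frobeniusAlgEquivOfAlgebraic_pow (𝓞 K ⧸ v.asIdeal)
    (𝓞 L ⧸ Q)).2 (Ideal.Quotient.stabilizerHom Q v.asIdeal (L ≃ₐ[K] L) σs)
  refine ⟨j, ?_⟩
  have h2 : ∀ x : 𝓞 L, σ • x - x ^ (Ideal.absNorm v.asIdeal ^ (j : ℕ)) ∈ Q := by
    intro x
    have h := congrArg
      (fun f : (𝓞 L ⧸ Q) ≃ₐ[𝓞 K ⧸ v.asIdeal] (𝓞 L ⧸ Q) => f (Ideal.Quotient.mk Q x)) hj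
    simp only [AlgEquiv.coe_pow, FiniteField.coe_frobeniusAlgEquivOfAlgebraic_iterate,
      Ideal.Quotient.stabilizerHom_apply] at h
    have hcardv : Fintype.card (𝓞 K ⧸ v.asIdeal) = Ideal.absNorm v.asIdeal := by
      rw [← Nat.card_eq_fintype_card, Ideal.absNorm_apply, Submodule.cardQuot_apply]
    rw [← Ideal.Quotient.eq, map_pow, ← hcardv]
    exact h.symm
  -- apply to the integral root of unity
  have hpv : (p : 𝓞 K) ∉ v.asIdeal := by
    refine symCheb_notMem_of_coprime p v.asIdeal ?_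
    exact (Nat.coprime_primes hvprime (Fact.out : p.Prime)).mpr hvp
  have hmQ : ((p ^ (n + 1) : ℕ) : 𝓞 L) ∉ Q := by
    intro hmem
    rw [Nat.cast_pow] at hmem
    have hp : (p : 𝓞 L) ∈ Q := hQprime.mem_of_pow_mem _ hmem
    apply hpv
    rw [hQover.over, Ideal.under_def, Ideal.mem_comap, map_natCast]
    exact hp
  have hζ' : (hζ.toInteger : 𝓞 L) ^ (p ^ (n + 1)) = 1 := hζ.toInteger_isPrimitiveRoot.pow_eq_one
  have hx : (σ • (hζ.toInteger : 𝓞 L)) ^ (p ^ (n + 1)) = 1 := by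
    rw [← smul_pow', hζ', smul_one]
  have hy : ((hζ.toInteger : 𝓞 L) ^ (Ideal.absNorm v.asIdeal ^ (j : ℕ))) ^ (p ^ (n + 1)) = 1 := by
    rw [← pow_mul, mul_comm, pow_mul, hζ', one_pow]
  have h := symCheb_root_eq_of_sub_mem hmQ hx hy (h2 hζ.toInteger)
  have h3 := congrArg (fun x : 𝓞 L => (x : L)) h
  have h4 : ((σ • (hζ.toInteger : 𝓞 L) : 𝓞 L) : L) = σ ζ := rfl
  have h5 : ((hζ.toInteger ^ (Ideal.absNorm v.asIdeal ^ (j : ℕ)) : 𝓞 L) : L) =
      ζ ^ (Ideal.absNorm v.asIdeal ^ (j : ℕ)) :=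
    (algebraMap (𝓞 L) L).map_pow _ _
  exact h4.symm.trans (h3.trans h5)


omit [NumberField K] [NumberField L] in
/-- If `L = K(ζ)` then `L/K` is a cyclotomic extension. -/
theorem symCheb_isCyclotomicExtension_of_adjoin (htop : IntermediateField.adjoin K {ζ} = ⊤) :
    IsCyclotomicExtension {p ^ (n + 1)} K L := by
  haveI : NeZero (p ^ (n + 1)) := ⟨pow_ne_zero _ (Fact.out : p.Prime).ne_zero⟩
  rw [IsCyclotomicExtension.iff_singleton]
  refine ⟨⟨ζ, hζ⟩, fun x => ?_⟩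
  have h1 : Algebra.adjoin K {ζ} = ⊤ := by
    rw [← IntermediateField.adjoin_simple_toSubalgebra_of_isAlgebraic
      (Algebra.IsAlgebraic.isAlgebraic ζ), htop, IntermediateField.top_toSubalgebra]
  have h2 : Algebra.adjoin K {ζ} ≤ Algebra.adjoin K {b : L | b ^ (p ^ (n + 1)) = 1} :=
    Algebra.adjoin_mono (Set.singleton_subset_iff.mpr hζ.pow_eq_one)
  exact h2 (h1 ▸ Algebra.mem_top)

omit [NumberField K] [NumberField L] [IsGalois K L] in
/-- For odd `p` the Galois group of `K(ζ)/K` is cyclic. -/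
theorem symCheb_isCyclic [IsCyclotomicExtension {p ^ (n + 1)} K L] (hp2 : p ≠ 2) :
    IsCyclic (L ≃ₐ[K] L) := by
  haveI : NeZero (p ^ (n + 1)) := ⟨pow_ne_zero _ (Fact.out : p.Prime).ne_zero⟩
  haveI := ZMod.isCyclic_units_of_prime_pow p (Fact.out) hp2 (n + 1)
  exact isCyclic_of_injective (hζ.autToPow K) (hζ.autToPow_injective K)

/-- `⊇`: for `p` odd and `L = K(ζ)` there is a prime `v` of `K` of prime norm `ℓ ∉ S`, `ℓ ≠ p`,
such that every `σ ∈ Gal(L/K)` raises `ζ` to a power of `N v`. -/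
theorem symCheb_gen [IsCyclotomicExtension {p ^ (n + 1)} K L] (hp2 : p ≠ 2) (S : Finset ℕ) :
    ∃ v : HeightOneSpectrum (𝓞 K), (Ideal.absNorm v.asIdeal).Prime ∧
      Ideal.absNorm v.asIdeal ∉ S ∧ Ideal.absNorm v.asIdeal ≠ p ∧
      ∀ σ : L ≃ₐ[K] L, ∃ j : ℕ, σ ζ = ζ ^ ((Ideal.absNorm v.asIdeal) ^ j) := by
  haveI := symCheb_isCyclic p n K L ζ hζ hp2
  exact symCheb_gen_of_isCyclic p n K L ζ hζ S

end

section ZModForm

variable (p n : ℕ) [Fact p.Prime] [NeZero (p ^ (n + 1))] (K L : Type) [Field K] [NumberField K]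
  [Field L] [NumberField L] [Algebra K L] [IsGalois K L] (ζ : L)
  (hζ : IsPrimitiveRoot ζ (p ^ (n + 1)))

omit [Fact p.Prime] [NumberField K] [NumberField L] [IsGalois K L] in
/-- `σ ζ = ζ ^ k` iff the cyclotomic character of `σ` is the class of `k`. -/
theorem symCheb_apply_eq_pow_iff (σ : L ≃ₐ[K] L) (k : ℕ) :
    σ ζ = ζ ^ k ↔
      ((hζ.autToPow K σ : (ZMod (p ^ (n + 1)))ˣ) : ZMod (p ^ (n + 1))) = (k : ZMod (p ^ (n + 1))) := by
  have hfin : IsOfFinOrder ζ :=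
    isOfFinOrder_iff_pow_eq_one.mpr ⟨p ^ (n + 1), Nat.pos_of_ne_zero (NeZero.ne _), hζ.pow_eq_one⟩
  rw [← hζ.autToPow_spec K σ, hfin.pow_eq_pow_iff_modEq, ← hζ.eq_orderOf,
    ← ZMod.natCast_eq_natCast_iff, ZMod.natCast_zmod_val]

/-- `⊆` for the norm symbol: `ψ_K(I)` is the `(p-1)`-th power of the cyclotomic character of some
`σ ∈ Gal(L/K)`. -/
theorem symCheb_normSymbol_mem (I : Ideal (𝓞 K)) (hI : (Ideal.absNorm I).Coprime (p ^ (n + 1))) :
    ∃ σ : L ≃ₐ[K] L, normSymbol p n I = hζ.autToPow K σ ^ (p - 1) := by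
  have hI' : (Ideal.absNorm I).Coprime p :=
    (Nat.coprime_pow_right_iff (Nat.succ_pos n) _ _).mp hI
  obtain ⟨σ, hσ⟩ := symCheb_frob p n K L ζ hζ I hI'
  refine ⟨σ, ?_⟩
  apply Units.ext
  rw [coe_normSymbol_of_coprime hI, Units.val_pow_eq_pow_val,
    (symCheb_apply_eq_pow_iff p n K L ζ hζ σ _).mp hσ]

/-- `⊇` for the norm symbol (`p` odd, `L = K(ζ)`): there is a prime `v ∤ p` of `K`, of prime norm
outside `S`, such that the `(p-1)`-th power of the cyclotomic character of every `σ ∈ Gal(L/K)`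
is a power of `ψ_K(v)`. -/
theorem symCheb_exists_generator [IsCyclotomicExtension {p ^ (n + 1)} K L] (hp2 : p ≠ 2)
    (S : Finset ℕ) :
    ∃ v : HeightOneSpectrum (𝓞 K), (Ideal.absNorm v.asIdeal).Prime ∧
      Ideal.absNorm v.asIdeal ∉ S ∧ (Ideal.absNorm v.asIdeal).Coprime (p ^ (n + 1)) ∧
      ∀ σ : L ≃ₐ[K] L, ∃ j : ℕ, hζ.autToPow K σ ^ (p - 1) = normSymbol p n v.asIdeal ^ j := by
  obtain ⟨v, hvprime, hvS, hvp, hv⟩ := symCheb_gen p n K L ζ hζ hp2 S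
  have hcop : (Ideal.absNorm v.asIdeal).Coprime (p ^ (n + 1)) :=
    Nat.Coprime.pow_right _ ((Nat.coprime_primes hvprime (Fact.out : p.Prime)).mpr hvp)
  refine ⟨v, hvprime, hvS, hcop, fun σ => ?_⟩
  obtain ⟨j, hj⟩ := hv σ
  refine ⟨j, ?_⟩
  apply Units.ext
  rw [Units.val_pow_eq_pow_val, Units.val_pow_eq_pow_val, coe_normSymbol_of_coprime hcop,
    (symCheb_apply_eq_pow_iff p n K L ζ hζ σ _).mp hj, Nat.cast_pow, ← pow_mul, ← pow_mul,
    mul_comm]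

/-- **(C)** The image of the norm symbol `ψ_K` on the ideals prime to `p` is the image of
`Gal(K(ζ)/K)` under the `(p-1)`-th power of the cyclotomic character. -/
theorem symbolCheb_pow [IsCyclotomicExtension {p ^ (n + 1)} K L] (hp2 : p ≠ 2) :
    {u : (ZMod (p ^ (n + 1)))ˣ | ∃ I : Ideal (𝓞 K), (Ideal.absNorm I).Coprime (p ^ (n + 1)) ∧
        normSymbol p n I = u} =
      Set.range fun σ : L ≃ₐ[K] L => hζ.autToPow K σ ^ (p - 1) := by
  ext u
  constructor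
  · rintro ⟨I, hI, rfl⟩
    obtain ⟨σ, hσ⟩ := symCheb_normSymbol_mem p n K L ζ hζ I hI
    exact ⟨σ, hσ.symm⟩
  · rintro ⟨σ, rfl⟩
    obtain ⟨v, -, -, hcop, hv⟩ := symCheb_exists_generator p n K L ζ hζ hp2 ∅
    obtain ⟨j, hj⟩ := hv σ
    refine ⟨v.asIdeal ^ j, ?_, ?_⟩
    · rw [map_pow]; exact Nat.Coprime.pow_left j hcop
    · rw [normSymbol_pow hcop]
      exact hj.symm

/-- **(C)**, unpowered form: the classes mod `p^(n+1)` of the norms of the ideals prime to `p` are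
exactly the values of the cyclotomic character on `Gal(K(ζ)/K)`. -/
theorem symbolCheb [IsCyclotomicExtension {p ^ (n + 1)} K L] (hp2 : p ≠ 2) :
    {u : ZMod (p ^ (n + 1)) | ∃ I : Ideal (𝓞 K), (Ideal.absNorm I).Coprime (p ^ (n + 1)) ∧
        ((Ideal.absNorm I : ℕ) : ZMod (p ^ (n + 1))) = u} =
      Set.range fun σ : L ≃ₐ[K] L =>
        ((hζ.autToPow K σ : (ZMod (p ^ (n + 1)))ˣ) : ZMod (p ^ (n + 1))) := by
  ext u
  constructor
  · rintro ⟨I, hI, rfl⟩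
    have hI' : (Ideal.absNorm I).Coprime p :=
      (Nat.coprime_pow_right_iff (Nat.succ_pos n) _ _).mp hI
    obtain ⟨σ, hσ⟩ := symCheb_frob p n K L ζ hζ I hI'
    exact ⟨σ, (symCheb_apply_eq_pow_iff p n K L ζ hζ σ _).mp hσ⟩
  · rintro ⟨σ, rfl⟩
    obtain ⟨v, hvprime, -, hvp, hv⟩ := symCheb_gen p n K L ζ hζ hp2 ∅
    obtain ⟨j, hj⟩ := hv σ
    have hcop : (Ideal.absNorm v.asIdeal).Coprime (p ^ (n + 1)) :=
      Nat.Coprime.pow_right _ ((Nat.coprime_primes hvprime (Fact.out : p.Prime)).mpr hvp)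
    refine ⟨v.asIdeal ^ j, ?_, ?_⟩
    · rw [map_pow]; exact Nat.Coprime.pow_left j hcop
    · rw [map_pow]
      exact ((symCheb_apply_eq_pow_iff p n K L ζ hζ σ _).mp hj).symm

end ZModForm

section Intrinsic

variable (p n : ℕ) [Fact p.Prime] (K : Type) [Field K] [NumberField K]

/-- **(C), intrinsic form**: for `p` odd the norms of the ideals of `𝓞 K` prime to `p` are, modulo
`p^(n+1)`, powers of the norm of a single prime `v` of prime norm `ℓ ∉ S`, `ℓ ≠ p`. -/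
theorem symCheb_absNorm_exists_generator (hp2 : p ≠ 2) (S : Finset ℕ) :
    ∃ v : HeightOneSpectrum (𝓞 K), (Ideal.absNorm v.asIdeal).Prime ∧
      Ideal.absNorm v.asIdeal ∉ S ∧ (Ideal.absNorm v.asIdeal).Coprime (p ^ (n + 1)) ∧
      ∀ I : Ideal (𝓞 K), (Ideal.absNorm I).Coprime (p ^ (n + 1)) →
        ∃ j : ℕ, ((Ideal.absNorm I : ℕ) : ZMod (p ^ (n + 1))) =
          ((Ideal.absNorm v.asIdeal : ℕ) : ZMod (p ^ (n + 1))) ^ j := by
  haveI : NeZero (p ^ (n + 1)) := ⟨pow_ne_zero _ (Fact.out : p.Prime).ne_zero⟩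
  let L := CyclotomicField (p ^ (n + 1)) K
  haveI : NumberField L := IsCyclotomicExtension.numberField {p ^ (n + 1)} K L
  haveI : IsGalois K L := IsCyclotomicExtension.isGalois {p ^ (n + 1)} K L
  have hζ : IsPrimitiveRoot (IsCyclotomicExtension.zeta (p ^ (n + 1)) K L) (p ^ (n + 1)) :=
    IsCyclotomicExtension.zeta_spec (p ^ (n + 1)) K L
  obtain ⟨v, hvprime, hvS, hvp, hv⟩ := symCheb_gen p n K L _ hζ hp2 S
  have hcop : (Ideal.absNorm v.asIdeal).Coprime (p ^ (n + 1)) :=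
    Nat.Coprime.pow_right _ ((Nat.coprime_primes hvprime (Fact.out : p.Prime)).mpr hvp)
  refine ⟨v, hvprime, hvS, hcop, fun I hI => ?_⟩
  have hI' : (Ideal.absNorm I).Coprime p :=
    (Nat.coprime_pow_right_iff (Nat.succ_pos n) _ _).mp hI
  obtain ⟨σ, hσ⟩ := symCheb_frob p n K L _ hζ I hI'
  obtain ⟨j, hj⟩ := hv σ
  refine ⟨j, ?_⟩
  rw [← (symCheb_apply_eq_pow_iff p n K L _ hζ σ _).mp hσ,
    (symCheb_apply_eq_pow_iff p n K L _ hζ σ _).mp hj, Nat.cast_pow]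

/-- **(C), intrinsic form for the norm symbol**: for `p` odd the image of `ψ_K` is generated by
the symbol of a single prime `v` of prime norm `ℓ ∉ S`, `ℓ ≠ p`. -/
theorem normSymbol_exists_generator (hp2 : p ≠ 2) (S : Finset ℕ) :
    ∃ v : HeightOneSpectrum (𝓞 K), (Ideal.absNorm v.asIdeal).Prime ∧
      Ideal.absNorm v.asIdeal ∉ S ∧ (Ideal.absNorm v.asIdeal).Coprime (p ^ (n + 1)) ∧
      ∀ I : Ideal (𝓞 K), (Ideal.absNorm I).Coprime (p ^ (n + 1)) →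
        ∃ j : ℕ, normSymbol p n I = normSymbol p n v.asIdeal ^ j := by
  obtain ⟨v, hvprime, hvS, hcop, hv⟩ := symCheb_absNorm_exists_generator p n K hp2 S
  refine ⟨v, hvprime, hvS, hcop, fun I hI => ?_⟩
  obtain ⟨j, hj⟩ := hv I hI
  refine ⟨j, ?_⟩
  apply Units.ext
  rw [Units.val_pow_eq_pow_val, coe_normSymbol_of_coprime hI, coe_normSymbol_of_coprime hcop, hj,
    ← pow_mul, ← pow_mul, mul_comm]

end Intrinsic

end Fermat.Agent.PT.G3
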