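/-
PT-G3, piece `clt` (helper26): the cyclic layer theorem
`stmtCLT_of : StmtPsiNormGal → StmtNormIndexLe → StmtCLT`:
for `N / L` Galois, unramified outside `S`, with `Ψ_N = 0` and `[N : L] ≤ |ideal-symbol values|`,
the kernel of `Ψ_L` is contained in the norm subgroup of `N / L`.

Proof: `B := NormSub ⊆ ker Ψ_L` (psi-N), `|C/B| ≤ [N : L]` (normindex), the image of `Ψ_L` contains
the ideal-symbol values (they are powers of the symbol of one prime off `S`), so
`|C/B| ≤ |im Ψ_L|` and the induced map `C/B → im Ψ_L` is injective.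
-/
import Fermat.Agent.PT.G3.Plan3
import Fermat.Agent.PT.G3.SymbolCheb

set_option autoImplicit false
set_option linter.unusedSectionVars false
set_option linter.style.haveILetI false

namespace Fermat.Agent.PT.G3

open NumberField IsDedekindDomain
open Fermat.Agent.PT Fermat.Agent.PT.G Fermat.Agent.PT.G1

/-- A prime whose norm is a rational prime outside `S` is a prime off `S`. -/
theorem clt_off_of_absNorm (S : Finset Nat.Primes) {L : Type} [Field L] [NumberField L]
    (v : HeightOneSpectrum (𝓞 L)) (hprime : (Ideal.absNorm v.asIdeal).Prime)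
    (hS : Ideal.absNorm v.asIdeal ∉ S.image (fun q : Nat.Primes => (q : ℕ))) :
    ((sProd S : ℕ) : 𝓞 L) ∉ v.asIdeal := by
  intro hmem
  have hmem' : (∏ q ∈ S, ((q : ℕ) : 𝓞 L)) ∈ v.asIdeal := by
    have : ((sProd S : ℕ) : 𝓞 L) = ∏ q ∈ S, ((q : ℕ) : 𝓞 L) := by
      unfold sProd
      push_cast
      rfl
    rwa [this] at hmem
  obtain ⟨q, hqS, hq⟩ := (Ideal.IsPrime.prod_mem_iff (hp := v.isPrime)).mp hmem'
  have hne : (q : ℕ) ≠ Ideal.absNorm v.asIdeal := by
    intro h
    apply hS
    rw [Finset.mem_image]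
    exact ⟨q, hqS, h⟩
  have hcop : Nat.Coprime (q : ℕ) (Ideal.absNorm v.asIdeal) :=
    (Nat.coprime_primes q.2 hprime).mpr hne
  have hmem2 : ((Ideal.absNorm v.asIdeal : ℕ) : 𝓞 L) ∈ v.asIdeal := Ideal.absNorm_mem v.asIdeal
  obtain ⟨a, b, hab⟩ := Nat.isCoprime_iff_coprime.mpr hcop
  have h3 : ((a * ((q : ℕ) : ℤ) + b * (Ideal.absNorm v.asIdeal : ℤ) : ℤ) : 𝓞 L) ∈ v.asIdeal := by
    push_cast
    exact v.asIdeal.add_mem (v.asIdeal.mul_mem_left _ hq) (v.asIdeal.mul_mem_left _ hmem2)
  rw [hab] at h3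
  exact v.isPrime.ne_top ((Ideal.eq_top_iff_one _).mpr (by simpa using h3))

/-- **G3-clt**. -/
theorem stmtCLT_of (hN : StmtPsiNormGal) (hI : StmtNormIndexLe) : StmtCLT := by
  intro p n hp S hodd hpS L N _ _ _ _ _ _ hun hΨN hcard c hc
  obtain ⟨B, hB, hfin, hle⟩ := hI S L N hun
  -- `B ≤ ker Ψ_L`
  have hBker : B ≤ LinearMap.ker (psiC p n S L) := by
    intro b hb
    have hb' : b ∈ NormSub S L N := by rw [← hB]; exact hb
    obtain ⟨d, hd⟩ := hb'
    rw [LinearMap.mem_ker, hN p n S hodd hpS L N b d hd, hΨN d]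
  set f := B.liftQ (psiC p n S L) hBker with hf
  have hp2 : p ≠ 2 := by
    rintro rfl
    exact absurd hodd (by decide)
  -- the image of `f` contains the ideal-symbol values
  obtain ⟨v, hvprime, hvS, -, hv⟩ :=
    normSymbol_exists_generator p n L hp2 (S.image (fun q : Nat.Primes => (q : ℕ)))
  set v' : OffS S L := ⟨v, clt_off_of_absNorm S v hvprime hvS⟩ with hv'
  have hval : ∀ u : {u : (ZMod (p ^ (n + 1)))ˣ | ∃ I : Ideal (𝓞 L),
      (Ideal.absNorm I).Coprime (p ^ (n + 1)) ∧ normSymbol p n I = u},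
      Additive.ofMul (u : (ZMod (p ^ (n + 1)))ˣ) ∈ Set.range f := by
    rintro ⟨u, I, hIcop, rfl⟩
    obtain ⟨j, hj⟩ := hv I hIcop
    refine ⟨B.mkQ (csOfDiv S L (Finsupp.single v' (j : ℤ))), ?_⟩
    rw [hf, Submodule.mkQ_apply, Submodule.liftQ_apply, psiC_csOfDiv_single p n S L hodd hpS,
      zpow_natCast]
    show Additive.ofMul (normSymbol p n v.asIdeal ^ j) = Additive.ofMul (normSymbol p n I)
    rw [hj]
  haveI : Finite (CS S L ⧸ B) := hfin
  have hcard1 : Nat.card {u : (ZMod (p ^ (n + 1)))ˣ | ∃ I : Ideal (𝓞 L),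
      (Ideal.absNorm I).Coprime (p ^ (n + 1)) ∧ normSymbol p n I = u} ≤
      Nat.card (Set.range f) := by
    haveI : Finite (Set.range f) := Set.finite_range f
    refine Nat.card_le_card_of_injective (fun u => ⟨Additive.ofMul (u : (ZMod (p ^ (n + 1)))ˣ),
      hval u⟩) ?_
    intro u u' huu'
    have h1 := congrArg Subtype.val huu'
    exact Subtype.ext (Additive.ofMul.injective h1)
  have hsurj : Function.Surjective (Set.rangeFactorization f) := Set.rangeFactorization_surjective
  have hbij : Function.Bijective (Set.rangeFactorization f) :=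
    hsurj.bijective_of_nat_card_le (hle.trans (hcard.trans hcard1))
  have hinj : Function.Injective f := by
    intro x y hxy
    apply hbij.1
    exact Subtype.ext hxy
  have h0 : B.mkQ c = 0 := by
    apply hinj
    rw [map_zero, hf, Submodule.mkQ_apply, Submodule.liftQ_apply]
    exact hc
  have hcB : c ∈ B := (Submodule.Quotient.mk_eq_zero B).mp h0
  have : c ∈ (B : Set (CS S L)) := hcB
  rwa [hB] at this

end Fermat.Agent.PT.G3
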