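import Fermat.Agent.PT.G3.Plan
import Fermat.Agent.PT.A.InfRes2

/-!
# PT-G3 piece `dev` (dévissage)

`stmtDevissage : StmtDevissage`: the layer hypothesis implies `H¹(P, C) = 0` and
`|H²(P, C)| ≤ |P|` for every `p`-subgroup `P`.

Induction on `|P|`: a nontrivial `p`-group `P` has a normal subgroup `P'` of index `p`;
inflation–restriction in degree 1 (Mathlib `H1InfRes_exact`) and in degree 2 (`stmtInfRes₂`) for
`P' ◁ P`, and the induction hypothesis for the image of `P'` in `G`.
-/

set_option autoImplicit false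

namespace Fermat.Agent.PT.G3.Dev

open CategoryTheory groupCohomology Fermat.Agent.PT

attribute [local instance 1100] Rep.hV2

/-- Counting in a sequence `X₁ → X₂ → X₃` exact in the middle. -/
lemma finite_card_le_of_exact {X₁ X₂ X₃ : Type} [AddCommGroup X₁] [AddCommGroup X₂]
    [AddCommGroup X₃] (f : X₁ →+ X₂) (g : X₂ →+ X₃)
    (hex : ∀ x : X₂, g x = 0 → ∃ y : X₁, f y = x) [Finite X₁] [Finite X₃] :
    Finite X₂ ∧ Nat.card X₂ ≤ Nat.card X₁ * Nat.card X₃ := by
  classical
  -- a section of `g` on its range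
  have hs : ∀ z : X₃, ∃ x : X₂, (∃ x' : X₂, g x' = z) → g x = z := by
    intro z
    by_cases h : ∃ x' : X₂, g x' = z
    · obtain ⟨x', hx'⟩ := h
      exact ⟨x', fun _ => hx'⟩
    · exact ⟨0, fun h' => absurd h' h⟩
  choose s hs using hs
  have hk : ∀ x : X₂, g (x - s (g x)) = 0 := by
    intro x
    rw [map_sub, hs (g x) ⟨x, rfl⟩, sub_self]
  choose σ hσ using fun x : X₂ => hex (x - s (g x)) (hk x)
  let F : X₂ → X₁ × X₃ := fun x => (σ x, g x)
  have hF : Function.Injective F := by
    intro x x' h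
    have h1 : σ x = σ x' := congrArg Prod.fst h
    have h2 : g x = g x' := congrArg Prod.snd h
    have h3 : x - s (g x) = x' - s (g x') := by
      rw [← hσ x, ← hσ x', h1]
    rw [h2] at h3
    exact sub_left_injective h3
  have hfin : Finite X₂ := Finite.of_injective F hF
  refine ⟨hfin, ?_⟩
  have := Nat.card_le_card_of_injective F hF
  rwa [Nat.card_prod] at this

/-- A nontrivial finite `p`-group has a normal subgroup of index `p`. -/
lemma exists_normal_index_eq (p : ℕ) [Fact p.Prime] (P : Type) [Group P] [Finite P]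
    (hP : IsPGroup p P) (hne : Nat.card P ≠ 1) :
    ∃ P' : Subgroup P, P'.Normal ∧ P'.index = p := by
  obtain ⟨a, ha⟩ := (IsPGroup.iff_card (p := p) (G := P)).1 hP
  have hp : p.Prime := Fact.out
  have ha0 : a ≠ 0 := by
    rintro rfl
    exact hne (by simpa using ha)
  obtain ⟨b, rfl⟩ : ∃ b, a = b + 1 := ⟨a - 1, by omega⟩
  obtain ⟨K, hK⟩ := Sylow.exists_subgroup_card_pow_prime p (n := b) (G := P)
    (by rw [ha]; exact pow_dvd_pow p (Nat.le_succ b))
  have hidx : K.index = p := by
    have h1 := K.card_mul_index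
    rw [hK, ha, pow_succ] at h1
    exact Nat.eq_of_mul_eq_mul_left (pow_pos hp.pos b) h1
  refine ⟨K, ?_, hidx⟩
  apply Subgroup.normal_of_index_eq_minFac_card
  rw [hidx, ha, hp.pow_minFac (Nat.succ_ne_zero b)]

variable {G : Type} [Group G]

/-- The cohomology of `P' ≤ P ≤ G` is the cohomology of the image of `P'` in `G`. -/
noncomputable def transIso (C : Rep.{0} ℤ G) (P : Subgroup G) (P' : Subgroup ↥P) (n : ℕ) :
    groupCohomology (Rep.res P'.subtype (Rep.res P.subtype C)) n ≅
      groupCohomology (Rep.res (P'.map P.subtype).subtype C) n :=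
  groupCohomology.mapIso (A := Rep.res (P'.map P.subtype).subtype C)
    (B := Rep.res P'.subtype (Rep.res P.subtype C))
    (P'.equivMapOfInjective P.subtype P.subtype_injective)
    (LinearEquiv.refl ℤ C.V) (fun g => by ext; rfl) n

/-- The trivial case. -/
lemma pbound_of_card_eq_one (C : Rep.{0} ℤ G) (P : Subgroup G) (h : Nat.card P = 1) :
    Subsingleton (H1 (Rep.res P.subtype C)) ∧
    Finite (H2 (Rep.res P.subtype C)) ∧
    Nat.card (H2 (Rep.res P.subtype C)) ≤ Nat.card P := by
  have : Subsingleton ↥P := (Nat.card_eq_one_iff_unique.1 h).1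
  have h1 : Subsingleton (H1 (Rep.res P.subtype C)) :=
    ModuleCat.subsingleton_of_isZero
      (isZero_groupCohomology_succ_of_subsingleton (Rep.res P.subtype C) 0)
  have h2 : Subsingleton (H2 (Rep.res P.subtype C)) :=
    ModuleCat.subsingleton_of_isZero
      (isZero_groupCohomology_succ_of_subsingleton (Rep.res P.subtype C) 1)
  refine ⟨h1, inferInstance, ?_⟩
  rw [h, Nat.card_eq_one_iff_unique.2 ⟨h2, ⟨0⟩⟩]

/-- The induction step. -/
lemma pbound_step (p : ℕ) [Fact p.Prime] [Finite G] (C : Rep.{0} ℤ G) (hL : LayerHyp p C)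
    (P : Subgroup G) (hP : IsPGroup p P) (hne : Nat.card P ≠ 1)
    (ih : ∀ Q : Subgroup G, Nat.card Q < Nat.card P → IsPGroup p Q →
      Subsingleton (H1 (Rep.res Q.subtype C)) ∧
      Finite (H2 (Rep.res Q.subtype C)) ∧
      Nat.card (H2 (Rep.res Q.subtype C)) ≤ Nat.card Q) :
    Subsingleton (H1 (Rep.res P.subtype C)) ∧
    Finite (H2 (Rep.res P.subtype C)) ∧
    Nat.card (H2 (Rep.res P.subtype C)) ≤ Nat.card P := by
  have hp : p.Prime := Fact.out
  obtain ⟨P', hN, hidx⟩ := exists_normal_index_eq p ↥P hP hne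
  have := hN
  -- the image of `P'` in `G`
  have hle : P'.map P.subtype ≤ P := Subgroup.map_subtype_le P'
  have hP'' : IsPGroup p ↥(P'.map P.subtype) := hP.to_le hle
  have hcard'' : Nat.card ↥(P'.map P.subtype) = Nat.card ↥P' :=
    (Nat.card_congr (P'.equivMapOfInjective P.subtype P.subtype_injective).toEquiv).symm
  have hmul : Nat.card ↥P' * p = Nat.card ↥P := by
    rw [← hidx]
    exact P'.card_mul_index
  have hpos : 0 < Nat.card ↥P' := Nat.card_pos
  have hlt : Nat.card ↥(P'.map P.subtype) < Nat.card ↥P := by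
    rw [hcard'', ← hmul]
    calc Nat.card ↥P' = Nat.card ↥P' * 1 := (mul_one _).symm
      _ < Nat.card ↥P' * p := Nat.mul_lt_mul_of_pos_left hp.one_lt hpos
  obtain ⟨i1, i2, i3⟩ := ih _ hlt hP''
  -- transport to `P' ≤ P`
  let A : Rep.{0} ℤ ↥P := Rep.res P.subtype C
  have e1 : H1 (Rep.res P'.subtype A) ≃ H1 (Rep.res (P'.map P.subtype).subtype C) :=
    (transIso C P P' 1).toLinearEquiv.toEquiv
  have e2 : H2 (Rep.res P'.subtype A) ≃ H2 (Rep.res (P'.map P.subtype).subtype C) :=
    (transIso C P P' 2).toLinearEquiv.toEquiv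
  have j1 : Subsingleton (H1 (Rep.res P'.subtype A)) := e1.subsingleton
  have j2 : Finite (H2 (Rep.res P'.subtype A)) := Finite.of_equiv _ e2.symm
  have j3 : Nat.card (H2 (Rep.res P'.subtype A)) ≤ Nat.card ↥P' := by
    rw [Nat.card_congr e2, ← hcard'']
    exact i3
  -- the layer
  obtain ⟨l1, l2, l3⟩ := hL P hP P' hidx
  -- degree 1
  have hX1 : Limits.IsZero (H1InfRes A P').X₁ := @ModuleCat.isZero_of_subsingleton _ _ _ l1
  have hX3 : Limits.IsZero (H1InfRes A P').X₃ := @ModuleCat.isZero_of_subsingleton _ _ _ j1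
  have hX2 : Limits.IsZero (H1InfRes A P').X₂ :=
    (H1InfRes_exact A P').isZero_of_both_zeros (hX1.eq_of_src _ _) (hX3.eq_of_tgt _ _)
  have k1 : Subsingleton (H1 A) := ModuleCat.subsingleton_of_isZero hX2
  -- degree 2
  obtain ⟨-, hex⟩ := stmtInfRes₂ ↥P P' A j1
  have : Finite (H2 (A.quotientToInvariants P')) := l2
  have : Finite (H2 (Rep.res P'.subtype A)) := j2
  obtain ⟨k2, k3⟩ := finite_card_le_of_exact
    (X₁ := H2 (A.quotientToInvariants P')) (X₂ := H2 A) (X₃ := H2 (Rep.res P'.subtype A))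
    ((infNatTrans ℤ P' 2).app A).hom.toAddMonoidHom (resSub A P' 2).hom.toAddMonoidHom hex
  refine ⟨k1, k2, k3.trans ?_⟩
  rw [← hmul, mul_comm]
  exact Nat.mul_le_mul j3 l3

end Fermat.Agent.PT.G3.Dev

namespace Fermat.Agent.PT.G3

open CategoryTheory groupCohomology Fermat.Agent.PT

/-- **G3-dev** (dévissage). -/
theorem stmtDevissage : StmtDevissage := by
  intro p _ G _ _ C hL
  have key : ∀ n : ℕ, ∀ P : Subgroup G, Nat.card P = n → IsPGroup p P →
      Subsingleton (H1 (Rep.res P.subtype C)) ∧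
      Finite (H2 (Rep.res P.subtype C)) ∧
      Nat.card (H2 (Rep.res P.subtype C)) ≤ Nat.card P := by
    intro n
    induction n using Nat.strong_induction_on with
    | _ n ih =>
      intro P hn hP
      by_cases h1 : Nat.card P = 1
      · exact Dev.pbound_of_card_eq_one C P h1
      · exact Dev.pbound_step p C hL P hP h1
          (fun Q hQ hQp => ih (Nat.card Q) (hn ▸ hQ) Q rfl hQp)
  exact fun P hP => key _ P rfl hP

end Fermat.Agent.PT.G3
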