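/-
PT-G3, piece `fund` (helper30): a class `u ∈ H²(G, C)` whose order is divisible by the `p`-part
of `|G|` is a `p`-fundamental class as soon as `|H²(P, C)| ≤ |P|` and `H¹(P, C) = 0` for all
`p`-subgroups `P` (`cor ∘ res = index`).
-/
import Fermat.Agent.PT.G3.Plan
import Fermat.Agent.PT.A.Sylow

set_option autoImplicit false

namespace Fermat.Agent.PT.G3

open CategoryTheory groupCohomology Fermat.Agent.PT

/-- Arithmetic: if `p ^ v_p(p^b * i)` divides `i * k` then `p ^ b` divides `k`. -/
theorem fundOfOrder_dvd {p : ℕ} (hp : p.Prime) {b i k : ℕ} (hi : i ≠ 0)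
    (h : p ^ (p ^ b * i).factorization p ∣ i * k) : p ^ b ∣ k := by
  by_cases hk : k = 0
  · subst hk; exact dvd_zero _
  have hpb : p ^ b ≠ 0 := pow_ne_zero _ hp.ne_zero
  have h1 : (p ^ b * i).factorization p = b + i.factorization p := by
    rw [Nat.factorization_mul hpb hi, Finsupp.add_apply, Nat.factorization_pow,
      Finsupp.smul_apply, hp.factorization_self, smul_eq_mul, mul_one]
  rw [h1, hp.pow_dvd_iff_le_factorization (mul_ne_zero hi hk), Nat.factorization_mul hi hk,
    Finsupp.add_apply] at h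
  rw [hp.pow_dvd_iff_le_factorization hk]
  omega

/-- A finite abelian group of order `≤ m` containing an element whose order is divisible by `m`
is cyclic of order `m`, generated by this element. -/
theorem fundOfOrder_cyclic {X : Type*} [AddCommGroup X] [Finite X] {m : ℕ} (_hm : 0 < m)
    (hcard : Nat.card X ≤ m) (r : X) (hr : ∀ k : ℕ, k • r = 0 → m ∣ k) :
    Nat.card X = m ∧ ∀ x : X, ∃ n : ℤ, n • r = x := by
  have h1 : m ∣ addOrderOf r := hr _ (addOrderOf_nsmul_eq_zero r)
  have h2 : addOrderOf r ∣ Nat.card X := addOrderOf_dvd_natCard r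
  have hpos : 0 < addOrderOf r := addOrderOf_pos r
  have hXpos : 0 < Nat.card X := Nat.card_pos
  have h3 : m ≤ addOrderOf r := Nat.le_of_dvd hpos h1
  have h4 : addOrderOf r ≤ Nat.card X := Nat.le_of_dvd hXpos h2
  have hcardeq : Nat.card X = m := le_antisymm hcard (h3.trans h4)
  have hord : addOrderOf r = Nat.card X := le_antisymm h4 (hcardeq ▸ h3)
  refine ⟨hcardeq, fun x => ?_⟩
  have htop : AddSubgroup.zmultiples r = ⊤ := by
    apply AddSubgroup.eq_top_of_card_eq
    rw [Nat.card_zmultiples, hord]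
  have hx : x ∈ AddSubgroup.zmultiples r := by rw [htop]; trivial
  exact AddSubgroup.mem_zmultiples_iff.mp hx

/-- **G3-fund**. -/
theorem stmtFundOfOrder : StmtFundOfOrder := by
  intro p _ G _ _ C u hB hord
  have hp : p.Prime := Fact.out
  -- key: for every `p`-subgroup `H`, the order of `res_H u` is divisible by `|H|`
  have key : ∀ H : Subgroup G, IsPGroup p H → ∀ k : ℕ,
      k • (resSub C H 2).hom u = 0 → Nat.card H ∣ k := by
    intro H hH k hk
    have h1 : (resSub C H 2).hom (k • u) = 0 := by rw [map_nsmul, hk]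
    have h2 : H.index • (k • u) = 0 :=
      SylowRes.index_smul_eq_zero_of_res_eq_zero H 1 C (k • u) h1
    rw [← mul_smul] at h2
    have h3 := hord _ h2
    obtain ⟨b, hb⟩ := hH.exists_card_eq
    have hidx : H.index ≠ 0 := Subgroup.index_ne_zero_of_finite
    rw [← Subgroup.card_mul_index H, hb] at h3
    rw [hb]
    exact fundOfOrder_dvd hp hidx h3
  have hcyc : ∀ H : Subgroup G, IsPGroup p H →
      Nat.card (H2 (Rep.res H.subtype C)) = Nat.card H ∧
        ∀ x : H2 (Rep.res H.subtype C), ∃ n : ℤ, n • (resSub C H 2).hom u = x := by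
    intro H hH
    obtain ⟨-, hfin, hcard⟩ := hB H hH
    exact fundOfOrder_cyclic Nat.card_pos hcard _ (key H hH)
  exact ⟨fun H hH => (hB H hH).1, fun H hH => (hcyc H hH).1, fun H hH => (hcyc H hH).2⟩

end Fermat.Agent.PT.G3
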