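/-
PT-G3 / GA (helper72): assembly of the `p`-fundamental class of `C_S(L)`.

`stmtGA_of` : all the PT-G3 pieces together give `StmtGA` (and `B.StmtGA`):
for `L / ℚ` Galois, unramified outside `S ∋ p`, `p` odd, the class module `C_S(L)` has a
`p`-fundamental class.  Recipe: helper47 (NOTES/PT-G3.md): `N = L·ℚ_n` from `StmtCyc`,
`G = Aut(N) ↠ Q = Aut(L)`, `a₀` = the image of the class of a prime `ℓ` whose symbol generates.
-/
import Fermat.Agent.PT.G3.Plan3
import Fermat.Agent.PT.B.Plan4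

set_option autoImplicit false
set_option maxHeartbeats 400000
set_option linter.style.haveILetI false
set_option linter.unusedSectionVars false

namespace Fermat.Agent.PT.G3

open CategoryTheory groupCohomology NumberField IsDedekindDomain
open Fermat.Agent.PT Fermat.Agent.PT.G Fermat.Agent.PT.G1

section fields

variable (S : Finset Nat.Primes)
variable (L N : Type) [Field L] [NumberField L] [Field N] [NumberField N] [Algebra L N]

/-- restriction `Aut(N) → Aut(L)` for `L / ℚ` normal. -/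
noncomputable def gaRes [Normal ℚ L] : (N ≃ₐ[ℚ] N) →* (L ≃ₐ[ℚ] L) :=
  AlgEquiv.restrictNormalHom L

lemma ga_restricts [Normal ℚ L] (σ : N ≃ₐ[ℚ] N) : Restricts σ (gaRes L N σ) := by
  intro x
  exact (AlgEquiv.restrictNormal_commutes σ L x).symm

lemma ga_res_surjective [Normal ℚ L] [Normal ℚ N] : Function.Surjective (gaRes L N) :=
  AlgEquiv.restrictNormalHom_surjective N

lemma ga_ker_res [Normal ℚ L] : (gaRes L N).ker = relAut L N := by
  ext σ
  rw [MonoidHom.mem_ker, mem_relAut]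
  constructor
  · intro h x
    have := ga_restricts L N σ x
    rw [h] at this
    exact this
  · intro h
    apply AlgEquiv.ext
    intro x
    apply (algebraMap L N).injective
    rw [← ga_restricts L N σ x, h x]
    rfl

/-- `csMap` as a morphism of representations. -/
noncomputable def gaPhi [Normal ℚ L] : Rep.res (gaRes L N) (csRep S L) ⟶ csRep S N :=
  Rep.ofHom
    { toLinearMap := csMap S L N
      isIntertwining' := fun g => LinearMap.ext fun c =>
        (csEnd_csMap S (ga_restricts L N g) c).symm }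

lemma gaPhi_hom [Normal ℚ L] (c : CS S L) : (gaPhi S L N).hom c = csMap S L N c := rfl

end fields

section fixed

variable (N : Type) [Field N] [NumberField N]

lemma ga_relAut_fixedField (H : Subgroup (N ≃ₐ[ℚ] N)) :
    relAut ↥(IntermediateField.fixedField H) N = H := by
  conv_rhs => rw [← IntermediateField.fixingSubgroup_fixedField H]
  ext σ
  rw [mem_relAut, IntermediateField.mem_fixingSubgroup_iff]
  constructor
  · intro h x hx
    exact h ⟨x, hx⟩
  · intro h x
    exact h x.1 x.2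

lemma ga_finrank_fixedField [IsGalois ℚ N] (H : Subgroup (N ≃ₐ[ℚ] N)) :
    Module.finrank ℚ ↥(IntermediateField.fixedField H) = H.index := by
  have h1 := IntermediateField.finrank_fixedField_eq_card H
  have h2 := Module.finrank_mul_finrank ℚ ↥(IntermediateField.fixedField H) N
  have h3 := IsGalois.card_aut_eq_finrank ℚ N
  have h4 := H.index_mul_card
  rw [h1, ← h3, ← h4] at h2
  have hpos : 0 < Nat.card ↥H := Nat.card_pos
  exact Nat.eq_of_mul_eq_mul_right hpos h2

/-- the inclusion algebra between fixed fields -/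
noncomputable abbrev gaAlg {P H : Subgroup (N ≃ₐ[ℚ] N)} (hle : H ≤ P) :
    Algebra ↥(IntermediateField.fixedField P) ↥(IntermediateField.fixedField H) :=
  (IntermediateField.inclusion (IntermediateField.fixedField_antitone hle)).toRingHom.toAlgebra

lemma ga_tower {P H : Subgroup (N ≃ₐ[ℚ] N)} (hle : H ≤ P) :
    letI := gaAlg N hle
    IsScalarTower ↥(IntermediateField.fixedField P) ↥(IntermediateField.fixedField H) N := by
  letI := gaAlg N hle
  exact IsScalarTower.of_algebraMap_eq (fun x => rfl)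

lemma ga_isGalois [IsGalois ℚ N] {P H : Subgroup (N ≃ₐ[ℚ] N)} (hle : H ≤ P)
    (hn : ∀ σ ∈ P, ∀ τ ∈ H, σ⁻¹ * τ * σ ∈ H) :
    letI := gaAlg N hle
    IsGalois ↥(IntermediateField.fixedField P) ↥(IntermediateField.fixedField H) := by
  letI := gaAlg N hle
  have hFM : IntermediateField.fixedField P ≤ IntermediateField.fixedField H :=
    IntermediateField.fixedField_antitone hle
  haveI : IsGalois ↥(IntermediateField.fixedField P) N := IsGalois.tower_top_intermediateField _
  set M' := IntermediateField.extendScalars hFM with hM'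
  have hnorm : Normal ↥(IntermediateField.fixedField P) ↥M' := by
    rw [IntermediateField.normal_iff_forall_map_le']
    intro σ y hy
    rw [IntermediateField.mem_map] at hy
    obtain ⟨x, hx, rfl⟩ := hy
    rw [hM', IntermediateField.mem_extendScalars] at hx ⊢
    rw [IntermediateField.mem_fixedField_iff] at hx ⊢
    intro τ hτ
    have hσP : (σ.restrictScalars ℚ) ∈ P := by
      have hmem : (σ.restrictScalars ℚ) ∈ (IntermediateField.fixedField P).fixingSubgroup := by
        rw [IntermediateField.mem_fixingSubgroup_iff]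
        intro z hz
        exact σ.commutes ⟨z, hz⟩
      rwa [IntermediateField.fixingSubgroup_fixedField] at hmem
    have := hx _ (hn _ hσP τ hτ)
    have h2 : (σ.restrictScalars ℚ) (((σ.restrictScalars ℚ)⁻¹ * τ * (σ.restrictScalars ℚ)) x) = τ (σ x) := by
      show (σ.restrictScalars ℚ) ((σ.restrictScalars ℚ).symm (τ (σ x))) = τ (σ x)
      exact (σ.restrictScalars ℚ).apply_symm_apply _
    rw [this] at h2
    exact h2.symm
  haveI : IsGalois ↥(IntermediateField.fixedField P) ↥M' := ⟨⟩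
  let e : ↥M' ≃ₐ[↥(IntermediateField.fixedField P)] ↥(IntermediateField.fixedField H) :=
    { toFun := fun x => ⟨x.1, (IntermediateField.mem_extendScalars hFM).1 x.2⟩
      invFun := fun x => ⟨x.1, (IntermediateField.mem_extendScalars hFM).2 x.2⟩
      left_inv := fun x => rfl
      right_inv := fun x => rfl
      map_mul' := fun x y => rfl
      map_add' := fun x y => rfl
      commutes' := fun x => rfl }
  exact IsGalois.of_algEquiv e

end fixed

section transport

lemma ga_sum_sub {G X : Type} [Group G] [AddCommMonoid X] (ρ : G → X → X) (d x : X)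
    (B B' : Subgroup G) (hB : B' = B) (h : x = ∑ᶠ b : ↥B', ρ (b : G) d) :
    x = ∑ᶠ b : ↥B, ρ (b : G) d := by
  subst hB; exact h

lemma ga_sum_quot {G X : Type} [Group G] [AddCommMonoid X] (ρ : G → X → X) (d x : X)
    (P A P' H' : Subgroup G) (hP : P' = P) (hH : H' = P ⊓ A)
    (h : x = ∑ᶠ t : ↥P ⧸ A.subgroupOf P, ρ ((Quotient.out t : ↥P) : G) d) :
    x = ∑ᶠ t : ↥P' ⧸ H'.subgroupOf P', ρ ((Quotient.out t : ↥P') : G) d := by
  subst hP hH
  have e : (P' ⊓ A).subgroupOf P' = A.subgroupOf P' := Subgroup.inf_subgroupOf_left ..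
  rw [e]; exact h

end transport

section core

/-- The assembly, with the cyclotomic data unbundled. -/
theorem ga_core (hFA : StmtFundAbs) (hLayer : StmtLayer) (hInj : G.StmtCSMapInj)
    (hDesc : G.StmtCSDescent) (hComp : StmtCSMapComp) (hTower : StmtUnramTower)
    (hSyl : StmtSylowNorm) (hM : StmtPsiMap) (hN : StmtPsiNormGal) (hUp : StmtPsiUp)
    (hZ : StmtPsiZ) (hTors : StmtPsiTors) (hCLT : StmtCLT)
    (p : ℕ) [hp : Fact p.Prime] (S : Finset Nat.Primes) (hp2 : p ≠ 2)
    (hpS : (⟨p, hp.out⟩ : Nat.Primes) ∈ S)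
    (L : Type) [Field L] [NumberField L] [IsGalois ℚ L] (hL : UnramOffRel S ℚ L)
    (n : ℕ) (hn : n = (Nat.card (L ≃ₐ[ℚ] L)).factorization p)
    (v : OffS S ℚ)
    (hv : ∀ k : ℕ, k • psiC p n S ℚ (csOfDiv S ℚ (Finsupp.single v 1)) = 0 → p ^ n ∣ k)
    (N : Type) [Field N] [NumberField N] [Algebra L N] [IsGalois ℚ N] [IsGalois L N]
    (unram : UnramOffRel S ℚ N) (pgroup : IsPGroup p ↥(relAut L N))
    (card_le : Module.finrank L N ≤ Nat.card {u : (ZMod (p ^ (n + 1)))ˣ | ∃ I : Ideal (𝓞 L),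
      (Ideal.absNorm I).Coprime (p ^ (n + 1)) ∧ normSymbol p n I = u})
    (θ : (N ≃ₐ[ℚ] N) →* Multiplicative (ZMod (p ^ n))) (θ_surj : Function.Surjective θ)
    (E' : Type) [Field E'] [NumberField E'] [Algebra ↥(IntermediateField.fixedField θ.ker) E']
    (coprime : (Module.finrank ↥(IntermediateField.fixedField θ.ker) E').Coprime p)
    (ζ : 𝓞 E') (hζ : IsPrimitiveRoot ζ (p ^ (n + 1))) :
    ∃ u : H2 (csRep S L), IsPFundClass p (csRep S L) u := by
  have hS : S.Nonempty := ⟨_, hpS⟩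
  have hodd : Odd p := hp.out.odd_of_ne_two hp2
  obtain ⟨hLN, -⟩ := hTower S ℚ L N unram
  set c₀ : CS S ℚ := csOfDiv S ℚ (Finsupp.single v 1) with hc₀
  -- `Ψ = 0` on `E = N^{ker θ}` and on `N`
  have hΨE : ∀ c : CS S ↥(IntermediateField.fixedField θ.ker),
      psiC p n S ↥(IntermediateField.fixedField θ.ker) c = 0 :=
    hZ p n S hodd hpS _ E' coprime ζ hζ
  have hΨN : ∀ c : CS S N, psiC p n S N c = 0 := hUp p n S hodd hpS _ N hΨE
  haveI : NeZero (p ^ n) := inferInstance
  obtain ⟨P⟩ : Nonempty (Sylow p (N ≃ₐ[ℚ] N)) := inferInstance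
  have hker : (gaRes L N).ker = relAut L N := ga_ker_res L N
  refine hFA p (N ≃ₐ[ℚ] N) (L ≃ₐ[ℚ] L) (gaRes L N) (ga_res_surjective L N) ?_
    (csRep S L) (csRep S N) (gaPhi S L N) ?_ ?_ ?_ ?_ θ.ker (p ^ n) θ θ_surj rfl ?_ P
    (csMap S ℚ N c₀) ?_ ?_ ?_
  · -- the kernel is a `p`-group
    rw [hker]; exact pgroup
  · -- injectivity
    exact hInj S L N hS
  · -- descent
    intro c hc
    refine hDesc S L N hS hLN c ?_
    intro σ hσ
    exact hc σ (hker ▸ (mem_relAut L N σ).2 hσ)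
  · exact hLayer p hp2 S hS N unram
  · exact hLayer p hp2 S hS L hL
  · rw [hn]
  · -- `a₀` is invariant
    intro g
    exact csEnd_csMap_of_fixes S (fun x => g.commutes x) c₀
  · -- (i) `a₀` is a norm from `ker f`
    have hΨL : psiC p n S L (csMap S ℚ L c₀) = 0 := by
      rw [hM p n S hodd hpS ℚ L c₀]
      have hdvd : p ^ n ∣ Module.finrank ℚ L := by
        rw [← IsGalois.card_aut_eq_finrank ℚ L, hn]
        exact Nat.ordProj_dvd _ _
      obtain ⟨m, hm⟩ := hdvd
      rw [hm, mul_comm, mul_smul, hTors p n S ℚ c₀, smul_zero]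
    obtain ⟨d, hd⟩ := hCLT p n S hodd hpS L N hLN hΨN card_le (csMap S ℚ L c₀) hΨL
    rw [hComp S ℚ L N c₀] at hd
    exact ⟨d, ga_sum_sub (fun g x => csEnd S g x) d _ _ _ hker.symm hd⟩
  · -- (iii) no multiple `k a₀`, `p^n ∤ k`, is a Sylow norm
    rintro k ⟨d, hdinv, hdsum⟩
    have hle : (P : Subgroup (N ≃ₐ[ℚ] N)) ⊓ θ.ker ≤ (P : Subgroup (N ≃ₐ[ℚ] N)) := inf_le_left
    have hle' : (P : Subgroup (N ≃ₐ[ℚ] N)) ⊓ θ.ker ≤ θ.ker := inf_le_right
    letI algFM := gaAlg N hle
    haveI := ga_tower N hle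
    haveI : IsGalois ↥(IntermediateField.fixedField (P : Subgroup (N ≃ₐ[ℚ] N)))
        ↥(IntermediateField.fixedField ((P : Subgroup (N ≃ₐ[ℚ] N)) ⊓ θ.ker)) := by
      refine ga_isGalois N hle ?_
      intro σ hσ τ hτ
      refine ⟨?_, ?_⟩
      · exact Subgroup.mul_mem _ (Subgroup.mul_mem _ (Subgroup.inv_mem _ hσ) hτ.1) hσ
      · have h3 : σ⁻¹ * τ * σ = σ⁻¹ * τ * σ⁻¹⁻¹ := by rw [inv_inv]
        rw [h3]
        exact (inferInstance : θ.ker.Normal).conj_mem τ hτ.2 σ⁻¹
    have hP₀ := ga_relAut_fixedField N (P : Subgroup (N ≃ₐ[ℚ] N))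
    have hP₁ := ga_relAut_fixedField N ((P : Subgroup (N ≃ₐ[ℚ] N)) ⊓ θ.ker)
    have hsyl := hSyl S hS N unram ↥(IntermediateField.fixedField (P : Subgroup (N ≃ₐ[ℚ] N)))
      ↥(IntermediateField.fixedField ((P : Subgroup (N ≃ₐ[ℚ] N)) ⊓ θ.ker)) (k • c₀) d
      (fun x hx => hdinv x (hP₁ ▸ hx))
      (by
        rw [map_nsmul]
        exact ga_sum_quot (fun g x => csEnd S g x) d _ _ _ _ _ hP₀ hP₁ hdsum)
    obtain ⟨d', hd'⟩ := hsyl
    have h1 := hN p n S hodd hpS _ _ _ d' hd'
    letI algEM := gaAlg N hle'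
    have hΨM : ∀ c : CS S ↥(IntermediateField.fixedField ((P : Subgroup (N ≃ₐ[ℚ] N)) ⊓ θ.ker)),
        psiC p n S _ c = 0 := hUp p n S hodd hpS _ _ hΨE
    rw [hΨM d', hM p n S hodd hpS ℚ _ (k • c₀), map_nsmul, ← mul_smul] at h1
    have h2 := hv _ h1
    rw [ga_finrank_fixedField] at h2
    have hcop : Nat.Coprime (p ^ n) (P : Subgroup (N ≃ₐ[ℚ] N)).index :=
      Nat.Coprime.pow_left n ((Nat.Prime.coprime_iff_not_dvd hp.out).2 P.not_dvd_index)
    exact hcop.dvd_of_dvd_mul_left h2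

/-- **(GA)** from the pieces of PT-G3. -/
theorem stmtGA_of (hFA : StmtFundAbs) (hLayer : StmtLayer) (hInj : G.StmtCSMapInj)
    (hDesc : G.StmtCSDescent) (hComp : StmtCSMapComp) (hTower : StmtUnramTower)
    (hSyl : StmtSylowNorm) (hM : StmtPsiMap) (hN : StmtPsiNormGal) (hUp : StmtPsiUp)
    (hZ : StmtPsiZ) (hTors : StmtPsiTors) (hGen : StmtPsiGen) (hCLT : StmtCLT)
    (hCyc : StmtCyc) : StmtGA := by
  intro p hp S hp2 hpS L _ _ _ hL
  obtain ⟨v, hv⟩ := hGen p ((Nat.card (L ≃ₐ[ℚ] L)).factorization p) S hp2 hpS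
  obtain ⟨cd⟩ := hCyc p ((Nat.card (L ≃ₐ[ℚ] L)).factorization p) S hp2 hpS L hL
  haveI := cd.galQ
  haveI := cd.galL
  exact ga_core hFA hLayer hInj hDesc hComp hTower hSyl hM hN hUp hZ hTors hCLT p S hp2 hpS L hL
    _ rfl v hv cd.N cd.unram cd.pgroup cd.card_le cd.θ cd.θ_surj cd.E' cd.coprime cd.ζ cd.hζ

/-- **(GA)** in the shape consumed by PT-B (PT/B/Plan4.lean). -/
theorem stmtGA_B_of (hFA : StmtFundAbs) (hLayer : StmtLayer) (hInj : G.StmtCSMapInj)
    (hDesc : G.StmtCSDescent) (hComp : StmtCSMapComp) (hTower : StmtUnramTower)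
    (hSyl : StmtSylowNorm) (hM : StmtPsiMap) (hN : StmtPsiNormGal) (hUp : StmtPsiUp)
    (hZ : StmtPsiZ) (hTors : StmtPsiTors) (hGen : StmtPsiGen) (hCLT : StmtCLT)
    (hCyc : StmtCyc) : Fermat.Agent.PT.B.StmtGA := by
  intro p hp hp2 S hpS L _ _ _ hL
  exact stmtGA_of hFA hLayer hInj hDesc hComp hTower hSyl hM hN hUp hZ hTors hGen hCLT hCyc
    p S hp2 hpS L hL

end core

end Fermat.Agent.PT.G3
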