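/-
PT-G3, piece `infsurj` (helper30): inflation–restriction in degree 2 along a surjection
`f : G ↠ Q`, for a `Q`-module `D` identified with `C ^ ker f` by `φ`.
Cocycle proof: steps 0–2 of PT/A/InfRes2.lean (helper86) for `N = ker f`, then descent to `Q`;
injectivity is `inflInj_aux` of PT/F/InflInj.lean (helper86) with `m = 1`.
-/
import Fermat.Agent.PT.G3.Plan
import Fermat.Agent.PT.A.InfRes2
import Fermat.Agent.PT.F.InflInj

set_option autoImplicit false
set_option linter.unusedSectionVars false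

attribute [-instance] AddCommGroup.toIntModule

namespace Fermat.Agent.PT.G3

open CategoryTheory groupCohomology Rep Fermat.Agent.PT

section

variable {G Q : Type} [Group G] [Group Q]

/-- Step 3 along a surjection: a cocycle vanishing on `N × G` and `G × N` (`N = ker f`) is
inflated from `Q`. -/
theorem infSurj_step3 (f : G →* Q) (hf : Function.Surjective f) (D : Rep.{0} ℤ Q)
    (C : Rep.{0} ℤ G) (φ : Rep.res f D ⟶ C) (hφ : Function.Injective φ.hom)
    (hinvar : ∀ c : C.V, (∀ g ∈ f.ker, C.ρ g c = c) → ∃ d : D.V, φ.hom d = c)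
    {F : G × G → C} (hF : F ∈ cocycles₂ C) (hl : ∀ n ∈ f.ker, ∀ g, F (n, g) = 0)
    (hr : ∀ g, ∀ n ∈ f.ker, F (g, n) = 0) :
    ∃ z : cocycles₂ D, ∀ g h : G, φ.hom (z (f g, f h)) = F (g, h) := by
  have hconj : ∀ (h n : G), n ∈ f.ker → h⁻¹ * n * h ∈ f.ker := by
    intro h n hn
    rw [MonoidHom.mem_ker] at hn ⊢
    simp [hn]
  have hstar : ∀ n ∈ f.ker, ∀ g h, F (n * g, h) = C.ρ n (F (g, h)) := by
    intro n hn g h
    have := InfRes2.coc hF n g h
    rw [hl n hn, hl n hn] at this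
    simpa using this
  have hr2 : ∀ g h, ∀ n ∈ f.ker, F (g, h * n) = F (g, h) := by
    intro g h n hn
    have := InfRes2.coc hF g h n
    rw [hr _ n hn, hr _ n hn, map_zero] at this
    simpa using this.symm
  have hl2 : ∀ g h, ∀ n ∈ f.ker, F (g * n, h) = F (g, h) := by
    intro g h n hn
    have := InfRes2.coc hF g n h
    rw [hr _ n hn, hl n hn, map_zero] at this
    have e : n * h = h * (h⁻¹ * n * h) := by group
    rw [e, hr2 _ _ _ (hconj h n hn)] at this
    simpa using this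
  have hinv : ∀ g h, ∀ n ∈ f.ker, C.ρ n (F (g, h)) = F (g, h) := by
    intro g h n hn
    rw [← hstar n hn]
    have e : n * g = g * (g⁻¹ * n * g) := by group
    rw [e, hl2 _ _ _ (hconj g n hn)]
  have hex : ∀ p : Q × Q, ∃ d : D.V,
      φ.hom d = F (Function.surjInv hf p.1, Function.surjInv hf p.2) :=
    fun p => hinvar _ (fun n hn => hinv _ _ n hn)
  choose zf hzf using hex
  have hsurj : ∀ g : G, ∃ n ∈ f.ker, Function.surjInv hf (f g) = g * n := by
    intro g
    refine ⟨g⁻¹ * Function.surjInv hf (f g), ?_, by group⟩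
    rw [MonoidHom.mem_ker, map_mul, map_inv, Function.surjInv_eq hf, inv_mul_cancel]
  have hz : ∀ g h : G, φ.hom (zf (f g, f h)) = F (g, h) := by
    intro g h
    obtain ⟨n₁, hn₁, e₁⟩ := hsurj g
    obtain ⟨n₂, hn₂, e₂⟩ := hsurj h
    rw [hzf]
    show F (Function.surjInv hf (f g), Function.surjInv hf (f h)) = F (g, h)
    rw [e₁, e₂, hl2 _ _ _ hn₁, hr2 _ _ _ hn₂]
  have hφρ : ∀ (g : G) (v : D.V), φ.hom (D.ρ (f g) v) = C.ρ g (φ.hom v) := fun g v =>
    Rep.hom_comm_apply φ g v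
  refine ⟨⟨zf, ?_⟩, hz⟩
  rw [mem_cocycles₂_iff]
  intro a b c
  obtain ⟨g, rfl⟩ := hf a
  obtain ⟨h, rfl⟩ := hf b
  obtain ⟨j, rfl⟩ := hf c
  apply hφ
  rw [map_add, map_add, hφρ, ← map_mul, ← map_mul, hz, hz, hz, hz]
  exact InfRes2.coc hF g h j

end

/-- **G3-infsurj**. -/
theorem stmtInfSurj : StmtInfSurj := by
  intro G Q _ _ f hf D C φ hφ hinvar hH1
  have h1 := InfRes2.h1Triv_of_subsingleton f.ker C hH1
  constructor
  · rw [injective_iff_map_eq_zero]
    intro x hx
    induction x using H2_induction_on with | @h x =>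
    have key := H2π_comp_map_apply f φ x
    have hK : F.InflInj.H1Kill f.ker C 1 := by
      intro c hc
      obtain ⟨a, ha⟩ := h1 c hc
      exact ⟨a, fun n => by rw [one_smul]; exact ha n⟩
    have h2 := F.InflInj.inflInj_aux f hf C D φ hφ
      (fun c hc => hinvar c (fun g hg => hc g (MonoidHom.mem_ker.mp hg))) 1 hK x
      (key.symm.trans hx)
    rwa [one_smul] at h2
  · intro x hx
    induction x using H2_induction_on with | @h x =>
    have key := H2π_comp_map_apply f.ker.subtype (𝟙 (Rep.res f.ker.subtype C)) x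
    have hx' : H2π (Rep.res f.ker.subtype C)
        (mapCocycles₂ f.ker.subtype (𝟙 (Rep.res f.ker.subtype C)) x) = 0 :=
      key.symm.trans hx
    rw [H2π_eq_zero_iff] at hx'
    obtain ⟨y, hy⟩ := hx'
    have hy' : ∀ n m : f.ker, x ((n : G), (m : G)) = C.ρ n (y m) - y (n * m) + y n := by
      intro n m
      have := congrFun hy (n, m)
      simp only [d₁₂_hom_apply] at this
      exact this.symm
    obtain ⟨x₀, h₀⟩ := InfRes2.step0 (F := ⇑x) y hy'
    have hF₀ := InfRes2.sub_d_mem x.2 x₀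
    obtain ⟨x₁, h₁⟩ := InfRes2.step1 hF₀ h₀
    have hF₁ := InfRes2.sub_d_mem hF₀ x₁
    obtain ⟨x₂, h₂l, h₂r⟩ := InfRes2.step2 h1 hF₁ h₁
    have hF₂ := InfRes2.sub_d_mem hF₁ x₂
    obtain ⟨z, hz⟩ := infSurj_step3 f hf D C φ hφ hinvar hF₂ h₂l h₂r
    refine ⟨H2π D z, ?_⟩
    have key2 := H2π_comp_map_apply f φ z
    refine key2.trans ?_
    rw [H2π_eq_iff]
    refine ⟨-(x₀ + x₁ + x₂), ?_⟩
    funext ⟨g, h⟩
    have hmc : (mapCocycles₂ f φ z) (g, h) = φ.hom (z (f g, f h)) := rfl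
    rw [Pi.sub_apply, hmc, hz, map_neg, map_add, map_add]
    simp only [Pi.sub_apply, Pi.neg_apply, Pi.add_apply, cocycles₂.val_eq_coe]
    abel

end Fermat.Agent.PT.G3
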