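/-
PT-G3, piece **layer** (helper63): the layer hypothesis `LayerHyp p (csRep S L)` for the class
module `C_S(L)`, from the cyclic case (`G.StmtCSCyclicRel`), Galois descent (`G.StmtCSDescent`),
injectivity of `csMap` (`G.StmtCSMapInj`) and unramifiedness in towers (`StmtUnramTower`).

`P ≤ Aut(L)` a `p`-group, `P' ◁ P` of index `p`, `K := L^{P'}`, `g ∈ P ∖ P'`, `σ' := g|_K` of order
`p`; `csMap : C_S(K) ≃ C_S(L)^{P'}` intertwines `σ'` and the action of `g P'`; HQ-bridge.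
-/
import Fermat.Agent.PT.G3.Plan2
import Fermat.Agent.PT.G.SecondInequality
import Fermat.Agent.PT.G1.Bridge
import Fermat.Agent.PT.G1.Finite

set_option autoImplicit false

namespace Fermat.Agent.PT.G3

open CategoryTheory groupCohomology NumberField IsDedekindDomain
open Fermat.Agent.PT Fermat.Agent.PT.G Fermat.Agent.PT.G1

section Restrict

variable {L : Type} [Field L] [NumberField L]

/-- `g` maps the fixed field of `H` into itself when `g⁻¹ H g ⊆ H`. -/
lemma layer_mem_fixedField (H : Subgroup (L ≃ₐ[ℚ] L)) (g : L ≃ₐ[ℚ] L)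
    (hg : ∀ h ∈ H, g⁻¹ * h * g ∈ H) (x : L) (hx : x ∈ IntermediateField.fixedField H) :
    g x ∈ IntermediateField.fixedField H := by
  rw [IntermediateField.mem_fixedField_iff] at hx ⊢
  intro h hh
  have h1 := hx (g⁻¹ * h * g) (hg h hh)
  have h2 : (g⁻¹ * h * g) x = g⁻¹ (h (g x)) := rfl
  rw [h2] at h1
  have h3 : g (g⁻¹ (h (g x))) = h (g x) := g.apply_symm_apply _
  rw [← h3, h1]

/-- the restriction of `g` to the fixed field of `H`, as an algebra endomorphism -/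
noncomputable def layerResHom (H : Subgroup (L ≃ₐ[ℚ] L)) (g : L ≃ₐ[ℚ] L)
    (hg : ∀ h ∈ H, g⁻¹ * h * g ∈ H) :
    ↥(IntermediateField.fixedField H) →ₐ[ℚ] ↥(IntermediateField.fixedField H) where
  toFun x := ⟨g (x : L), layer_mem_fixedField H g hg x x.2⟩
  map_one' := Subtype.ext (map_one g)
  map_mul' x y := Subtype.ext (map_mul g (x : L) (y : L))
  map_zero' := Subtype.ext (map_zero g)
  map_add' x y := Subtype.ext (map_add g (x : L) (y : L))
  commutes' r := Subtype.ext (g.commutes r)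

/-- the restriction of `g` to the fixed field of `H`, as an automorphism -/
noncomputable def layerRes (H : Subgroup (L ≃ₐ[ℚ] L)) (g : L ≃ₐ[ℚ] L)
    (hg : ∀ h ∈ H, g⁻¹ * h * g ∈ H) :
    ↥(IntermediateField.fixedField H) ≃ₐ[ℚ] ↥(IntermediateField.fixedField H) :=
  AlgEquiv.ofBijective (layerResHom H g hg) (AlgHom.bijective _)

lemma layerRes_apply (H : Subgroup (L ≃ₐ[ℚ] L)) (g : L ≃ₐ[ℚ] L)
    (hg : ∀ h ∈ H, g⁻¹ * h * g ∈ H) (x : ↥(IntermediateField.fixedField H)) :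
    ((layerRes H g hg x : ↥(IntermediateField.fixedField H)) : L) = g (x : L) := rfl

lemma layerRes_restricts (H : Subgroup (L ≃ₐ[ℚ] L)) (g : L ≃ₐ[ℚ] L)
    (hg : ∀ h ∈ H, g⁻¹ * h * g ∈ H) : Restricts g (layerRes H g hg) := fun _ => rfl

lemma layerRes_pow_apply (H : Subgroup (L ≃ₐ[ℚ] L)) (g : L ≃ₐ[ℚ] L)
    (hg : ∀ h ∈ H, g⁻¹ * h * g ∈ H) (n : ℕ) (x : ↥(IntermediateField.fixedField H)) :
    (((layerRes H g hg ^ n) x : ↥(IntermediateField.fixedField H)) : L) = (g ^ n) (x : L) := by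
  induction n generalizing x with
  | zero => rfl
  | succ n ih =>
    rw [pow_succ, pow_succ]
    show (((layerRes H g hg ^ n) (layerRes H g hg x) : ↥(IntermediateField.fixedField H)) : L) =
      (g ^ n) (g (x : L))
    rw [ih]
    rfl

end Restrict

lemma layer_nEnd_comm {A B : Type} [AddCommGroup A] [AddCommGroup B] [Module ℤ A] [Module ℤ B]
    (f : A →ₗ[ℤ] B) (σA : Module.End ℤ A) (σB : Module.End ℤ B) (h : f ∘ₗ σA = σB ∘ₗ f) (n : ℕ) :
    f ∘ₗ nEnd σA n = nEnd σB n ∘ₗ f := by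
  have hpow : ∀ i : ℕ, f ∘ₗ (σA ^ i) = (σB ^ i) ∘ₗ f := by
    intro i
    induction i with
    | zero => rfl
    | succ i ih =>
      rw [pow_succ, pow_succ]
      show (f ∘ₗ (σA ^ i)) ∘ₗ σA = (σB ^ i) ∘ₗ (σB ∘ₗ f)
      rw [ih, ← h]
      rfl
  apply LinearMap.ext
  intro x
  rw [LinearMap.comp_apply, LinearMap.comp_apply, nEnd, nEnd, LinearMap.sum_apply,
    LinearMap.sum_apply, map_sum]
  refine Finset.sum_congr rfl fun i _ => ?_
  exact LinearMap.congr_fun (hpow i) x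

/-- **G3-layer**: the layer hypothesis for `C_S(L)`, `L / ℚ` unramified outside `S ≠ ∅`, `p` odd. -/
theorem stmtLayer_of (hC : G.StmtCSCyclicRel) (hD : G.StmtCSDescent) (hI : G.StmtCSMapInj)
    (hT : StmtUnramTower) : StmtLayer := by
  intro p _ hp2 S hS L _ _ hun P hP P' _ hidx
  have hp : p.Prime := Fact.out
  set A : Rep.{0} ℤ (↥P ⧸ P') := (Rep.res P.subtype (csRep S L)).quotientToInvariants P' with hA
  -- the fixed field
  set H : Subgroup (L ≃ₐ[ℚ] L) := P'.map P.subtype with hH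
  set K : IntermediateField ℚ L := IntermediateField.fixedField H with hK
  have hfix : K.fixingSubgroup = H := IntermediateField.fixingSubgroup_fixedField H
  have hGal : IsGalois K L := uhq_isGalois_fixedField H
  have hmemH : ∀ τ : L ≃ₐ[ℚ] L, τ ∈ H ↔ ∀ x : K, τ (algebraMap K L x) = algebraMap K L x := by
    intro τ
    rw [← hfix, IntermediateField.mem_fixingSubgroup_iff]
    constructor
    · intro h x
      exact h x x.2
    · intro h x hx
      exact h ⟨x, hx⟩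
  obtain ⟨hunKL, hunK⟩ := hT S ℚ K L hun
  -- invariants
  set Inv : Submodule ℤ (CS S L) := Representation.invariants
      ((Rep.res P.subtype (csRep S L)).ρ.comp P'.subtype) with hInv
  have hinvmem : ∀ c : CS S L, c ∈ Inv ↔ ∀ τ ∈ H, csEnd S τ c = c := by
    intro c
    constructor
    · intro h τ hτ
      obtain ⟨s, hs, rfl⟩ := hτ
      exact h ⟨s, hs⟩
    · intro h s
      exact h _ ⟨s, s.2, rfl⟩
  set φ : CS S K →ₗ[ℤ] ↥Inv := LinearMap.codRestrict Inv (csMap S K L) (fun c => by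
    rw [hinvmem]
    intro τ hτ
    exact csEnd_csMap_of_fixes S ((hmemH τ).1 hτ) c) with hφ
  have hφinj : Function.Injective φ := by
    intro a b hab
    apply hI S K L hS
    exact congrArg Subtype.val hab
  have hφsurj : Function.Surjective φ := by
    intro c
    obtain ⟨c₀, hc₀⟩ := hD S K L hS hunKL (c : CS S L) (fun τ hτ =>
      (hinvmem _).1 c.2 τ ((hmemH τ).2 hτ))
    exact ⟨c₀, Subtype.ext hc₀⟩
  set e : CS S K ≃ₗ[ℤ] ↥Inv := LinearEquiv.ofBijective φ ⟨hφinj, hφsurj⟩ with he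
  -- a generator
  have hcardQ : Nat.card (↥P ⧸ P') = p := by rw [← Subgroup.index_eq_card, hidx]
  have hne : P' ≠ ⊤ := by
    intro h
    rw [h, Subgroup.index_top] at hidx
    exact hp.one_lt.ne hidx
  obtain ⟨g, hg⟩ : ∃ g : ↥P, g ∉ P' := by
    by_contra hcon
    exact hne (Subgroup.eq_top_iff' P' |>.2 fun x => by
      by_contra hx
      exact hcon ⟨x, hx⟩)
  set gq : ↥P ⧸ P' := QuotientGroup.mk g with hgq
  have hgq1 : gq ≠ 1 := by
    intro h
    exact hg ((QuotientGroup.eq_one_iff g).1 h)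
  have hgen : ∀ x : ↥P ⧸ P', x ∈ Subgroup.zpowers gq := fun x =>
    mem_zpowers_of_prime_card hcardQ hgq1
  -- the restriction of `g` to `K`
  have hgnorm : ∀ h ∈ H, (g : L ≃ₐ[ℚ] L)⁻¹ * h * (g : L ≃ₐ[ℚ] L) ∈ H := by
    rintro _ ⟨s, hs, rfl⟩
    exact ⟨g⁻¹ * s * g, Subgroup.Normal.conj_mem' inferInstance s hs g, rfl⟩
  set σ' : ↥K ≃ₐ[ℚ] ↥K := layerRes H (g : L ≃ₐ[ℚ] L) hgnorm with hσ'
  have hres : Restricts (g : L ≃ₐ[ℚ] L) σ' := layerRes_restricts H _ hgnorm
  have hgp : g ^ p ∈ P' := by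
    rw [← QuotientGroup.eq_one_iff, QuotientGroup.mk_pow, ← hcardQ]
    exact pow_card_eq_one'
  have hσp : σ' ^ p = 1 := by
    apply AlgEquiv.ext
    intro x
    apply Subtype.ext
    rw [hσ', layerRes_pow_apply]
    have h1 : ((g : L ≃ₐ[ℚ] L) ^ p) ∈ H := ⟨g ^ p, hgp, rfl⟩
    exact (hmemH _).1 h1 x
  have hσ1 : σ' ≠ 1 := by
    intro h
    apply hg
    have h1 : (g : L ≃ₐ[ℚ] L) ∈ H := by
      rw [hmemH]
      intro x
      have h2 := hres x
      rw [h] at h2
      exact h2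
    obtain ⟨s, hs, hsg⟩ := h1
    have : s = g := Subtype.ext hsg
    rw [← this]
    exact hs
  have hord : orderOf σ' = p := orderOf_eq_prime hσp hσ1
  obtain ⟨hunr, -⟩ := hT S ℚ ↥(IntermediateField.fixedField (Subgroup.zpowers σ')) ↥K hunK
  obtain ⟨hc0, hc1⟩ := hC p hp2 ↥K σ' hord S hS hunr
  -- the action of `g P'` on the invariants
  set ρg : Module.End ℤ ↥Inv := A.ρ gq with hρg
  have hint : e.toLinearMap ∘ₗ csEnd S σ' = ρg ∘ₗ e.toLinearMap := by
    apply LinearMap.ext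
    intro c
    apply Subtype.ext
    show csMap S ↥K L (csEnd S σ' c) = csEnd S (g : L ≃ₐ[ℚ] L) (csMap S ↥K L c)
    rw [csEnd_csMap S hres]
  have hintD : e.toLinearMap ∘ₗ (csEnd S σ' - 1) = (ρg - 1) ∘ₗ e.toLinearMap := by
    rw [LinearMap.comp_sub, LinearMap.sub_comp, hint]
    rfl
  have hintN : e.toLinearMap ∘ₗ nEnd (csEnd S σ') p = nEnd ρg p ∘ₗ e.toLinearMap :=
    layer_nEnd_comm _ _ _ hint p
  obtain ⟨hi0, hi1⟩ := stmtIso (CS S ↥K) ↥Inv (csEnd S σ' - 1) (nEnd (csEnd S σ') p)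
    (ρg - 1) (nEnd ρg p) e hintD hintN
  rw [hc0] at hi0
  rw [hc1] at hi1
  -- the bridge
  have hfinQ : Finite (↥P ⧸ P') := Nat.finite_of_card_ne_zero (by rw [hcardQ]; exact hp.ne_zero)
  let _ : Fintype (↥P ⧸ P') := Fintype.ofFinite _
  have : IsCyclic (↥P ⧸ P') := isCyclic_of_prime_card hcardQ
  let _ : CommGroup (↥P ⧸ P') := IsCyclic.commGroup
  obtain ⟨hb2, hb1⟩ := stmtBridge (↥P ⧸ P') A gq hgen
  have hcardF : Fintype.card (↥P ⧸ P') = p := by
    rw [← Nat.card_eq_fintype_card]; exact hcardQ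
  rw [hcardF] at hb2 hb1
  have h2 : Nat.card (H2 A) = p := hb2.trans hi0.symm
  have h1 : Nat.card (H1 A) = 1 := hb1.trans hi1.symm
  refine ⟨?_, ?_, ?_⟩
  · exact (Nat.card_eq_one_iff_unique.1 h1).1
  · exact Nat.finite_of_card_ne_zero (by rw [h2]; exact hp.ne_zero)
  · exact h2.le

end Fermat.Agent.PT.G3
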