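/-
PT-G3, piece **layer**, UNCONDITIONAL (helper63): `stmtLayer : StmtLayer` — the class module
`C_S(L)` of a number field `L` unramified outside `S ≠ ∅` satisfies the layer hypothesis at every
odd prime `p`; hence (`stmtDevissage`) `H¹(P, C_S(L)) = 0` and `|H²(P, C_S(L))| ≤ |P|` for every
`p`-subgroup `P ≤ Aut(L)`.
-/
import Fermat.Agent.PT.G3.Layer
import Fermat.Agent.PT.G3.MapComp
import Fermat.Agent.PT.G3.Devissage
import Fermat.Agent.PT.G.CyclicFinal

set_option autoImplicit false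

namespace Fermat.Agent.PT.G3

open Fermat.Agent.PT Fermat.Agent.PT.G

/-- **G3-layer**. -/
theorem stmtLayer : StmtLayer :=
  stmtLayer_of csCyclicRel stmtCSDescent stmtCSMapInj stmtUnramTower

/-- `H¹(P, C_S(L)) = 0` and `|H²(P, C_S(L))| ≤ |P|` for every `p`-subgroup `P ≤ Aut(L)`
(`p` odd, `L / ℚ` unramified outside `S ≠ ∅`). -/
theorem csPBound (p : ℕ) [Fact p.Prime] (hp2 : p ≠ 2) (S : Finset Nat.Primes) (hS : S.Nonempty)
    (L : Type) [Field L] [NumberField L] (hun : UnramOffRel S ℚ L) :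
    PBound p (csRep S L) :=
  stmtDevissage p (L ≃ₐ[ℚ] L) (csRep S L) (stmtLayer p hp2 S hS L hun)

end Fermat.Agent.PT.G3
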