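/-
PT-G3, piece `normindex` (helper75): the second inequality in norm-subgroup form,
`stmtNormIndexLe_of : StmtGalNormAdd → StmtNormSubJ → StmtNormSubSplit → StmtNormIndexLe`:
for `M / F` Galois and unramified outside `S`, `[C_S(F) : NormSub] ≤ [M : F]`.
(`G2.stmtIdelicSecond` with `B = NormSub`, `d = [M : F]`.)
-/
import Fermat.Agent.PT.G3.Plan2
import Fermat.Agent.PT.G2.IdelicFinal

set_option autoImplicit false

namespace Fermat.Agent.PT.G3

open NumberField IsDedekindDomain
open Fermat.Agent.PT Fermat.Agent.PT.G Fermat.Agent.PT.G1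

section

variable (S : Finset Nat.Primes) (F M : Type) [Field F] [NumberField F] [Field M] [NumberField M]
  [Algebra F M]

theorem ni_galNorm_zero (hA : StmtGalNormAdd) : galNorm S F M 0 = 0 := by
  have h := (hA S F M 0 0).1
  rw [add_zero] at h
  have h2 : galNorm S F M 0 + 0 = galNorm S F M 0 + galNorm S F M 0 := by
    rw [add_zero]; exact h
  exact (add_left_cancel h2).symm

/-- The norm subgroup, as a `ℤ`-submodule of `C_S(F)`. -/
noncomputable def normSubmodule (hA : StmtGalNormAdd) : Submodule ℤ (CS S F) :=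
  AddSubgroup.toIntSubmodule
    { carrier := NormSub S F M
      zero_mem' := ⟨0, by rw [map_zero, ni_galNorm_zero S F M hA]⟩
      add_mem' := by
        rintro c c' ⟨d, hd⟩ ⟨d', hd'⟩
        exact ⟨d + d', by rw [map_add, hd, hd', (hA S F M d d').1]⟩
      neg_mem' := by
        rintro c ⟨d, hd⟩
        exact ⟨-d, by rw [map_neg, hd, (hA S F M d d).2]⟩ }

theorem coe_normSubmodule (hA : StmtGalNormAdd) :
    (normSubmodule S F M hA : Set (CS S F)) = NormSub S F M := rfl

theorem mem_normSubmodule (hA : StmtGalNormAdd) (c : CS S F) :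
    c ∈ normSubmodule S F M hA ↔ c ∈ NormSub S F M := Iff.rfl

end

/-- **G3-normindex**. -/
theorem stmtNormIndexLe_of (hA : StmtGalNormAdd) (hJ : StmtNormSubJ) (hSp : StmtNormSubSplit) :
    StmtNormIndexLe := by
  intro S F M _ _ _ _ _ _ hun
  refine ⟨normSubmodule S F M hA, coe_normSubmodule S F M hA, ?_⟩
  refine G2.stmtIdelicSecond F M S (normSubmodule S F M hA) (Module.finrank F M)
    Module.finrank_pos ?_ ?_
  · intro y
    exact (mem_normSubmodule S F M hA _).mpr (hJ S F M (csOfJ S F y))
  · intro v hv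
    exact (mem_normSubmodule S F M hA _).mpr (hSp S F M hun v hv)

end Fermat.Agent.PT.G3
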