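/-
PT-G3, piece psiGen (helper48): there is a rational prime `ℓ ∉ S` whose class `[ℓ] ∈ C_S(ℚ)` has
symbol `Ψ_ℚ[ℓ]` of exact order `p^n`.
(`normSymbol_exists_generator` for `K = ℚ`; `(ℤ/p^(n+1))ˣ` is cyclic of order `(p-1)p^n` and every
unit is the class of the norm of a principal ideal `(m)` of `𝓞 ℚ`.)
-/
import Fermat.Agent.PT.G3.Plan3
import Fermat.Agent.PT.G3.SymbolCheb

set_option autoImplicit false

namespace Fermat.Agent.PT.G3

open NumberField IsDedekindDomain Fermat.Agent.PT.G Fermat.Agent.PT.G1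

/-- the absolute norm of the ideal `(m)` of `𝓞 ℚ` is `m` -/
theorem psiGen_absNorm_span (m : ℕ) :
    Ideal.absNorm (Ideal.span {((m : ℕ) : 𝓞 ℚ)}) = m := by
  rw [Ideal.absNorm_span_singleton]
  have h1 : ((m : ℕ) : 𝓞 ℚ) = algebraMap ℤ (𝓞 ℚ) (m : ℤ) := by simp
  rw [h1, Algebra.norm_algebraMap, RingOfIntegers.rank, Module.finrank_self, pow_one]
  simp

/-- every unit mod `p^(n+1)` has its `(p-1)`-th power among the values of the norm symbol of `ℚ` -/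
theorem psiGen_normSymbol_surj (p n : ℕ) [hp : Fact p.Prime] (g : (ZMod (p ^ (n + 1)))ˣ) :
    ∃ I : Ideal (𝓞 ℚ), (Ideal.absNorm I).Coprime (p ^ (n + 1)) ∧
      normSymbol p n I = g ^ (p - 1) := by
  have _ : NeZero (p ^ (n + 1)) := ⟨pow_ne_zero _ hp.out.ne_zero⟩
  set m : ℕ := (g : ZMod (p ^ (n + 1))).val with hm
  have hmg : ((m : ℕ) : ZMod (p ^ (n + 1))) = (g : ZMod (p ^ (n + 1))) :=
    ZMod.natCast_zmod_val _
  have hcop : m.Coprime (p ^ (n + 1)) := by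
    rw [← ZMod.isUnit_iff_coprime, hmg]
    exact g.isUnit
  refine ⟨Ideal.span {((m : ℕ) : 𝓞 ℚ)}, by rw [psiGen_absNorm_span]; exact hcop, ?_⟩
  have hcop' : (Ideal.absNorm (Ideal.span {((m : ℕ) : 𝓞 ℚ)})).Coprime (p ^ (n + 1)) := by
    rw [psiGen_absNorm_span]; exact hcop
  apply Units.ext
  rw [coe_normSymbol_of_coprime hcop', psiGen_absNorm_span, hmg, Units.val_pow_eq_pow_val]

/-- a prime of `𝓞 ℚ` of prime norm outside `S` is off `S` -/
theorem psiGen_off (S : Finset Nat.Primes) (v : HeightOneSpectrum (𝓞 ℚ))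
    (hprime : (Ideal.absNorm v.asIdeal).Prime)
    (hS : Ideal.absNorm v.asIdeal ∉ S.image (fun q : Nat.Primes => (q : ℕ))) :
    ((sProd S : ℕ) : 𝓞 ℚ) ∉ v.asIdeal := by
  intro hmem
  have hℓ : ((Ideal.absNorm v.asIdeal : ℕ) : 𝓞 ℚ) ∈ v.asIdeal := Ideal.absNorm_mem v.asIdeal
  have hcop : (Ideal.absNorm v.asIdeal).Coprime (sProd S) := by
    rw [Nat.Prime.coprime_iff_not_dvd hprime]
    intro hdvd
    rw [sProd, Prime.dvd_finsetProd_iff (Nat.prime_iff.1 hprime)] at hdvd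
    obtain ⟨q, hq, hqd⟩ := hdvd
    have : Ideal.absNorm v.asIdeal = (q : ℕ) := (Nat.prime_dvd_prime_iff_eq hprime q.2).1 hqd
    exact hS (Finset.mem_image.2 ⟨q, hq, this.symm⟩)
  have h1 : ((1 : ℕ) : 𝓞 ℚ) ∈ v.asIdeal := by
    have hgcd : ((Nat.gcd (Ideal.absNorm v.asIdeal) (sProd S) : ℕ) : ℤ) =
        (Ideal.absNorm v.asIdeal : ℤ) * Nat.gcdA (Ideal.absNorm v.asIdeal) (sProd S) +
          (sProd S : ℤ) * Nat.gcdB (Ideal.absNorm v.asIdeal) (sProd S) :=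
      Nat.gcd_eq_gcd_ab _ _
    rw [hcop] at hgcd
    have h2 := congrArg (fun z : ℤ => (z : 𝓞 ℚ)) hgcd
    simp only [Int.cast_add, Int.cast_mul, Int.cast_natCast] at h2
    rw [h2]
    exact v.asIdeal.add_mem (v.asIdeal.mul_mem_right _ hℓ) (v.asIdeal.mul_mem_right _ hmem)
  have hone : (1 : 𝓞 ℚ) ∈ v.asIdeal := by simpa using h1
  exact v.isPrime.ne_top ((Ideal.eq_top_iff_one _).2 hone)

/-- **psi-gen**. -/
theorem stmtPsiGen : StmtPsiGen := by
  intro p n hp S hp2 hpS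
  have _ : NeZero (p ^ (n + 1)) := ⟨pow_ne_zero _ hp.out.ne_zero⟩
  have hodd : Odd p := hp.out.odd_of_ne_two hp2
  obtain ⟨v, hvprime, hvS, hcop, hv⟩ :=
    normSymbol_exists_generator p n ℚ hp2 (S.image (fun q : Nat.Primes => (q : ℕ)))
  refine ⟨⟨v, psiGen_off S v hvprime hvS⟩, fun k hk => ?_⟩
  have hsingle := psiC_csOfDiv_single p n S ℚ hodd hpS ⟨v, psiGen_off S v hvprime hvS⟩ 1
  rw [zpow_one] at hsingle
  rw [hsingle] at hk
  have hk' : normSymbol p n v.asIdeal ^ k = 1 := by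
    have := congrArg Additive.toMul hk
    simpa using this
  -- a generator of the cyclic group `(ℤ/p^(n+1))ˣ`
  have _ := ZMod.isCyclic_units_of_prime_pow p hp.out hp2 (n + 1)
  obtain ⟨g, hg⟩ := IsCyclic.exists_generator (α := (ZMod (p ^ (n + 1)))ˣ)
  obtain ⟨I, hI, hIg⟩ := psiGen_normSymbol_surj p n g
  obtain ⟨j, hj⟩ := hv I hI
  have h1 : g ^ ((p - 1) * k) = 1 := by
    rw [pow_mul, ← hIg, hj, ← pow_mul, mul_comm, pow_mul, hk', one_pow]
  have h2 : orderOf g = (p - 1) * p ^ n := by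
    rw [orderOf_eq_card_of_forall_mem_zpowers hg, Nat.card_eq_fintype_card, ZMod.card_units_eq_totient,
      Nat.totient_prime_pow_succ hp.out, mul_comm]
  have h3 : (p - 1) * p ^ n ∣ (p - 1) * k := by
    rw [← h2]
    exact orderOf_dvd_of_pow_eq_one h1
  exact Nat.dvd_of_mul_dvd_mul_left (Nat.sub_pos_of_lt hp.out.one_lt) h3

end Fermat.Agent.PT.G3
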