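import Fermat.Agent.PT.G3.Plan3

/-!
# PT-G3, piece psiTors: the values of the class symbol `Ψ` are killed by `p^n`

All local symbols are `(p-1)`-th powers (or inverses of such) in `T = (ZMod (p^(n+1)))ˣ`, a group
of order `φ(p^(n+1)) = p^n (p-1)`.
-/

set_option autoImplicit false

namespace Fermat.Agent.PT.G3

open NumberField IsDedekindDomain
open Fermat.Agent.PT Fermat.Agent.PT.G Fermat.Agent.PT.G1

section

variable (p n : ℕ) [hp : Fact p.Prime]

/-- a `(p-1)`-th power in `(ZMod (p^(n+1)))ˣ` is killed by `p^n`. -/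
theorem psiTors_pow (u : (ZMod (p ^ (n + 1)))ˣ) : (u ^ (p - 1)) ^ (p ^ n) = 1 := by
  have hφ : Nat.totient (p ^ (n + 1)) = p ^ n * (p - 1) :=
    Nat.totient_prime_pow_succ hp.out n
  rw [← pow_mul, mul_comm, ← hφ]
  exact ZMod.pow_totient u

theorem psiTors_zpow (u : (ZMod (p ^ (n + 1)))ˣ) (k : ℤ) :
    (u ^ (((p - 1 : ℕ) : ℤ) * k)) ^ (p ^ n) = 1 := by
  rw [zpow_mul, zpow_natCast, ← zpow_natCast, ← zpow_mul, mul_comm, zpow_mul, zpow_natCast,
    psiTors_pow, one_zpow]

theorem psiTors_psiP (x : ℚ_[p]ˣ) : psiP p n x ^ (p ^ n) = 1 := by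
  rw [psiP_apply, inv_pow, psiTors_pow, inv_one]

theorem psiTors_psiAway (q : ℕ) [hq : Fact q.Prime] (h : q ≠ p) (x : ℚ_[q]ˣ) :
    psiAway p n q h x ^ (p ^ n) = 1 :=
  psiTors_zpow p n _ _

theorem psiTors_psiQ (q : ℕ) [hq : Fact q.Prime] (x : ℚ_[q]ˣ) : psiQ p n q x ^ (p ^ n) = 1 := by
  by_cases h : q = p
  · subst h
    rw [psiQ_self]
    exact psiTors_psiP q n x
  · rw [psiQ_of_ne p n q h]
    exact psiTors_psiAway p n q h x

theorem psiTors_normSymbol {K : Type*} [Field K] [NumberField K] (I : Ideal (𝓞 K)) :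
    normSymbol p n I ^ (p ^ n) = 1 := by
  unfold normSymbol
  split_ifs with h
  · exact psiTors_pow p n _
  · exact one_pow _

variable (S : Finset Nat.Primes) (L : Type) [Field L] [NumberField L]

theorem psiTors_psiJ (x : JL S L) : psiJ p n S L x ^ (p ^ n) = 1 := by
  rw [psiJ_apply, ← Finset.prod_pow]
  refine Finset.prod_eq_one fun q _ => ?_
  rw [psiSemi_apply]
  exact psiTors_psiQ p n ((q : Nat.Primes) : ℕ) _

theorem psiTors_psiDiv (d : DivS S L) : p ^ n • psiDiv p n S L d = 0 := by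
  induction d using Finsupp.induction_linear with
  | zero => simp
  | add f g hf hg => rw [map_add, nsmul_add, hf, hg, add_zero]
  | single P k =>
    rw [psiDiv_single]
    apply Additive.toMul.injective
    rw [toMul_nsmul, toMul_ofMul, toMul_zero, ← zpow_natCast, ← zpow_mul, mul_comm, zpow_mul,
      zpow_natCast, psiTors_normSymbol, one_zpow]

theorem psiTors_psiJD (y : Additive (JL S L) × DivS S L) : p ^ n • psiJD p n S L y = 0 := by
  rw [psiJD_apply, nsmul_add, psiTors_psiDiv, add_zero]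
  apply Additive.toMul.injective
  rw [toMul_nsmul, toMul_ofMul, toMul_zero]
  exact psiTors_psiJ p n S L _

end

/-- **psi-pow**: the values of `Ψ` are killed by `p^n`. -/
theorem stmtPsiTors : StmtPsiTors := by
  intro p n hp S F _ _ c
  by_cases h : Odd p ∧ (⟨p, hp.out⟩ : Nat.Primes) ∈ S
  · induction c using Submodule.Quotient.induction_on with
    | _ y =>
      show p ^ n • psiC p n S F (csMk S F y) = 0
      rw [psiC_mk p n S F h.1 h.2]
      exact psiTors_psiJD p n S F y
  · rw [psiC, dif_neg h]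
    simp

end Fermat.Agent.PT.G3
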