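import Fermat.Agent.PT.G3.SymbolCS
import Fermat.Agent.PT.G2.IdelicFinal
import Fermat.Agent.PT.G2.LocalPow

/-!
# Project PT, piece G3-Z: the class symbol is trivial on fields which (almost) contain `ζ_{p^(n+1)}`

* `psiSemi_eq_one_of_semiCong`, `psiJ_eq_one_of_semiCong` ("continuity"): `ψ_J` is trivial on the
  idèles `≡ 1 mod q^N R_q` (`N` large) — these are `|T|`-th powers (`G2.stmtLocalPow`).
* `psiC_eq_zero_of_tower` (**(Z')**): if `F' / F` has degree prime to `p` and `F'` contains a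
  primitive `p^(n+1)`-th root of unity, then `Ψ_F = 0` on `C_S(F)`.
  (Weak approximation `G2.ic_approx` + product formula + `normSymbol_eq_one_of_tower`.)
-/

set_option autoImplicit false

namespace Fermat.Agent.PT.G3

open NumberField IsDedekindDomain Fermat.Agent.PT.G1 Fermat.Agent.PT.X Fermat.Agent.PT.G
open Fermat.Agent.PT.G2
open scoped nonZeroDivisors

section Cont

variable (p n : ℕ) [hp : Fact p.Prime]

/-- "Continuity" of the semilocal symbol: it is trivial on the units `≡ 1 mod q^N R_q`. -/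
theorem psiSemi_eq_one_of_semiCong (q : ℕ) [Fact q.Prime] (K : Type) [Field K] [NumberField K] :
    ∃ N : ℕ, ∀ j : (semiAlg q K)ˣ, SemiCong q K N (j : semiAlg q K) 1 →
      psiSemi p n q K j = 1 := by
  have : NeZero (p ^ (n + 1)) := ⟨pow_ne_zero _ hp.out.ne_zero⟩
  have hd : 0 < Fintype.card (ZMod (p ^ (n + 1)))ˣ := Fintype.card_pos
  obtain ⟨N, hN⟩ := stmtLocalPow (Fintype.card (ZMod (p ^ (n + 1)))ˣ) hd q K
  refine ⟨N, fun j hj => ?_⟩
  obtain ⟨y, hy⟩ := hN j hj
  rw [← hy, map_pow, pow_card_eq_one]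

/-- "Continuity" of `ψ_J`: it is trivial on the idèles `≡ 1 mod q^N R_q` for all `q ∈ S`. -/
theorem psiJ_eq_one_of_semiCong (S : Finset Nat.Primes) (K : Type) [Field K] [NumberField K] :
    ∃ N : ℕ, ∀ j : JL S K,
      (∀ q : ↥S, SemiCong ((q : Nat.Primes) : ℕ) K N
        ((j q : (semiAlg ((q : Nat.Primes) : ℕ) K)ˣ) : semiAlg ((q : Nat.Primes) : ℕ) K) 1) →
      psiJ p n S K j = 1 := by
  classical
  have h := fun q : ↥S => psiSemi_eq_one_of_semiCong p n ((q : Nat.Primes) : ℕ) K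
  choose N hN using h
  refine ⟨Finset.univ.sup N, fun j hj => ?_⟩
  rw [psiJ_apply]
  apply Finset.prod_eq_one
  intro q _
  apply hN q
  exact SemiCong.mono' stmtSemiInt (Finset.le_sup (Finset.mem_univ q)) (hj q)

end Cont

section Z

variable (p n : ℕ) [hp : Fact p.Prime] (S : Finset Nat.Primes)

/-- A prime off `S` is coprime to `p^(n+1)` (`p ∈ S`). -/
theorem isCoprime_off_span_pow (hpS : (⟨p, hp.out⟩ : Nat.Primes) ∈ S)
    {F : Type} [Field F] [NumberField F] (P : OffS S F) :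
    IsCoprime P.1.asIdeal (Ideal.span {((p ^ (n + 1) : ℕ) : 𝓞 F)}) := by
  rw [Ideal.isCoprime_iff_sup_eq]
  by_contra hne
  have hmax : P.1.asIdeal.IsMaximal := P.1.isMaximal
  have hprime : P.1.asIdeal.IsPrime := P.1.isPrime
  have h1 : P.1.asIdeal = P.1.asIdeal ⊔ Ideal.span {((p ^ (n + 1) : ℕ) : 𝓞 F)} :=
    hmax.eq_of_le hne le_sup_left
  have h2 : ((p ^ (n + 1) : ℕ) : 𝓞 F) ∈ P.1.asIdeal := by
    rw [h1]
    exact Ideal.mem_sup_right (Ideal.subset_span rfl)
  have h3 : ((p : ℕ) : 𝓞 F) ∈ P.1.asIdeal := by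
    rw [Nat.cast_pow] at h2
    exact hprime.mem_of_pow_mem _ h2
  apply P.2
  obtain ⟨k, hk⟩ : p ∣ sProd S :=
    Finset.dvd_prod_of_mem (fun q : Nat.Primes => (q : ℕ)) hpS
  have h4 : ((sProd S : ℕ) : 𝓞 F) = ((p : ℕ) : 𝓞 F) * ((k : ℕ) : 𝓞 F) := by
    rw [hk, Nat.cast_mul]
  have h5 : ((p : ℕ) : 𝓞 F) * ((k : ℕ) : 𝓞 F) ∈ P.1.asIdeal := Ideal.mul_mem_right _ _ h3
  have h6 : ∀ x y : 𝓞 F, x = y → y ∈ P.1.asIdeal → x ∈ P.1.asIdeal := fun x y hxy hy => by
    rw [hxy]; exact hy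
  exact h6 _ _ h4 h5

/-- **(Z')**: if `F' / F` has degree prime to `p` and `F'` contains a primitive `p^(n+1)`-th root
of unity, then the class symbol `Ψ_F` vanishes identically. -/
theorem psiC_eq_zero_of_tower (hodd : Odd p) (hpS : (⟨p, hp.out⟩ : Nat.Primes) ∈ S)
    (F F' : Type) [Field F] [NumberField F] [Field F'] [NumberField F'] [Algebra F F']
    (hdeg : (Module.finrank F F').Coprime p) (ζ : 𝓞 F') (hζ : IsPrimitiveRoot ζ (p ^ (n + 1)))
    (c : CS S F) : psiC p n S F c = 0 := by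
  classical
  -- the divisor part is trivial
  have hns : ∀ P : OffS S F, normSymbol p n P.1.asIdeal = 1 := fun P =>
    normSymbol_eq_one_of_tower hp.out hdeg hζ P.1.asIdeal (isCoprime_off_span_pow p n S hpS P)
  have hdiv : ∀ d : DivS S F, psiDiv p n S F d = 0 := by
    intro d
    apply Additive.toMul.injective
    rw [toMul_psiDiv, toMul_zero]
    apply Finset.prod_eq_one
    intro P _
    show normSymbol p n P.1.asIdeal ^ d P = 1
    rw [hns P, one_zpow]
  -- principal idèles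
  have hprin : ∀ α : Fˣ, psiJ p n S F (jlDiag S F α) = 1 := by
    intro α
    have h := psiJ_jlDiag_mul_psiDiv p n S F hodd hpS α
    rwa [hdiv, toMul_zero, mul_one] at h
  -- all idèles, by weak approximation
  obtain ⟨N, hN⟩ := psiJ_eq_one_of_semiCong p n S F
  have hJ : ∀ x : JL S F, psiJ p n S F x = 1 := by
    intro x
    obtain ⟨α, hα⟩ := ic_approx S stmtWeakApprox stmtSemiInt x N
    have h1 := hN _ hα
    rw [map_mul, hprin, one_mul, map_inv, inv_eq_one] at h1
    exact h1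
  induction c using Submodule.Quotient.induction_on with
  | _ y =>
    show psiC p n S F (csMk S F y) = 0
    rw [psiC_mk p n S F hodd hpS, psiJD_apply, hdiv, add_zero, hJ]
    rfl

/-- **(Z)**: if `F` contains a primitive `p^(n+1)`-th root of unity, `Ψ_F = 0`. -/
theorem psiC_eq_zero_of_primitiveRoot (hodd : Odd p) (hpS : (⟨p, hp.out⟩ : Nat.Primes) ∈ S)
    (F : Type) [Field F] [NumberField F] (ζ : 𝓞 F) (hζ : IsPrimitiveRoot ζ (p ^ (n + 1)))
    (c : CS S F) : psiC p n S F c = 0 :=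
  psiC_eq_zero_of_tower p n S hodd hpS F F (by rw [Module.finrank_self]; exact Nat.coprime_one_left p)
    ζ hζ c

end Z

end Fermat.Agent.PT.G3
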