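import Fermat.Agent.PT.G3.Plan3
import Fermat.Agent.PT.G3.SymbolZ

/-!
# PT-G3, pieces psiZeta and psiZ: the class symbol vanishes on fields (almost) containing `ζ_{p^(n+1)}`

`stmtPsiZeta : StmtPsiZeta`, `stmtPsiZ : StmtPsiZ` — both are restatements of
`psiC_eq_zero_of_primitiveRoot` / `psiC_eq_zero_of_tower` (G3/SymbolZ.lean).
-/

set_option autoImplicit false

namespace Fermat.Agent.PT.G3

open NumberField IsDedekindDomain Fermat.Agent.PT.G1 Fermat.Agent.PT.G

/-- **psi-zeta**: if `E'` contains a primitive `p^(n+1)`-th root of unity then `Ψ_{E'} = 0`. -/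
theorem stmtPsiZeta : StmtPsiZeta := by
  intro p n hp S hodd hpS E' _ _ ζ hζ c
  exact psiC_eq_zero_of_primitiveRoot p n S hodd hpS E' ζ hζ c

/-- **psi-Z**: if `E` has an extension `E'` of degree prime to `p` containing a primitive
`p^(n+1)`-th root of unity, then `Ψ_E = 0`. -/
theorem stmtPsiZ : StmtPsiZ := by
  intro p n hp S hodd hpS E E' _ _ _ _ _ hdeg ζ hζ c
  exact psiC_eq_zero_of_tower p n S hodd hpS E E' hdeg ζ hζ c

end Fermat.Agent.PT.G3
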