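/-
PT-G3 piece sylownorm (helper72): from a Sylow norm relation in `C_S(N)` to the norm subgroup of
`M₀ / F₀`.

* `syln_exists_restrict`, `syln_exists_lift` : restriction and lifting between `Gal(N/F₀)` and
  `Gal(M₀/F₀)` (as subgroups `relAut` of the `ℚ`-automorphism groups);
* `syln_bijective` : `Gal(N/F₀) / Gal(N/M₀) ≃ Gal(M₀/F₀)`;
* `stmtSylowNorm_of`.
-/
import Fermat.Agent.PT.G3.Plan2

set_option autoImplicit false
set_option linter.unusedSectionVars false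

namespace Fermat.Agent.PT.G3

open CategoryTheory NumberField IsDedekindDomain
open Fermat.Agent.PT Fermat.Agent.PT.G Fermat.Agent.PT.G1

section Restrict

variable (F M N : Type) [Field F] [NumberField F] [Field M] [NumberField M] [Field N]
  [NumberField N] [Algebra F M] [Algebra M N] [Algebra F N] [IsScalarTower F M N]

theorem syln_relAut_le : relAut M N ≤ relAut F N := by
  intro σ hσ x
  rw [IsScalarTower.algebraMap_apply F M N, hσ]

variable {F M N}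

theorem syln_exists_restrict [Normal F M] (σ : N ≃ₐ[ℚ] N) (hσ : σ ∈ relAut F N) :
    ∃ τ : M ≃ₐ[ℚ] M, τ ∈ relAut F M ∧ Restricts σ τ := by
  let σ' : N ≃ₐ[F] N := AlgEquiv.ofRingEquiv (f := σ.toRingEquiv) hσ
  refine ⟨(σ'.restrictNormal M).toRingEquiv.toRatAlgEquiv, ?_, ?_⟩
  · intro x
    exact (σ'.restrictNormal M).commutes x
  · intro x
    exact (σ'.restrictNormal_commutes M x).symm

theorem syln_exists_lift [Normal F N] (τ : M ≃ₐ[ℚ] M) (hτ : τ ∈ relAut F M) :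
    ∃ σ : N ≃ₐ[ℚ] N, σ ∈ relAut F N ∧ Restricts σ τ := by
  let τ' : M ≃ₐ[F] M := AlgEquiv.ofRingEquiv (f := τ.toRingEquiv) hτ
  refine ⟨(τ'.liftNormal N).toRingEquiv.toRatAlgEquiv, ?_, ?_⟩
  · intro x
    exact (τ'.liftNormal N).commutes x
  · intro x
    exact τ'.liftNormal_commutes N x

theorem syln_restricts_unique {σ : N ≃ₐ[ℚ] N} {τ τ' : M ≃ₐ[ℚ] M} (h : Restricts σ τ)
    (h' : Restricts σ τ') : τ = τ' := by
  ext x
  apply (algebraMap M N).injective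
  rw [← h x, ← h' x]

theorem syln_inv_mul_mem {σ σ' : N ≃ₐ[ℚ] N} {τ : M ≃ₐ[ℚ] M} (h : Restricts σ τ)
    (h' : Restricts σ' τ) : σ⁻¹ * σ' ∈ relAut M N := by
  intro x
  show σ⁻¹ (σ' (algebraMap M N x)) = algebraMap M N x
  rw [h' x, ← h x]
  exact σ.symm_apply_apply _

theorem syln_restricts_mul {σ : N ≃ₐ[ℚ] N} {τ : M ≃ₐ[ℚ] M} (h : Restricts σ τ)
    {g : N ≃ₐ[ℚ] N} (hg : g ∈ relAut M N) : Restricts (σ * g) τ := by
  intro x
  show σ (g (algebraMap M N x)) = algebraMap M N (τ x)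
  rw [hg x, h x]

end Restrict

/-- **G3-sylownorm**. -/
theorem stmtSylowNorm_of (hdesc : G.StmtCSDescent) (hinj : G.StmtCSMapInj)
    (hcomp : StmtCSMapComp) (htower : StmtUnramTower) : StmtSylowNorm := by
  intro S hS N _ _ _ hunr F₀ M₀ _ _ _ _ _ _ _ _ _ c₀ d hd hsum
  have : IsGalois M₀ N := IsGalois.tower_top_of_isGalois ℚ M₀ N
  have : IsGalois F₀ N := IsGalois.tower_top_of_isGalois ℚ F₀ N
  obtain ⟨hMN, -⟩ := htower S ℚ M₀ N hunr
  obtain ⟨d', hd'⟩ := hdesc S M₀ N hS hMN d (fun σ hσ => hd σ hσ)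
  refine ⟨d', ?_⟩
  apply hinj S M₀ N hS
  rw [hcomp S ℚ F₀ M₀, hcomp S ℚ M₀ N, hsum]
  unfold galNorm
  rw [map_finsum _ (Set.toFinite _)]
  choose ρ hρ using fun σ : ↥(relAut F₀ N) =>
    syln_exists_restrict (F := F₀) (M := M₀) (N := N) σ.1 σ.2
  refine finsum_eq_of_bijective
    (fun t : ↥(relAut F₀ N) ⧸ ((relAut M₀ N).subgroupOf (relAut F₀ N)) =>
      (⟨ρ (Quotient.out t), (hρ _).1⟩ : ↥(relAut F₀ M₀))) ⟨?_, ?_⟩ ?_
  · -- injective
    intro t t' htt'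
    have h1 : ρ (Quotient.out t) = ρ (Quotient.out t') := congrArg Subtype.val htt'
    have h2 := syln_inv_mul_mem (hρ (Quotient.out t)).2 (h1 ▸ (hρ (Quotient.out t')).2)
    rw [← Quotient.out_eq t, ← Quotient.out_eq t']
    exact (QuotientGroup.eq (s := (relAut M₀ N).subgroupOf (relAut F₀ N))).2 h2
  · -- surjective
    intro τ
    obtain ⟨σ, hσ, hστ⟩ := syln_exists_lift (F := F₀) (M := M₀) (N := N) τ.1 τ.2
    refine ⟨QuotientGroup.mk ⟨σ, hσ⟩, Subtype.ext ?_⟩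
    -- `out (mk σ)` and `σ` differ by an element of `Gal(N/M₀)`
    have h3 : (⟨σ, hσ⟩ : ↥(relAut F₀ N))⁻¹ * Quotient.out
        (QuotientGroup.mk ⟨σ, hσ⟩ : ↥(relAut F₀ N) ⧸ ((relAut M₀ N).subgroupOf (relAut F₀ N))) ∈
        (relAut M₀ N).subgroupOf (relAut F₀ N) := by
      rw [← QuotientGroup.eq]
      exact (Quotient.out_eq _).symm
    have h4 : Restricts ((Quotient.out
        (QuotientGroup.mk ⟨σ, hσ⟩ : ↥(relAut F₀ N) ⧸ ((relAut M₀ N).subgroupOf (relAut F₀ N))) :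
          ↥(relAut F₀ N)) : N ≃ₐ[ℚ] N) τ.1 := by
      have := syln_restricts_mul hστ h3
      simpa using this
    exact syln_restricts_unique (hρ _).2 h4
  · intro t
    rw [← csEnd_csMap S (hρ (Quotient.out t)).2, hd']

end Fermat.Agent.PT.G3
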