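import Fermat.Agent.PT.G3.Plan3
import Fermat.Agent.PT.G.Norm
import Fermat.Agent.PT.G.NormGal
import Fermat.Agent.PT.G.NormDivGal
import Fermat.Agent.PT.G.MapInj
import Fermat.Agent.PT.G3.NormSub

/-!
# PT-G3, pieces psiN, psiM, psiUp: the class symbol and the maps `csNorm`, `csMap`

* `psiC_csNorm` (**(N)**): `Ψ_K ∘ csNorm = Ψ_L` (transitivity of the norms to `ℚ_q`;
  `N(P) = N(𝔭)^f`).
* `psiC_csMap`, `stmtPsiMap` (**(M)**): `Ψ_L ∘ csMap = [L : K] • Ψ_K` (from (N) and
  `csNorm ∘ csMap = [L : K]`).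
* `stmtPsiUp`: `Ψ_E = 0 ⇒ Ψ_M = 0`.
* `stmtPsiNormGal`: if `M / F` is Galois and `csMap c = Σ_{σ ∈ Gal(M/F)} σ d` then `Ψ_F c = Ψ_M d`.
-/

set_option autoImplicit false

namespace Fermat.Agent.PT.G3

open NumberField IsDedekindDomain Fermat.Agent.PT.G1 Fermat.Agent.PT.X Fermat.Agent.PT.G
open scoped nonZeroDivisors

section Norm

variable (p n : ℕ) [hp : Fact p.Prime] (S : Finset Nat.Primes)
variable (K L : Type) [Field K] [NumberField K] [Field L] [NumberField L] [Algebra K L]

/-- The semilocal symbol is compatible with the norm `ℚ_q ⊗ L → ℚ_q ⊗ K`. -/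
theorem psiSemi_semiNorm (q : ℕ) [Fact q.Prime] (x : (semiAlg q L)ˣ) :
    psiSemi p n q K (Units.map (semiNorm K L q) x) = psiSemi p n q L x := by
  rw [psiSemi_apply, psiSemi_apply]
  congr 1
  apply Units.ext
  exact norm_semiNorm K L q (x : semiAlg q L)

/-- `ψ_J` is compatible with the norm `J_L → J_K`. -/
theorem psiJ_jlNorm (x : JL S L) : psiJ p n S K (jlNorm S K L x) = psiJ p n S L x := by
  rw [psiJ_apply, psiJ_apply]
  refine Finset.prod_congr rfl fun q _ => ?_
  exact psiSemi_semiNorm p n K L _ (x q)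

variable {L} in
/-- `N(P) = N(𝔭)^f`. -/
theorem absNorm_eq_pow_inertDeg (P : HeightOneSpectrum (𝓞 L)) :
    Ideal.absNorm P.asIdeal = Ideal.absNorm (primeUnder K P).asIdeal ^ inertDeg K P := by
  have h := card_quot_pow_inertDeg K P
  rw [Ideal.absNorm_apply, Ideal.absNorm_apply, Submodule.cardQuot_apply,
    Submodule.cardQuot_apply]
  exact h.symm

variable {L} in
/-- `ψ(𝔭)^f = ψ(P)`. -/
theorem normSymbol_offUnder_pow (hpS : (⟨p, hp.out⟩ : Nat.Primes) ∈ S) (P : OffS S L) :
    normSymbol p n (offUnder S K P).1.asIdeal ^ inertDeg K P.1 = normSymbol p n P.1.asIdeal := by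
  apply Units.ext
  rw [Units.val_pow_eq_pow_val,
    coe_normSymbol_of_coprime (absNorm_coprime_pow_of_off p n S hpS (offUnder S K P)),
    coe_normSymbol_of_coprime (absNorm_coprime_pow_of_off p n S hpS P),
    absNorm_eq_pow_inertDeg K P.1, offUnder_val, Nat.cast_pow, ← pow_mul, ← pow_mul, mul_comm]

/-- The divisor symbol is compatible with the norm `Div_S(L) → Div_S(K)`. -/
theorem psiDiv_divNorm (hpS : (⟨p, hp.out⟩ : Nat.Primes) ∈ S) (d : DivS S L) :
    psiDiv p n S K (divNorm S K L d) = psiDiv p n S L d := by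
  have h : (psiDiv p n S K).comp (divNorm S K L).toAddMonoidHom = psiDiv p n S L := by
    apply Finsupp.addHom_ext
    intro P k
    rw [AddMonoidHom.comp_apply]
    show psiDiv p n S K (divNorm S K L (Finsupp.single P k)) = _
    rw [divNorm_single, psiDiv_single, psiDiv_single, zpow_mul, zpow_natCast,
      normSymbol_offUnder_pow p n S K hpS P]
  exact DFunLike.congr_fun h d

theorem psiJD_jdNorm (hpS : (⟨p, hp.out⟩ : Nat.Primes) ∈ S)
    (y : Additive (JL S L) × DivS S L) :
    psiJD p n S K (jdNorm S K L y) = psiJD p n S L y := by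
  rw [psiJD_apply, psiJD_apply]
  have h1 : (jdNorm S K L y).1 = jlNormLin S K L y.1 := rfl
  have h2 : (jdNorm S K L y).2 = divNorm S K L y.2 := rfl
  rw [h1, h2, psiDiv_divNorm p n S K L hpS]
  congr 2
  exact psiJ_jlNorm p n S K L (Additive.toMul y.1)

/-- **(N)**: `Ψ_K ∘ csNorm = Ψ_L`. -/
theorem psiC_csNorm (hodd : Odd p) (hpS : (⟨p, hp.out⟩ : Nat.Primes) ∈ S) (c : CS S L) :
    psiC p n S K (csNorm S K L c) = psiC p n S L c := by
  induction c using Submodule.Quotient.induction_on with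
  | _ y =>
    show psiC p n S K (csNorm S K L (csMk S L y)) = psiC p n S L (csMk S L y)
    rw [csNorm_mk, psiC_mk p n S K hodd hpS, psiC_mk p n S L hodd hpS, psiJD_jdNorm p n S K L hpS]

/-- **(M)**: `Ψ_L ∘ csMap = [L : K] • Ψ_K`. -/
theorem psiC_csMap (hodd : Odd p) (hpS : (⟨p, hp.out⟩ : Nat.Primes) ∈ S) (c : CS S K) :
    psiC p n S L (csMap S K L c) = Module.finrank K L • psiC p n S K c := by
  rw [← psiC_csNorm p n S K L hodd hpS, csNorm_csMap, map_zsmul, natCast_zsmul]

end Norm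

/-- **psi-M**. -/
theorem stmtPsiMap : StmtPsiMap := by
  intro p n hp S hodd hpS K L _ _ _ _ _ c
  exact psiC_csMap p n S K L hodd hpS c

/-- **psi-up**. -/
theorem stmtPsiUp : StmtPsiUp := by
  intro p n hp S hodd hpS E M _ _ _ _ _ hE c
  rw [← psiC_csNorm p n S E M hodd hpS]
  exact hE _

section Gal

variable (S : Finset Nat.Primes)
variable (F M : Type) [Field F] [NumberField F] [Field M] [NumberField M] [Algebra F M]

/-- The Galois norm is `csMap ∘ csNorm`. -/
theorem galNorm_eq_csMap_csNorm [IsGalois F M] (d : CS S M) :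
    galNorm S F M d = csMap S F M (csNorm S F M d) := by
  classical
  letI : Fintype ↥(relAut F M) := Fintype.ofFinite _
  rw [nsub_galNorm_eq_sum, csMap_csNorm_of S F M (divMap_divNorm S F M)]
  apply Fintype.sum_equiv (nsubEquiv F M)
  intro σ
  congr 1

end Gal

/-- **psi-N** (Galois form). -/
theorem stmtPsiNormGal : StmtPsiNormGal := by
  intro p n hp S hodd hpS F M _ _ _ _ _ _ c d hcd
  have hS : S.Nonempty := ⟨_, hpS⟩
  rw [galNorm_eq_csMap_csNorm] at hcd
  have h := stmtCSMapInj S F M hS hcd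
  rw [h, psiC_csNorm p n S F M hodd hpS]

end Fermat.Agent.PT.G3
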