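/-
PT-G3 / (GA), UNCONDITIONAL (helper72): `stmtGA : StmtGA` and `stmtGA_B : B.StmtGA` —
for `L / ℚ` Galois, unramified outside `S ∋ p`, `p` odd, the `S`-idèle class module `C_S(L)`
(`csRep S L`, tensor model of PT/G/Defs.lean) has a `p`-fundamental class.
All fifteen pieces of the piece table of NOTES/PT-G3.md are inserted into `stmtGA_of` (G3/GA.lean).
-/
import Fermat.Agent.PT.G3.GA
import Fermat.Agent.PT.G3.FundAbs
import Fermat.Agent.PT.G3.FundOfOrder
import Fermat.Agent.PT.G3.Carry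
import Fermat.Agent.PT.G3.InfSurj
import Fermat.Agent.PT.G3.Devissage
import Fermat.Agent.PT.G3.MapComp
import Fermat.Agent.PT.G3.NormSub
import Fermat.Agent.PT.G.CyclicFinal
import Fermat.Agent.PT.G.MapInj
import Fermat.Agent.PT.G3.LayerFinal
import Fermat.Agent.PT.G3.SylowNorm
import Fermat.Agent.PT.G3.SymbolCSMap
import Fermat.Agent.PT.G3.PsiZ
import Fermat.Agent.PT.G3.PsiTors
import Fermat.Agent.PT.G3.PsiGen
import Fermat.Agent.PT.G3.CLT
import Fermat.Agent.PT.G3.NormIndex
import Fermat.Agent.PT.G3.CycFinal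

set_option autoImplicit false

namespace Fermat.Agent.PT.G3

open Fermat.Agent.PT Fermat.Agent.PT.G

/-- **G3-abs**, unconditional. -/
theorem stmtFundAbs : StmtFundAbs :=
  stmtFundAbs_of stmtDevissage stmtFundOfOrder stmtCarryClass stmtInfSurj

/-- **G3-normindex**, unconditional. -/
theorem stmtNormIndexLe : StmtNormIndexLe :=
  stmtNormIndexLe_of stmtGalNormAdd stmtNormSubJ stmtNormSubSplit

/-- **G3-sylownorm**, unconditional. -/
theorem stmtSylowNorm : StmtSylowNorm :=
  stmtSylowNorm_of stmtCSDescent stmtCSMapInj stmtCSMapComp stmtUnramTower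

/-- **G3-clt**, unconditional. -/
theorem stmtCLT : StmtCLT :=
  stmtCLT_of stmtPsiNormGal stmtNormIndexLe

/-- **(GA)**, unconditional: `C_S(L)` has a `p`-fundamental class. -/
theorem stmtGA : StmtGA :=
  stmtGA_of stmtFundAbs stmtLayer stmtCSMapInj stmtCSDescent stmtCSMapComp stmtUnramTower
    stmtSylowNorm stmtPsiMap stmtPsiNormGal stmtPsiUp stmtPsiZ stmtPsiTors stmtPsiGen stmtCLT
    stmtCyc

/-- **(GA)** in the shape consumed by PT-B (PT/B/Plan4.lean), unconditional. -/
theorem stmtGA_B : Fermat.Agent.PT.B.StmtGA :=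
  stmtGA_B_of stmtFundAbs stmtLayer stmtCSMapInj stmtCSDescent stmtCSMapComp stmtUnramTower
    stmtSylowNorm stmtPsiMap stmtPsiNormGal stmtPsiUp stmtPsiZ stmtPsiTors stmtPsiGen stmtCLT
    stmtCyc

end Fermat.Agent.PT.G3
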