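/-
PT-G3 — INTERFACE FILE for (GB) = `Fermat.Agent.PT.B.StmtGB` (finite-level `surv`).
Plan: helper55 (PT captain), with the analysis of helper47.  Mathematics + piece table:
NOTES/PT-GB.md.  Definitions and statements only; a piece `X` is DONE when
`theorem stmtX : StmtX` (or `stmtX_of : … → StmtX`) is landed in its own file
`Fermat/Agent/PT/G3/GB<File>.lean`, namespace `Fermat.Agent.PT.G3`, sorry-free, std axioms.

Route (all at FINITE level, tensor model).  `L/ℚ` Galois, unramified outside `S ∋ p`, `q ∈ S`,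
`y ∈ Z²(Aut L, J_L)` supported at `q`, `p • y ∼ 0`, `csOfJ ∘ y ∼ 0`.
 0. WLOG `p • y ∼ 0` (`StmtGBRed`).
 1. choose `n`, `b₁ ∈ ℚ_qˣ` with `ψ_q(b₁) ≠ 1` (`StmtPsiNontriv`), `D : CycData p n S L`, `N = D.N`,
    `θ = D.θ : Aut N ↠ ℤ/p^n`.
 2. `y_N := Inf y` on `Aut N` (`gbInf`); it suffices to kill `y_N` (`StmtGBInfJ`).
 3. `X := semiRep q N`.  `H²(Aut N, X)[p]` has order `≤ p` (`StmtSemiCycOne`, helper47's sub-plan)
    and contains a NONZERO carry class (`StmtCarryNZ`: `ψ_q(b₁) ≠ 1`); hence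
    `y_N ∼ cmpCarry (p^n) θ (gbConst b)` for some `b ∈ ℚ_qˣ`.
 4. `csOfJ(y_N) ∼ 0` ⇒ the carry cocycle of `csMap [b]` is a coboundary in `C_S(N)` ⇒
    `Ψ_ℚ [b] = ψ_q(b) = 1` (`StmtGBPsi`: CarryZero + SylowNorm + psi-N/M/Z).
 5. `ψ_q(b) = 1` ⇒ `b^(p-1)` is a norm from `(ℚ_q ⊗ ℚ(ζ_{p^(n+1)}))ˣ` (`StmtLocNormCyc`, LOCAL)
    ⇒ `b` is a norm from `X^{ker θ}` (`StmtNormTransfer`) ⇒ the carry cocycle of `b` is a
    coboundary (`StmtCarryOfNorm`) ⇒ `y_N ∼ 0` ⇒ `y ∼ 0`.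
-/
import Fermat.Agent.PT.G3.Plan3

set_option autoImplicit false
set_option linter.unusedSectionVars false

noncomputable section

namespace Fermat.Agent.PT.G3

open CategoryTheory groupCohomology NumberField IsDedekindDomain
open Fermat.Agent.PT Fermat.Agent.PT.G Fermat.Agent.PT.G1
open scoped TensorProduct

/-! ### Vocabulary -/

/-- The constant idèle `b ⊗ 1 ∈ (ℚ_q ⊗ N)ˣ` attached to `b ∈ ℚ_qˣ`, as an element of
`semiRep q N` (it is `Aut(N)`-invariant: `gbConst_invariant` is part of piece `carryOfNorm`). -/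
def gbConst (q : ℕ) [Fact q.Prime] (N : Type) [Field N] [NumberField N] (b : ℚ_[q]ˣ) :
    (semiRep q N).V :=
  Additive.ofMul (Units.map ((algebraMap ℚ_[q] (semiAlg q N) : ℚ_[q] →* semiAlg q N)) b)

/-- restriction of automorphisms `Aut(N) → Aut(L)` (`L/ℚ` normal) -/
def gbRes (L N : Type) [Field L] [NumberField L] [Field N] [NumberField N] [Algebra L N]
    [Normal ℚ L] : (N ≃ₐ[ℚ] N) →* (L ≃ₐ[ℚ] L) :=
  haveI : IsScalarTower ℚ L N := IsScalarTower.of_algebraMap_eq (fun x => by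
    rw [eq_ratCast, eq_ratCast, map_ratCast])
  AlgEquiv.restrictNormalHom (F := ℚ) (K₁ := N) L

/-- inflation of a 2-cochain of `Aut(L)` with values in `J_L` to `Aut(N)` with values in `J_N` -/
def gbInf (S : Finset Nat.Primes) (L N : Type) [Field L] [NumberField L] [Field N]
    [NumberField N] [Algebra L N] [Normal ℚ L]
    (y : (L ≃ₐ[ℚ] L) × (L ≃ₐ[ℚ] L) → (jlRep S L).V) :
    (N ≃ₐ[ℚ] N) × (N ≃ₐ[ℚ] N) → (jlRep S N).V :=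
  fun gg => jlMapLin S L N (y (gbRes L N gg.1, gbRes L N gg.2))

/-! ### (GB) for classes killed by `p`, and the reduction -/

/-- **(GB₁)** = (GB) for classes killed by `p`. -/
def StmtGBOne : Prop :=
  ∀ (p : ℕ) [hp : Fact p.Prime], p ≠ 2 → ∀ (S : Finset Nat.Primes),
    (⟨p, hp.out⟩ : Nat.Primes) ∈ S →
    ∀ (L : Type) [Field L] [NumberField L] [IsGalois ℚ L], UnramOffRel S ℚ L →
    ∀ (q : ↥S) (y : (L ≃ₐ[ℚ] L) × (L ≃ₐ[ℚ] L) → (jlRep S L).V),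
      y ∈ cocycles₂ (jlRep S L) →
      (∀ q' : ↥S, q' ≠ q → ∀ gg, (Additive.toMul (y gg : Additive (JL S L)) : JL S L) q' = 1) →
      p • y ∈ coboundaries₂ (jlRep S L) →
      (fun gg => (csOfJRep S L).hom (y gg)) ∈ coboundaries₂ (csRep S L) →
      y ∈ coboundaries₂ (jlRep S L)

/-- (GB) in the shape of `Fermat.Agent.PT.B.StmtGB` (PT/B/Plan4.lean), restated here to avoid an
import cycle; `B.StmtGB` is definitionally this. -/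
def StmtGBAll : Prop :=
  ∀ (p : ℕ) [hp : Fact p.Prime], p ≠ 2 → ∀ (S : Finset Nat.Primes),
    (⟨p, hp.out⟩ : Nat.Primes) ∈ S →
    ∀ (L : Type) [Field L] [NumberField L] [IsGalois ℚ L], UnramOffRel S ℚ L →
    ∀ (q : ↥S) (y : (L ≃ₐ[ℚ] L) × (L ≃ₐ[ℚ] L) → (jlRep S L).V),
      y ∈ cocycles₂ (jlRep S L) →
      (∀ q' : ↥S, q' ≠ q → ∀ gg, (Additive.toMul (y gg : Additive (JL S L)) : JL S L) q' = 1) →
      (∃ (k : ℕ) (t : (L ≃ₐ[ℚ] L) → (jlRep S L).V), (d₁₂ (jlRep S L)).hom t = (p ^ k) • y) →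
      (∃ t : (L ≃ₐ[ℚ] L) → (csRep S L).V,
        (d₁₂ (csRep S L)).hom t = fun gg => (csOfJRep S L).hom (y gg)) →
      ∃ t : (L ≃ₐ[ℚ] L) → (jlRep S L).V, (d₁₂ (jlRep S L)).hom t = y

/-- **gbRed** (R0): (GB₁) ⇒ (GB).  Induction on `k`: if `p^(k+1) • y ∼ 0`, apply (GB₁) to
`p^k • y` (a cocycle supported at `q`, dying in `C_S(L)`), get `p^k • y ∼ 0`, induct. -/
def StmtGBRed : Prop := StmtGBOne → StmtGBAll

/-! ### Step 1: a prime power level with `ψ_q ≠ 1` -/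

/-- **psiNontriv**: for `p` odd and every prime `q` the local symbol `ψ_q` is nontrivial at some
level `n`.  (`q ≠ p`: `b = q`, `n ≥ v_p(q^(p-1) - 1)`: `ψ_q(q) = [q^(p-1)] ≠ 1` in
`(ℤ/p^(n+1))ˣ`.  `q = p`: `b = 1 + p`, `n = 1`: `ψ_p(1+p) = [(1+p)^(p-1)]⁻¹ ≠ 1` mod `p²`.) -/
def StmtPsiNontriv : Prop :=
  ∀ (p : ℕ) [Fact p.Prime], p ≠ 2 → ∀ (q : ℕ) [Fact q.Prime],
    ∃ (n : ℕ) (b : ℚ_[q]ˣ), psiQ p n q b ≠ 1

/-! ### Step 2: inflation for `J` -/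

/-- **h90semi** (Hilbert 90 for the semilocal algebra): `H¹(H, (ℚ_q ⊗ N)ˣ) = 0` for every
subgroup `H ≤ Aut(N)`.  (`ℚ_q ⊗ N` is a product of fields permuted by `H`; Shapiro + Hilbert 90
for fields; or directly: `(ℚ_q ⊗ N)ˣ ≅ coind` of `(A/𝔪)ˣ` — helper47's (SD).) -/
def StmtH90Semi : Prop :=
  ∀ (q : ℕ) [Fact q.Prime] (N : Type) [Field N] [NumberField N] (H : Subgroup (N ≃ₐ[ℚ] N)),
    Subsingleton (H1 (Rep.res H.subtype (semiRep q N)))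

/-- **gbInfJ**: inflation `H²(Aut L, J_L) → H²(Aut N, J_N)` is injective, in cocycle form
(`N/L` Galois, `L/ℚ`, `N/ℚ` Galois).
(`StmtInfSurj` with `f = gbRes`, `D = jlRep S L`, `C = jlRep S N`, `φ = jlMapLin`:
injective (`semiIncl` is injective: flatness), `J_N^{Gal(N/L)} = jlMap(J_L)` (`StmtSemiInv`),
`H¹(Gal(N/L), J_N) = 0` (`StmtH90Semi`, componentwise).) -/
def StmtGBInfJ : Prop :=
  StmtH90Semi →
  ∀ (S : Finset Nat.Primes) (L N : Type) [Field L] [NumberField L] [Field N] [NumberField N]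
    [Algebra L N] [IsGalois ℚ L] [IsGalois ℚ N] [IsGalois L N]
    (y : (L ≃ₐ[ℚ] L) × (L ≃ₐ[ℚ] L) → (jlRep S L).V),
    y ∈ cocycles₂ (jlRep S L) →
    gbInf S L N y ∈ coboundaries₂ (jlRep S N) → y ∈ coboundaries₂ (jlRep S L)

/-! ### Step 3: the local structure -/

/-- **semiCycOne** (helper47's sub-plan `SemiCyc`, in the form used here): the classes killed by
`p` in `H²(Aut N, (ℚ_q ⊗ N)ˣ)` form a group of order `≤ p`: if `y₁ ≁ 0` then every `y₂` is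
cohomologous to a multiple of `y₁`.
(`(ℚ_q ⊗ N)ˣ ≅ coind_{Γ_w}^{Aut N} (N_w)ˣ`, Shapiro, PT-L `fundClass`: `H²(Γ_w, N_wˣ)(p)` is
cyclic.) -/
def StmtSemiCycOne : Prop :=
  ∀ (p : ℕ) [Fact p.Prime] (q : ℕ) [Fact q.Prime] (N : Type) [Field N] [NumberField N]
    [IsGalois ℚ N] (y₁ y₂ : (N ≃ₐ[ℚ] N) × (N ≃ₐ[ℚ] N) → (semiRep q N).V),
    y₁ ∈ cocycles₂ (semiRep q N) → y₂ ∈ cocycles₂ (semiRep q N) →
    p • y₁ ∈ coboundaries₂ (semiRep q N) → p • y₂ ∈ coboundaries₂ (semiRep q N) →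
    y₁ ∉ coboundaries₂ (semiRep q N) →
    ∃ j : ℕ, y₂ - j • y₁ ∈ coboundaries₂ (semiRep q N)

/-- **carryOfNorm** (abstract, easy direction of periodicity): if `a = N_{G/ker θ}(d)` with `d`
fixed by `ker θ`, then the carry cocycle of `a` is a coboundary.
(Explicit: `φ(g) = Σ_{t ∈ G/ker θ, idx(t) < idx(g)} t • d`, as in `cmpCarry_mem_coboundaries₂`.) -/
def StmtCarryOfNorm : Prop :=
  ∀ (G : Type) [Group G] [Finite G] (C : Rep.{0} ℤ G) (m : ℕ) [NeZero m]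
    (θ : G →* Multiplicative (ZMod m)) (d : C.V), (∀ g ∈ θ.ker, C.ρ g d = d) →
    cmpCarry m θ (∑ᶠ t : G ⧸ θ.ker, C.ρ (Quotient.out t : G) d) ∈ coboundaries₂ C

/-- **carryNZ**: if `ψ_q(b) ≠ 1` then the carry cocycle of `b` is NOT a coboundary in
`(ℚ_q ⊗ N)ˣ`.
(If it is: inflation from `Aut N / ker θ ≅ ℤ/p^n` is injective (`StmtInfSurj`, `StmtH90Semi` for
`ker θ`, `StmtSemiInv`), so `b = N(x)`, `x ∈ (ℚ_q ⊗ E)ˣ`, `E = N^{ker θ}`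
(`cmpCarry_norm_of_mem_coboundaries₂`); the product over `Gal(E/ℚ)` is `Algebra.norm ℚ_q`
(`ℚ_q ⊗ E` is a Galois algebra: as in psi-N); `ψ_q(norm x) = Ψ_E(csOfJ x) = 0` by psi-Z
(`E' ⊇ E` contains `ζ`, degree prime to `p`).  Contradiction.) -/
def StmtCarryNZ : Prop :=
  StmtH90Semi →
  ∀ (p n : ℕ) [hp : Fact p.Prime] (S : Finset Nat.Primes), p ≠ 2 →
    (⟨p, hp.out⟩ : Nat.Primes) ∈ S →
    ∀ (L : Type) [Field L] [NumberField L] [IsGalois ℚ L] (D : CycData p n S L)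
      (q : ↥S) (b : ℚ_[(q : Nat.Primes)]ˣ),
      haveI : Fact ((q : Nat.Primes) : ℕ).Prime := ⟨(q : Nat.Primes).2⟩
      haveI : NeZero (p ^ n) := ⟨pow_ne_zero _ hp.out.ne_zero⟩
      psiQ p n ((q : Nat.Primes) : ℕ) b ≠ 1 →
      cmpCarry (p ^ n) D.θ (gbConst ((q : Nat.Primes) : ℕ) D.N b) ∉
        coboundaries₂ (semiRep ((q : Nat.Primes) : ℕ) D.N)

/-! ### Step 4: the global step -/

/-- **gbPsi** (R4): if the carry cocycle of `csMap c₀`, `c₀ ∈ C_S(ℚ)`, is a coboundary in `C_S(N)`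
then `Ψ_ℚ(c₀) = 0`.
(`StmtCarryZero` [`H¹(P ⊓ ker θ, C_S(N)) = 0`: `csPBound`] ⇒ `csMap c₀ = N_{P/(P ∩ A)} d` ⇒
`StmtSylowNorm` ⇒ `csMap S ℚ F₀ c₀ ∈ NormSub S F₀ M₀` (`F₀ = N^P`, `M₀ = N^{P ∩ A} ⊇ E`) ⇒
psi-N + (`Ψ_{M₀} = 0`: psi-Z for `E`, psi-up) ⇒ `Ψ_{F₀}(csMap c₀) = 0` ⇒ psi-M:
`[F₀ : ℚ] • Ψ_ℚ c₀ = 0`, `[F₀ : ℚ]` prime to `p`, psi-tors ⇒ `Ψ_ℚ c₀ = 0`.
This is computation (iii) of the GA recipe — share the lemma with `GA.lean`.) -/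
def StmtGBPsi : Prop :=
  ∀ (p n : ℕ) [hp : Fact p.Prime] (S : Finset Nat.Primes), p ≠ 2 →
    (⟨p, hp.out⟩ : Nat.Primes) ∈ S →
    ∀ (L : Type) [Field L] [NumberField L] [IsGalois ℚ L], UnramOffRel S ℚ L →
    ∀ (D : CycData p n S L) (c₀ : CS S ℚ),
      haveI : NeZero (p ^ n) := ⟨pow_ne_zero _ hp.out.ne_zero⟩
      cmpCarry (p ^ n) D.θ (csMap S ℚ D.N c₀ : (csRep S D.N).V) ∈ coboundaries₂ (csRep S D.N) →
      psiC p n S ℚ c₀ = 0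

/-! ### Step 5: local norms -/

/-- **locNormCyc** (LOCAL, the arithmetic heart): if `ψ_q(b) = 1` then `b^(p-1)` is a norm from
`(ℚ_q ⊗ K)ˣ`, `K = ℚ(ζ_{p^(n+1)})`.
* `q = p`: `b = p^a u`, `u^(p-1) ≡ 1 mod p^(n+1)`.  `p = N_{K/ℚ}(1 - ζ)` and
  `Algebra.norm ℚ_p (1 ⊗ x) = N_{K/ℚ} x` (`norm_one_tmul`);
  `u^(p-1) ∈ 1 + p^(n+1) ℤ_p = {c^(p^n (p-1)) | c ∈ 1 + p ℤ_p}` and `c^([K:ℚ]) = norm (c ⊗ 1)`.
* `q ≠ p`: `b = q^a u`, `ord(q mod p^(n+1)) ∣ a (p-1)`.  `ℚ_q ⊗ K ≅ ∏_𝔪 F_𝔪`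
  (G1 `tensUnitsEquiv`), `F_𝔪 = ℚ_q(ζ)` unramified cyclic of degree `f = ord(q mod p^(n+1))` over
  `ℚ_q`; `N(F_𝔪ˣ) ∋ q^f` and `⊇ ℤ_qˣ` (PT-L `unitNorm`). -/
def StmtLocNormCyc : Prop :=
  ∀ (p n : ℕ) [Fact p.Prime], p ≠ 2 → ∀ (q : ℕ) [Fact q.Prime] (b : ℚ_[q]ˣ),
    psiQ p n q b = 1 →
    ∃ x : (semiAlg q (CyclotomicField (p ^ (n + 1)) ℚ))ˣ,
      Algebra.norm ℚ_[q] (x : semiAlg q (CyclotomicField (p ^ (n + 1)) ℚ)) =
        (b : ℚ_[q]) ^ (p - 1)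

/-- **normTransfer**: from norms of `ℚ_q ⊗ ℚ(ζ)` to norms `N_{Aut N / ker θ}` in `(ℚ_q ⊗ N)ˣ`.
(`K = ℚ(ζ) → E'` (`ζ ↦ D.ζ`), `E = N^{ker θ} ⊂ E'`, `[E' : K]` prime to `p`;
`norm_{ℚ_q}(x') = (b^(p-1))^[E':K]` for the image `x'` of `x` in `ℚ_q ⊗ E'` (`Algebra.norm_norm`);
`y := norm_{(ℚ_q⊗E')/(ℚ_q⊗E)} x'`; `norm_{ℚ_q} b = b^(p^n)`; Bezout; the product over
`Gal(E/ℚ) ≅ Aut N / ker θ` of the conjugates of `z ∈ ℚ_q ⊗ E` is `norm_{ℚ_q} z`.) -/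
def StmtNormTransfer : Prop :=
  ∀ (p n : ℕ) [hp : Fact p.Prime] (S : Finset Nat.Primes), p ≠ 2 →
    ∀ (L : Type) [Field L] [NumberField L] [IsGalois ℚ L] (D : CycData p n S L)
      (q : ℕ) [Fact q.Prime] (b : ℚ_[q]ˣ),
      (∃ x : (semiAlg q (CyclotomicField (p ^ (n + 1)) ℚ))ˣ,
        Algebra.norm ℚ_[q] (x : semiAlg q (CyclotomicField (p ^ (n + 1)) ℚ)) =
          (b : ℚ_[q]) ^ (p - 1)) →
      ∃ d : (semiRep q D.N).V, (∀ g ∈ D.θ.ker, (semiRep q D.N).ρ g d = d) ∧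
        gbConst q D.N b =
          ∑ᶠ t : (D.N ≃ₐ[ℚ] D.N) ⧸ D.θ.ker, (semiRep q D.N).ρ (Quotient.out t) d

/-! ### Assembly -/

/-- **gbAsm**: (GB₁) from the pieces (see the header; `StmtCyc` provides `CycData`). -/
def StmtGBAsm : Prop :=
  StmtCyc → StmtPsiNontriv → StmtH90Semi → StmtGBInfJ → StmtSemiCycOne → StmtCarryOfNorm →
    StmtCarryNZ → StmtGBPsi → StmtLocNormCyc → StmtNormTransfer → StmtGBOne

end Fermat.Agent.PT.G3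

end
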