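/-
PT-G3 — INTERFACE FILE for (GB) = `Fermat.Agent.PT.B.StmtGB`, LOCAL part and assembly shape
(sub-captain helper47; mathematics: board note "PT-G3 (GB): no local norm computation needed").

Every `Stmt…` below is a `Prop`; the piece `X` is DONE when `theorem stmtX : StmtX` (or
`stmtX_of : deps → StmtX`) is landed, sorry-free, in its own file `Fermat/Agent/PT/G3/<File>.lean`.

This file complements G3/PlanGB.lean (helper55) by
 * the sub-plan for `StmtSemiCycOne` (semilocal decomposition, Shapiro, PT-L `fundClass`);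
 * a replacement of step 5 of PlanGB.lean (local norm groups `StmtLocNormCyc`,
   `StmtNormTransfer`) by the much cheaper (K) below; the modified assembly is `StmtGBAsm'`.

ROUTE.  `N = L·ℚ_n` (`CycData p n S L`), `Γ = Aut N`, `θ : Γ ↠ ℤ/h`, `h = p^n`.
For `b ∈ ℚ_qˣ` let `c_b = [cmpCarry h θ (gbConst b)] ∈ H²(Γ, (ℚ_q ⊗ N)ˣ)`.
 (A)  the `p`-primary part of `H²(Γ, (ℚ_q ⊗ N)ˣ)` is cyclic        (`StmtSemiCyc`, `StmtSemiCycOne`)
 (CP) `cmpCarry h θ (csMap c₀) ∼ 0` in `C_S(N)` ⇒ `Ψ_ℚ(c₀) = 0`      (`StmtGBPsi` of PlanGB.lean)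
 (K)  ONE `b₁ ∈ ℚ_qˣ` with `ψ_q(b₁) ≠ 1` and `f • c_{b₁} = 0`, `f = orderOf ψ_q(b₁)`
      (`q = p`: `f = h`, `StmtCarryH`;  `q ≠ p`: `b₁ = q`, `StmtSemiCarryKill` + `CycData.HasDec`)
 ⇒ if `[x] = i • c_{b₁}` dies in `C_S(N)` then `ψ_q(b₁)^i = 1`, `f ∣ i`, `[x] = 0`.
-/
import Fermat.Agent.PT.G3.PlanGB
import Fermat.Agent.PT.A.Shapiro
import Fermat.Agent.PT.G1.TensorHQ

set_option autoImplicit false
set_option linter.unusedSectionVars false

namespace Fermat.Agent.PT.G3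

open CategoryTheory groupCohomology NumberField IsDedekindDomain
open Fermat.Agent.PT Fermat.Agent.PT.G Fermat.Agent.PT.G1

/-! ### Cyclicity of the `p`-primary part of `H²` -/

/-- The `p`-primary part of `H²(G, C)` is cyclic, in the form: two `p`-primary classes are
comparable. -/
def PCyclicH2 (p : ℕ) {G : Type} [Group G] (C : Rep.{0} ℤ G) : Prop :=
  ∀ x y : H2 C, IsPTors p x → IsPTors p y → (∃ n : ℤ, n • x = y) ∨ (∃ n : ℤ, n • y = x)

/-- **gb-cycabs**: if `C` has a `p`-fundamental class `u`, then every `p`-primary class of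
`H²(G, C)` is a multiple of `u` (`res_P x = n res_P u` for a Sylow subgroup `P`, `cor ∘ res = [G:P]`
prime to `p`), hence the `p`-primary part is cyclic (multiples of one element of a finite group
which have `p`-power order are comparable). -/
def StmtPCyclicOfFund : Prop :=
  ∀ (p : ℕ) [Fact p.Prime] (G : Type) [Group G] [Finite G] (C : Rep.{0} ℤ G) (u : H2 C),
    IsPFundClass p C u → PCyclicH2 p C

/-! ### The semilocal decomposition: definitions -/

section SD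

variable (q : ℕ) [Fact q.Prime] (N : Type) [Field N] [NumberField N]
  (t : MaximalSpectrum (semiAlg q N))

/-- The decomposition group of the maximal ideal `t` of `ℚ_q ⊗ N`. -/
def sdStab : Subgroup (N ≃ₐ[ℚ] N) where
  carrier := {σ | ∀ x ∈ t.asIdeal, semiMap q σ x ∈ t.asIdeal}
  mul_mem' := by
    intro σ τ hσ hτ x hx
    rw [tens_semiMap_mul]
    exact hσ _ (hτ x hx)
  one_mem' := by
    intro x hx
    rw [tens_semiMap_one]
    exact hx
  inv_mem' := by
    intro σ hσ x hx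
    have h1 := tens_semi_map_eq q σ t hσ
    rw [h1] at hx
    obtain ⟨y, hy, rfl⟩ := (Ideal.mem_map_iff_of_surjective
      (tens_semiEquiv q σ : semiAlg q N →+* semiAlg q N) (tens_semiEquiv q σ).surjective).1 hx
    have h2 : semiMap q σ⁻¹ (semiMap q σ y) = y := by
      rw [← tens_semiMap_mul, inv_mul_cancel, tens_semiMap_one]
    show semiMap q σ⁻¹ (semiMap q σ y) ∈ t.asIdeal
    rw [h2]
    exact hy

lemma mem_sdStab (σ : N ≃ₐ[ℚ] N) :
    σ ∈ sdStab q N t ↔ ∀ x ∈ t.asIdeal, semiMap q σ x ∈ t.asIdeal := Iff.rfl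

/-- The residue field `(ℚ_q ⊗ N) / t` (a finite extension of `ℚ_q`: the completion `N_w`). -/
abbrev sdField : Type := semiAlg q N ⧸ t.asIdeal

noncomputable instance sdFieldField : Field (sdField q N t) :=
  @Ideal.Quotient.field _ _ t.asIdeal t.isMaximal

lemma sdStab_prop (σ : ↥(sdStab q N t)) :
    ∀ x ∈ t.asIdeal, semiMap q (σ : N ≃ₐ[ℚ] N) x ∈ t.asIdeal :=
  (mem_sdStab q N t _).1 σ.2

/-- The action of the decomposition group on the residue field. -/
noncomputable def sdRes : ↥(sdStab q N t) →* (sdField q N t ≃ₐ[ℚ_[q]] sdField q N t) where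
  toFun σ := tens_semiResEquiv q (σ : N ≃ₐ[ℚ] N) t (sdStab_prop q N t σ)
  map_one' := by
    apply AlgEquiv.ext
    intro y
    obtain ⟨a, rfl⟩ := Ideal.Quotient.mk_surjective y
    rw [tens_semiResEquiv_mk]
    show Ideal.Quotient.mk t.asIdeal (semiMap q (1 : N ≃ₐ[ℚ] N) a) = _
    rw [tens_semiMap_one]
    rfl
  map_mul' := by
    intro σ τ
    apply AlgEquiv.ext
    intro y
    obtain ⟨a, rfl⟩ := Ideal.Quotient.mk_surjective y
    rw [AlgEquiv.mul_apply, tens_semiResEquiv_mk, tens_semiResEquiv_mk, tens_semiResEquiv_mk]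
    show Ideal.Quotient.mk t.asIdeal (semiMap q ((σ : N ≃ₐ[ℚ] N) * (τ : N ≃ₐ[ℚ] N)) a) = _
    rw [tens_semiMap_mul]

lemma sdRes_mk (σ : ↥(sdStab q N t)) (a : semiAlg q N) :
    sdRes q N t σ (Ideal.Quotient.mk t.asIdeal a) =
      Ideal.Quotient.mk t.asIdeal (semiMap q (σ : N ≃ₐ[ℚ] N) a) :=
  tens_semiResEquiv_mk q _ t (sdStab_prop q N t σ) a

/-- The local module: the units of the residue field, with the action of the decomposition
group. -/
noncomputable def sdY : Rep.{0} ℤ ↥(sdStab q N t) :=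
  Rep.res (sdRes q N t) (Rep.ofAlgebraAutOnUnits ℚ_[q] (sdField q N t))

/-- The projection `(ℚ_q ⊗ N)ˣ → ((ℚ_q ⊗ N)/t)ˣ`, additively. -/
noncomputable def sdProjLin : Additive (semiAlg q N)ˣ →ₗ[ℤ] Additive (sdField q N t)ˣ :=
  (MonoidHom.toAdditive
    (Units.map ((Ideal.Quotient.mk t.asIdeal : semiAlg q N →+* sdField q N t) :
      semiAlg q N →* sdField q N t))).toIntLinearMap

lemma sdProjLin_apply (u : (semiAlg q N)ˣ) :
    ((Additive.toMul (sdProjLin q N t (Additive.ofMul u)) : (sdField q N t)ˣ) : sdField q N t) =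
      Ideal.Quotient.mk t.asIdeal (u : semiAlg q N) := rfl

end SD

/-! ### The semilocal decomposition: statements -/

/-- **gb-sdproj**: the projection `(ℚ_q ⊗ N)ˣ → ((ℚ_q ⊗ N)/t)ˣ` is equivariant for the
decomposition group: it is a morphism `Res (semiRep q N) ⟶ sdY` of `Rep ℤ (sdStab q N t)`
whose underlying map is `sdProjLin`. -/
def StmtSDProj : Prop :=
  ∀ (q : ℕ) [Fact q.Prime] (N : Type) [Field N] [NumberField N]
    (t : MaximalSpectrum (semiAlg q N)),
    ∃ π : Rep.res (sdStab q N t).subtype (semiRep q N) ⟶ sdY q N t,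
      ∀ x : Additive (semiAlg q N)ˣ, π.hom x = sdProjLin q N t x

/-- **gb-sdshapiro** (semilocal Shapiro, degree 2): for `N / ℚ` Galois, "restrict to the
decomposition group and project to the residue field" is a bijection
`H²(Aut N, (ℚ_q ⊗ N)ˣ) → H²(D_t, ((ℚ_q ⊗ N)/t)ˣ)`.
(`Aut N` is transitive on the maximal ideals (`mcPhi` of G1/MaxSpecCount.lean + transitivity on
the primes over `q`); `x ↦ (g ↦ π(g x))` is an isomorphism `semiRep q N ≅ coind_{D_t} sdY`
(`tensUnitsEquiv`); `PT.Red.shMap_two_bijective`.) -/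
def StmtSDShapiro : Prop :=
  ∀ (q : ℕ) [Fact q.Prime] (N : Type) [Field N] [NumberField N] [IsGalois ℚ N]
    (t : MaximalSpectrum (semiAlg q N))
    (π : Rep.res (sdStab q N t).subtype (semiRep q N) ⟶ sdY q N t),
    (∀ x : Additive (semiAlg q N)ˣ, π.hom x = sdProjLin q N t x) →
    Function.Bijective (groupCohomology.map (sdStab q N t).subtype π 2).hom

/-- **gb-sdgal**: for `N / ℚ` Galois the residue field `(ℚ_q ⊗ N)/t` is a finite Galois extension
of `ℚ_q` and the decomposition group maps isomorphically onto its Galois group.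
(Injective: `N → (ℚ_q ⊗ N)/t` is injective.  Fixed field `ℚ_q`: the idempotent of `t`, transitivity
and `(ℚ_q ⊗ N)^{Aut N} = ℚ_q` (`G.StmtSemiInv` with `K = ℚ`); then Artin.) -/
def StmtSDGalois : Prop :=
  ∀ (q : ℕ) [Fact q.Prime] (N : Type) [Field N] [NumberField N] [IsGalois ℚ N]
    (t : MaximalSpectrum (semiAlg q N)),
    FiniteDimensional ℚ_[q] (sdField q N t) ∧ IsGalois ℚ_[q] (sdField q N t) ∧
      Function.Bijective (sdRes q N t)

/-- **gb-sdfund**: the local module `sdY` has a `p`-fundamental class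
(`PT.L.fundClass` for `(ℚ_q ⊗ N)/t` over `ℚ_q`, transported along the isomorphism `sdRes`). -/
def StmtSDFund : Prop :=
  ∀ (p : ℕ) [Fact p.Prime] (q : ℕ) [Fact q.Prime] (N : Type) [Field N] [NumberField N]
    [IsGalois ℚ N] (t : MaximalSpectrum (semiAlg q N)),
    ∃ u : H2 (sdY q N t), IsPFundClass p (sdY q N t) u

/-- **(A) gb-semicyc**: for `N / ℚ` Galois the `p`-primary part of `H²(Aut N, (ℚ_q ⊗ N)ˣ)` is
cyclic.  (`StmtSDProj`, `StmtSDShapiro`, `StmtSDFund`, `StmtPCyclicOfFund`; `ℚ_q ⊗ N ≠ 0` has a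
maximal ideal.) -/
def StmtSemiCyc : Prop :=
  ∀ (p : ℕ) [Fact p.Prime] (q : ℕ) [Fact q.Prime] (N : Type) [Field N] [NumberField N]
    [IsGalois ℚ N], PCyclicH2 p (semiRep q N)

/-- **(K) gb-carrykill**: let `a ∈ (ℚ_q ⊗ N)ˣ` be `Aut N`-invariant and `f` an exponent killing
`θ` on the decomposition group of one maximal ideal `t`.  Then `f • cmpCarry h θ a` is a
coboundary.
(On `D_t`: `f • cmpCarry h θ a = d(s)`, `s(g) = (cmpIdx h θ g / (h / f'))• a`, `f' = |θ(D_t)|`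
— or: `θ|_{D_t}` factors through `ℤ/f'`; then `StmtSDShapiro` (injectivity).
For `f = h` the formula `s(g) = cmpIdx h θ g • a` works on all of `Aut N`.) -/
def StmtSemiCarryKill : Prop :=
  ∀ (q : ℕ) [Fact q.Prime] (N : Type) [Field N] [NumberField N] [IsGalois ℚ N]
    (t : MaximalSpectrum (semiAlg q N)) (h : ℕ) [NeZero h]
    (θ : (N ≃ₐ[ℚ] N) →* Multiplicative (ZMod h)) (a : (semiRep q N).V),
    (∀ σ : N ≃ₐ[ℚ] N, (semiRep q N).ρ σ a = a) → ∀ f : ℕ,
    (∀ σ ∈ sdStab q N t, θ σ ^ f = 1) →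
    f • cmpCarry h θ a ∈ coboundaries₂ (semiRep q N)

/-! ### The cyclotomic auxiliary field: decomposition groups -/

/-- The element `q` of `ℚ_qˣ`. -/
noncomputable def qUnit (q : ℕ) [hq : Fact q.Prime] : ℚ_[q]ˣ :=
  Units.mk0 (q : ℚ_[q]) (by exact_mod_cast hq.out.ne_zero)

/-- The decomposition groups at `q ≠ p` of the auxiliary field are generated by Frobenius:
`θ(σ)` has order dividing the order of `ψ_q(q) = [q^(p-1)]` for every `σ` in a decomposition
group over `q`. -/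
def CycData.HasDec {p n : ℕ} [Fact p.Prime] {S : Finset Nat.Primes} {L : Type} [Field L]
    [NumberField L] (D : CycData p n S L) : Prop :=
  ∀ (q : ℕ) [Fact q.Prime], q ≠ p → ∀ (t : MaximalSpectrum (semiAlg q D.N)),
    ∀ σ ∈ sdStab q D.N t, D.θ σ ^ orderOf (psiQ p n q (qUnit q)) = 1

/-- **gb-cycdec**: the auxiliary field can be chosen with `HasDec`.
(Same construction as `StmtCyc` (G3/Cyc.lean); `σ ∈ D_t` extends to `σ'` in a decomposition group
of `N' = N(ζ)`; `σ'` acts on the residue field of `𝓞_{N'}` as a power of Frobenius, so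
`σ' ζ = ζ^{q^j}` (`symCheb_root_eq_of_sub_mem`), `χ(σ') = q^j`, `θ(σ) = lam(q)^j`.) -/
def StmtCycDec : Prop :=
  ∀ (p n : ℕ) [hp : Fact p.Prime] (S : Finset Nat.Primes), p ≠ 2 →
    (⟨p, hp.out⟩ : Nat.Primes) ∈ S →
    ∀ (L : Type) [Field L] [NumberField L] [IsGalois ℚ L], UnramOffRel S ℚ L →
      ∃ D : CycData p n S L, D.HasDec

/-! ### The element `b₁` and the modified assembly -/

/-- **gb-carryh** (abstract): `h • cmpCarry h θ a` is a coboundary for every invariant `a`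
(`= d(s)`, `s(g) = cmpIdx h θ g • a`). -/
def StmtCarryH : Prop :=
  ∀ (G : Type) [Group G] (C : Rep.{0} ℤ G) (h : ℕ) [NeZero h]
    (θ : G →* Multiplicative (ZMod h)) (a : C.V), (∀ g : G, C.ρ g a = a) →
    h • cmpCarry h θ a ∈ coboundaries₂ C

/-- **gb-psipgen**: there is `b₀ ∈ ℚ_pˣ` whose symbol `ψ_p(b₀)` at level `n` has exact order
`p^n` (e.g. `b₀ = 1 + p`). -/
def StmtPsiPGen : Prop :=
  ∀ (p n : ℕ) [Fact p.Prime], p ≠ 2 →
    ∃ b₀ : ℚ_[p]ˣ, ∀ k : ℕ, psiQ p n p b₀ ^ k = 1 → p ^ n ∣ k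

/-- **gb-psiqnontriv**: for `q ≠ p` there is a level `n ≥ 1` with `ψ_q(q) = [q^(p-1)] ≠ 1`
(`n = v_p(q^(p-1) - 1)`). -/
def StmtPsiQNontriv : Prop :=
  ∀ (p : ℕ) [Fact p.Prime], p ≠ 2 → ∀ (q : ℕ) [Fact q.Prime], q ≠ p →
    ∃ n : ℕ, 1 ≤ n ∧ psiQ p n q (qUnit q) ≠ 1

/-- **gb-carrynz'**: `StmtCarryNZ` (PlanGB.lean) follows from `StmtGBPsi` alone: push the
coboundary along `csOfJRep ∘ jIncl`; `csOfJ (jIncl (gbConst_N b)) = csMap S ℚ N (csOfJ (jIncl
(gbConst_ℚ b)))` (`csMap_csOfJ`); `Ψ_ℚ (csOfJ (jIncl (gbConst_ℚ b))) = ψ_q(b)` (`psiC_csOfJ`,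
`ℚ_q ⊗ ℚ` has rank one); `UnramOffRel S ℚ L` from `D.unram` and `StmtUnramTower`. -/
def StmtCarryNZOfPsi : Prop := StmtGBPsi → StmtUnramTower → StmtCarryNZ

/-- **gbAsm'** (assembly WITHOUT local norm groups): (GB₁) from the pieces.
Choose `n`, `b₁`: for `q = p` any `n ≥ 1` and `b₁` with `ψ_p(b₁)` of order `p^n` (`StmtPsiPGen`), so
`f := orderOf ψ(b₁) = p^n` and `f • carry(b₁) ∼ 0` by `StmtCarryH`; for `q ≠ p` the level of
`StmtPsiQNontriv`, `b₁ = q`, `f := orderOf ψ_q(q)` and `f • carry(b₁) ∼ 0` by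
`StmtSemiCarryKill` + `HasDec`.  `D` from `StmtCycDec`.  Inflate (`StmtGBInfJ`); `carry(b₁) ≁ 0`
(`StmtCarryNZ`); `y_q ∼ carry(b₁^i)` (`StmtSemiCycOne` — both classes are `p`-primary; use it for
`y₁ := (f/p) • carry(b₁)`, of order exactly `p`); `ψ_q(b₁)^i = 1` (`StmtGBPsi`), so `f ∣ i` and
`carry(b₁^i) = (i/f) • (f • carry(b₁)) ∼ 0`. -/
def StmtGBAsm' : Prop :=
  StmtCycDec → StmtPsiPGen → StmtPsiQNontriv → StmtCarryH → StmtSemiCarryKill → StmtH90Semi →
    StmtGBInfJ → StmtSemiCycOne → StmtCarryNZ → StmtGBPsi → StmtGBOne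

/-- **gb-semicycone**: `StmtSemiCycOne` (PlanGB.lean) from `StmtSemiCyc`. -/
def StmtSemiCycOneOf : Prop := StmtSemiCyc → StmtSemiCycOne

end Fermat.Agent.PT.G3
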