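/-
PT-GB piece gbAsm (helper68): the assembly of (GB₁) — (GB) for classes killed by `p` — from the
pieces of `PlanGB.lean`.

* `gbAsm_core`  : steps 1–5 with an abstract closing hypothesis
  (`ψ_q(b₁^k) = 1 ⇒ carry(b₁^k) ∼ 0`), so that both closings (local norms / helper47's
  `(K)`) can be plugged in;  the non-vanishing of the carry class of `b₁` is DERIVED from
  `StmtGBPsi` (so `StmtCarryNZ` is not needed);
* `stmtGBAsm' : StmtGBAsm'` (PlanGBLocal.lean, THE official assembly: no local norm groups);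
* `stmtGBAsm : StmtGBAsm` (PlanGB.lean, the first plan: closing by local norm groups).
-/
import Fermat.Agent.PT.G3.PlanGB
import Fermat.Agent.PT.G3.PlanGBLocal

set_option autoImplicit false
set_option linter.unusedSectionVars false
set_option linter.unusedVariables false
set_option linter.style.haveILetI false

noncomputable section

namespace Fermat.Agent.PT.G3

open CategoryTheory groupCohomology NumberField IsDedekindDomain
open Fermat.Agent.PT Fermat.Agent.PT.G Fermat.Agent.PT.G1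
open scoped TensorProduct

/-! ### Generic cochain lemmas -/

section Generic

variable {G : Type} [Group G]

lemma gbAsm_mem_coboundaries₂_iff (A : Rep.{0} ℤ G) (y : G × G → A.V) :
    y ∈ coboundaries₂ A ↔ ∃ t : G → A.V, (d₁₂ A).hom t = y := Iff.rfl

/-- push-forward of a 2-cocycle along a morphism of representations -/
lemma gbAsm_push_cocycles₂ {A B : Rep.{0} ℤ G} (φ : A ⟶ B) {y : G × G → A.V}
    (hy : y ∈ cocycles₂ A) : (fun gg => φ.hom (y gg)) ∈ cocycles₂ B := by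
  rw [mem_cocycles₂_iff] at hy ⊢
  intro g h j
  have h1 := congrArg φ.hom (hy g h j)
  rw [map_add, map_add, Rep.hom_comm_apply] at h1
  exact h1

/-- push-forward of a 2-coboundary along a morphism of representations -/
lemma gbAsm_push_coboundaries₂ {A B : Rep.{0} ℤ G} (φ : A ⟶ B) {y : G × G → A.V}
    (hy : y ∈ coboundaries₂ A) : (fun gg => φ.hom (y gg)) ∈ coboundaries₂ B := by
  obtain ⟨t, rfl⟩ := hy
  refine ⟨fun g => φ.hom (t g), ?_⟩
  funext ⟨g, h⟩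
  rw [d₁₂_hom_apply]
  show _ = φ.hom ((d₁₂ A).hom t (g, h))
  rw [d₁₂_hom_apply, map_add, map_sub, Rep.hom_comm_apply]

/-- the carry cochain commutes with additive maps -/
lemma gbAsm_map_cmpCarry (m : ℕ) (θ : G →* Multiplicative (ZMod m)) {V W : Type}
    [AddCommGroup V] [AddCommGroup W] (f : V →+ W) (a : V) (gg : G × G) :
    f (cmpCarry m θ a gg) = cmpCarry m θ (f a) gg := by
  obtain ⟨g, h⟩ := gg
  rw [cmpCarry_apply, cmpCarry_apply]
  split_ifs
  · rfl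
  · exact map_zero f

/-- `m • carry(a)` is a coboundary for every invariant `a` (explicit: `t g = idx(g) • a`). -/
lemma gbAsm_smul_cmpCarry_mem (m : ℕ) [NeZero m] (θ : G →* Multiplicative (ZMod m))
    (C : Rep.{0} ℤ G) (a : C.V) (ha : ∀ g : G, C.ρ g a = a) :
    m • cmpCarry m θ a ∈ coboundaries₂ C := by
  refine ⟨fun g => cmpIdx m θ g • a, ?_⟩
  funext ⟨g, h⟩
  rw [d₁₂_hom_apply, Pi.smul_apply, cmpCarry_apply]
  dsimp only
  rw [map_nsmul, ha, cmpIdx_mul m θ g h]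
  have hg := cmpIdx_lt m θ g
  have hh := cmpIdx_lt m θ h
  split_ifs with hc
  · have e : cmpIdx m θ h • a + cmpIdx m θ g • a =
        m • a + (cmpIdx m θ g + cmpIdx m θ h - m) • a := by
      rw [← add_nsmul, ← add_nsmul]
      congr 1
      omega
    rw [sub_add_eq_add_sub, e, add_sub_cancel_right]
  · rw [add_nsmul, smul_zero]
    abel

/-- inflation of a 2-cocycle along a group homomorphism and a compatible additive map -/
lemma gbAsm_infl_cocycles₂ {G' : Type} [Group G'] (r : G' →* G) (A : Rep.{0} ℤ G)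
    (A' : Rep.{0} ℤ G') (φ : A.V →+ A'.V)
    (hφ : ∀ (g : G') (a : A.V), φ (A.ρ (r g) a) = A'.ρ g (φ a)) {y : G × G → A.V}
    (hy : y ∈ cocycles₂ A) : (fun gg : G' × G' => φ (y (r gg.1, r gg.2))) ∈ cocycles₂ A' := by
  rw [mem_cocycles₂_iff] at hy ⊢
  intro g h j
  have h1 := congrArg φ (hy (r g) (r h) (r j))
  rw [map_add, map_add, hφ, ← map_mul, ← map_mul] at h1
  exact h1

/-- inflation of a 2-coboundary along a group homomorphism and a compatible additive map -/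
lemma gbAsm_infl_coboundaries₂ {G' : Type} [Group G'] (r : G' →* G) (A : Rep.{0} ℤ G)
    (A' : Rep.{0} ℤ G') (φ : A.V →+ A'.V)
    (hφ : ∀ (g : G') (a : A.V), φ (A.ρ (r g) a) = A'.ρ g (φ a)) {y : G × G → A.V}
    (hy : y ∈ coboundaries₂ A) :
    (fun gg : G' × G' => φ (y (r gg.1, r gg.2))) ∈ coboundaries₂ A' := by
  obtain ⟨t, rfl⟩ := hy
  refine ⟨fun g => φ (t (r g)), ?_⟩
  funext ⟨g, h⟩
  rw [d₁₂_hom_apply]
  show _ = φ ((d₁₂ A).hom t (r g, r h))
  rw [d₁₂_hom_apply, map_add, map_sub, hφ, map_mul]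

end Generic

/-! ### The constant idèle -/

section Const

variable (q : ℕ) [Fact q.Prime] (N : Type) [Field N] [NumberField N]

lemma gbAsm_gbConst_invariant (b : ℚ_[q]ˣ) (g : N ≃ₐ[ℚ] N) :
    (semiRep q N).ρ g (gbConst q N b) = gbConst q N b := by
  apply congrArg Additive.ofMul
  apply Units.ext
  show semiMap q g (algebraMap ℚ_[q] (semiAlg q N) (b : ℚ_[q])) = algebraMap ℚ_[q] (semiAlg q N) b
  exact (semiMap q g).commutes _

lemma gbAsm_gbConst_pow (b : ℚ_[q]ˣ) (k : ℕ) : gbConst q N (b ^ k) = k • gbConst q N b := by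
  show Additive.ofMul (Units.map ((algebraMap ℚ_[q] (semiAlg q N) : ℚ_[q] →* semiAlg q N))
    (b ^ k)) = k • Additive.ofMul (Units.map
      ((algebraMap ℚ_[q] (semiAlg q N) : ℚ_[q] →* semiAlg q N)) b)
  rw [map_pow]
  rfl

lemma gbAsm_gbConst_mem_cocycles₂ (m : ℕ) [NeZero m]
    (θ : (N ≃ₐ[ℚ] N) →* Multiplicative (ZMod m)) (b : ℚ_[q]ˣ) :
    cmpCarry m θ (gbConst q N b) ∈ cocycles₂ (semiRep q N) :=
  cmpCarry_mem_cocycles₂ m θ (semiRep q N) _ (gbAsm_gbConst_invariant q N b)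

end Const

/-! ### The constant idèle and the class symbol over `ℚ` -/

section Symbol

variable (p n : ℕ) [hp : Fact p.Prime] (S : Finset Nat.Primes)

/-- the class of the constant idèle `b` at `q` in `C_S(ℚ)` -/
def gbAsm_c₀ (q : ↥S) (b : ℚ_[((q : Nat.Primes) : ℕ)]ˣ) :
    haveI : Fact ((q : Nat.Primes) : ℕ).Prime := ⟨(q : Nat.Primes).2⟩
    CS S ℚ :=
  haveI : Fact ((q : Nat.Primes) : ℕ).Prime := ⟨(q : Nat.Primes).2⟩
  csOfJ S ℚ (jInclLin S ℚ q (gbConst ((q : Nat.Primes) : ℕ) ℚ b))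

lemma gbAsm_psiJ_mulSingle (L : Type) [Field L] [NumberField L] (q : ↥S)
    (u : (semiAlg ((q : Nat.Primes) : ℕ) L)ˣ) :
    psiJ p n S L (Pi.mulSingle q u : JL S L) = psiSemi p n ((q : Nat.Primes) : ℕ) L u := by
  rw [psiJ_apply, Finset.prod_eq_single q]
  · rw [Pi.mulSingle_eq_same]
  · intro q' _ hq'
    rw [Pi.mulSingle_eq_of_ne hq', map_one]
  · intro h
    exact absurd (Finset.mem_univ q) h

lemma gbAsm_psiC_c₀ (hodd : Odd p) (hpS : (⟨p, hp.out⟩ : Nat.Primes) ∈ S) (q : ↥S)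
    (b : ℚ_[((q : Nat.Primes) : ℕ)]ˣ) :
    haveI : Fact ((q : Nat.Primes) : ℕ).Prime := ⟨(q : Nat.Primes).2⟩
    psiC p n S ℚ (gbAsm_c₀ S q b) = Additive.ofMul (psiQ p n ((q : Nat.Primes) : ℕ) b) := by
  haveI : Fact ((q : Nat.Primes) : ℕ).Prime := ⟨(q : Nat.Primes).2⟩
  unfold gbAsm_c₀
  rw [psiC_csOfJ p n S ℚ hodd hpS]
  congr 1
  show psiJ p n S ℚ (Pi.mulSingle q (Units.map
    ((algebraMap ℚ_[((q : Nat.Primes) : ℕ)] (semiAlg ((q : Nat.Primes) : ℕ) ℚ) :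
      ℚ_[((q : Nat.Primes) : ℕ)] →* semiAlg ((q : Nat.Primes) : ℕ) ℚ)) b) : JL S ℚ) = _
  rw [gbAsm_psiJ_mulSingle, psiSemi_apply]
  congr 1
  apply Units.ext
  show Algebra.norm ℚ_[((q : Nat.Primes) : ℕ)]
    (algebraMap ℚ_[((q : Nat.Primes) : ℕ)] (semiAlg ((q : Nat.Primes) : ℕ) ℚ)
      (b : ℚ_[((q : Nat.Primes) : ℕ)])) = b
  rw [Algebra.norm_algebraMap, Module.finrank_baseChange, Module.finrank_self, pow_one]

end Symbol

/-! ### Inflation from `L` to `N` -/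

section Infl

variable (S : Finset Nat.Primes) (L N : Type) [Field L] [NumberField L] [Field N]
  [NumberField N] [Algebra L N] [Normal ℚ L]

lemma gbAsm_restricts (σ : N ≃ₐ[ℚ] N) : Restricts σ (gbRes L N σ) := by
  haveI : IsScalarTower ℚ L N := IsScalarTower.of_algebraMap_eq (fun x => by
    rw [eq_ratCast, eq_ratCast, map_ratCast])
  intro x
  exact (AlgEquiv.restrictNormal_commutes σ L x).symm

lemma gbAsm_jlMap_equivariant (σ : N ≃ₐ[ℚ] N) (a : (jlRep S L).V) :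
    (jlMapLin S L N : Additive (JL S L) →+ Additive (JL S N)) ((jlRep S L).ρ (gbRes L N σ) a) =
      (jlRep S N).ρ σ (jlMapLin S L N a) :=
  (jlEnd_jlMapLin S (gbAsm_restricts L N σ) a).symm

lemma gbAsm_csMap_equivariant (σ : N ≃ₐ[ℚ] N) (c : (csRep S L).V) :
    (csMap S L N : CS S L →+ CS S N) ((csRep S L).ρ (gbRes L N σ) c) =
      (csRep S N).ρ σ (csMap S L N c) :=
  (csEnd_csMap S (gbAsm_restricts L N σ) c).symm

lemma gbAsm_gbInf_mem_cocycles₂ {y : (L ≃ₐ[ℚ] L) × (L ≃ₐ[ℚ] L) → (jlRep S L).V}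
    (hy : y ∈ cocycles₂ (jlRep S L)) : gbInf S L N y ∈ cocycles₂ (jlRep S N) :=
  gbAsm_infl_cocycles₂ (gbRes L N) (jlRep S L) (jlRep S N)
    (jlMapLin S L N : Additive (JL S L) →+ Additive (JL S N))
    (gbAsm_jlMap_equivariant S L N) hy

lemma gbAsm_gbInf_mem_coboundaries₂ {y : (L ≃ₐ[ℚ] L) × (L ≃ₐ[ℚ] L) → (jlRep S L).V}
    (hy : y ∈ coboundaries₂ (jlRep S L)) : gbInf S L N y ∈ coboundaries₂ (jlRep S N) :=
  gbAsm_infl_coboundaries₂ (gbRes L N) (jlRep S L) (jlRep S N)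
    (jlMapLin S L N : Additive (JL S L) →+ Additive (JL S N))
    (gbAsm_jlMap_equivariant S L N) hy

lemma gbAsm_gbInf_nsmul (k : ℕ) (y : (L ≃ₐ[ℚ] L) × (L ≃ₐ[ℚ] L) → (jlRep S L).V) :
    gbInf S L N (k • y) = k • gbInf S L N y := by
  funext gg
  show jlMapLin S L N (k • y (gbRes L N gg.1, gbRes L N gg.2)) =
    k • jlMapLin S L N (y (gbRes L N gg.1, gbRes L N gg.2))
  exact map_nsmul _ _ _

/-- the class of the inflation in `C_S(N)` is the inflation of the class in `C_S(L)` -/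
lemma gbAsm_csOfJ_gbInf_mem {y : (L ≃ₐ[ℚ] L) × (L ≃ₐ[ℚ] L) → (jlRep S L).V}
    (hy : (fun gg => (csOfJRep S L).hom (y gg)) ∈ coboundaries₂ (csRep S L)) :
    (fun gg => (csOfJRep S N).hom (gbInf S L N y gg)) ∈ coboundaries₂ (csRep S N) := by
  have h := gbAsm_infl_coboundaries₂ (gbRes L N) (csRep S L) (csRep S N)
    (csMap S L N : CS S L →+ CS S N) (gbAsm_csMap_equivariant S L N) hy
  have e : (fun gg => (csOfJRep S N).hom (gbInf S L N y gg)) =
      (fun gg : (N ≃ₐ[ℚ] N) × (N ≃ₐ[ℚ] N) => (csMap S L N : CS S L →+ CS S N)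
        ((csOfJRep S L).hom (y (gbRes L N gg.1, gbRes L N gg.2)))) := by
    funext gg
    exact (csMap_csOfJ S L N (y (gbRes L N gg.1, gbRes L N gg.2))).symm
  rw [e]
  exact h

/-- inflation preserves the support -/
lemma gbAsm_gbInf_support (q : ↥S) {y : (L ≃ₐ[ℚ] L) × (L ≃ₐ[ℚ] L) → (jlRep S L).V}
    (hsupp : ∀ q' : ↥S, q' ≠ q → ∀ gg,
      (Additive.toMul (y gg : Additive (JL S L)) : JL S L) q' = 1)
    (q' : ↥S) (hq' : q' ≠ q) (gg : (N ≃ₐ[ℚ] N) × (N ≃ₐ[ℚ] N)) :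
    (Additive.toMul (gbInf S L N y gg : Additive (JL S N)) : JL S N) q' = 1 := by
  show Units.map _ ((Additive.toMul (y (gbRes L N gg.1, gbRes L N gg.2) :
    Additive (JL S L)) : JL S L) q') = 1
  rw [hsupp q' hq', map_one]

end Infl

/-! ### Components -/

section Comp

variable (S : Finset Nat.Primes) (N : Type) [Field N] [NumberField N]

/-- an idèle supported at `q` is the inclusion of its `q`-component -/
lemma gbAsm_jIncl_jProj (q : ↥S) (x : Additive (JL S N))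
    (hx : ∀ q' : ↥S, q' ≠ q → (Additive.toMul x : JL S N) q' = 1) :
    jInclLin S N q (jProjLin S N q x) = x := by
  apply Additive.toMul.injective
  funext q'
  show (Pi.mulSingle q ((Additive.toMul x : JL S N) q) : JL S N) q' = _
  by_cases h : q' = q
  · subst h
    rw [Pi.mulSingle_eq_same]
  · rw [Pi.mulSingle_eq_of_ne h, hx q' h]

/-- the constant idèle at `q` in `J_N` is the image of the constant idèle in `J_ℚ` -/
lemma gbAsm_jlMap_const (q : ↥S) (b : ℚ_[((q : Nat.Primes) : ℕ)]ˣ) :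
    haveI : Fact ((q : Nat.Primes) : ℕ).Prime := ⟨(q : Nat.Primes).2⟩
    jlMapLin S ℚ N (jInclLin S ℚ q (gbConst ((q : Nat.Primes) : ℕ) ℚ b)) =
      jInclLin S N q (gbConst ((q : Nat.Primes) : ℕ) N b) := by
  haveI : Fact ((q : Nat.Primes) : ℕ).Prime := ⟨(q : Nat.Primes).2⟩
  apply Additive.toMul.injective
  funext q'
  show Units.map _ ((Pi.mulSingle q (Units.map
      ((algebraMap ℚ_[((q : Nat.Primes) : ℕ)] (semiAlg ((q : Nat.Primes) : ℕ) ℚ) :
        ℚ_[((q : Nat.Primes) : ℕ)] →* semiAlg ((q : Nat.Primes) : ℕ) ℚ)) b) : JL S ℚ) q') =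
    (Pi.mulSingle q (Units.map
      ((algebraMap ℚ_[((q : Nat.Primes) : ℕ)] (semiAlg ((q : Nat.Primes) : ℕ) N) :
        ℚ_[((q : Nat.Primes) : ℕ)] →* semiAlg ((q : Nat.Primes) : ℕ) N)) b) : JL S N) q'
  by_cases h : q' = q
  · subst h
    rw [Pi.mulSingle_eq_same, Pi.mulSingle_eq_same]
    apply Units.ext
    exact (semiIncl ℚ N ((q' : Nat.Primes) : ℕ)).commutes _
  · rw [Pi.mulSingle_eq_of_ne h, Pi.mulSingle_eq_of_ne h, map_one]

/-- the class of the constant idèle in `C_S(N)` comes from `C_S(ℚ)` -/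
lemma gbAsm_csOfJ_const (q : ↥S) (b : ℚ_[((q : Nat.Primes) : ℕ)]ˣ) :
    haveI : Fact ((q : Nat.Primes) : ℕ).Prime := ⟨(q : Nat.Primes).2⟩
    csOfJ S N (jInclLin S N q (gbConst ((q : Nat.Primes) : ℕ) N b)) =
      csMap S ℚ N (gbAsm_c₀ S q b) := by
  haveI : Fact ((q : Nat.Primes) : ℕ).Prime := ⟨(q : Nat.Primes).2⟩
  unfold gbAsm_c₀
  rw [csMap_csOfJ, gbAsm_jlMap_const]

end Comp

/-! ### The core of the assembly -/

section Core

variable (p n : ℕ) [hp : Fact p.Prime] (S : Finset Nat.Primes)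

/-- Step 4: if the class of the carry cocycle of `b` dies in `C_S(N)`, then `ψ_q(b) = 1`. -/
lemma gbAsm_psi_of_carry (hPsi : StmtGBPsi) (hp2 : p ≠ 2)
    (hpS : (⟨p, hp.out⟩ : Nat.Primes) ∈ S)
    (L : Type) [Field L] [NumberField L] [IsGalois ℚ L] (hL : UnramOffRel S ℚ L)
    (D : CycData p n S L) (q : ↥S) (b : ℚ_[((q : Nat.Primes) : ℕ)]ˣ)
    (h : (fun gg => (csOfJRep S D.N).hom ((jIncl S D.N q).hom
      (cmpCarry (p ^ n) D.θ (gbConst ((q : Nat.Primes) : ℕ) D.N b) gg))) ∈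
        coboundaries₂ (csRep S D.N)) :
    psiQ p n ((q : Nat.Primes) : ℕ) b = 1 := by
  haveI : NeZero (p ^ n) := ⟨pow_ne_zero _ hp.out.ne_zero⟩
  have hodd : Odd p := hp.out.odd_of_ne_two hp2
  have e : (fun gg => (csOfJRep S D.N).hom ((jIncl S D.N q).hom
      (cmpCarry (p ^ n) D.θ (gbConst ((q : Nat.Primes) : ℕ) D.N b) gg))) =
      cmpCarry (p ^ n) D.θ (csMap S ℚ D.N (gbAsm_c₀ S q b) : (csRep S D.N).V) := by
    funext gg
    rw [← gbAsm_csOfJ_const]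
    exact gbAsm_map_cmpCarry (p ^ n) D.θ
      (((csOfJ S D.N : Additive (JL S D.N) →+ CS S D.N)).comp
        (jInclLin S D.N q : Additive (semiAlg ((q : Nat.Primes) : ℕ) D.N)ˣ →+
          Additive (JL S D.N))) _ gg
  rw [e] at h
  have h0 := hPsi p n S hp2 hpS L hL D (gbAsm_c₀ S q b) h
  rw [gbAsm_psiC_c₀ p n S hodd hpS q b] at h0
  exact congrArg Additive.toMul h0

/-- **The core of the assembly of (GB₁)**: steps 1–5 for a given auxiliary field `D`, a given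
`b₁` with `ψ_q(b₁) ≠ 1` and a closing hypothesis: the carry cocycle of a power of `b₁` with
trivial symbol is a coboundary. -/
theorem gbAsm_core (hH90 : StmtH90Semi) (hInf : StmtGBInfJ) (hCyc1 : StmtSemiCycOne)
    (hPsi : StmtGBPsi) (hp2 : p ≠ 2) (hpS : (⟨p, hp.out⟩ : Nat.Primes) ∈ S)
    (L : Type) [Field L] [NumberField L] [IsGalois ℚ L] (hL : UnramOffRel S ℚ L)
    (D : CycData p n S L) (q : ↥S) (b₁ : ℚ_[((q : Nat.Primes) : ℕ)]ˣ)
    (hb₁ : psiQ p n ((q : Nat.Primes) : ℕ) b₁ ≠ 1)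
    (hclose : ∀ k : ℕ, psiQ p n ((q : Nat.Primes) : ℕ) (b₁ ^ k) = 1 →
      cmpCarry (p ^ n) D.θ (gbConst ((q : Nat.Primes) : ℕ) D.N (b₁ ^ k)) ∈
        coboundaries₂ (semiRep ((q : Nat.Primes) : ℕ) D.N))
    (y : (L ≃ₐ[ℚ] L) × (L ≃ₐ[ℚ] L) → (jlRep S L).V) (hy : y ∈ cocycles₂ (jlRep S L))
    (hsupp : ∀ q' : ↥S, q' ≠ q → ∀ gg,
      (Additive.toMul (y gg : Additive (JL S L)) : JL S L) q' = 1)
    (hpy : p • y ∈ coboundaries₂ (jlRep S L))
    (hcs : (fun gg => (csOfJRep S L).hom (y gg)) ∈ coboundaries₂ (csRep S L)) :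
    y ∈ coboundaries₂ (jlRep S L) := by
  haveI : NeZero (p ^ n) := ⟨pow_ne_zero _ hp.out.ne_zero⟩
  haveI := D.galQ
  haveI := D.galL
  -- step 2: inflate
  refine hInf hH90 S L D.N y hy ?_
  set yN := gbInf S L D.N y with hyN
  have hyNc : yN ∈ cocycles₂ (jlRep S D.N) := gbAsm_gbInf_mem_cocycles₂ S L D.N hy
  have hyNp : p • yN ∈ coboundaries₂ (jlRep S D.N) := by
    rw [hyN, ← gbAsm_gbInf_nsmul]
    exact gbAsm_gbInf_mem_coboundaries₂ S L D.N hpy
  have hyNcs : (fun gg => (csOfJRep S D.N).hom (yN gg)) ∈ coboundaries₂ (csRep S D.N) :=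
    gbAsm_csOfJ_gbInf_mem S L D.N hcs
  have hyNs : ∀ q' : ↥S, q' ≠ q → ∀ gg,
      (Additive.toMul (yN gg : Additive (JL S D.N)) : JL S D.N) q' = 1 :=
    fun q' hq' gg => gbAsm_gbInf_support S L D.N q hsupp q' hq' gg
  -- step 3: the `q`-component
  set X := semiRep ((q : Nat.Primes) : ℕ) D.N with hX
  set yq : (D.N ≃ₐ[ℚ] D.N) × (D.N ≃ₐ[ℚ] D.N) → X.V :=
    fun gg => (jProj S D.N q).hom (yN gg) with hyq
  have hyqc : yq ∈ cocycles₂ X := gbAsm_push_cocycles₂ (jProj S D.N q) hyNc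
  have hyqp : p • yq ∈ coboundaries₂ X := by
    have h1 := gbAsm_push_coboundaries₂ (jProj S D.N q) hyNp
    have e : (fun gg => (jProj S D.N q).hom ((p • yN) gg)) = p • yq := by
      funext gg
      show jProjLin S D.N q (p • yN gg) = p • jProjLin S D.N q (yN gg)
      exact map_nsmul _ _ _
    rw [e] at h1
    exact h1
  have hyNq : yN = fun gg => (jIncl S D.N q).hom (yq gg) := by
    funext gg
    exact (gbAsm_jIncl_jProj S D.N q (yN gg) (fun q' hq' => hyNs q' hq' gg)).symm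
  -- the carry cocycle of `b₁`
  set c₁ := cmpCarry (p ^ n) D.θ (gbConst ((q : Nat.Primes) : ℕ) D.N b₁) with hc₁
  have hc₁c : c₁ ∈ cocycles₂ X := gbAsm_gbConst_mem_cocycles₂ _ D.N (p ^ n) D.θ b₁
  have hcarry : ∀ k : ℕ, k • c₁ =
      cmpCarry (p ^ n) D.θ (gbConst ((q : Nat.Primes) : ℕ) D.N (b₁ ^ k)) := by
    intro k
    rw [hc₁, cmpCarry_nsmul, gbAsm_gbConst_pow]
  -- a multiple of `c₁` which dies in `C_S(N)` is a coboundary
  have hkey : ∀ k : ℕ, (fun gg => (csOfJRep S D.N).hom ((jIncl S D.N q).hom ((k • c₁) gg))) ∈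
      coboundaries₂ (csRep S D.N) → k • c₁ ∈ coboundaries₂ X := by
    intro k hk
    rw [hcarry k] at hk ⊢
    exact hclose k (gbAsm_psi_of_carry p n S hPsi hp2 hpS L hL D q (b₁ ^ k) hk)
  have hpush : ∀ z : (D.N ≃ₐ[ℚ] D.N) × (D.N ≃ₐ[ℚ] D.N) → X.V, z ∈ coboundaries₂ X →
      (fun gg => (csOfJRep S D.N).hom ((jIncl S D.N q).hom (z gg))) ∈
        coboundaries₂ (csRep S D.N) := fun z hz =>
    gbAsm_push_coboundaries₂ (csOfJRep S D.N) (gbAsm_push_coboundaries₂ (jIncl S D.N q) hz)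
  -- `c₁` is not a coboundary
  have hc₁nz : c₁ ∉ coboundaries₂ X := by
    intro h
    have h1 := hpush c₁ h
    rw [hc₁] at h1
    exact hb₁ (gbAsm_psi_of_carry p n S hPsi hp2 hpS L hL D q b₁ h1)
  -- the last multiple `z = p^j • c₁` which is not a coboundary
  have hpn : p ^ n • c₁ ∈ coboundaries₂ X :=
    gbAsm_smul_cmpCarry_mem (p ^ n) D.θ X (gbConst ((q : Nat.Primes) : ℕ) D.N b₁)
      (gbAsm_gbConst_invariant _ D.N b₁)
  have hgen : ∀ m : ℕ, m = p ^ n → m • c₁ ∈ coboundaries₂ X := by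
    intro m hm
    rw [hm]
    exact hpn
  have hex : ∃ j : ℕ, p ^ (j + 1) • c₁ ∈ coboundaries₂ X := by
    rcases Nat.eq_zero_or_pos n with h0 | hpos
    · exfalso
      apply hc₁nz
      have := hgen 1 (by rw [h0, pow_zero])
      rwa [one_smul] at this
    · refine ⟨n - 1, ?_⟩
      exact hgen _ (by rw [Nat.sub_add_cancel hpos])
  classical
  set j := Nat.find hex with hj
  have hj1 : p ^ (j + 1) • c₁ ∈ coboundaries₂ X := Nat.find_spec hex
  have hj0 : p ^ j • c₁ ∉ coboundaries₂ X := by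
    rcases Nat.eq_zero_or_pos j with h0 | hpos
    · rw [h0, pow_zero, one_smul]
      exact hc₁nz
    · intro h
      have := Nat.find_min hex (m := j - 1) (by omega)
      apply this
      rw [Nat.sub_add_cancel hpos]
      exact h
  have hzc : p ^ j • c₁ ∈ cocycles₂ X := (cocycles₂ X).smul_of_tower_mem _ hc₁c
  have hzp : p • (p ^ j • c₁) ∈ coboundaries₂ X := by
    rw [smul_smul, ← pow_succ']
    exact hj1
  obtain ⟨i, hi⟩ := hCyc1 p ((q : Nat.Primes) : ℕ) D.N (p ^ j • c₁) yq hzc hyqc hzp hyqp hj0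
  -- step 4
  have hi' : yq - (i * p ^ j) • c₁ ∈ coboundaries₂ X := by
    rw [mul_smul]
    exact hi
  have h4 : (fun gg => (csOfJRep S D.N).hom ((jIncl S D.N q).hom (((i * p ^ j) • c₁) gg))) ∈
      coboundaries₂ (csRep S D.N) := by
    have h5 := hpush _ hi'
    have h6 : (fun gg => (csOfJRep S D.N).hom ((jIncl S D.N q).hom (yq gg))) ∈
        coboundaries₂ (csRep S D.N) := by
      have e : (fun gg => (csOfJRep S D.N).hom ((jIncl S D.N q).hom (yq gg))) =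
          fun gg => (csOfJRep S D.N).hom (yN gg) := by
        funext gg
        rw [congrFun hyNq gg]
      rw [e]
      exact hyNcs
    have e : (fun gg => (csOfJRep S D.N).hom ((jIncl S D.N q).hom (((i * p ^ j) • c₁) gg))) =
        (fun gg => (csOfJRep S D.N).hom ((jIncl S D.N q).hom (yq gg))) -
        (fun gg => (csOfJRep S D.N).hom ((jIncl S D.N q).hom
          ((yq - (i * p ^ j) • c₁) gg))) := by
      funext gg
      rw [Pi.sub_apply, Pi.sub_apply, map_sub, map_sub]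
      abel
    rw [e]
    exact (coboundaries₂ (csRep S D.N)).sub_mem h6 h5
  -- step 5
  have h7 : (i * p ^ j) • c₁ ∈ coboundaries₂ X := hkey _ h4
  have h8 : yq ∈ coboundaries₂ X := by
    have := (coboundaries₂ X).add_mem hi' h7
    rwa [sub_add_cancel] at this
  rw [hyNq]
  exact gbAsm_push_coboundaries₂ (jIncl S D.N q) h8

end Core

/-! ### The two assemblies -/

section Final

variable (p n : ℕ) [hp : Fact p.Prime] (S : Finset Nat.Primes)

/-- closing hypothesis of `gbAsm_core` from an exponent `f` which kills the carry class of `b₁`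
and divides every exponent killing `ψ_q(b₁)` -/
lemma gbAsm_close (L : Type) [Field L] [NumberField L] (D : CycData p n S L) (q : ↥S)
    (b₁ : ℚ_[((q : Nat.Primes) : ℕ)]ˣ) (f : ℕ)
    (hf : ∀ k : ℕ, psiQ p n ((q : Nat.Primes) : ℕ) b₁ ^ k = 1 → f ∣ k)
    (hkill : f • cmpCarry (p ^ n) D.θ (gbConst ((q : Nat.Primes) : ℕ) D.N b₁) ∈
      coboundaries₂ (semiRep ((q : Nat.Primes) : ℕ) D.N)) (k : ℕ)
    (hk : psiQ p n ((q : Nat.Primes) : ℕ) (b₁ ^ k) = 1) :
    cmpCarry (p ^ n) D.θ (gbConst ((q : Nat.Primes) : ℕ) D.N (b₁ ^ k)) ∈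
      coboundaries₂ (semiRep ((q : Nat.Primes) : ℕ) D.N) := by
  rw [map_pow] at hk
  obtain ⟨m, rfl⟩ := hf k hk
  rw [gbAsm_gbConst_pow, ← cmpCarry_nsmul, mul_comm, mul_smul]
  exact (coboundaries₂ (semiRep ((q : Nat.Primes) : ℕ) D.N)).smul_of_tower_mem m hkill

/-- `StmtPsiPGen`, transported to a prime `Q = p` -/
lemma gbAsm_psiPGen (hG : StmtPsiPGen) (hp2 : p ≠ 2) (Q : ℕ) [Fact Q.Prime] (hQ : Q = p) :
    ∃ b₀ : ℚ_[Q]ˣ, ∀ k : ℕ, psiQ p n Q b₀ ^ k = 1 → p ^ n ∣ k := by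
  subst hQ
  exact hG Q n hp2

/-- **gbAsm'**: (GB₁) from the pieces, without local norm groups. -/
theorem stmtGBAsm' : StmtGBAsm' := by
  intro hCycDec hPGen hQNt hCarryH hKill hH90 hInf hCyc1 _ hPsi p hp hp2 S hpS L _ _ _ hL q y hy
    hsupp hpy hcs
  by_cases hqp : ((q : Nat.Primes) : ℕ) = p
  · -- `q = p`
    obtain ⟨b₀, hb₀⟩ := gbAsm_psiPGen p 1 hPGen hp2 ((q : Nat.Primes) : ℕ) hqp
    obtain ⟨D, -⟩ := hCycDec p 1 S hp2 hpS L hL
    haveI : NeZero (p ^ 1) := ⟨pow_ne_zero _ hp.out.ne_zero⟩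
    have hne : psiQ p 1 ((q : Nat.Primes) : ℕ) b₀ ≠ 1 := by
      intro h
      have h1 := hb₀ 1 (by rw [pow_one]; exact h)
      rw [pow_one, Nat.dvd_one] at h1
      exact hp.out.one_lt.ne' h1
    have hkill := hCarryH (D.N ≃ₐ[ℚ] D.N) (semiRep ((q : Nat.Primes) : ℕ) D.N) (p ^ 1) D.θ
      (gbConst ((q : Nat.Primes) : ℕ) D.N b₀) (gbAsm_gbConst_invariant _ D.N b₀)
    exact gbAsm_core p 1 S hH90 hInf hCyc1 hPsi hp2 hpS L hL D q b₀ hne
      (gbAsm_close p 1 S L D q b₀ (p ^ 1) hb₀ hkill) y hy hsupp hpy hcs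
  · -- `q ≠ p`
    obtain ⟨n, -, hne⟩ := hQNt p hp2 ((q : Nat.Primes) : ℕ) hqp
    obtain ⟨D, hDec⟩ := hCycDec p n S hp2 hpS L hL
    haveI : NeZero (p ^ n) := ⟨pow_ne_zero _ hp.out.ne_zero⟩
    haveI := D.galQ
    obtain ⟨t⟩ : Nonempty (MaximalSpectrum (semiAlg ((q : Nat.Primes) : ℕ) D.N)) :=
      inferInstance
    have hkill := hKill ((q : Nat.Primes) : ℕ) D.N t (p ^ n) D.θ
      (gbConst ((q : Nat.Primes) : ℕ) D.N (qUnit ((q : Nat.Primes) : ℕ)))
      (gbAsm_gbConst_invariant _ D.N _)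
      (orderOf (psiQ p n ((q : Nat.Primes) : ℕ) (qUnit ((q : Nat.Primes) : ℕ))))
      (hDec ((q : Nat.Primes) : ℕ) hqp t)
    exact gbAsm_core p n S hH90 hInf hCyc1 hPsi hp2 hpS L hL D q
      (qUnit ((q : Nat.Primes) : ℕ)) hne
      (gbAsm_close p n S L D q _ _ (fun k hk => orderOf_dvd_of_pow_eq_one hk) hkill)
      y hy hsupp hpy hcs

/-- **gbAsm** (first plan): (GB₁) from the pieces of PlanGB.lean, closing by local norm
groups. -/
theorem stmtGBAsm : StmtGBAsm := by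
  intro hCyc hNt hH90 hInf hCyc1 hCoN _ hPsi hLoc hNT p hp hp2 S hpS L _ _ _ hL q y hy hsupp hpy
    hcs
  obtain ⟨n, b₁, hb₁⟩ := hNt p hp2 ((q : Nat.Primes) : ℕ)
  obtain ⟨D⟩ := hCyc p n S hp2 hpS L hL
  haveI : NeZero (p ^ n) := ⟨pow_ne_zero _ hp.out.ne_zero⟩
  refine gbAsm_core p n S hH90 hInf hCyc1 hPsi hp2 hpS L hL D q b₁ hb₁ (fun k hk => ?_)
    y hy hsupp hpy hcs
  obtain ⟨d, hd, hsum⟩ := hNT p n S hp2 L D ((q : Nat.Primes) : ℕ) (b₁ ^ k)
    (hLoc p n hp2 ((q : Nat.Primes) : ℕ) (b₁ ^ k) hk)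
  have h := hCoN (D.N ≃ₐ[ℚ] D.N) (semiRep ((q : Nat.Primes) : ℕ) D.N) (p ^ n) D.θ d hd
  rw [← hsum] at h
  exact h

end Final

end Fermat.Agent.PT.G3

end
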