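import Fermat.Agent.PT.G3.PlanGBLocal

/-!
# PT-GB, piece carryH: multiples of the carry cocycle which are coboundaries

`carryH_smul_mem_coboundaries₂`: if `θ : G → ℤ/h` satisfies `θ(g)^f = 1` for all `g`, then
`f • cmpCarry h θ a = d(s)` with `s(g) = (f · idx(g) / h) • a`, for every invariant `a`.
`stmtCarryH : StmtCarryH` is the case `f = h`.
-/

set_option autoImplicit false

namespace Fermat.Agent.PT.G3

open CategoryTheory groupCohomology

/-- `θ(g)^f = 1` means `h ∣ f · idx(g)`. -/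
theorem carryH_dvd {G : Type} [Group G] (h : ℕ) [NeZero h] (θ : G →* Multiplicative (ZMod h))
    (f : ℕ) (g : G) (hf : θ g ^ f = 1) : h ∣ f * cmpIdx h θ g := by
  have h1 : f • Multiplicative.toAdd (θ g) = 0 := by
    have := congrArg Multiplicative.toAdd hf
    simpa using this
  rw [← ZMod.natCast_eq_zero_iff]
  rw [nsmul_eq_mul] at h1
  unfold cmpIdx
  rw [Nat.cast_mul, ZMod.natCast_zmod_val]
  exact h1

/-- If `θ^f = 1` on `G`, then `f • cmpCarry h θ a` is a coboundary, for every invariant `a`. -/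
theorem carryH_smul_mem_coboundaries₂ {G : Type} [Group G] (C : Rep.{0} ℤ G) (h : ℕ) [NeZero h]
    (θ : G →* Multiplicative (ZMod h)) (a : C.V) (ha : ∀ g : G, C.ρ g a = a) (f : ℕ)
    (hf : ∀ g : G, θ g ^ f = 1) : f • cmpCarry h θ a ∈ coboundaries₂ C := by
  have hdiv : ∀ g : G, ∃ c : ℕ, f * cmpIdx h θ g = h * c := fun g =>
    carryH_dvd h θ f g (hf g)
  choose c hc using hdiv
  have hh : 0 < h := Nat.pos_of_ne_zero (NeZero.ne h)
  refine ⟨fun g => c g • a, ?_⟩
  funext ⟨g₁, g₂⟩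
  rw [d₁₂_hom_apply]
  show C.ρ g₁ (c g₂ • a) - c (g₁ * g₂) • a + c g₁ • a = f • cmpCarry h θ a (g₁, g₂)
  rw [map_nsmul, ha, cmpCarry_apply]
  have hmul := cmpIdx_mul h θ g₁ g₂
  have h1 := hc g₁
  have h2 := hc g₂
  have h12 := hc (g₁ * g₂)
  split_ifs with hcarry
  · rw [if_pos hcarry] at hmul
    have key : c g₁ + c g₂ = c (g₁ * g₂) + f := by
      apply Nat.eq_of_mul_eq_mul_left hh
      rw [mul_add, mul_add, ← h1, ← h2, ← h12, hmul, ← mul_add, Nat.mul_sub, mul_comm f h,
        mul_comm h f]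
      have : f * h ≤ f * (cmpIdx h θ g₁ + cmpIdx h θ g₂) := Nat.mul_le_mul_left f hcarry
      omega
    have key2 : c g₁ • a + c g₂ • a = c (g₁ * g₂) • a + f • a := by
      rw [← add_nsmul, ← add_nsmul, key]
    rw [sub_add_eq_add_sub, sub_eq_iff_eq_add, add_comm (c g₂ • a), key2, add_comm]
  · rw [if_neg hcarry] at hmul
    have key : c g₁ + c g₂ = c (g₁ * g₂) := by
      apply Nat.eq_of_mul_eq_mul_left hh
      rw [mul_add, ← h1, ← h2, ← h12, hmul, mul_add]
    have key2 : c g₁ • a + c g₂ • a = c (g₁ * g₂) • a := by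
      rw [← add_nsmul, key]
    rw [smul_zero, sub_add_eq_add_sub, sub_eq_zero, add_comm (c g₂ • a), key2]

/-- **gb-carryh**: `h • cmpCarry h θ a` is a coboundary for every invariant `a`. -/
theorem stmtCarryH : StmtCarryH := by
  intro G _ C h _ θ a ha
  apply carryH_smul_mem_coboundaries₂ C h θ a ha h
  intro g
  have h2 : Multiplicative.toAdd (θ g ^ h) = Multiplicative.toAdd (1 : Multiplicative (ZMod h)) := by
    rw [toAdd_pow, toAdd_one, nsmul_eq_mul, ZMod.natCast_self, zero_mul]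
  exact Multiplicative.toAdd.injective h2

end Fermat.Agent.PT.G3
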