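import Fermat.Agent.PT.G3.PlanGB
import Fermat.Agent.PT.G3.MapComp

/-!
# PT-GB / carryNZ (helper79)

`theorem stmtCarryNZ_of : StmtGBPsi → StmtCarryNZ`: if `ψ_q(b) ≠ 1` then the carry cocycle of the
constant idèle `b ⊗ 1` is not a coboundary in `(ℚ_q ⊗ N)ˣ`.

Proof: push a coboundary forward along `semiRep q N → jlRep S N → csRep S N`; the image of
`b ⊗ 1` is `csMap S ℚ N c₀`, `c₀ = [b at q] ∈ C_S(ℚ)`; by `StmtGBPsi`, `Ψ_ℚ(c₀) = 0`; but
`Ψ_ℚ(c₀) = ψ_q(norm (b ⊗ 1)) = ψ_q(b)`.  (No Hilbert 90 is needed on this route.)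
-/

set_option autoImplicit false
set_option linter.unusedSectionVars false

noncomputable section

namespace Fermat.Agent.PT.G3

open CategoryTheory groupCohomology NumberField IsDedekindDomain
open Fermat.Agent.PT Fermat.Agent.PT.G Fermat.Agent.PT.G1
open scoped TensorProduct

/-- a linear map commutes with the carry cochain -/
lemma carryNZ_map_cmpCarry {G : Type} [Group G] (m : ℕ) (θ : G →* Multiplicative (ZMod m))
    {V W : Type} [AddCommGroup V] [AddCommGroup W] (f : V → W) (hf : f 0 = 0) (a : V)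
    (gg : G × G) :
    f (cmpCarry m θ a gg) = cmpCarry m θ (f a) gg := by
  obtain ⟨g, h⟩ := gg
  rw [cmpCarry_apply, cmpCarry_apply]
  split_ifs
  · rfl
  · exact hf

/-- a morphism of representations maps coboundaries to coboundaries -/
lemma carryNZ_map_coboundaries₂ {G : Type} [Group G] {X C : Rep.{0} ℤ G} (f : X ⟶ C)
    (y : G × G → X.V) (hy : y ∈ coboundaries₂ X) :
    (fun gg => f.hom (y gg)) ∈ coboundaries₂ C := by
  obtain ⟨t, ht⟩ := hy
  refine ⟨fun g => f.hom (t g), ?_⟩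
  funext ⟨g, h⟩
  rw [d₁₂_hom_apply]
  have h1 := congrFun ht (g, h)
  rw [d₁₂_hom_apply] at h1
  dsimp only at h1 ⊢
  rw [← h1, map_add, map_sub]
  congr 2
  exact (Rep.hom_comm_apply f g (t h)).symm

section model

variable (S : Finset Nat.Primes) (N : Type) [Field N] [NumberField N]

/-- the class in `C_S(ℚ)` of the idèle `b` at `q` -/
def carryNZClass (q : ↥S) (b : ℚ_[((q : Nat.Primes) : ℕ)]ˣ) : CS S ℚ :=
  csOfJ S ℚ (jInclLin S ℚ q (gbConst ((q : Nat.Primes) : ℕ) ℚ b))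

lemma carryNZ_jlMap_jIncl (q : ↥S) (b : ℚ_[((q : Nat.Primes) : ℕ)]ˣ) :
    jlMapLin S ℚ N (jInclLin S ℚ q (gbConst ((q : Nat.Primes) : ℕ) ℚ b)) =
      jInclLin S N q (gbConst ((q : Nat.Primes) : ℕ) N b) := by
  classical
  apply Additive.toMul.injective
  funext q'
  apply Units.ext
  show semiIncl ℚ N ((q' : Nat.Primes) : ℕ)
      (((Pi.mulSingle q (Additive.toMul (gbConst ((q : Nat.Primes) : ℕ) ℚ b)) : JL S ℚ) q' :
        (semiAlg ((q' : Nat.Primes) : ℕ) ℚ)ˣ) : semiAlg ((q' : Nat.Primes) : ℕ) ℚ) =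
    (((Pi.mulSingle q (Additive.toMul (gbConst ((q : Nat.Primes) : ℕ) N b)) : JL S N) q' :
        (semiAlg ((q' : Nat.Primes) : ℕ) N)ˣ) : semiAlg ((q' : Nat.Primes) : ℕ) N)
  by_cases h : q' = q
  · subst h
    rw [Pi.mulSingle_eq_same, Pi.mulSingle_eq_same]
    show semiIncl ℚ N ((q' : Nat.Primes) : ℕ) (algebraMap _ _ (b : ℚ_[((q' : Nat.Primes) : ℕ)])) =
      algebraMap _ _ (b : ℚ_[((q' : Nat.Primes) : ℕ)])
    exact AlgHom.commutes _ _
  · rw [Pi.mulSingle_eq_of_ne h, Pi.mulSingle_eq_of_ne h, Units.val_one, Units.val_one, map_one]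

lemma carryNZ_csMap (q : ↥S) (b : ℚ_[((q : Nat.Primes) : ℕ)]ˣ) :
    csMap S ℚ N (carryNZClass S q b) =
      csOfJ S N (jInclLin S N q (gbConst ((q : Nat.Primes) : ℕ) N b)) := by
  rw [carryNZClass, csMap_csOfJ, carryNZ_jlMap_jIncl]

lemma carryNZ_norm_const (q : ℕ) [Fact q.Prime] (b : ℚ_[q]) :
    Algebra.norm ℚ_[q] (algebraMap ℚ_[q] (semiAlg q ℚ) b) = b := by
  rw [Algebra.norm_algebraMap]
  have h : Module.finrank ℚ_[q] (semiAlg q ℚ) = 1 := by
    show Module.finrank ℚ_[q] (ℚ_[q] ⊗[ℚ] ℚ) = 1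
    rw [Module.finrank_baseChange, Module.finrank_self]
  rw [h, pow_one]

lemma carryNZ_psiC {p : ℕ} [hp : Fact p.Prime] (n : ℕ) (hodd : Odd p)
    (hpS : (⟨p, hp.out⟩ : Nat.Primes) ∈ S) (q : ↥S) (b : ℚ_[((q : Nat.Primes) : ℕ)]ˣ) :
    psiC p n S ℚ (carryNZClass S q b) =
      Additive.ofMul (psiQ p n ((q : Nat.Primes) : ℕ) b) := by
  classical
  rw [carryNZClass, psiC_csOfJ p n S ℚ hodd hpS, psiJ_apply]
  congr 1
  rw [Finset.prod_eq_single q]
  · rw [psiSemi_apply]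
    congr 1
    apply Units.ext
    show Algebra.norm ℚ_[((q : Nat.Primes) : ℕ)]
      (((Pi.mulSingle q (Additive.toMul (gbConst ((q : Nat.Primes) : ℕ) ℚ b)) : JL S ℚ) q :
        (semiAlg ((q : Nat.Primes) : ℕ) ℚ)ˣ) : semiAlg ((q : Nat.Primes) : ℕ) ℚ) = _
    rw [Pi.mulSingle_eq_same]
    exact carryNZ_norm_const ((q : Nat.Primes) : ℕ) _
  · intro q' _ hq'
    have h1 : (Additive.toMul (jInclLin S ℚ q (gbConst ((q : Nat.Primes) : ℕ) ℚ b)) : JL S ℚ) q'
        = 1 := by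
      show (Pi.mulSingle q (Additive.toMul (gbConst ((q : Nat.Primes) : ℕ) ℚ b)) : JL S ℚ) q' = 1
      rw [Pi.mulSingle_eq_of_ne hq']
    rw [h1, map_one]
  · intro h
    exact absurd (Finset.mem_univ q) h

end model

/-- **carryNZ** (from `StmtGBPsi`; Hilbert 90 is not needed on this route). -/
theorem stmtCarryNZ_of (hPsi : StmtGBPsi) : StmtCarryNZ := by
  intro _ p n hp S hp2 hpS L _ _ _ D q b hψ hcob
  have : NeZero (p ^ n) := ⟨pow_ne_zero _ hp.out.ne_zero⟩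
  have hodd : Odd p := hp.out.odd_of_ne_two hp2
  have : IsScalarTower ℚ L D.N := IsScalarTower.of_algebraMap_eq (fun x => by
    rw [eq_ratCast, eq_ratCast, map_ratCast])
  have hunL : UnramOffRel S ℚ L := (stmtUnramTower S ℚ L D.N D.unram).2
  -- push the coboundary forward to `C_S(N)`
  have h1 := carryNZ_map_coboundaries₂ (jIncl S D.N q ≫ csOfJRep S D.N) _ hcob
  have h2 : (fun gg => (jIncl S D.N q ≫ csOfJRep S D.N).hom
      (cmpCarry (p ^ n) D.θ (gbConst ((q : Nat.Primes) : ℕ) D.N b) gg)) =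
      cmpCarry (p ^ n) D.θ (csMap S ℚ D.N (carryNZClass S q b) : (csRep S D.N).V) := by
    funext gg
    rw [carryNZ_csMap]
    exact carryNZ_map_cmpCarry (p ^ n) D.θ
      (fun x => (jIncl S D.N q ≫ csOfJRep S D.N).hom x) (map_zero _) _ gg
  rw [h2] at h1
  have h3 := hPsi p n S hp2 hpS L hunL D (carryNZClass S q b) h1
  rw [carryNZ_psiC S n hodd hpS q b] at h3
  exact hψ (Additive.ofMul.injective h3)

end Fermat.Agent.PT.G3
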