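import Fermat.Agent.PT.G3.GBCarryH
import Fermat.Agent.PT.G3.GBCarryNZ

/-!
# PT-GB, piece (K) carryKill

`stmtSemiCarryKill_of : StmtSDProj → StmtSDShapiro → StmtSemiCarryKill`: if `a ∈ (ℚ_q ⊗ N)ˣ` is
invariant and `θ^f = 1` on the decomposition group `D_t` of one maximal ideal `t`, then
`f • cmpCarry h θ a` is a coboundary: its image under "restrict to `D_t` and project to the
residue field" is `f • cmpCarry h (θ|D_t) (π a)`, a coboundary by `carryH_smul_mem_coboundaries₂`,
and this map is injective on `H²` (semilocal Shapiro).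
-/

set_option autoImplicit false

namespace Fermat.Agent.PT.G3

open CategoryTheory groupCohomology
open Fermat.Agent.PT Fermat.Agent.PT.G Fermat.Agent.PT.G1

/-- Abstract form of (K): if "restrict along `ι` and push along `π`" is injective on `H²`, and
`θ^f = 1` on the source of `ι`, then `f • cmpCarry h θ a` is a coboundary for invariant `a`. -/
theorem carryKill_of_injective {G D : Type} [Group G] [Group D] (ι : D →* G)
    (C : Rep.{0} ℤ G) (Y : Rep.{0} ℤ D) (π : Rep.res ι C ⟶ Y)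
    (hinj : Function.Injective (groupCohomology.map ι π 2).hom)
    (h : ℕ) [NeZero h] (θ : G →* Multiplicative (ZMod h)) (a : C.V)
    (ha : ∀ g : G, C.ρ g a = a) (f : ℕ) (hf : ∀ d : D, θ (ι d) ^ f = 1) :
    f • cmpCarry h θ a ∈ coboundaries₂ C := by
  rw [cmpCarry_nsmul]
  have hfa : ∀ g : G, C.ρ g (f • a) = f • a := fun g => by rw [map_nsmul, ha]
  have hcoc := cmpCarry_mem_cocycles₂ h θ C (f • a) hfa
  have key := H2π_comp_map_apply ι π ⟨cmpCarry h θ (f • a), hcoc⟩
  have hfun : ⇑(mapCocycles₂ ι π ⟨cmpCarry h θ (f • a), hcoc⟩) =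
      f • cmpCarry h (θ.comp ι) (π.hom a) := by
    rw [cmpCarry_nsmul]
    funext ⟨d₁, d₂⟩
    have h1 : (mapCocycles₂ ι π ⟨cmpCarry h θ (f • a), hcoc⟩) (d₁, d₂) =
        π.hom (cmpCarry h θ (f • a) (ι d₁, ι d₂)) := rfl
    rw [h1, carryNZ_map_cmpCarry h θ (fun x => π.hom x) (map_zero _) (f • a) (ι d₁, ι d₂),
      map_nsmul]
    rfl
  have hπa : ∀ d : D, Y.ρ d (π.hom a) = π.hom a := by
    intro d
    have h1 := Rep.hom_comm_apply π d a
    rw [← h1]
    congr 1
    exact ha (ι d)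
  have hcob : ⇑(mapCocycles₂ ι π ⟨cmpCarry h θ (f • a), hcoc⟩) ∈ coboundaries₂ Y := by
    rw [hfun]
    exact carryH_smul_mem_coboundaries₂ Y h (θ.comp ι) (π.hom a) hπa f hf
  have hzero : (groupCohomology.map ι π 2).hom (H2π C ⟨cmpCarry h θ (f • a), hcoc⟩) = 0 := by
    refine Eq.trans key ?_
    rw [H2π_eq_zero_iff]
    exact hcob
  have h0 : H2π C ⟨cmpCarry h θ (f • a), hcoc⟩ = 0 :=
    hinj (hzero.trans (map_zero _).symm)
  rw [H2π_eq_zero_iff] at h0
  exact h0

/-- **(K) gb-carrykill** from the semilocal projection and Shapiro. -/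
theorem stmtSemiCarryKill_of : StmtSDProj → StmtSDShapiro → StmtSemiCarryKill := by
  intro hProj hSh q _ N _ _ _ t h _ θ a ha f hf
  obtain ⟨π, hπ⟩ := hProj q N t
  have hbij := hSh q N t π hπ
  exact carryKill_of_injective (sdStab q N t).subtype (semiRep q N) (sdY q N t) π hbij.1 h θ a ha f
    (fun d => hf d d.2)

end Fermat.Agent.PT.G3
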