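/-
PT-GB / cycabs (helper9): a `p`-fundamental class makes the `p`-primary part of `H²` cyclic.

`stmtPCyclicOfFund : StmtPCyclicOfFund`.
 1. `cycabs_mem_zmultiples`: every `p`-primary class `z` of `H²(G, C)` is an integer multiple of
    the fundamental class `u` (`res_P z = n • res_P u` on a Sylow subgroup `P`, and
    `res_P w = 0 ⇒ [G : P] • w = 0`, `[G : P]` prime to `p`).
 2. `cycabs_comparable`: two `p`-primary integer multiples of one element are comparable
    (Bezout; no finiteness needed).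
-/
import Fermat.Agent.PT.G3.PlanGBLocal
import Fermat.Agent.PT.A.Sylow

set_option autoImplicit false

namespace Fermat.Agent.PT.G3

open CategoryTheory groupCohomology
open Fermat.Agent.PT

/-- If `p^k • w = 0` and `c` is prime to `p`, then `w` is an integer multiple of `c • w`. -/
lemma cycabs_unit_smul {X : Type*} [AddCommGroup X] (p : ℕ) [hp : Fact p.Prime] (k : ℕ)
    (w : X) (hw : (p ^ k) • w = 0) (c : ℤ) (hc : ¬ (p : ℤ) ∣ c) :
    ∃ e : ℤ, e • (c • w) = w := by
  have hcop : IsCoprime c ((p : ℤ) ^ k) := by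
    apply IsCoprime.pow_right
    exact ((Nat.prime_iff_prime_int.1 hp.out).coprime_iff_not_dvd.2 hc).symm
  obtain ⟨e, d, hed⟩ := hcop
  refine ⟨e, ?_⟩
  have hw' : ((p : ℤ) ^ k) • w = 0 := by
    have : ((p ^ k : ℕ) : ℤ) • w = 0 := by rw [natCast_zsmul]; exact hw
    rwa [Nat.cast_pow] at this
  calc e • (c • w) = (e * c + d * (p : ℤ) ^ k) • w := by
        rw [add_smul, mul_smul, mul_smul, hw', smul_zero, add_zero]
    _ = w := by rw [hed, one_smul]

/-- Two `p`-primary integer multiples of one element `w`, with coprime coefficients, are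
comparable. -/
lemma cycabs_comparable_aux {X : Type*} [AddCommGroup X] (p : ℕ) [hp : Fact p.Prime] (w : X)
    (a' b' : ℤ) (hcop : Int.gcd a' b' = 1)
    (hx : IsPTors p (a' • w)) (hy : IsPTors p (b' • w)) :
    (∃ n : ℤ, n • (a' • w) = b' • w) ∨ (∃ n : ℤ, n • (b' • w) = a' • w) := by
  obtain ⟨kx, hkx⟩ := hx
  obtain ⟨ky, hky⟩ := hy
  have hcop' : IsCoprime a' b' := Int.isCoprime_iff_gcd_eq_one.2 hcop
  obtain ⟨s, t, hst⟩ := hcop'
  have hw : (p ^ (kx + ky)) • w = 0 := by
    have h1 : w = s • (a' • w) + t • (b' • w) := by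
      rw [← mul_smul, ← mul_smul, ← add_smul, hst, one_smul]
    have h2 : (p ^ (kx + ky)) • (a' • w) = 0 := by
      rw [pow_add, mul_comm, mul_smul, hkx, smul_zero]
    have h3 : (p ^ (kx + ky)) • (b' • w) = 0 := by
      rw [pow_add, mul_smul, hky, smul_zero]
    rw [h1, smul_add, smul_comm _ s, smul_comm _ t, h2, h3, smul_zero, smul_zero, add_zero]
  by_cases hpa : (p : ℤ) ∣ a'
  · have hpb : ¬ (p : ℤ) ∣ b' := by
      intro hpb
      have h1 : (p : ℤ) ∣ (Int.gcd a' b' : ℤ) := Int.dvd_coe_gcd hpa hpb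
      rw [hcop] at h1
      have h2 : (p : ℤ) ∣ 1 := by exact_mod_cast h1
      have h3 := Int.natAbs_dvd_natAbs.2 h2
      simp only [Int.natAbs_natCast, Int.natAbs_one, Nat.dvd_one] at h3
      exact hp.out.one_lt.ne' h3
    obtain ⟨e, he⟩ := cycabs_unit_smul p (kx + ky) w hw b' hpb
    refine Or.inr ⟨a' * e, ?_⟩
    rw [mul_smul, he]
  · obtain ⟨e, he⟩ := cycabs_unit_smul p (kx + ky) w hw a' hpa
    refine Or.inl ⟨b' * e, ?_⟩
    rw [mul_smul, he]

/-- Two `p`-primary integer multiples of one element `u` are comparable. -/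
theorem cycabs_comparable {X : Type*} [AddCommGroup X] (p : ℕ) [hp : Fact p.Prime] (u x y : X)
    (hx : IsPTors p x) (hy : IsPTors p y) (hxu : ∃ a : ℤ, a • u = x) (hyu : ∃ b : ℤ, b • u = y) :
    (∃ n : ℤ, n • x = y) ∨ (∃ n : ℤ, n • y = x) := by
  obtain ⟨a, rfl⟩ := hxu
  obtain ⟨b, rfl⟩ := hyu
  by_cases h0 : Int.gcd a b = 0
  · have ha : a = 0 := (Int.gcd_eq_zero_iff.1 h0).1
    have hb : b = 0 := (Int.gcd_eq_zero_iff.1 h0).2
    subst ha hb
    exact Or.inl ⟨0, by simp⟩
  obtain ⟨a', b', hcop, ha, hb⟩ := Int.exists_gcd_one (Nat.pos_of_ne_zero h0)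
  obtain ⟨g, hg⟩ : ∃ g : ℤ, g = (Int.gcd a b : ℤ) := ⟨_, rfl⟩
  rw [← hg] at ha hb
  clear hg h0
  subst ha hb
  have hxw : (a' * g) • u = a' • (g • u) := mul_smul _ _ _
  have hyw : (b' * g) • u = b' • (g • u) := mul_smul _ _ _
  rw [hxw] at hx
  rw [hyw] at hy
  rw [hxw, hyw]
  exact cycabs_comparable_aux p _ a' b' hcop hx hy

/-- Bezout step: if `p^k • z = 0` and `idx • (z - n • u) = 0` with `idx` prime to `p`, then `z`
is a multiple of `u`. -/
lemma cycabs_bezout {X : Type*} [AddCommGroup X] (p : ℕ) [hp : Fact p.Prime] (k idx : ℕ)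
    (hndvd : ¬ p ∣ idx) (z u : X) (n : ℤ) (hk : (p ^ k) • z = 0)
    (hidx : idx • (z - n • u) = 0) : ∃ a : ℤ, a • u = z := by
  have hcop : IsCoprime ((p : ℤ) ^ k) (idx : ℤ) := by
    apply IsCoprime.pow_left
    rw [Nat.isCoprime_iff_coprime]
    exact (Nat.Prime.coprime_iff_not_dvd hp.out).2 hndvd
  obtain ⟨s, t, hst⟩ := hcop
  have hk' : ((p : ℤ) ^ k) • z = 0 := by
    have : ((p ^ k : ℕ) : ℤ) • z = 0 := by rw [natCast_zsmul]; exact hk
    rwa [Nat.cast_pow] at this
  have hidx' : (idx : ℤ) • z = (idx : ℤ) • (n • u) := by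
    have : (idx : ℤ) • (z - n • u) = 0 := by rw [natCast_zsmul]; exact hidx
    rw [smul_sub, sub_eq_zero] at this
    exact this
  refine ⟨t * (idx : ℤ) * n, ?_⟩
  calc (t * (idx : ℤ) * n) • u
      = t • ((idx : ℤ) • (n • u)) := by rw [mul_smul, mul_smul]
    _ = t • ((idx : ℤ) • z) := by rw [hidx']
    _ = (s * (p : ℤ) ^ k + t * (idx : ℤ)) • z := by
        rw [add_smul, mul_smul, mul_smul, hk', smul_zero, zero_add]
    _ = z := by rw [hst, one_smul]

/-- Every `p`-primary class of `H²(G, C)` is an integer multiple of a `p`-fundamental class. -/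
theorem cycabs_mem_zmultiples (p : ℕ) [hp : Fact p.Prime] (G : Type) [Group G] [Finite G]
    (C : Rep.{0} ℤ G) (u : H2 C) (hu : IsPFundClass p C u) (z : H2 C) (hz : IsPTors p z) :
    ∃ a : ℤ, a • u = z := by
  classical
  obtain ⟨P⟩ : Nonempty (Sylow p G) := inferInstance
  obtain ⟨n, hn⟩ := hu.h2_gen (P : Subgroup G) P.isPGroup' ((resSub C (P : Subgroup G) 2).hom z)
  have hres : (resSub C (P : Subgroup G) 2).hom (z - n • u) = 0 := by
    rw [map_sub, map_zsmul, hn, sub_self]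
  have hidx : (P : Subgroup G).index • (z - n • u) = 0 :=
    SylowRes.index_smul_eq_zero_of_res_eq_zero (P : Subgroup G) 1 C (z - n • u) hres
  obtain ⟨k, hk⟩ := hz
  exact cycabs_bezout p k (P : Subgroup G).index P.not_dvd_index z u n hk hidx

/-- **gb-cycabs**: a `p`-fundamental class makes the `p`-primary part of `H²(G, C)` cyclic. -/
theorem stmtPCyclicOfFund : StmtPCyclicOfFund := by
  intro p _ G _ _ C u hu x y hx hy
  exact cycabs_comparable p u x y hx hy
    (cycabs_mem_zmultiples p G C u hu x hx) (cycabs_mem_zmultiples p G C u hu y hy)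

end Fermat.Agent.PT.G3
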