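/-
PT-GB, piece gbRed (helper74): `StmtGBRed : StmtGBOne → StmtGBAll`.

Induction on `k`: if `p^(k+1) • y ∼ 0`, apply (GB₁) to `p^k • y` (a cocycle supported at `q`,
dying in `C_S(L)`), get `p^k • y ∼ 0`, induct.
-/
import Fermat.Agent.PT.G3.PlanGB

set_option autoImplicit false
set_option linter.unusedSectionVars false

noncomputable section

namespace Fermat.Agent.PT.G3

open CategoryTheory groupCohomology NumberField IsDedekindDomain
open Fermat.Agent.PT Fermat.Agent.PT.G Fermat.Agent.PT.G1
open scoped TensorProduct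

/-- **gbRed**: (GB₁) ⇒ (GB). -/
theorem stmtGBRed : StmtGBRed := by
  intro hOne p hp hp2 S hpS L _ _ _ hun q y hy hsupp hk hcs
  obtain ⟨k, hk⟩ := hk
  induction k with
  | zero =>
    obtain ⟨t, ht⟩ := hk
    exact ⟨t, by rw [ht, pow_zero, one_smul]⟩
  | succ k ih =>
    apply ih
    have hmem : (p ^ k) • y ∈ coboundaries₂ (jlRep S L) := by
      apply hOne p hp2 S hpS L hun q ((p ^ k) • y)
      · exact (cocycles₂ (jlRep S L)).smul_of_tower_mem (p ^ k) hy
      · intro q' hq' gg
        have h1 := hsupp q' hq' gg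
        have h3 : (Additive.toMul (((p ^ k) • y) gg : Additive (JL S L)) : JL S L)
            = (Additive.toMul (y gg : Additive (JL S L)) : JL S L) ^ (p ^ k) := rfl
        rw [h3, Pi.pow_apply, h1, one_pow]
      · obtain ⟨t, ht⟩ := hk
        refine ⟨t, ?_⟩
        rw [ht, pow_succ, mul_comm, mul_smul]
      · obtain ⟨t, ht⟩ := hcs
        refine ⟨(p ^ k) • t, ?_⟩
        rw [map_nsmul, ht]
        funext gg
        have h2 : ((p ^ k) • y) gg = (p ^ k) • (y gg) := rfl
        rw [h2, map_nsmul]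
        rfl
    obtain ⟨t, ht⟩ := hmem
    exact ⟨t, ht⟩

end Fermat.Agent.PT.G3
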