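/-
PT-GB, piece gbFinal (helper74): `B.StmtGB` (PT/B/Plan4.lean) from `StmtGBAll` / `StmtGBOne`
(PT/G3/PlanGB.lean) and from the assembly `StmtGBAsm'` (PT/G3/PlanGBLocal.lean).
-/
import Fermat.Agent.PT.G3.GBRed
import Fermat.Agent.PT.G3.PlanGBLocal
import Fermat.Agent.PT.B.Plan4

set_option autoImplicit false
set_option linter.unusedSectionVars false

noncomputable section

namespace Fermat.Agent.PT.G3

open CategoryTheory groupCohomology NumberField IsDedekindDomain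
open Fermat.Agent.PT Fermat.Agent.PT.G Fermat.Agent.PT.G1
open scoped TensorProduct

/-- `B.StmtGB` is (GB) in the shape `StmtGBAll`. -/
theorem gbFinal_of_all (h : StmtGBAll) : Fermat.Agent.PT.B.StmtGB := by
  intro p hp hp2 S hpS L _ _ _ hun q y hy hsupp hk hcs
  exact h p hp2 S hpS L hun q y hy hsupp hk hcs

/-- `B.StmtGB` from (GB₁). -/
theorem gbFinal_of_one (h : StmtGBOne) : Fermat.Agent.PT.B.StmtGB :=
  gbFinal_of_all (stmtGBRed h)

/-- **gbFinal**: `B.StmtGB` from the assembly `StmtGBAsm'` and its inputs. -/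
theorem stmtGB_of (hAsm : StmtGBAsm') (h1 : StmtCycDec) (h2 : StmtPsiPGen)
    (h3 : StmtPsiQNontriv) (h4 : StmtCarryH) (h5 : StmtSemiCarryKill) (h6 : StmtH90Semi)
    (h7 : StmtGBInfJ) (h8 : StmtSemiCycOne) (h9 : StmtCarryNZ) (h10 : StmtGBPsi) :
    Fermat.Agent.PT.B.StmtGB :=
  gbFinal_of_one (hAsm h1 h2 h3 h4 h5 h6 h7 h8 h9 h10)

/-- variant for the old assembly `StmtGBAsm` (PlanGB.lean). -/
theorem stmtGB_of_old (hAsm : StmtGBAsm) (h1 : StmtCyc) (h2 : StmtPsiNontriv)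
    (h3 : StmtH90Semi) (h4 : StmtGBInfJ) (h5 : StmtSemiCycOne) (h6 : StmtCarryOfNorm)
    (h7 : StmtCarryNZ) (h8 : StmtGBPsi) (h9 : StmtLocNormCyc) (h10 : StmtNormTransfer) :
    Fermat.Agent.PT.B.StmtGB :=
  gbFinal_of_one (hAsm h1 h2 h3 h4 h5 h6 h7 h8 h9 h10)

end Fermat.Agent.PT.G3
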