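/-
PT-GB / h90semi, part 1 (helper9): Noether's proof of Hilbert 90 for a finite-dimensional
commutative algebra `B` over an infinite field `K`, acted on by a finite group `H` through
`K`-algebra endomorphisms which are pairwise distinct modulo every maximal ideal.

`h90semi_abs`: every multiplicative 1-cocycle `f : H → Bˣ` is of the form `σ ↦ σ(β) / β`.
-/
import Mathlib

set_option autoImplicit false

namespace Fermat.Agent.PT.G3

/-- Dedekind independence modulo a maximal ideal: a sum `∑ τ, f τ * act τ c` with unit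
coefficients cannot lie in a maximal ideal `t` for all `c`, if the `act τ` are pairwise distinct
modulo `t`. -/
theorem h90semi_dedekind {K B H : Type*} [Field K] [CommRing B] [Algebra K B]
    [Group H] [Fintype H] (act : H → (B →ₐ[K] B))
    (t : Ideal B) (ht : t.IsMaximal)
    (hdist : ∀ σ τ : H, σ ≠ τ → ∃ x : B, act σ x - act τ x ∉ t)
    (f : H → Bˣ) : ∃ c : B, (∑ τ : H, (f τ : B) * act τ c) ∉ t := by
  classical
  by_contra hcon
  push Not at hcon
  have : t.IsPrime := ht.isPrime
  let χ : H → (B →* B ⧸ t) := fun τ =>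
    ((Ideal.Quotient.mk t : B →+* B ⧸ t) : B →* B ⧸ t).comp ((act τ : B →ₐ[K] B) : B →* B)
  have hχ : Function.Injective χ := by
    intro σ τ h
    by_contra hne
    obtain ⟨x, hx⟩ := hdist σ τ hne
    apply hx
    have h1 : χ σ x = χ τ x := by rw [h]
    have h2 : (Ideal.Quotient.mk t) (act σ x) = (Ideal.Quotient.mk t) (act τ x) := h1
    rw [← Ideal.Quotient.eq_zero_iff_mem, map_sub, h2, sub_self]
  have hli : LinearIndependent (B ⧸ t) (fun τ : H => (χ τ : B → B ⧸ t)) :=
    LinearIndependent.comp (linearIndependent_monoidHom B (B ⧸ t)) χ hχ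
  have hzero : ∑ τ : H, (Ideal.Quotient.mk t (f τ : B)) • (χ τ : B → B ⧸ t) = 0 := by
    funext c
    rw [Finset.sum_apply]
    have := hcon c
    rw [← Ideal.Quotient.eq_zero_iff_mem, map_sum] at this
    simp only [Pi.smul_apply, smul_eq_mul, Pi.zero_apply]
    rw [← this]
    apply Finset.sum_congr rfl
    intro τ _
    rw [map_mul]
    rfl
  have h1 := Fintype.linearIndependent_iff.1 hli _ hzero 1
  have h2 : (f 1 : B) ∈ t := Ideal.Quotient.eq_zero_iff_mem.1 h1
  exact ht.ne_top (Ideal.eq_top_of_isUnit_mem t h2 (f 1).isUnit)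

/-- **Noether's Hilbert 90 for semilocal algebras.** -/
theorem h90semi_abs {K B H : Type*} [Field K] [Infinite K] [CommRing B] [Algebra K B]
    [Module.Finite K B] [Group H] [Finite H] (act : H → (B →ₐ[K] B))
    (hmul : ∀ (σ τ : H) (x : B), act (σ * τ) x = act σ (act τ x))
    (hdist : ∀ (t : Ideal B), t.IsMaximal → ∀ σ τ : H, σ ≠ τ → ∃ x : B, act σ x - act τ x ∉ t)
    (f : H → Bˣ)
    (hf : ∀ σ τ : H, f (σ * τ) = Units.map ((act σ : B →ₐ[K] B) : B →* B) (f τ) * f σ) :
    ∃ β : Bˣ, ∀ σ : H, f σ = Units.map ((act σ : B →ₐ[K] B) : B →* B) β / β := by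
  classical
  cases nonempty_fintype H
  let bsum : B →ₗ[K] B := ∑ τ : H, (LinearMap.mulLeft K (f τ : B)).comp (act τ).toLinearMap
  have hbsum : ∀ c, bsum c = ∑ τ : H, (f τ : B) * act τ c := by
    intro c
    simp [bsum, LinearMap.sum_apply]
  have : IsArtinianRing B := IsArtinianRing.of_finite K B
  have : Finite (MaximalSpectrum B) := inferInstance
  let p : MaximalSpectrum B → Submodule K B := fun t =>
    LinearMap.ker ((Ideal.Quotient.mkₐ K t.asIdeal).toLinearMap.comp bsum)
  have hmem : ∀ (t : MaximalSpectrum B) (c : B), c ∈ p t ↔ bsum c ∈ t.asIdeal := by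
    intro t c
    simp only [p, LinearMap.mem_ker, LinearMap.comp_apply, AlgHom.toLinearMap_apply,
      Ideal.Quotient.mkₐ_eq_mk, Ideal.Quotient.eq_zero_iff_mem]
  have hp : ∀ t, p t ≠ ⊤ := by
    intro t htop
    obtain ⟨c, hc⟩ := h90semi_dedekind act t.asIdeal t.isMaximal (hdist t.asIdeal t.isMaximal) f
    apply hc
    rw [← hbsum, ← hmem, htop]
    trivial
  have hne : ⋃ t, (p t : Set B) ≠ Set.univ := fun h => by
    obtain ⟨t, ht⟩ := Subspace.exists_eq_top_of_iUnion_eq_univ h
    exact hp t ht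
  obtain ⟨c, hc⟩ : ∃ c, c ∉ ⋃ t, (p t : Set B) := by
    by_contra hcon
    push Not at hcon
    exact hne (Set.eq_univ_of_forall hcon)
  have hunit : IsUnit (bsum c) := by
    by_contra hnu
    obtain ⟨I, hI, hIm⟩ := exists_max_ideal_of_mem_nonunits hnu
    apply hc
    simp only [Set.mem_iUnion]
    exact ⟨⟨I, hI⟩, (hmem ⟨I, hI⟩ c).2 hIm⟩
  -- the key identity
  have hkey : ∀ σ : H, act σ (bsum c) * (f σ : B) = bsum c := by
    intro σ
    rw [hbsum, map_sum, Finset.sum_mul]
    rw [← Equiv.sum_comp (Equiv.mulLeft σ) (fun τ => (f τ : B) * act τ c)]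
    apply Finset.sum_congr rfl
    intro τ _
    have h1 : ((f (σ * τ) : Bˣ) : B) = act σ (f τ : B) * (f σ : B) := by
      rw [hf σ τ]
      rfl
    simp only [Equiv.coe_mulLeft]
    rw [h1, map_mul, hmul]
    ring
  refine ⟨hunit.unit⁻¹, fun σ => ?_⟩
  have hk' : Units.map ((act σ : B →ₐ[K] B) : B →* B) hunit.unit * f σ = hunit.unit := by
    apply Units.ext
    exact hkey σ
  have hgen : ∀ (M u x : Bˣ), M * x = u → x = M⁻¹ / u⁻¹ := by
    intro M u x h
    rw [← h, div_eq_mul_inv, inv_inv, inv_mul_cancel_left]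
  rw [map_inv]
  exact hgen _ _ _ hk'

end Fermat.Agent.PT.G3
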