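/-
PT-GB / h90semi (helper9): Hilbert 90 for the semilocal algebra `ℚ_q ⊗ N`:
`H¹(H, (ℚ_q ⊗ N)ˣ) = 0` for every subgroup `H ≤ Aut(N)`.

Noether's proof, directly for the Galois algebra (`GBH90Abs.lean`): the ring homomorphisms
`π_t ∘ σ : ℚ_q ⊗ N → (ℚ_q ⊗ N)/t`, `σ ∈ Aut N`, are pairwise distinct for every maximal ideal `t`
(`1 ⊗ (σ n - τ n)` is a unit), so Dedekind independence applies modulo each `t`, and a vector
space over the infinite field `ℚ_q` is not a finite union of proper subspaces.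
-/
import Fermat.Agent.PT.G3.PlanGB
import Fermat.Agent.PT.G3.GBH90Abs

set_option autoImplicit false

namespace Fermat.Agent.PT.G3

open CategoryTheory groupCohomology NumberField
open Fermat.Agent.PT Fermat.Agent.PT.G Fermat.Agent.PT.G1
open scoped TensorProduct

/-- `1 ⊗ u` is a unit of `ℚ_q ⊗ N` for `u ≠ 0`. -/
lemma h90semi_isUnit_one_tmul (q : ℕ) [Fact q.Prime] (N : Type) [Field N] [NumberField N]
    (u : N) (hu : u ≠ 0) : IsUnit ((1 : ℚ_[q]) ⊗ₜ[ℚ] u : semiAlg q N) := by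
  refine ⟨⟨(1 : ℚ_[q]) ⊗ₜ[ℚ] u, (1 : ℚ_[q]) ⊗ₜ[ℚ] u⁻¹, ?_, ?_⟩, rfl⟩
  · rw [Algebra.TensorProduct.tmul_mul_tmul, mul_one, mul_inv_cancel₀ hu]
    rfl
  · rw [Algebra.TensorProduct.tmul_mul_tmul, mul_one, inv_mul_cancel₀ hu]
    rfl

/-- Distinct automorphisms of `N` are distinct modulo every maximal ideal of `ℚ_q ⊗ N`. -/
lemma h90semi_dist (q : ℕ) [Fact q.Prime] (N : Type) [Field N] [NumberField N]
    (t : Ideal (semiAlg q N)) (ht : t.IsMaximal) (σ τ : N ≃ₐ[ℚ] N) (h : σ ≠ τ) :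
    ∃ x : semiAlg q N, semiMap q σ x - semiMap q τ x ∉ t := by
  obtain ⟨n, hn⟩ : ∃ n, σ n ≠ τ n := by
    by_contra hcon
    push Not at hcon
    exact h (AlgEquiv.ext hcon)
  refine ⟨(1 : ℚ_[q]) ⊗ₜ[ℚ] n, fun hmem => ?_⟩
  have h1 : semiMap q σ ((1 : ℚ_[q]) ⊗ₜ[ℚ] n) - semiMap q τ ((1 : ℚ_[q]) ⊗ₜ[ℚ] n) =
      (1 : ℚ_[q]) ⊗ₜ[ℚ] (σ n - τ n) := by
    simp [semiMap, TensorProduct.tmul_sub]
  rw [h1] at hmem
  exact ht.ne_top (Ideal.eq_top_of_isUnit_mem t hmem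
    (h90semi_isUnit_one_tmul q N _ (sub_ne_zero.2 hn)))

/-- Multiplicative form: every 1-cocycle of `H ≤ Aut(N)` in `(ℚ_q ⊗ N)ˣ` is a coboundary. -/
theorem h90semi_mul (q : ℕ) [Fact q.Prime] (N : Type) [Field N] [NumberField N]
    (H : Subgroup (N ≃ₐ[ℚ] N)) (f : H → (semiAlg q N)ˣ)
    (hf : ∀ σ τ : H, f (σ * τ) =
      Units.map ((semiMap q (σ : N ≃ₐ[ℚ] N) : semiAlg q N →ₐ[ℚ_[q]] semiAlg q N) :
        semiAlg q N →* semiAlg q N) (f τ) * f σ) :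
    ∃ β : (semiAlg q N)ˣ, ∀ σ : H, f σ =
      Units.map ((semiMap q (σ : N ≃ₐ[ℚ] N) : semiAlg q N →ₐ[ℚ_[q]] semiAlg q N) :
        semiAlg q N →* semiAlg q N) β / β := by
  have hfin : Finite (N ≃ₐ[ℚ] N) := inferInstance
  have hfinH : Finite H := inferInstance
  have hmf : Module.Finite ℚ_[q] (semiAlg q N) := inferInstance
  exact h90semi_abs (K := ℚ_[q]) (B := semiAlg q N) (H := H)
    (fun σ => semiMap q (σ : N ≃ₐ[ℚ] N))
    (fun σ τ x => semiMap_mul q (σ : N ≃ₐ[ℚ] N) (τ : N ≃ₐ[ℚ] N) x)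
    (fun t ht σ τ hne => h90semi_dist q N t ht σ τ (fun h => hne (Subtype.ext h)))
    f hf

/-- **h90semi**: `H¹(H, (ℚ_q ⊗ N)ˣ) = 0` for every subgroup `H ≤ Aut(N)`. -/
theorem stmtH90Semi : StmtH90Semi := by
  intro q _ N _ _ H
  have key : ∀ a : H1 (Rep.res H.subtype (semiRep q N)), a = 0 := by
    intro a
    induction a using H1_induction_on with
    | h c =>
      rw [H1π_eq_zero_iff]
      have hc := (mem_cocycles₁_iff (c : H → (Rep.res H.subtype (semiRep q N)).V)).1 c.2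
      obtain ⟨β, hβ⟩ := h90semi_mul q N H (fun σ => Additive.toMul (c.1 σ))
        (fun σ τ => congrArg Additive.toMul (hc σ τ))
      refine ⟨Additive.ofMul β, ?_⟩
      funext g
      rw [d₀₁_hom_apply]
      exact (congrArg Additive.ofMul (hβ g)).symm
  exact ⟨fun a b => by rw [key a, key b]⟩

end Fermat.Agent.PT.G3
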