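/-
PT-GB, piece **gbInfJ** (helper30): inflation `H²(Aut L, J_L) → H²(Aut N, J_N)` is injective, in
cocycle form.  Proof: `inflInj_aux` (PT/F/InflInj.lean, helper86) with `m = 1` for
`f = gbRes : Aut N ↠ Aut L`, `φ = jlMapLin`:
* `φ` is injective (`semiIncl_injective`), equivariant (`jlEnd_jlMapLin`);
* `J_N^{ker f} = φ(J_L)` (`stmtSemiInv`, componentwise);
* `H¹(ker f, J_N) = 0` (`StmtH90Semi`, componentwise).
-/
import Fermat.Agent.PT.G3.PlanGB
import Fermat.Agent.PT.G3.InfSurj
import Fermat.Agent.PT.G.SemiInv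

set_option autoImplicit false
set_option linter.unusedSectionVars false
set_option linter.style.haveILetI false

noncomputable section

namespace Fermat.Agent.PT.G3

open CategoryTheory groupCohomology NumberField IsDedekindDomain
open Fermat.Agent.PT Fermat.Agent.PT.G Fermat.Agent.PT.G1

section

variable (S : Finset Nat.Primes) (L N : Type) [Field L] [NumberField L] [Field N]
  [NumberField N] [Algebra L N] [IsGalois ℚ L] [IsGalois ℚ N]

lemma gbInfJ_restricts (σ : N ≃ₐ[ℚ] N) : Restricts σ (gbRes L N σ) := by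
  intro x
  haveI : IsScalarTower ℚ L N := IsScalarTower.of_algebraMap_eq (fun x => by
    rw [eq_ratCast, eq_ratCast, map_ratCast])
  exact (AlgEquiv.restrictNormal_commutes σ L x).symm

lemma gbInfJ_gbRes_surjective : Function.Surjective (gbRes L N) := by
  haveI : IsScalarTower ℚ L N := IsScalarTower.of_algebraMap_eq (fun x => by
    rw [eq_ratCast, eq_ratCast, map_ratCast])
  exact AlgEquiv.restrictNormalHom_surjective (F := ℚ) (K₁ := L) N

lemma gbInfJ_fixes_of_mem_ker (σ : N ≃ₐ[ℚ] N) (hσ : gbRes L N σ = 1) (x : L) :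
    σ (algebraMap L N x) = algebraMap L N x := by
  rw [gbInfJ_restricts L N σ x, hσ]
  rfl

lemma gbInfJ_mem_ker_of_fixes (σ : N ≃ₐ[ℚ] N)
    (hσ : ∀ x : L, σ (algebraMap L N x) = algebraMap L N x) : gbRes L N σ = 1 := by
  apply AlgEquiv.ext
  intro x
  apply (algebraMap L N).injective
  rw [← gbInfJ_restricts L N σ x, hσ]
  rfl

/-- `jlMapLin` as a morphism `res (jlRep S L) ⟶ jlRep S N`. -/
def gbInfJ_phi : Rep.res (gbRes L N) (jlRep S L) ⟶ jlRep S N :=
  Rep.ofHom ⟨jlMapLin S L N, fun σ => LinearMap.ext fun x =>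
    (jlEnd_jlMapLin S (gbInfJ_restricts L N σ) x).symm⟩

lemma gbInfJ_phi_apply (x : (jlRep S L).V) : (gbInfJ_phi S L N).hom x = jlMapLin S L N x := rfl

lemma gbInfJ_phi_injective : Function.Injective (gbInfJ_phi S L N).hom := by
  intro x y hxy
  apply Additive.toMul.injective
  funext q
  apply Units.ext
  apply semiIncl_injective ((q : Nat.Primes) : ℕ) L N
  have h := congrArg (fun z : Additive (JL S N) => ((Additive.toMul z q :
    (semiAlg ((q : Nat.Primes) : ℕ) N)ˣ) : semiAlg ((q : Nat.Primes) : ℕ) N)) hxy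
  exact h

lemma gbInfJ_ext {x y : Additive (JL S N)}
    (h : ∀ q : ↥S, jProjLin S N q x = jProjLin S N q y) : x = y := by
  apply Additive.toMul.injective
  funext q
  exact congrArg Additive.toMul (h q)

lemma gbInfJ_invar [IsGalois L N] (c : (jlRep S N).V)
    (hc : ∀ γ : N ≃ₐ[ℚ] N, gbRes L N γ = 1 → (jlRep S N).ρ γ c = c) :
    ∃ c₀ : (jlRep S L).V, (gbInfJ_phi S L N).hom c₀ = c := by
  have h : ∀ q : ↥S, ∃ b : (semiAlg ((q : Nat.Primes) : ℕ) L)ˣ,
      semiIncl L N ((q : Nat.Primes) : ℕ) (b : semiAlg ((q : Nat.Primes) : ℕ) L) =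
        ((Additive.toMul (c : Additive (JL S N)) q : (semiAlg ((q : Nat.Primes) : ℕ) N)ˣ) :
          semiAlg ((q : Nat.Primes) : ℕ) N) := by
    intro q
    apply stmtSemiInv ((q : Nat.Primes) : ℕ) L N (Additive.toMul (c : Additive (JL S N)) q)
    intro σ hσ
    have h1 := hc σ (gbInfJ_mem_ker_of_fixes L N σ hσ)
    have h2 := congrArg (fun z : Additive (JL S N) => ((Additive.toMul z q :
      (semiAlg ((q : Nat.Primes) : ℕ) N)ˣ) : semiAlg ((q : Nat.Primes) : ℕ) N)) h1
    exact h2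
  choose b hb using h
  refine ⟨Additive.ofMul (fun q => b q), ?_⟩
  apply Additive.toMul.injective
  funext q
  apply Units.ext
  exact hb q

lemma gbInfJ_h1Kill (hH90 : StmtH90Semi) :
    F.InflInj.H1Kill (gbRes L N).ker (jlRep S N) 1 := by
  intro c hc
  have h : ∀ q : ↥S, ∃ a : (semiRep ((q : Nat.Primes) : ℕ) N).V, ∀ n : (gbRes L N).ker,
      jProjLin S N q (c n) =
        (semiRep ((q : Nat.Primes) : ℕ) N).ρ (n : N ≃ₐ[ℚ] N) a - a := by
    intro q
    have h1 := InfRes2.h1Triv_of_subsingleton (gbRes L N).ker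
      (semiRep ((q : Nat.Primes) : ℕ) N) (hH90 _ N (gbRes L N).ker)
    apply h1 (fun n => jProjLin S N q (c n))
    intro n m
    rw [hc n m]
    exact (jProjLin S N q).map_add _ _
  choose a ha using h
  refine ⟨Additive.ofMul (fun q => Additive.toMul (a q)), fun n => ?_⟩
  rw [one_smul]
  apply gbInfJ_ext S N
  intro q
  rw [ha q n]
  exact ((jProjLin S N q).map_sub
    ((jlRep S N).ρ (n : N ≃ₐ[ℚ] N) (Additive.ofMul (fun q => Additive.toMul (a q)) :
      Additive (JL S N)))
    (Additive.ofMul (fun q => Additive.toMul (a q)) : Additive (JL S N))).symm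

end

/-- **gbInfJ**. -/
theorem stmtGBInfJ : StmtGBInfJ := by
  intro hH90 S L N _ _ _ _ _ _ _ _ y hy hinf
  have hx : H2π (jlRep S N)
      (mapCocycles₂ (gbRes L N) (gbInfJ_phi S L N) ⟨y, hy⟩) = 0 := by
    rw [H2π_eq_zero_iff]
    exact hinf
  have key := F.InflInj.inflInj_aux (gbRes L N) (gbInfJ_gbRes_surjective L N) (jlRep S N)
    (jlRep S L) (gbInfJ_phi S L N) (gbInfJ_phi_injective S L N) (gbInfJ_invar S L N) 1
    (gbInfJ_h1Kill S L N hH90) ⟨y, hy⟩ hx
  rw [one_smul, H2π_eq_zero_iff] at key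
  exact key

end Fermat.Agent.PT.G3

end
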