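/-
PT-G3 piece `carry` (helper79): the carry class detects Sylow norms.

`stmtCarryZero : StmtCarryZero` — restrict the carry cocycle to a Sylow `p`-subgroup `P`
(on which `θ` stays onto, `carry_sylow_surjective`), where it is the inflation of the carry
cocycle of `P / (P ∩ A) ≃ ℤ/h`; inflation is injective on `H²` by `stmtInfRes₂`
(`H¹(P ∩ A, C) = 0`, transported by `carry_h1_subgroupOf`), then `cmp_norm_of_nsmul_eq_zero`.
`stmtCarryClass : StmtCarryClass` — the class of `cmpCarry h θ a₀` dies on `B` when `a₀` is a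
norm from `B` (`cmpCarry_mem_coboundaries₂`) and its order is controlled by `stmtCarryZero`.
-/
import Fermat.Agent.PT.G3.Plan
import Fermat.Agent.PT.A.InfRes2

set_option autoImplicit false

open CategoryTheory groupCohomology

namespace Fermat.Agent.PT.G3

attribute [local instance 1100] Rep.hV2

variable {G : Type} [Group G]

/-- A surjection onto a `p`-group stays surjective on a Sylow `p`-subgroup. -/
lemma carry_sylow_surjective (p : ℕ) [Fact p.Prime] [Finite G] {Z : Type} [Group Z]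
    (θ : G →* Z) (hθ : Function.Surjective θ) (hZ : ∃ j : ℕ, Nat.card Z = p ^ j)
    (P : Sylow p G) : Function.Surjective (θ.comp (P : Subgroup G).subtype) := by
  have h1 : ((P : Subgroup G).map θ).index ∣ (P : Subgroup G).index :=
    Subgroup.index_map_dvd _ hθ
  have h2 : ((P : Subgroup G).map θ).index ∣ Nat.card Z := Subgroup.index_dvd_card _
  obtain ⟨j, hj⟩ := hZ
  rw [hj] at h2
  have h3 : ¬ p ∣ (P : Subgroup G).index := P.not_dvd_index
  have hp : p.Prime := Fact.out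
  have h4 : ((P : Subgroup G).map θ).index = 1 := by
    obtain ⟨i, _, hi⟩ := (Nat.dvd_prime_pow hp).1 h2
    rcases Nat.eq_zero_or_pos i with h0 | h0
    · rw [hi, h0, pow_zero]
    · exfalso
      apply h3
      refine dvd_trans ?_ h1
      rw [hi]
      exact dvd_pow_self p (by omega)
  rw [Subgroup.index_eq_one] at h4
  rw [← MonoidHom.range_eq_top, ← MonoidHom.map_range, Subgroup.range_subtype, h4]

/-- `H¹` vanishing transported from `P ⊓ A ≤ G` to `A.subgroupOf P ≤ P`. -/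
lemma carry_h1_subgroupOf (C : Rep.{0} ℤ G) (P A : Subgroup G)
    (h : Subsingleton (H1 (Rep.res (P ⊓ A).subtype C))) :
    Subsingleton (H1 (Rep.res (A.subgroupOf P).subtype (Rep.res P.subtype C))) := by
  suffices h0 : ∀ x : H1 (Rep.res (A.subgroupOf P).subtype (Rep.res P.subtype C)), x = 0 from
    ⟨fun x y => (h0 x).trans (h0 y).symm⟩
  intro x
  induction x using H1_induction_on with
  | h f =>
    rw [H1π_eq_zero_iff]
    have hf := (mem_cocycles₁_iff (f : ↥(A.subgroupOf P) → C.V)).1 f.2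
    let f' : ↥(P ⊓ A) → C.V := fun x => f ⟨⟨x.1, x.2.1⟩, Subgroup.mem_subgroupOf.2 x.2.2⟩
    have hf' : f' ∈ cocycles₁ (Rep.res (P ⊓ A).subtype C) := by
      rw [mem_cocycles₁_iff]
      intro g k
      exact hf ⟨⟨g.1, g.2.1⟩, Subgroup.mem_subgroupOf.2 g.2.2⟩
        ⟨⟨k.1, k.2.1⟩, Subgroup.mem_subgroupOf.2 k.2.2⟩
    have h1 : H1π (Rep.res (P ⊓ A).subtype C) ⟨f', hf'⟩ = 0 := Subsingleton.elim _ _
    rw [H1π_eq_zero_iff] at h1
    obtain ⟨c, hc⟩ := h1
    refine ⟨c, ?_⟩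
    funext x
    have := congrFun hc ⟨(x : G), ⟨x.1.2, Subgroup.mem_subgroupOf.1 x.2⟩⟩
    exact this

/-- **G3-carry**, first half. -/
theorem stmtCarryZero : StmtCarryZero := by
  classical
  intro p _ G _ _ C A _ h _ θ hθ hker hh P hH1 a ha hcob
  -- notation
  let P₀ : Subgroup G := (P : Subgroup G)
  let C' : Rep.{0} ℤ ↥P₀ := Rep.res P₀.subtype C
  let A' : Subgroup ↥P₀ := A.subgroupOf P₀
  let θP : ↥P₀ →* Multiplicative (ZMod h) := θ.comp P₀.subtype
  have hcardZ : ∃ j : ℕ, Nat.card (Multiplicative (ZMod h)) = p ^ j := by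
    obtain ⟨j, hj⟩ := hh
    refine ⟨j, ?_⟩
    rw [Nat.card_eq_fintype_card, Fintype.card_multiplicative, ZMod.card, hj]
  have hsurj : Function.Surjective θP := carry_sylow_surjective p θ hθ hcardZ P
  have hkerP : A' = θP.ker := by
    change A.comap P₀.subtype = (θ.comp P₀.subtype).ker
    rw [← MonoidHom.comap_ker, hker]
  let θbar : (↥P₀ ⧸ A') ≃* Multiplicative (ZMod h) :=
    (QuotientGroup.quotientMulEquivOfEq hkerP).trans
      (QuotientGroup.quotientKerEquivOfSurjective θP hsurj)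
  have hθbar : ∀ g : ↥P₀, θbar (g : ↥P₀ ⧸ A') = θ (g : G) := fun g => rfl
  have ha' : ∀ g : ↥P₀, C'.ρ g a = a := fun g => ha (g : G)
  let _ : Fintype (↥P₀ ⧸ A') := Fintype.ofFinite _
  -- the inflated carry class vanishes
  obtain ⟨w, hw, hwf⟩ := cmp_inf_apply C' A' (cmpCocycle C' A' h θbar a ha')
  have hwcob : (w : ↥P₀ × ↥P₀ → C.V) ∈ coboundaries₂ C' := by
    obtain ⟨c, hc⟩ := hcob
    refine ⟨fun g => c (g : G), ?_⟩
    funext ⟨g₁, g₂⟩
    have h1 := congrFun hc ((g₁ : G), (g₂ : G))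
    rw [d₁₂_hom_apply] at h1
    rw [d₁₂_hom_apply]
    refine Eq.trans h1 ?_
    rw [hwf, cmpCarry_apply]
    change _ = (((cmpCarry h θbar.toMonoidHom (cmpInv C' A' a ha')
      ((g₁ : ↥P₀ ⧸ A'), (g₂ : ↥P₀ ⧸ A'))) : (C'.quotientToInvariants A').V) : C.V)
    rw [cmpCarry_apply]
    change _ = (((if h ≤ cmpIdx h θ (g₁ : G) + cmpIdx h θ (g₂ : G) then cmpInv C' A' a ha'
      else 0 : (C'.quotientToInvariants A').V)) : C.V)
    split_ifs
    · rfl
    · rfl
  have hzero : H2π _ (cmpCocycle C' A' h θbar a ha') = 0 := by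
    apply (Fermat.Agent.PT.stmtInfRes₂ ↥P₀ A' C' (carry_h1_subgroupOf C P₀ A hH1)).1
    refine Eq.trans hw ?_
    refine Eq.trans ((H2π_eq_zero_iff w).2 hwcob) ?_
    exact (map_zero _).symm
  obtain ⟨d, hd1, hd2⟩ := cmp_norm_of_nsmul_eq_zero C' A' h θbar a ha' 1 (by rw [one_smul]; exact hzero)
  refine ⟨d, fun x hx => ?_, ?_⟩
  · exact hd1 ⟨x, hx.1⟩ (Subgroup.mem_subgroupOf.2 hx.2)
  · rw [one_smul] at hd2
    rw [hd2, finsum_eq_sum_of_fintype]
    rfl

/-- **G3-carry**, second half. -/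
theorem stmtCarryClass : StmtCarryClass := by
  classical
  intro p _ G _ _ C A B _ h _ θ hθ hker hh P hH1 a₀ ha₀ hB hord
  let _ : Fintype ↥B := Fintype.ofFinite _
  refine ⟨H2π C ⟨cmpCarry h θ a₀, cmpCarry_mem_cocycles₂ h θ C a₀ ha₀⟩, ?_, ?_⟩
  · -- the restriction to `B` vanishes
    obtain ⟨e, he⟩ := hB
    rw [finsum_eq_sum_of_fintype] at he
    have key := H2π_comp_map_apply B.subtype (𝟙 (Rep.res B.subtype C))
      ⟨cmpCarry h θ a₀, cmpCarry_mem_cocycles₂ h θ C a₀ ha₀⟩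
    refine Eq.trans key ?_
    rw [H2π_eq_zero_iff]
    have hfun : ⇑(mapCocycles₂ B.subtype (𝟙 (Rep.res B.subtype C))
        ⟨cmpCarry h θ a₀, cmpCarry_mem_cocycles₂ h θ C a₀ ha₀⟩) =
        cmpCarry h (θ.comp B.subtype) (∑ b : B, (Rep.res B.subtype C).ρ b e) := by
      funext ⟨b₁, b₂⟩
      have hsum : (∑ b : B, (Rep.res B.subtype C).ρ b e) = a₀ := he.symm
      rw [hsum]
      rfl
    rw [hfun]
    exact cmpCarry_mem_coboundaries₂ h _ (Rep.res B.subtype C) e
  · intro k hk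
    apply hord k
    rw [← map_nsmul, H2π_eq_zero_iff] at hk
    have hfun : ⇑(k • (⟨cmpCarry h θ a₀, cmpCarry_mem_cocycles₂ h θ C a₀ ha₀⟩ : cocycles₂ C)) =
        cmpCarry h θ (k • a₀) := by
      rw [← cmpCarry_nsmul]
      rfl
    rw [hfun] at hk
    exact stmtCarryZero p G C A h θ hθ hker hh P hH1 (k • a₀)
      (fun g => by rw [map_nsmul, ha₀]) hk

end Fermat.Agent.PT.G3
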