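/-
PT-GB / gbPsi (helper86): the global step (R4) of (GB).

`stmtGBPsi : StmtGBPsi` — if the carry cocycle of `csMap c₀`, `c₀ ∈ C_S(ℚ)`, along
`θ : Aut(N) ↠ ℤ/p^n` (`N = L·ℚ_n`) is a coboundary in `C_S(N)`, then `Ψ_ℚ(c₀) = 0`.

Proof (computation (iii) of the GA recipe, with `k = 1` and a general class `c₀`):
`H¹(P ⊓ ker θ, C_S(N)) = 0` (`csPBound`) ⇒ (`stmtCarryZero`) `csMap c₀ = N_{P/(P ∩ A)} d` ⇒
(`stmtSylowNorm`) the image of `c₀` in `C_S(F₀)` is a norm from `M₀` (`F₀ = N^P`,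
`M₀ = N^{P ∩ A} ⊇ E = N^A`) ⇒ (psi-N, psi-Z for `E`, psi-up) `Ψ_{F₀}(csMap c₀) = 0` ⇒ (psi-M)
`[F₀ : ℚ] • Ψ_ℚ c₀ = 0`; `[F₀ : ℚ]` is prime to `p` and `p^n • Ψ_ℚ c₀ = 0` (psi-tors).
-/
import Fermat.Agent.PT.G3.PlanGB
import Fermat.Agent.PT.G3.GA
import Fermat.Agent.PT.G3.Carry
import Fermat.Agent.PT.G3.LayerFinal
import Fermat.Agent.PT.G3.SylowNorm
import Fermat.Agent.PT.G3.SymbolCSMap
import Fermat.Agent.PT.G3.PsiZ
import Fermat.Agent.PT.G3.PsiTors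

set_option autoImplicit false
set_option maxHeartbeats 400000
set_option linter.style.haveILetI false
set_option linter.unusedSectionVars false

namespace Fermat.Agent.PT.G3

open CategoryTheory groupCohomology NumberField IsDedekindDomain
open Fermat.Agent.PT Fermat.Agent.PT.G Fermat.Agent.PT.G1

/-- an element of an additive group killed by two coprime integers is zero -/
lemma gbPsi_eq_zero_of_coprime {X : Type} [AddCommGroup X] (x : X) (a b : ℕ)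
    (hab : Nat.Coprime a b) (ha : a • x = 0) (hb : b • x = 0) : x = 0 := by
  have h1 : (Nat.gcd a b) • x = 0 := by
    have h2 : ((Nat.gcd a b : ℕ) : ℤ) • x = 0 := by
      rw [Nat.gcd_eq_gcd_ab, add_smul, mul_smul, mul_smul, natCast_zsmul, natCast_zsmul,
        smul_comm, ha, smul_zero, smul_comm, hb, smul_zero, add_zero]
    rwa [natCast_zsmul] at h2
  rw [hab.gcd_eq_one, one_smul] at h1
  exact h1

/-- The global step, with the cyclotomic data unbundled. -/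
theorem gbPsi_core (p n : ℕ) [hp : Fact p.Prime] (S : Finset Nat.Primes) (hp2 : p ≠ 2)
    (hpS : (⟨p, hp.out⟩ : Nat.Primes) ∈ S)
    (N : Type) [Field N] [NumberField N] [IsGalois ℚ N]
    (unram : UnramOffRel S ℚ N)
    (θ : (N ≃ₐ[ℚ] N) →* Multiplicative (ZMod (p ^ n))) (θ_surj : Function.Surjective θ)
    (E' : Type) [Field E'] [NumberField E'] [Algebra ↥(IntermediateField.fixedField θ.ker) E']
    (coprime : (Module.finrank ↥(IntermediateField.fixedField θ.ker) E').Coprime p)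
    (ζ : 𝓞 E') (hζ : IsPrimitiveRoot ζ (p ^ (n + 1)))
    (c₀ : CS S ℚ) [NeZero (p ^ n)]
    (hcarry : cmpCarry (p ^ n) θ (csMap S ℚ N c₀ : (csRep S N).V) ∈
      coboundaries₂ (csRep S N)) :
    psiC p n S ℚ c₀ = 0 := by
  have hS : S.Nonempty := ⟨_, hpS⟩
  have hodd : Odd p := hp.out.odd_of_ne_two hp2
  -- `Ψ = 0` on `E = N^{ker θ}`
  have hΨE : ∀ c : CS S ↥(IntermediateField.fixedField θ.ker),
      psiC p n S ↥(IntermediateField.fixedField θ.ker) c = 0 :=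
    stmtPsiZ p n S hodd hpS _ E' coprime ζ hζ
  obtain ⟨P⟩ : Nonempty (Sylow p (N ≃ₐ[ℚ] N)) := inferInstance
  -- `H¹(P ⊓ ker θ, C_S(N)) = 0`
  have hH1 : Subsingleton (H1 (Rep.res ((P : Subgroup (N ≃ₐ[ℚ] N)) ⊓ θ.ker).subtype
      (csRep S N))) :=
    (csPBound p hp2 S hS N unram _ (P.isPGroup'.to_le inf_le_left)).1
  -- the class is a Sylow norm
  obtain ⟨d, hdinv, hdsum⟩ := stmtCarryZero p (N ≃ₐ[ℚ] N) (csRep S N) θ.ker (p ^ n) θ θ_surj rfl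
    ⟨n, rfl⟩ P hH1 (csMap S ℚ N c₀)
    (fun g => csEnd_csMap_of_fixes S (fun x => g.commutes x) c₀) hcarry
  have hle : (P : Subgroup (N ≃ₐ[ℚ] N)) ⊓ θ.ker ≤ (P : Subgroup (N ≃ₐ[ℚ] N)) := inf_le_left
  have hle' : (P : Subgroup (N ≃ₐ[ℚ] N)) ⊓ θ.ker ≤ θ.ker := inf_le_right
  letI algFM := gaAlg N hle
  haveI := ga_tower N hle
  haveI : IsGalois ↥(IntermediateField.fixedField (P : Subgroup (N ≃ₐ[ℚ] N)))
      ↥(IntermediateField.fixedField ((P : Subgroup (N ≃ₐ[ℚ] N)) ⊓ θ.ker)) := by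
    refine ga_isGalois N hle ?_
    intro σ hσ τ hτ
    refine ⟨?_, ?_⟩
    · exact Subgroup.mul_mem _ (Subgroup.mul_mem _ (Subgroup.inv_mem _ hσ) hτ.1) hσ
    · have h3 : σ⁻¹ * τ * σ = σ⁻¹ * τ * σ⁻¹⁻¹ := by rw [inv_inv]
      rw [h3]
      exact (inferInstance : θ.ker.Normal).conj_mem τ hτ.2 σ⁻¹
  have hP₀ := ga_relAut_fixedField N (P : Subgroup (N ≃ₐ[ℚ] N))
  have hP₁ := ga_relAut_fixedField N ((P : Subgroup (N ≃ₐ[ℚ] N)) ⊓ θ.ker)
  have hsyl := stmtSylowNorm_of stmtCSDescent stmtCSMapInj stmtCSMapComp stmtUnramTower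
    S hS N unram ↥(IntermediateField.fixedField (P : Subgroup (N ≃ₐ[ℚ] N)))
    ↥(IntermediateField.fixedField ((P : Subgroup (N ≃ₐ[ℚ] N)) ⊓ θ.ker)) c₀ d
    (fun x hx => hdinv x (hP₁ ▸ hx))
    (ga_sum_quot (fun g x => csEnd S g x) d _ _ _ _ _ hP₀ hP₁ hdsum)
  obtain ⟨d', hd'⟩ := hsyl
  have h1 := stmtPsiNormGal p n S hodd hpS _ _ _ d' hd'
  letI algEM := gaAlg N hle'
  have hΨM : ∀ c : CS S ↥(IntermediateField.fixedField ((P : Subgroup (N ≃ₐ[ℚ] N)) ⊓ θ.ker)),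
      psiC p n S _ c = 0 := stmtPsiUp p n S hodd hpS _ _ hΨE
  rw [hΨM d', stmtPsiMap p n S hodd hpS ℚ _ c₀, ga_finrank_fixedField] at h1
  have hcop : Nat.Coprime (P : Subgroup (N ≃ₐ[ℚ] N)).index (p ^ n) :=
    (Nat.Coprime.pow_left n
      ((Nat.Prime.coprime_iff_not_dvd hp.out).2 P.not_dvd_index)).symm
  exact gbPsi_eq_zero_of_coprime _ _ _ hcop h1 (stmtPsiTors p n S ℚ c₀)

/-- **gbPsi** (R4). -/
theorem stmtGBPsi : StmtGBPsi := by
  intro p n hp S hp2 hpS L _ _ _ _ D c₀ hcarry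
  haveI := D.galQ
  haveI : NeZero (p ^ n) := ⟨pow_ne_zero _ hp.out.ne_zero⟩
  exact gbPsi_core p n S hp2 hpS D.N D.unram D.θ D.θ_surj D.E' D.coprime D.ζ D.hζ c₀ hcarry

end Fermat.Agent.PT.G3
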