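/-
PT-GB — piece **psiNontriv** (helper32): for `p` odd and every prime `q` the local symbol
`ψ_q : ℚ_qˣ → (ℤ/p^(n+1))ˣ` is nontrivial at some level `n`.

* `q ≠ p`: `b = q`, `n = q^(p-1)`: `ψ_q(q) = [q]^(p-1) ≠ 1` since `1 < q^(p-1) < p^(n+1)`.
* `q = p`: `b = 1 + p`, `n = 1`: `ψ_p(1+p) = ([1+p]^(p-1))⁻¹`; `[1+p]^p = 1` mod `p²`, so
  `[1+p]^(p-1) = 1` would give `[1+p] = 1`, i.e. `p² ∣ p`.
-/
import Fermat.Agent.PT.G3.PlanGB

set_option autoImplicit false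

namespace Fermat.Agent.PT.G3

/-- `q ≠ p`: `ψ_q(q) ≠ 1` at level `n = q^(p-1)`. -/
theorem psiNontriv_away (p : ℕ) [hp : Fact p.Prime] (_hp2 : p ≠ 2) (q : ℕ) [hq : Fact q.Prime]
    (h : q ≠ p) :
    ∃ (n : ℕ) (b : ℚ_[q]ˣ), psiQ p n q b ≠ 1 := by
  have hq0 : (q : ℚ_[q]) ≠ 0 := by exact_mod_cast hq.out.ne_zero
  refine ⟨q ^ (p - 1), Units.mk0 (q : ℚ_[q]) hq0, ?_⟩
  rw [psiQ_of_ne p _ q h]
  intro h1
  have h2 : (ZMod.unitOfCoprime q (coprime_pow_of_ne p (q ^ (p - 1)) hq.out h)) ^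
      (((p - 1 : ℕ) : ℤ) * ((Units.mk0 (q : ℚ_[q]) hq0 : ℚ_[q]ˣ) : ℚ_[q]).valuation) = 1 := h1
  rw [Units.val_mk0, Padic.valuation_p, mul_one, zpow_natCast] at h2
  have h3 := congrArg (fun u : (ZMod (p ^ (q ^ (p - 1) + 1)))ˣ =>
    (u : ZMod (p ^ (q ^ (p - 1) + 1)))) h2
  simp only [Units.val_pow_eq_pow_val, ZMod.coe_unitOfCoprime, Units.val_one] at h3
  have h4 : ((q ^ (p - 1) : ℕ) : ZMod (p ^ (q ^ (p - 1) + 1))) = ((1 : ℕ) : ZMod _) := by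
    rw [Nat.cast_pow, Nat.cast_one]
    exact h3
  rw [ZMod.natCast_eq_natCast_iff'] at h4
  have hlt : q ^ (p - 1) + 1 < p ^ (q ^ (p - 1) + 1) := Nat.lt_pow_self hp.out.one_lt
  have hp1 : 1 ≤ p - 1 := by
    have := hp.out.two_le
    omega
  have hq1 : 1 < q ^ (p - 1) := Nat.one_lt_pow (by omega) hq.out.one_lt
  rw [Nat.mod_eq_of_lt (by omega), Nat.mod_eq_of_lt (by omega)] at h4
  omega

/-- `[1 + p]^p = 1` in `ℤ/p²`. -/
theorem psiNontriv_pow_p (p : ℕ) :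
    (((p + 1 : ℕ) : ZMod (p ^ (1 + 1)))) ^ p = 1 := by
  have h := dvd_sub_pow_of_dvd_sub (R := ℤ) (p := p) (a := ((p + 1 : ℕ) : ℤ)) (b := 1)
    (by simp) 1
  rw [pow_one, one_pow] at h
  have h2 := (ZMod.intCast_zmod_eq_zero_iff_dvd _ (p ^ (1 + 1))).2
    (by exact_mod_cast h)
  push_cast at h2
  have h3 := sub_eq_zero.1 h2
  push_cast
  exact h3

/-- `[1 + p]^(p-1) ≠ 1` in `ℤ/p²`. -/
theorem psiNontriv_pow_ne (p : ℕ) [hp : Fact p.Prime] :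
    (((p + 1 : ℕ) : ZMod (p ^ (1 + 1)))) ^ (p - 1) ≠ 1 := by
  intro h
  have h0 := psiNontriv_pow_p p
  have h1 : (((p + 1 : ℕ) : ZMod (p ^ (1 + 1)))) ^ (p - 1) *
      ((p + 1 : ℕ) : ZMod (p ^ (1 + 1))) = 1 := by
    rw [← pow_succ, Nat.sub_add_cancel hp.out.one_le]
    exact h0
  rw [h, one_mul] at h1
  have h2 : ((p : ℕ) : ZMod (p ^ (1 + 1))) = 0 := by
    have h3 : ((p + 1 : ℕ) : ZMod (p ^ (1 + 1))) = ((p : ℕ) : ZMod (p ^ (1 + 1))) + 1 := by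
      push_cast
      rfl
    rw [h3] at h1
    simpa using h1
  rw [ZMod.natCast_eq_zero_iff] at h2
  have h4 := Nat.le_of_dvd hp.out.pos h2
  have h5 : p * 2 ≤ p * p := Nat.mul_le_mul_left p hp.out.two_le
  have h6 : p ^ (1 + 1) = p * p := by ring
  have := hp.out.pos
  omega

/-- `q = p`: `ψ_p(1 + p) ≠ 1` at level `n = 1`. -/
theorem psiNontriv_self (p : ℕ) [hp : Fact p.Prime] :
    ∃ (n : ℕ) (b : ℚ_[p]ˣ), psiQ p n p b ≠ 1 := by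
  have hb0 : ((p + 1 : ℕ) : ℚ_[p]) ≠ 0 := by exact_mod_cast Nat.succ_ne_zero p
  refine ⟨1, Units.mk0 ((p + 1 : ℕ) : ℚ_[p]) hb0, ?_⟩
  rw [psiQ_self, psiP_apply]
  intro h
  rw [inv_eq_one] at h
  have hval : (((p + 1 : ℕ) : ℚ_[p])).valuation = 0 := by
    rw [Padic.valuation_natCast]
    have hnd : ¬ p ∣ p + 1 := by
      intro hd
      have := (Nat.dvd_add_right (dvd_refl p)).1 hd
      exact hp.out.one_lt.ne' (Nat.dvd_one.1 this)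
    exact_mod_cast padicValNat.eq_zero_of_not_dvd hnd
  have hu2 : ((padicUnitPart p (Units.mk0 ((p + 1 : ℕ) : ℚ_[p]) hb0) : ℤ_[p]ˣ) : ℤ_[p]) =
      ((p + 1 : ℕ) : ℤ_[p]) := by
    apply Subtype.ext
    rw [coe_padicUnitPart, Units.val_mk0, hval, neg_zero, zpow_zero, mul_one]
    simp
  have h3 := congrArg (fun u : (ZMod (p ^ (1 + 1)))ˣ => (u : ZMod (p ^ (1 + 1)))) h
  simp only [Units.val_pow_eq_pow_val, Units.coe_map, Units.val_one] at h3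
  apply psiNontriv_pow_ne p
  rw [← h3]
  congr 1
  show _ = (PadicInt.toZModPow (1 + 1)) _
  rw [hu2, map_natCast]

/-- **psiNontriv**. -/
theorem stmtPsiNontriv : StmtPsiNontriv := by
  intro p _ hp2 q hq
  by_cases h : q = p
  · subst h
    exact psiNontriv_self q
  · exact psiNontriv_away p hp2 q h

end Fermat.Agent.PT.G3
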