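/-
PT-GB — pieces **psiPGen** and **psiQNontriv** (helper32).

* `stmtPsiPGen`: `ψ_p(1 + p)` has exact order `p^n` in `(ℤ/p^(n+1))ˣ` (`p` odd);
* `stmtPsiQNontriv`: for `q ≠ p`, `ψ_q(q) = [q]^(p-1) ≠ 1` at the level `n = q^(p-1) ≥ 1`.
-/
import Fermat.Agent.PT.G3.PlanGBLocal
import Fermat.Agent.PT.G3.GBPsiNontriv

set_option autoImplicit false

namespace Fermat.Agent.PT.G3

/-- the unit part of `1 + p ∈ ℚ_pˣ` reduces to `[1 + p]` modulo `p^(n+1)` -/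
theorem psiPGen_unit (p n : ℕ) [hp : Fact p.Prime] (hb0 : ((p + 1 : ℕ) : ℚ_[p]) ≠ 0) :
    ((Units.map (PadicInt.toZModPow (n + 1) : ℤ_[p] →+* ZMod (p ^ (n + 1))).toMonoidHom
      (padicUnitPart p (Units.mk0 ((p + 1 : ℕ) : ℚ_[p]) hb0)) : (ZMod (p ^ (n + 1)))ˣ) :
        ZMod (p ^ (n + 1))) = 1 + (p : ZMod (p ^ (n + 1))) := by
  have hval : (((p + 1 : ℕ) : ℚ_[p])).valuation = 0 := by
    rw [Padic.valuation_natCast]
    have hnd : ¬ p ∣ p + 1 := by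
      intro hd
      have := (Nat.dvd_add_right (dvd_refl p)).1 hd
      exact hp.out.one_lt.ne' (Nat.dvd_one.1 this)
    exact_mod_cast padicValNat.eq_zero_of_not_dvd hnd
  have hu2 : ((padicUnitPart p (Units.mk0 ((p + 1 : ℕ) : ℚ_[p]) hb0) : ℤ_[p]ˣ) : ℤ_[p]) =
      ((p + 1 : ℕ) : ℤ_[p]) := by
    apply Subtype.ext
    rw [coe_padicUnitPart, Units.val_mk0, hval, neg_zero, zpow_zero, mul_one]
    simp
  show (PadicInt.toZModPow (n + 1)) _ = _
  rw [hu2, map_natCast]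
  push_cast
  ring

/-- **psiPGen**. -/
theorem stmtPsiPGen : StmtPsiPGen := by
  intro p n hp hp2
  have hb0 : ((p + 1 : ℕ) : ℚ_[p]) ≠ 0 := by exact_mod_cast Nat.succ_ne_zero p
  refine ⟨Units.mk0 ((p + 1 : ℕ) : ℚ_[p]) hb0, fun k hk => ?_⟩
  rw [psiQ_self, psiP_apply, inv_pow, inv_eq_one, ← pow_mul] at hk
  have h1 := congrArg (fun u : (ZMod (p ^ (n + 1)))ˣ => (u : ZMod (p ^ (n + 1)))) hk
  simp only [Units.val_pow_eq_pow_val, Units.val_one] at h1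
  rw [psiPGen_unit p n hb0] at h1
  have h2 := orderOf_dvd_of_pow_eq_one h1
  rw [ZMod.orderOf_one_add_prime hp.out hp2 n] at h2
  have hcop : (p ^ n).Coprime (p - 1) := by
    apply Nat.Coprime.pow_left
    have h3 : p.Coprime (p - 1) := by
      have h4 : (p - 1 + 1).Coprime (p - 1) := by
        rw [Nat.coprime_self_add_left]
        exact Nat.coprime_one_left _
      rwa [Nat.sub_add_cancel hp.out.one_le] at h4
    exact h3
  exact hcop.dvd_of_dvd_mul_left h2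

/-- **psiQNontriv**. -/
theorem stmtPsiQNontriv : StmtPsiQNontriv := by
  intro p hp hp2 q hq h
  refine ⟨q ^ (p - 1), Nat.one_le_pow _ _ hq.out.pos, ?_⟩
  rw [psiQ_of_ne p _ q h]
  intro h1
  have h2 : (ZMod.unitOfCoprime q (coprime_pow_of_ne p (q ^ (p - 1)) hq.out h)) ^
      (((p - 1 : ℕ) : ℤ) * ((qUnit q : ℚ_[q]ˣ) : ℚ_[q]).valuation) = 1 := h1
  rw [qUnit, Units.val_mk0, Padic.valuation_p, mul_one, zpow_natCast] at h2
  have h3 := congrArg (fun u : (ZMod (p ^ (q ^ (p - 1) + 1)))ˣ =>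
    (u : ZMod (p ^ (q ^ (p - 1) + 1)))) h2
  simp only [Units.val_pow_eq_pow_val, ZMod.coe_unitOfCoprime, Units.val_one] at h3
  have h4 : ((q ^ (p - 1) : ℕ) : ZMod (p ^ (q ^ (p - 1) + 1))) = ((1 : ℕ) : ZMod _) := by
    rw [Nat.cast_pow, Nat.cast_one]
    exact h3
  rw [ZMod.natCast_eq_natCast_iff'] at h4
  have hlt : q ^ (p - 1) + 1 < p ^ (q ^ (p - 1) + 1) := Nat.lt_pow_self hp.out.one_lt
  have hp1 : 1 ≤ p - 1 := by
    have := hp.out.two_le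
    omega
  have hq1 : 1 < q ^ (p - 1) := Nat.one_lt_pow (by omega) hq.out.one_lt
  rw [Nat.mod_eq_of_lt (by omega), Nat.mod_eq_of_lt (by omega)] at h4
  omega

end Fermat.Agent.PT.G3
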