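/-
PT-GB, piece sdFund (helper74): `stmtSDFund_of : StmtSDGalois → StmtSDFund`.

The local module `sdY q N t` (units of the residue field `(ℚ_q ⊗ N)/t` with the action of the
decomposition group) has a `p`-fundamental class: PT-L `fundClass` for `(ℚ_q ⊗ N)/t` over `ℚ_q`,
transported along the isomorphism `sdRes` (PT-B `stmtFundPIso`).
-/
import Fermat.Agent.PT.G3.PlanGBLocal
import Fermat.Agent.PT.L.Final
import Fermat.Agent.PT.B.TransportFund

set_option autoImplicit false
set_option linter.unusedSectionVars false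

noncomputable section

namespace Fermat.Agent.PT.G3

open CategoryTheory groupCohomology NumberField IsDedekindDomain
open Fermat.Agent.PT Fermat.Agent.PT.G Fermat.Agent.PT.G1

/-- the isomorphism of pairs `(D_t, sdY) ≅ (Gal(((ℚ_q ⊗ N)/t)/ℚ_q), units)` -/
def sdFund_pairIso (q : ℕ) [Fact q.Prime] (N : Type) [Field N] [NumberField N]
    (t : MaximalSpectrum (semiAlg q N)) (hbij : Function.Bijective (sdRes q N t)) :
    Fermat.Agent.PT.B.PairIso (sdY q N t) (Rep.ofAlgebraAutOnUnits ℚ_[q] (sdField q N t)) where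
  φ := MulEquiv.ofBijective (sdRes q N t) hbij
  f := AddEquiv.refl _
  comm := fun _ _ => rfl

/-- **gb-sdfund**: the local module `sdY` has a `p`-fundamental class. -/
theorem stmtSDFund_of (hGal : StmtSDGalois) : StmtSDFund := by
  intro p _ q _ N _ _ _ t
  obtain ⟨hfd, hgal, hbij⟩ := hGal q N t
  have hu := Fermat.Agent.PT.L.fundClass q p ℚ_[q] (sdField q N t)
  exact Fermat.Agent.PT.B.stmtFundPIso p _ _ (sdY q N t)
    (Rep.ofAlgebraAutOnUnits ℚ_[q] (sdField q N t))
    ⟨(sdFund_pairIso q N t hbij).toPairPIso p⟩ hu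

end Fermat.Agent.PT.G3
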