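/-
PT-G3 (GB), piece **sdGal** (helper87): `stmtSDGalois : StmtSDGalois`.

For `N / ℚ` Galois and a maximal ideal `t` of `A = ℚ_q ⊗ N`, the residue field `E = A / t` is a
finite Galois extension of `ℚ_q` and the decomposition group `D = sdStab q N t` maps
isomorphically onto `Gal(E / ℚ_q)`.

* injective: `N → E` is injective;
* the fixed field of the image of `D` is `ℚ_q`: for `y = a mod t` fixed by `D` and `e` the
  idempotent of `t`, the average `b = |D|⁻¹ ∑_{σ ∈ Aut N} σ (e a)` is `Aut N`-invariant, hence in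
  `ℚ_q` (`G.semiInv_exists` with `K = ℚ`), and `b ≡ y mod t`;
* Artin (`IntermediateField.fixingSubgroup_fixedField`, `IsGalois.of_fixedField_eq_bot`).
-/
import Fermat.Agent.PT.G3.PlanGBLocal
import Fermat.Agent.PT.G.SemiInv

set_option autoImplicit false
set_option linter.unusedSectionVars false
set_option linter.style.haveILetI false

namespace Fermat.Agent.PT.G3

open NumberField TensorProduct
open Fermat.Agent.PT Fermat.Agent.PT.G Fermat.Agent.PT.G1

section

variable (q : ℕ) [Fact q.Prime] (N : Type) [Field N] [NumberField N]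
  (t : MaximalSpectrum (semiAlg q N))

/-- The residue field is finite dimensional over `ℚ_q`. -/
theorem sdGal_finite : FiniteDimensional ℚ_[q] (sdField q N t) :=
  Module.Finite.of_surjective (Ideal.Quotient.mkₐ ℚ_[q] t.asIdeal).toLinearMap
    (Ideal.Quotient.mkₐ_surjective ℚ_[q] t.asIdeal)

/-- The decomposition group acts faithfully on the residue field. -/
theorem sdGal_injective : Function.Injective (sdRes q N t) := by
  rw [injective_iff_map_eq_one]
  intro σ hσ
  apply Subtype.ext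
  apply AlgEquiv.ext
  intro x
  haveI := t.isMaximal
  let ι : N →+* sdField q N t :=
    (Ideal.Quotient.mk t.asIdeal).comp
      (Algebra.TensorProduct.includeRight : N →ₐ[ℚ] semiAlg q N).toRingHom
  apply ι.injective
  have h3 := congrArg (fun f : sdField q N t ≃ₐ[ℚ_[q]] sdField q N t =>
    f (Ideal.Quotient.mk t.asIdeal ((1 : ℚ_[q]) ⊗ₜ[ℚ] x))) hσ
  simp only [sdRes_mk, tens_semiMap_tmul, AlgEquiv.one_apply] at h3
  exact h3

open scoped Classical in
/-- The idempotent of the maximal ideal `t`: it is `1` modulo `t` and `0` modulo every other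
maximal ideal. -/
noncomputable def sdGalIdem : semiAlg q N :=
  haveI := tens_semiAlg_isReduced q N
  haveI := tens_semiAlg_isArtinian q N
  (IsArtinianRing.equivPi (semiAlg q N)).symm (Pi.single t 1)

theorem sdGalIdem_mk_self :
    Ideal.Quotient.mk t.asIdeal (sdGalIdem q N t) = 1 := by
  classical
  haveI := tens_semiAlg_isReduced q N
  haveI := tens_semiAlg_isArtinian q N
  have h := congrFun ((IsArtinianRing.equivPi (semiAlg q N)).apply_symm_apply (Pi.single t 1)) t
  rw [Pi.single_eq_same] at h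
  exact h

theorem sdGalIdem_mem {t' : MaximalSpectrum (semiAlg q N)} (h : t' ≠ t) :
    sdGalIdem q N t ∈ t'.asIdeal := by
  classical
  haveI := tens_semiAlg_isReduced q N
  haveI := tens_semiAlg_isArtinian q N
  have h1 := congrFun ((IsArtinianRing.equivPi (semiAlg q N)).apply_symm_apply (Pi.single t 1)) t'
  rw [Pi.single_eq_of_ne h] at h1
  exact Ideal.Quotient.eq_zero_iff_mem.mp h1

/-- `σ e ≡ 1 mod t` for `σ` in the decomposition group. -/
theorem sdGal_idem_of_mem {σ : N ≃ₐ[ℚ] N} (hσ : σ ∈ sdStab q N t) :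
    Ideal.Quotient.mk t.asIdeal (semiMap q σ (sdGalIdem q N t)) = 1 := by
  have h1 : sdGalIdem q N t - 1 ∈ t.asIdeal := by
    rw [← Ideal.Quotient.eq_zero_iff_mem, map_sub, sdGalIdem_mk_self, map_one, sub_self]
  have h2 := hσ _ h1
  rw [map_sub, map_one] at h2
  have h3 := Ideal.Quotient.eq_zero_iff_mem.mpr h2
  rw [map_sub, map_one, sub_eq_zero] at h3
  exact h3

/-- `σ e ≡ 0 mod t` for `σ` outside the decomposition group. -/
theorem sdGal_idem_of_not_mem {σ : N ≃ₐ[ℚ] N} (hσ : σ ∉ sdStab q N t) :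
    Ideal.Quotient.mk t.asIdeal (semiMap q σ (sdGalIdem q N t)) = 0 := by
  rw [Ideal.Quotient.eq_zero_iff_mem]
  -- the maximal ideal `σ⁻¹ t`
  let s : semiAlg q N ≃+* semiAlg q N := (tens_semiEquiv q σ).toRingEquiv
  have hs : ∀ x, s x = semiMap q σ x := fun x => tens_semiEquiv_apply q σ x
  set t' : MaximalSpectrum (semiAlg q N) := (tensPerm (semiAlg q N) s).symm t with ht'
  have hmem : ∀ x, x ∈ t'.asIdeal ↔ semiMap q σ x ∈ t.asIdeal := by
    intro x
    have h1 : tensPerm (semiAlg q N) s t' = t := Equiv.apply_symm_apply _ _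
    constructor
    · intro hx
      have h2 := tens_apply_mem_tensPerm (semiAlg q N) s t' hx
      rw [h1, hs] at h2
      exact h2
    · intro hx
      have h2 : semiMap q σ x ∈ (tensPerm (semiAlg q N) s t').asIdeal := by rw [h1]; exact hx
      rw [tens_mem_tensPerm, ← hs, RingEquiv.symm_apply_apply] at h2
      exact h2
  have hne : t' ≠ t := by
    intro h
    apply hσ
    intro x hx
    rw [← hmem, h]
    exact hx
  exact (hmem _).mp (sdGalIdem_mem q N t hne)

end

section fixed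

variable (q : ℕ) [Fact q.Prime] (N : Type) [Field N] [NumberField N] [IsGalois ℚ N]
  (t : MaximalSpectrum (semiAlg q N))

/-- An `Aut N`-invariant element of `ℚ_q ⊗ N` is a scalar. -/
theorem sdGal_invariant_scalar (b : semiAlg q N)
    (hb : ∀ σ : N ≃ₐ[ℚ] N, semiMap q σ b = b) :
    ∃ c : ℚ_[q], algebraMap ℚ_[q] (semiAlg q N) c = b := by
  obtain ⟨b₀, hb₀⟩ := semiInv_exists q ℚ N b (fun σ _ => hb σ)
  refine ⟨Algebra.TensorProduct.rid ℚ ℚ_[q] ℚ_[q] b₀, ?_⟩
  have h1 : b₀ = (Algebra.TensorProduct.rid ℚ ℚ_[q] ℚ_[q] b₀) ⊗ₜ[ℚ] (1 : ℚ) := by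
    have := (Algebra.TensorProduct.rid ℚ ℚ_[q] ℚ_[q]).symm_apply_apply b₀
    rw [Algebra.TensorProduct.rid_symm_apply] at this
    exact this.symm
  rw [← hb₀, h1, semiIncl_tmul, map_one, Algebra.TensorProduct.algebraMap_apply]
  simp

/-- The elements of the residue field fixed by the decomposition group are in `ℚ_q`. -/
theorem sdGal_fixed (y : sdField q N t)
    (hy : ∀ σ : ↥(sdStab q N t), sdRes q N t σ y = y) :
    ∃ c : ℚ_[q], algebraMap ℚ_[q] (sdField q N t) c = y := by
  classical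
  obtain ⟨a, rfl⟩ := Ideal.Quotient.mk_surjective y
  set e := sdGalIdem q N t with he
  -- the number of elements of the decomposition group
  set d : ℕ := (Finset.univ.filter fun σ : N ≃ₐ[ℚ] N => σ ∈ sdStab q N t).card with hd
  have hd0 : (d : ℚ_[q]) ≠ 0 := by
    have h1 : 0 < d := Finset.card_pos.mpr
      ⟨1, Finset.mem_filter.mpr ⟨Finset.mem_univ _, (sdStab q N t).one_mem⟩⟩
    exact_mod_cast h1.ne'
  set b : semiAlg q N := (d : ℚ_[q])⁻¹ • ∑ σ : N ≃ₐ[ℚ] N, semiMap q σ (e * a) with hb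
  have hbinv : ∀ τ : N ≃ₐ[ℚ] N, semiMap q τ b = b := by
    intro τ
    rw [hb, map_smul, map_sum]
    congr 1
    have h1 : ∀ σ : N ≃ₐ[ℚ] N, semiMap q τ (semiMap q σ (e * a)) = semiMap q (τ * σ) (e * a) :=
      fun σ => (tens_semiMap_mul q τ σ (e * a)).symm
    rw [Finset.sum_congr rfl (fun σ _ => h1 σ)]
    exact Fintype.sum_equiv (Equiv.mulLeft τ) _ _ (fun σ => rfl)
  obtain ⟨c, hc⟩ := sdGal_invariant_scalar q N b hbinv
  refine ⟨c, ?_⟩
  have h2 : algebraMap ℚ_[q] (sdField q N t) c = Ideal.Quotient.mk t.asIdeal b := by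
    rw [← hc]
    rfl
  rw [h2, hb]
  have h3 : Ideal.Quotient.mk t.asIdeal ((d : ℚ_[q])⁻¹ • ∑ σ : N ≃ₐ[ℚ] N, semiMap q σ (e * a)) =
      (d : ℚ_[q])⁻¹ • ∑ σ : N ≃ₐ[ℚ] N, Ideal.Quotient.mk t.asIdeal (semiMap q σ (e * a)) := by
    rw [← map_sum]
    exact map_smul (Ideal.Quotient.mkₐ ℚ_[q] t.asIdeal) _ _
  rw [h3]
  have h4 : ∀ σ : N ≃ₐ[ℚ] N, Ideal.Quotient.mk t.asIdeal (semiMap q σ (e * a)) =
      if σ ∈ sdStab q N t then Ideal.Quotient.mk t.asIdeal a else 0 := by
    intro σ
    rw [map_mul, map_mul]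
    split_ifs with hσ
    · rw [sdGal_idem_of_mem q N t hσ, one_mul]
      have := hy ⟨σ, hσ⟩
      rw [sdRes_mk] at this
      exact this
    · rw [sdGal_idem_of_not_mem q N t hσ, zero_mul]
  rw [Finset.sum_congr rfl (fun σ _ => h4 σ), ← Finset.sum_filter, Finset.sum_const, ← hd,
    ← Nat.cast_smul_eq_nsmul ℚ_[q], smul_smul, inv_mul_cancel₀ hd0, one_smul]

end fixed

/-- **gb-sdgal**. -/
theorem stmtSDGalois : StmtSDGalois := by
  intro q _ N _ _ _ t
  haveI := sdGal_finite q N t
  have hfix : IntermediateField.fixedField (sdRes q N t).range = ⊥ := by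
    apply le_antisymm _ bot_le
    intro y hy
    rw [IntermediateField.mem_fixedField_iff] at hy
    rw [IntermediateField.mem_bot]
    obtain ⟨c, hc⟩ := sdGal_fixed q N t y (fun σ => hy _ ⟨σ, rfl⟩)
    exact ⟨c, hc⟩
  have htop : (sdRes q N t).range = ⊤ := by
    have h := IntermediateField.fixingSubgroup_fixedField (sdRes q N t).range
    rw [hfix, IntermediateField.fixingSubgroup_bot] at h
    exact h.symm
  refine ⟨inferInstance, ?_, sdGal_injective q N t, MonoidHom.range_eq_top.mp htop⟩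
  apply IsGalois.of_fixedField_eq_bot
  rw [← htop]
  exact hfix

end Fermat.Agent.PT.G3
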