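/-
PT-GB, piece sdProj (helper11): the projection `(ℚ_q ⊗ N)ˣ → ((ℚ_q ⊗ N)/t)ˣ` is a morphism of
`Rep ℤ (sdStab q N t)`.  `stmtSDProj : StmtSDProj`.
-/
import Fermat.Agent.PT.G3.PlanGBLocal

set_option autoImplicit false
set_option linter.unusedSectionVars false

noncomputable section

namespace Fermat.Agent.PT.G3

open CategoryTheory groupCohomology NumberField IsDedekindDomain
open Fermat.Agent.PT Fermat.Agent.PT.G Fermat.Agent.PT.G1

/-- **gb-sdproj**. -/
theorem stmtSDProj : StmtSDProj := by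
  intro q _ N _ _ t
  refine ⟨Rep.ofHom ⟨sdProjLin q N t, fun σ => LinearMap.ext fun x => ?_⟩, fun x => rfl⟩
  apply congrArg Additive.ofMul
  apply Units.ext
  exact (sdRes_mk q N t σ _).symm

end Fermat.Agent.PT.G3

end
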