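/-
PT-GB, piece `semiCyc` (helper1): the `p`-primary part of `H²(Aut N, (ℚ_q ⊗ N)ˣ)` is cyclic
(`StmtSemiCyc`), as glue of `StmtSDProj`, `StmtSDShapiro`, `StmtSDFund`, `StmtPCyclicOfFund`;
and `StmtSemiCycOne` (PlanGB.lean) from `StmtSemiCyc`.
-/
import Fermat.Agent.PT.G3.PlanGBLocal

set_option autoImplicit false

namespace Fermat.Agent.PT.G3

open CategoryTheory groupCohomology NumberField IsDedekindDomain
open Fermat.Agent.PT Fermat.Agent.PT.G Fermat.Agent.PT.G1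

/-- `PCyclicH2` is inherited along an injective additive map on `H²`. -/
theorem gbsc_pcyclic_of_injective (p : ℕ) {G H : Type} [Group G] [Group H]
    (C : Rep.{0} ℤ G) (D : Rep.{0} ℤ H) (φ : H2 C →+ H2 D) (hφ : Function.Injective φ)
    (hD : PCyclicH2 p D) : PCyclicH2 p C := by
  intro x y hx hy
  have hx' : IsPTors p (φ x) := by
    obtain ⟨k, hk⟩ := hx
    exact ⟨k, by rw [← map_nsmul, hk, map_zero]⟩
  have hy' : IsPTors p (φ y) := by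
    obtain ⟨k, hk⟩ := hy
    exact ⟨k, by rw [← map_nsmul, hk, map_zero]⟩
  rcases hD (φ x) (φ y) hx' hy' with ⟨n, hn⟩ | ⟨n, hn⟩
  · left
    refine ⟨n, hφ ?_⟩
    rw [map_zsmul, hn]
  · right
    refine ⟨n, hφ ?_⟩
    rw [map_zsmul, hn]

/-- the semilocal algebra is not the zero ring. -/
theorem gbsc_nontrivial (q : ℕ) [Fact q.Prime] (N : Type) [Field N] [NumberField N] :
    Nontrivial (semiAlg q N) := by
  infer_instance

/-- **(A) gb-semicyc**. -/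
theorem stmtSemiCyc_of (hproj : StmtSDProj) (hsh : StmtSDShapiro) (hfund : StmtSDFund)
    (hcyc : StmtPCyclicOfFund) : StmtSemiCyc := by
  intro p _ q _ N _ _ _
  haveI : Nontrivial (semiAlg q N) := gbsc_nontrivial q N
  obtain ⟨I, hI⟩ := Ideal.exists_maximal (semiAlg q N)
  let t : MaximalSpectrum (semiAlg q N) := ⟨I, hI⟩
  obtain ⟨π, hπ⟩ := hproj q N t
  have hbij := hsh q N t π hπ
  obtain ⟨u, hu⟩ := hfund p q N t
  have hD : PCyclicH2 p (sdY q N t) := hcyc p _ (sdY q N t) u hu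
  exact gbsc_pcyclic_of_injective p _ _
    (groupCohomology.map (sdStab q N t).subtype π 2).hom.toAddMonoidHom hbij.1 hD

/-- in a group killed by `p` on `x`, integer multiples of `x` are natural multiples. -/
theorem gbsc_zsmul_eq_nsmul {X : Type*} [AddCommGroup X] (p : ℕ) (hp0 : p ≠ 0) (x : X)
    (hx : p • x = 0) (a : ℤ) : ∃ j : ℕ, a • x = j • x := by
  refine ⟨(a % (p : ℤ)).toNat, ?_⟩
  have hp' : (p : ℤ) ≠ 0 := by exact_mod_cast hp0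
  have h1 : 0 ≤ a % (p : ℤ) := Int.emod_nonneg a hp'
  have h2 : ((a % (p : ℤ)).toNat : ℤ) = a % (p : ℤ) := Int.toNat_of_nonneg h1
  have h3 : a = (p : ℤ) * (a / (p : ℤ)) + a % (p : ℤ) := (Int.mul_ediv_add_emod a p).symm
  have h4 : ((p : ℤ)) • x = 0 := by rw [natCast_zsmul]; exact hx
  calc a • x = ((p : ℤ) * (a / (p : ℤ)) + a % (p : ℤ)) • x := by rw [← h3]
    _ = (a / (p : ℤ)) • ((p : ℤ) • x) + (a % (p : ℤ)) • x := by
        rw [add_smul, mul_comm, mul_smul]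
    _ = (a % (p : ℤ)) • x := by rw [h4, smul_zero, zero_add]
    _ = (((a % (p : ℤ)).toNat : ℤ)) • x := by rw [h2]
    _ = (a % (p : ℤ)).toNat • x := natCast_zsmul _ _

/-- abstract form of `StmtSemiCycOneOf`. -/
theorem gbsc_one_abstract {X : Type*} [AddCommGroup X] (p : ℕ) (hp : p.Prime) (x₁ x₂ : X)
    (h₁ : p • x₁ = 0) (h₂ : p • x₂ = 0) (hne : x₁ ≠ 0)
    (h : (∃ n : ℤ, n • x₁ = x₂) ∨ (∃ n : ℤ, n • x₂ = x₁)) : ∃ j : ℕ, x₂ = j • x₁ := by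
  rcases h with ⟨n, hn⟩ | ⟨n, hn⟩
  · obtain ⟨j, hj⟩ := gbsc_zsmul_eq_nsmul p hp.ne_zero x₁ h₁ n
    exact ⟨j, by rw [← hj, hn]⟩
  · have h₂' : ((p : ℤ)) • x₂ = 0 := by rw [natCast_zsmul]; exact h₂
    have hcop : IsCoprime n (p : ℤ) := by
      rw [isCoprime_comm]
      refine (Nat.prime_iff_prime_int.1 hp).coprime_iff_not_dvd.2 ?_
      rintro ⟨m, rfl⟩
      apply hne
      rw [← hn, mul_comm, mul_smul, h₂', smul_zero]
    obtain ⟨a, b, hab⟩ := hcop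
    have h5 : x₂ = a • x₁ := by
      calc x₂ = (1 : ℤ) • x₂ := (one_smul _ _).symm
        _ = (a * n + b * (p : ℤ)) • x₂ := by rw [hab]
        _ = a • (n • x₂) + b • ((p : ℤ) • x₂) := by rw [add_smul, mul_smul, mul_smul]
        _ = a • x₁ := by rw [hn, h₂', smul_zero, add_zero]
    obtain ⟨j, hj⟩ := gbsc_zsmul_eq_nsmul p hp.ne_zero x₁ h₁ a
    exact ⟨j, by rw [h5, hj]⟩

/-- **gb-semicycone**: `StmtSemiCycOne` (PlanGB.lean) from `StmtSemiCyc`. -/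
theorem stmtSemiCycOneOf : StmtSemiCycOneOf := by
  intro h p hp q _ N _ _ _ y₁ y₂ hy₁ hy₂ hp₁ hp₂ hne
  have hcyc := h p q N
  have hx₁ : p • H2π (semiRep q N) ⟨y₁, hy₁⟩ = 0 := by
    rw [← map_nsmul, H2π_eq_zero_iff]
    exact hp₁
  have hx₂ : p • H2π (semiRep q N) ⟨y₂, hy₂⟩ = 0 := by
    rw [← map_nsmul, H2π_eq_zero_iff]
    exact hp₂
  have hx₁ne : H2π (semiRep q N) ⟨y₁, hy₁⟩ ≠ 0 := fun h0 =>
    hne ((H2π_eq_zero_iff (⟨y₁, hy₁⟩ : cocycles₂ (semiRep q N))).1 h0)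
  have hcmp := hcyc (H2π (semiRep q N) ⟨y₁, hy₁⟩) (H2π (semiRep q N) ⟨y₂, hy₂⟩)
    ⟨1, by rw [pow_one]; exact hx₁⟩ ⟨1, by rw [pow_one]; exact hx₂⟩
  obtain ⟨j, hj⟩ := gbsc_one_abstract p hp.out _ _ hx₁ hx₂ hx₁ne hcmp
  refine ⟨j, ?_⟩
  rw [← map_nsmul, H2π_eq_iff] at hj
  exact hj

end Fermat.Agent.PT.G3
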