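/-
PT-G3, piece `cyc` (sub-captain helper75): the cyclotomic auxiliary field `N = L·ℚ_n`
(`StmtCyc`, `CycData` of Plan3.lean).  INTERFACE FILE: definitions + statements of the sub-pieces.
Piece table: NOTES/PT-G3-cyc.md.

`m = p^(n+1)`, `N' = CycTop p n L = CyclotomicField m L = L(ζ)`, `χ = cycChi : Aut(N'/ℚ) → (ℤ/m)ˣ`,
`R = cycR = {σ | χ(σ)^(p-1) = 1, σ|_L = id}`, `N = CycN p n L = N'^R` (an `IntermediateField ℚ N'`),
`Algebra L N` (`cycAlgebraLN`), `lam : (ℤ/m)ˣ ↠ ℤ/p^n` with kernel the `(p-1)`-torsion,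
`θ(σ) = lam (χ(σ̃))`.
-/
import Fermat.Agent.PT.G3.Plan3

set_option autoImplicit false

namespace Fermat.Agent.PT.G3

open NumberField IsDedekindDomain
open Fermat.Agent.PT Fermat.Agent.PT.G Fermat.Agent.PT.G1

section defs

variable (p n : ℕ) [hp : Fact p.Prime] (L : Type) [Field L] [NumberField L]

instance cycNeZeroPow : NeZero (p ^ (n + 1)) := ⟨pow_ne_zero _ hp.out.ne_zero⟩

/-- `N' = L(ζ)`, `ζ` a primitive `p^(n+1)`-th root of unity. -/
abbrev CycTop : Type := CyclotomicField (p ^ (n + 1)) L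

/-- the primitive root `ζ ∈ N'`. -/
noncomputable def cycZeta : CycTop p n L :=
  IsCyclotomicExtension.zeta (p ^ (n + 1)) L (CycTop p n L)

theorem cycZeta_spec : IsPrimitiveRoot (cycZeta p n L) (p ^ (n + 1)) :=
  IsCyclotomicExtension.zeta_spec (p ^ (n + 1)) L (CycTop p n L)

/-- the cyclotomic character `χ : Aut(N') → (ℤ/p^(n+1))ˣ`, `σ ζ = ζ ^ χ(σ)`. -/
noncomputable def cycChi : (CycTop p n L ≃ₐ[ℚ] CycTop p n L) →* (ZMod (p ^ (n + 1)))ˣ :=
  (cycZeta_spec p n L).autToPow ℚ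

/-- `R = {σ ∈ Aut(N') | χ(σ)^(p-1) = 1, σ|_L = id}`. -/
noncomputable def cycR : Subgroup (CycTop p n L ≃ₐ[ℚ] CycTop p n L) where
  carrier := {σ | cycChi p n L σ ^ (p - 1) = 1 ∧
    ∀ x : L, σ (algebraMap L (CycTop p n L) x) = algebraMap L (CycTop p n L) x}
  mul_mem' := by
    rintro σ τ ⟨h1, h2⟩ ⟨h3, h4⟩
    refine ⟨by rw [map_mul, mul_pow, h1, h3, one_mul], fun x => ?_⟩
    show σ (τ _) = _
    rw [h4, h2]
  one_mem' := ⟨by rw [map_one, one_pow], fun _ => rfl⟩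
  inv_mem' := by
    rintro σ ⟨h1, h2⟩
    refine ⟨by rw [map_inv, inv_pow, h1, inv_one], fun x => ?_⟩
    have h := h2 x
    show σ⁻¹ _ = _
    conv_lhs => rw [← h]
    exact σ.symm_apply_apply _

/-- `N = N'^R = L·ℚ_n`. -/
abbrev CycN : Type := ↥(IntermediateField.fixedField (cycR p n L))


theorem cyc_algebraMap_mem (x : L) :
    algebraMap L (CycTop p n L) x ∈ IntermediateField.fixedField (cycR p n L) := by
  intro σ
  exact σ.2.2 x

/-- `L → N`. -/
noncomputable def cycIncl : L →+* CycN p n L where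
  toFun x := ⟨algebraMap L (CycTop p n L) x, cyc_algebraMap_mem p n L x⟩
  map_one' := Subtype.ext (map_one _)
  map_mul' x y := Subtype.ext (map_mul _ x y)
  map_zero' := Subtype.ext (map_zero _)
  map_add' x y := Subtype.ext (map_add _ x y)

noncomputable instance cycAlgebraLN : Algebra L (CycN p n L) := (cycIncl p n L).toAlgebra

instance cycTowerLN : IsScalarTower L (CycN p n L) (CycTop p n L) :=
  IsScalarTower.of_algebraMap_eq (fun _ => rfl)

instance cycTowerQN : IsScalarTower ℚ (CycN p n L) (CycTop p n L) :=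
  IsScalarTower.of_algebraMap_eq (fun x => by rw [eq_ratCast, eq_ratCast, map_ratCast])

end defs

/-! ### The sub-pieces -/

/-- **cyc-gal**: `N' = L(ζ)` is Galois over `ℚ` if `L` is. -/
def StmtCycGalois : Prop :=
  ∀ (p n : ℕ) [Fact p.Prime] (L : Type) [Field L] [NumberField L] [IsGalois ℚ L],
    IsGalois ℚ (CycTop p n L)

/-- **cyc-chi**: the cyclotomic character of `Aut(N'/ℚ)` is onto `(ℤ/p^(n+1))ˣ`. -/
def StmtCycChiSurj : Prop :=
  ∀ (p n : ℕ) [Fact p.Prime] (L : Type) [Field L] [NumberField L] [IsGalois ℚ L],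
    Function.Surjective (cycChi p n L)

/-- **cyc-lam**: for `p` odd there is a surjective homomorphism `(ℤ/p^(n+1))ˣ → ℤ/p^n` whose kernel
is the `(p-1)`-torsion. -/
def StmtCycLambda : Prop :=
  ∀ (p n : ℕ) [Fact p.Prime], p ≠ 2 →
    ∃ lam : (ZMod (p ^ (n + 1)))ˣ →* Multiplicative (ZMod (p ^ n)),
      Function.Surjective lam ∧ ∀ u, lam u = 1 ↔ u ^ (p - 1) = 1

/-- **cyc-normal**: `R` is a normal subgroup of `Aut(N'/ℚ)`. -/
def StmtCycRNormal : Prop :=
  ∀ (p n : ℕ) [Fact p.Prime] (L : Type) [Field L] [NumberField L] [IsGalois ℚ L],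
    (cycR p n L).Normal

/-- **cyc-unram**: `N' / ℚ` is unramified outside `S ∋ p` if `L / ℚ` is.
(An element `σ` of an inertia group `I_{P'}`, `P' ∤ S`, fixes `ζ` (`symCheb_root_eq_of_sub_mem`) and
restricts to an element of the inertia group of `P' ∩ L`, which is trivial (`uo_card_inertia`); so
`σ` fixes `L(ζ) = N'`.) -/
def StmtCycUnramTop : Prop :=
  ∀ (p n : ℕ) [hp : Fact p.Prime] (S : Finset Nat.Primes), (⟨p, hp.out⟩ : Nat.Primes) ∈ S →
    ∀ (L : Type) [Field L] [NumberField L] [IsGalois ℚ L], UnramOffRel S ℚ L →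
      UnramOffRel S ℚ (CycTop p n L)

/-- `σ' ∈ Aut(N')` extends `σ ∈ Aut(N)`. -/
def CycExtends (p n : ℕ) [Fact p.Prime] (L : Type) [Field L] [NumberField L]
    (σ' : CycTop p n L ≃ₐ[ℚ] CycTop p n L) (σ : CycN p n L ≃ₐ[ℚ] CycN p n L) : Prop :=
  ∀ x : CycN p n L, σ' (x : CycTop p n L) = ((σ x : CycN p n L) : CycTop p n L)

/-- **cyc-ext**: every automorphism of `N` extends to `N'`, every automorphism of `N'` restricts to
`N`, and two extensions of the same automorphism differ by an element of `R`. -/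
def StmtCycExt : Prop :=
  ∀ (p n : ℕ) [Fact p.Prime] (L : Type) [Field L] [NumberField L] [IsGalois ℚ L],
    (∀ σ : CycN p n L ≃ₐ[ℚ] CycN p n L, ∃ σ', CycExtends p n L σ' σ) ∧
    (∀ σ' : CycTop p n L ≃ₐ[ℚ] CycTop p n L, ∃ σ, CycExtends p n L σ' σ) ∧
    (∀ σ (σ' σ'' : CycTop p n L ≃ₐ[ℚ] CycTop p n L), CycExtends p n L σ' σ →
      CycExtends p n L σ'' σ → σ'⁻¹ * σ'' ∈ cycR p n L)

/-- **cyc-theta**: `θ := lam ∘ χ` descends to `Aut(N)`. -/
def StmtCycTheta : Prop :=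
  ∀ (p n : ℕ) [Fact p.Prime] (L : Type) [Field L] [NumberField L] [IsGalois ℚ L]
    (lam : (ZMod (p ^ (n + 1)))ˣ →* Multiplicative (ZMod (p ^ n))),
    (∀ u, u ^ (p - 1) = 1 → lam u = 1) →
    ∃ θ : (CycN p n L ≃ₐ[ℚ] CycN p n L) →* Multiplicative (ZMod (p ^ n)),
      ∀ σ' σ, CycExtends p n L σ' σ → θ σ = lam (cycChi p n L σ')

/-- **cyc-card**: `[N : L]` is the number of `(p-1)`-th powers of values of the cyclotomic character
on `Gal(N'/L)`, i.e. (`symbolCheb_pow`) the number of values of the ideal symbol of `L`; and it is a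
power of `p`. -/
def StmtCycCard : Prop :=
  ∀ (p n : ℕ) [Fact p.Prime], p ≠ 2 → ∀ (L : Type) [Field L] [NumberField L] [IsGalois ℚ L],
    Module.finrank L (CycN p n L) =
      Nat.card {u : (ZMod (p ^ (n + 1)))ˣ | ∃ I : Ideal (𝓞 L),
        (Ideal.absNorm I).Coprime (p ^ (n + 1)) ∧ normSymbol p n I = u} ∧
    ∃ k : ℕ, Module.finrank L (CycN p n L) = p ^ k

/-- **cyc-E'**: for `θ = lam ∘ χ` on `Aut(N)` (kernel of `lam` = the `(p-1)`-torsion), the field
`E = N^{ker θ}` has an extension `E' = E(ζ) ⊂ N'` of degree prime to `p` containing `ζ`.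
(`Gal(N'/E) = ker (lam ∘ χ) =: H`, `Gal(N'/E(ζ)) = ker χ`, `[E(ζ) : E] = |χ(H)|`, and `χ(H)` is killed
by `p - 1`.) -/
def StmtCycEPrime : Prop :=
  ∀ (p n : ℕ) [Fact p.Prime] (L : Type) [Field L] [NumberField L] [IsGalois ℚ L]
    (lam : (ZMod (p ^ (n + 1)))ˣ →* Multiplicative (ZMod (p ^ n))),
    (∀ u, lam u = 1 ↔ u ^ (p - 1) = 1) →
    ∀ θ : (CycN p n L ≃ₐ[ℚ] CycN p n L) →* Multiplicative (ZMod (p ^ n)),
      (∀ σ' σ, CycExtends p n L σ' σ → θ σ = lam (cycChi p n L σ')) →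
      ∃ (E' : Type) (_ : Field E') (_ : NumberField E')
        (_ : Algebra ↥(IntermediateField.fixedField θ.ker) E'),
        (Module.finrank ↥(IntermediateField.fixedField θ.ker) E').Coprime p ∧
        ∃ ζ : 𝓞 E', IsPrimitiveRoot ζ (p ^ (n + 1))

end Fermat.Agent.PT.G3
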