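/-
PT-G3, piece `cyc` (helper75): assembly of `CycData` from the sub-pieces of CycPlan.lean.
-/
import Fermat.Agent.PT.G3.CycPlan
import Fermat.Agent.PT.G3.NormSub

set_option autoImplicit false

namespace Fermat.Agent.PT.G3

open NumberField IsDedekindDomain
open Fermat.Agent.PT Fermat.Agent.PT.G Fermat.Agent.PT.G1

section

variable (p n : ℕ) [hp : Fact p.Prime] (L : Type) [Field L] [NumberField L]

/-- `N / ℚ` is Galois (`R` normal, `N' / ℚ` Galois). -/
theorem cycFinal_galQ [IsGalois ℚ (CycTop p n L)] (hR : (cycR p n L).Normal) :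
    IsGalois ℚ (CycN p n L) := by
  have h := IsGalois.of_fixedField_normal_subgroup (cycR p n L)
  convert h
  exact Subsingleton.elim _ _

end

/-- **G3-cyc**, assembly. -/
theorem stmtCyc_of (hG : StmtCycGalois) (hχ : StmtCycChiSurj) (hlam : StmtCycLambda)
    (hN : StmtCycRNormal) (hU : StmtCycUnramTop) (hE : StmtCycExt) (hθ : StmtCycTheta)
    (hC : StmtCycCard) (hE' : StmtCycEPrime) (htower : StmtUnramTower) : StmtCyc := by
  intro p n hp S hp2 hpS L _ _ _ hunr
  have hGal : IsGalois ℚ (CycTop p n L) := hG p n L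
  have hR : (cycR p n L).Normal := hN p n L
  have hgalQ : IsGalois ℚ (CycN p n L) := cycFinal_galQ p n L hR
  have hgalL : IsGalois L (CycN p n L) := IsGalois.tower_top_of_isGalois ℚ L (CycN p n L)
  obtain ⟨lam, hlsurj, hlker⟩ := hlam p n hp2
  obtain ⟨θ, hθspec⟩ := hθ p n L lam (fun u hu => (hlker u).mpr hu)
  obtain ⟨E', fE', nfE', algE', hcop, ζ, hζ⟩ := hE' p n L lam hlker θ hθspec
  obtain ⟨hcard, k, hk⟩ := hC p n hp2 L
  obtain ⟨-, hres, -⟩ := hE p n L
  refine ⟨{ N := CycN p n L
            galQ := hgalQ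
            galL := hgalL
            unram := (htower S ℚ (CycN p n L) (CycTop p n L) (hU p n S hpS L hunr)).2
            pgroup := ?_
            card_le := hcard.le
            θ := θ
            θ_surj := ?_
            E' := E'
            coprime := hcop
            ζ := ζ
            hζ := hζ }⟩
  · refine IsPGroup.of_card (n := k) ?_
    rw [nsub_card_relAut, hk]
  · intro y
    obtain ⟨u, hu⟩ := hlsurj y
    obtain ⟨σ', hσ'⟩ := hχ p n L u
    obtain ⟨σ, hσ⟩ := hres σ'
    exact ⟨σ, by rw [hθspec σ' σ hσ, hσ', hu]⟩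

end Fermat.Agent.PT.G3
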