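/-
PT-G3 piece cyc-card (helper60): `[N : L]` is the number of values of the norm symbol of `L`,
and a power of `p`.

`N' = L(ζ)`, `f = χ_L^(p-1) : Gal(N'/L) → (ℤ/p^(n+1))ˣ`.  By `symbolCheb_pow` the set of values of
the norm symbol is `range f`.  The kernel of `f` is in bijection with `R`
(`σ ↦ σ.restrictScalars ℚ`), `[N' : N] = |R|`, `[N' : L] = |Gal(N'/L)| = |ker f| · |range f|`,
hence `[N : L] = |range f|`.  Every element of `range f` is killed by `p^n`
(`u^((p-1) p^n) = 1`), so `range f` is a `p`-group.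
-/
import Fermat.Agent.PT.G3.CycPlan
import Fermat.Agent.PT.G3.SymbolCheb

set_option autoImplicit false
set_option linter.style.haveILetI false
set_option linter.unusedSectionVars false

namespace Fermat.Agent.PT.G3

open NumberField IsDedekindDomain
open Fermat.Agent.PT Fermat.Agent.PT.G Fermat.Agent.PT.G1

section cycCard

variable (p n : ℕ) [hp : Fact p.Prime] (L : Type) [Field L] [NumberField L]

/-- `f = χ_L^(p-1)` on `Gal(N'/L)`. -/
noncomputable def cycCardF : (CycTop p n L ≃ₐ[L] CycTop p n L) →* (ZMod (p ^ (n + 1)))ˣ :=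
  (powMonoidHom (p - 1)).comp ((cycZeta_spec p n L).autToPow L)

lemma cycCardF_apply (σ : CycTop p n L ≃ₐ[L] CycTop p n L) :
    cycCardF p n L σ = (cycZeta_spec p n L).autToPow L σ ^ (p - 1) := rfl

/-- The two cyclotomic characters agree. -/
lemma cycCard_chi_restrictScalars (σ : CycTop p n L ≃ₐ[L] CycTop p n L) :
    cycChi p n L (σ.restrictScalars ℚ) = (cycZeta_spec p n L).autToPow L σ := by
  have h1 := (cycZeta_spec p n L).autToPow_spec ℚ (σ.restrictScalars ℚ)
  have h2 := (cycZeta_spec p n L).autToPow_spec L σ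
  have h3 : (σ.restrictScalars ℚ) (cycZeta p n L) = σ (cycZeta p n L) := rfl
  rw [h3, ← h2] at h1
  have h4 := (cycZeta_spec p n L).pow_inj (ZMod.val_lt _) (ZMod.val_lt _) h1
  exact Units.ext (ZMod.val_injective _ h4)

/-- An element of `R`, as an `L`-automorphism of `N'`. -/
noncomputable def cycCardLin (τ : cycR p n L) : CycTop p n L ≃ₐ[L] CycTop p n L :=
  AlgEquiv.ofRingEquiv (f := ((τ : CycTop p n L ≃ₐ[ℚ] CycTop p n L) : CycTop p n L ≃+* CycTop p n L))
    (fun x => τ.2.2 x)

lemma cycCardLin_restrictScalars (τ : cycR p n L) :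
    (cycCardLin p n L τ).restrictScalars ℚ = (τ : CycTop p n L ≃ₐ[ℚ] CycTop p n L) := by
  ext x
  rfl

lemma cycCardLin_mem_ker (τ : cycR p n L) : cycCardLin p n L τ ∈ (cycCardF p n L).ker := by
  rw [MonoidHom.mem_ker, cycCardF_apply, ← cycCard_chi_restrictScalars,
    cycCardLin_restrictScalars]
  exact τ.2.1

lemma cycCard_restrictScalars_mem (σ : (cycCardF p n L).ker) :
    (σ : CycTop p n L ≃ₐ[L] CycTop p n L).restrictScalars ℚ ∈ cycR p n L := by
  refine ⟨?_, fun x => (σ : CycTop p n L ≃ₐ[L] CycTop p n L).commutes x⟩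
  rw [cycCard_chi_restrictScalars]
  exact σ.2

/-- `ker f ≃ R`. -/
noncomputable def cycCardKerEquiv : (cycCardF p n L).ker ≃ cycR p n L where
  toFun σ := ⟨_, cycCard_restrictScalars_mem p n L σ⟩
  invFun τ := ⟨_, cycCardLin_mem_ker p n L τ⟩
  left_inv σ := by
    apply Subtype.ext
    ext x
    rfl
  right_inv τ := by
    apply Subtype.ext
    ext x
    rfl

/-- `[N : L] = |range f|`. -/
theorem cycCard_finrank_eq :
    Module.finrank L (CycN p n L) = Nat.card (cycCardF p n L).range := by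
  haveI : IsGalois L (CycTop p n L) :=
    IsCyclotomicExtension.isGalois {p ^ (n + 1)} L (CycTop p n L)
  have h1 : Module.finrank (CycN p n L) (CycTop p n L) = Nat.card (cycR p n L) :=
    IntermediateField.finrank_fixedField_eq_card (cycR p n L)
  have h2 : Module.finrank L (CycN p n L) * Module.finrank (CycN p n L) (CycTop p n L) =
      Module.finrank L (CycTop p n L) := Module.finrank_mul_finrank L (CycN p n L) (CycTop p n L)
  have h3 : Nat.card (CycTop p n L ≃ₐ[L] CycTop p n L) = Module.finrank L (CycTop p n L) :=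
    IsGalois.card_aut_eq_finrank L (CycTop p n L)
  have h4 : Nat.card (CycTop p n L ≃ₐ[L] CycTop p n L) =
      Nat.card ((CycTop p n L ≃ₐ[L] CycTop p n L) ⧸ (cycCardF p n L).ker) *
        Nat.card (cycCardF p n L).ker :=
    Subgroup.card_eq_card_quotient_mul_card_subgroup _
  have h5 : Nat.card ((CycTop p n L ≃ₐ[L] CycTop p n L) ⧸ (cycCardF p n L).ker) =
      Nat.card (cycCardF p n L).range :=
    Nat.card_congr (QuotientGroup.quotientKerEquivRange (cycCardF p n L)).toEquiv
  have h6 : Nat.card (cycCardF p n L).ker = Nat.card (cycR p n L) :=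
    Nat.card_congr (cycCardKerEquiv p n L)
  have h7 : 0 < Nat.card (cycR p n L) := by
    rw [← h6]
    exact Nat.card_pos
  rw [h1, ← h3, h4, h5, h6] at h2
  exact Nat.eq_of_mul_eq_mul_right h7 h2

/-- `range f` is a `p`-group. -/
theorem cycCard_isPGroup : IsPGroup p (cycCardF p n L).range := by
  rintro ⟨u, σ, rfl⟩
  refine ⟨n, Subtype.ext ?_⟩
  have h1 : (p - 1) * p ^ n = Nat.totient (p ^ (n + 1)) := by
    rw [Nat.totient_prime_pow_succ hp.out, mul_comm]
  show (cycCardF p n L σ) ^ p ^ n = 1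
  rw [cycCardF_apply, ← pow_mul, h1]
  exact ZMod.pow_totient _

end cycCard

/-- **cyc-card**. -/
theorem stmtCycCard : StmtCycCard := by
  intro p n _ hp2 L _ _ _
  haveI : IsGalois L (CycTop p n L) :=
    IsCyclotomicExtension.isGalois {p ^ (n + 1)} L (CycTop p n L)
  have hset := symbolCheb_pow p n L (CycTop p n L) (cycZeta p n L) (cycZeta_spec p n L) hp2
  have hcard : Module.finrank L (CycN p n L) =
      Nat.card {u : (ZMod (p ^ (n + 1)))ˣ | ∃ I : Ideal (𝓞 L),
        (Ideal.absNorm I).Coprime (p ^ (n + 1)) ∧ normSymbol p n I = u} := by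
    rw [cycCard_finrank_eq, hset]
    rfl
  refine ⟨hcard, ?_⟩
  obtain ⟨k, hk⟩ := (cycCard_isPGroup p n L).exists_card_eq
  exact ⟨k, by rw [cycCard_finrank_eq, hk]⟩

end Fermat.Agent.PT.G3
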