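/-
PT-G3 / cyc, pieces cyc-gal, cyc-chi, cyc-normal (helper48).

* `stmtCycGalois`  : `N' = L(ζ)` is Galois over `ℚ` if `L` is (compositum of the normal fields
  `L` and `ℚ(ζ)`).
* `stmtCycChiSurj` : the cyclotomic character of `Aut(N'/ℚ)` is onto `(ℤ/p^(n+1))ˣ`
  (`Gal(ℚ(ζ)/ℚ) ≅ (ℤ/m)ˣ` and lifting along the normal extension `N'/ℚ(ζ)`).
* `stmtCycRNormal` : `R` is a normal subgroup of `Aut(N'/ℚ)`.

The field-theoretic lemmas are proved over a GENERIC base field `F` (so that the only
`Algebra F ↥K` instance for an intermediate field `K` is the canonical one) and then specialised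
to `F = ℚ`.
-/
import Fermat.Agent.PT.G3.CycPlan

set_option autoImplicit false

namespace Fermat.Agent.PT.G3

open NumberField IsDedekindDomain Polynomial
open Fermat.Agent.PT Fermat.Agent.PT.G Fermat.Agent.PT.G1

section generic

variable {F L N : Type} [Field F] [Field L] [Field N] [Algebra F L] [Algebra L N] [Algebra F N]
  [IsScalarTower F L N]

/-- `L · F(ζ) = N` if `N = L[ζ]`. -/
theorem cycGal_sup_eq_top (ζ : N) (hadj : Algebra.adjoin L ({ζ} : Set N) = ⊤) :
    (IsScalarTower.toAlgHom F L N).fieldRange ⊔ IntermediateField.adjoin F {ζ} = ⊤ := by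
  rw [eq_top_iff]
  intro x _
  have hx : x ∈ Algebra.adjoin L ({ζ} : Set N) := by
    rw [hadj]
    trivial
  let T : Subalgebra L N :=
    { ((IsScalarTower.toAlgHom F L N).fieldRange ⊔
        IntermediateField.adjoin F {ζ}).toSubfield.toSubring with
      algebraMap_mem' := fun y =>
        (le_sup_left : (IsScalarTower.toAlgHom F L N).fieldRange ≤ _) ⟨y, rfl⟩ }
  have hle : Algebra.adjoin L ({ζ} : Set N) ≤ T := by
    rw [Algebra.adjoin_le_iff]
    intro y hy
    rw [Set.mem_singleton_iff] at hy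
    subst hy
    exact (le_sup_right : IntermediateField.adjoin F {y} ≤ _)
      (IntermediateField.mem_adjoin_simple_self F _)
  exact hle hx

/-- `N = L(ζ)` is normal over `F` if `L` is (`ζ` a primitive root of unity). -/
theorem cycGal_normal_generic [Normal F L] [Algebra.IsIntegral F N] (m : ℕ) [NeZero m] (ζ : N)
    (hζ : IsPrimitiveRoot ζ m) (hadj : Algebra.adjoin L ({ζ} : Set N) = ⊤) : Normal F N := by
  have h1 : Normal F ↥((IsScalarTower.toAlgHom F L N).fieldRange) :=
    Normal.of_algEquiv (AlgEquiv.ofInjectiveField (IsScalarTower.toAlgHom F L N))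
  have h2 : IsCyclotomicExtension {m} F ↥(IntermediateField.adjoin F {ζ}) :=
    hζ.intermediateField_adjoin_isCyclotomicExtension F
  have h3 : Normal F ↥(IntermediateField.adjoin F {ζ}) :=
    (IsCyclotomicExtension.isGalois {m} F ↥(IntermediateField.adjoin F {ζ})).to_normal
  have h : Normal F ↥((IsScalarTower.toAlgHom F L N).fieldRange ⊔
      IntermediateField.adjoin F {ζ}) := inferInstance
  rw [cycGal_sup_eq_top ζ hadj] at h
  exact Normal.of_algEquiv (IntermediateField.topEquiv (F := F) (E := N))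

omit [Field L] [Algebra F L] [Algebra L N] [IsScalarTower F L N] in
/-- If the cyclotomic polynomial is irreducible over `F` and `N/F` is normal, every unit `u` mod `m`
is realised by an automorphism of `N`: `σ ζ = ζ ^ u`. -/
theorem cycGal_exists_aut [Normal F N] (m : ℕ) [NeZero m] [NeZero (m : F)] (ζ : N)
    (hζ : IsPrimitiveRoot ζ m) (hirr : Irreducible (cyclotomic m F)) (u : (ZMod m)ˣ) :
    ∃ σ : N ≃ₐ[F] N, σ ζ = ζ ^ (u : ZMod m).val := by
  have _ : Algebra.IsAlgebraic F N := Normal.toIsAlgebraic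
  have h2 : IsCyclotomicExtension {m} F ↥(IntermediateField.adjoin F {ζ}) :=
    hζ.intermediateField_adjoin_isCyclotomicExtension F
  -- `ζ` as an element of `F(ζ)`
  let ζ' : ↥(IntermediateField.adjoin F {ζ}) := ⟨ζ, IntermediateField.mem_adjoin_simple_self F ζ⟩
  have hζ' : IsPrimitiveRoot ζ' m :=
    IsPrimitiveRoot.of_map_of_injective (f := algebraMap ↥(IntermediateField.adjoin F {ζ}) N)
      (by exact hζ) (algebraMap ↥(IntermediateField.adjoin F {ζ}) N).injective
  have hμ : IsPrimitiveRoot (ζ' ^ (u : ZMod m).val) m :=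
    hζ'.pow_of_coprime _ (ZMod.val_coe_unit_coprime u)
  have hmin : minpoly F (hζ'.powerBasis F).gen = minpoly F (hμ.powerBasis F).gen := by
    simp only [IsPrimitiveRoot.powerBasis_gen]
    exact (hζ'.minpoly_eq_cyclotomic_of_irreducible hirr).symm.trans
      (hμ.minpoly_eq_cyclotomic_of_irreducible hirr)
  let τ : ↥(IntermediateField.adjoin F {ζ}) ≃ₐ[F] ↥(IntermediateField.adjoin F {ζ}) :=
    (hζ'.powerBasis F).equivOfMinpoly (hμ.powerBasis F) hmin
  have hτ : τ ζ' = ζ' ^ (u : ZMod m).val := by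
    have := (hζ'.powerBasis F).equivOfMinpoly_gen (hμ.powerBasis F) hmin
    simpa only [IsPrimitiveRoot.powerBasis_gen] using this
  refine ⟨τ.liftNormal N, ?_⟩
  have h := τ.liftNormal_commutes N ζ'
  rw [hτ, map_pow] at h
  exact h

end generic

section

variable (p n : ℕ) [hp : Fact p.Prime] (L : Type) [Field L] [NumberField L]

theorem cycGal_adjoin :
    Algebra.adjoin L ({cycZeta p n L} : Set (CycTop p n L)) = ⊤ :=
  IsCyclotomicExtension.adjoin_primitive_root_eq_top (cycZeta_spec p n L)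

instance cycGal_numberField : NumberField (CycTop p n L) :=
  IsCyclotomicExtension.numberField {p ^ (n + 1)} L (CycTop p n L)

theorem cycGal_normal [IsGalois ℚ L] : Normal ℚ (CycTop p n L) :=
  cycGal_normal_generic (F := ℚ) (L := L) (p ^ (n + 1)) (cycZeta p n L) (cycZeta_spec p n L)
    (cycGal_adjoin p n L)

end

/-- **cyc-gal**. -/
theorem stmtCycGalois : StmtCycGalois := by
  intro p n _ L _ _ _
  have _ := cycGal_normal p n L
  exact ⟨⟩

/-- **cyc-chi**. -/
theorem stmtCycChiSurj : StmtCycChiSurj := by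
  intro p n hp L _ _ _
  have _ := cycGal_normal p n L
  intro u
  obtain ⟨σ, hσ⟩ := cycGal_exists_aut (F := ℚ) (p ^ (n + 1)) (cycZeta p n L)
    (cycZeta_spec p n L) (cyclotomic.irreducible_rat (NeZero.pos _)) u
  refine ⟨σ, ?_⟩
  have h1 := (cycZeta_spec p n L).autToPow_spec ℚ σ
  rw [hσ] at h1
  have h2 := (cycZeta_spec p n L).pow_inj (ZMod.val_lt _) (ZMod.val_lt _) h1
  exact Units.ext (ZMod.val_injective _ h2)

/-- **cyc-normal**. -/
theorem stmtCycRNormal : StmtCycRNormal := by
  intro p n hp L _ _ _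
  refine ⟨fun σ hσ τ => ⟨?_, fun x => ?_⟩⟩
  · rw [map_mul, map_mul, mul_comm, ← mul_assoc, map_inv, inv_mul_cancel, one_mul]
    exact hσ.1
  · -- `τ⁻¹ x ∈ L`
    have h1 : τ⁻¹ (algebraMap L (CycTop p n L) x) =
        algebraMap L (CycTop p n L) ((τ⁻¹).restrictNormal L x) :=
      ((τ⁻¹).restrictNormal_commutes L x).symm
    show τ (σ (τ⁻¹ (algebraMap L (CycTop p n L) x))) = _
    rw [h1, hσ.2, ← h1]
    exact τ.apply_symm_apply _

end Fermat.Agent.PT.G3
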