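/-
PT-G3 / cyc, piece cyc-E' (helper67): `stmtCycEPrime_of : StmtCycGalois → StmtCycRNormal →
StmtCycEPrime`.

`E = N^{ker θ}`, `E' := N'^{ker χ} ∋ ζ`.  With `res : Aut(N') ↠ Aut(N)` (kernel `R`) and
`θ ∘ res = lam ∘ χ`, `H := ker (lam ∘ χ)`:
`[E' : E] · |ker χ| = [N' : E] = |ker θ| · |R| = |H|`, so `[E' : E] = |χ(H)|`, and `χ(H)` is killed
by `p - 1`, hence of order prime to `p` (Cauchy).
-/
import Fermat.Agent.PT.G3.CycPlan
import Fermat.Agent.PT.G3.CycGal

set_option autoImplicit false
set_option linter.style.haveILetI false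
set_option linter.unusedSectionVars false

namespace Fermat.Agent.PT.G3

open NumberField IsDedekindDomain

/-! ### group theory -/

section group

variable {G' G A B : Type} [Group G'] [Group G] [Group A] [Group B] [Finite G']

/-- the counting lemma -/
theorem cep_count (res : G' →* G) (hres : Function.Surjective res) (θ : G →* B)
    (χ : G' →* A) (lam : A →* B) (hθ : ∀ σ', θ (res σ') = lam (χ σ'))
    (p k : ℕ) [Fact p.Prime] (hk : ¬ p ∣ k) (hlam : ∀ u, lam u = 1 → u ^ k = 1)
    (d : ℕ) (hd : d * Nat.card χ.ker = Nat.card θ.ker * Nat.card res.ker) : d.Coprime p := by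
  classical
  have : Finite G := Finite.of_surjective res hres
  set H : Subgroup G' := θ.ker.comap res with hH
  -- `|H| = |ker θ| · |ker res|`
  have h1 : Nat.card H * θ.ker.index = Nat.card G' := by
    rw [← Subgroup.index_comap_of_surjective θ.ker hres]
    exact Subgroup.card_mul_index H
  have h2 : Nat.card θ.ker * θ.ker.index = Nat.card G := Subgroup.card_mul_index _
  have h3 : Nat.card res.ker * Nat.card G = Nat.card G' := by
    have := Subgroup.card_mul_index res.ker
    rw [Subgroup.index_ker, MonoidHom.range_eq_top.2 hres, Subgroup.card_top] at this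
    exact this
  have hi : θ.ker.index ≠ 0 := Subgroup.index_ne_zero_of_finite
  have h4 : Nat.card H = Nat.card θ.ker * Nat.card res.ker := by
    apply Nat.eq_of_mul_eq_mul_right (Nat.pos_of_ne_zero hi)
    rw [h1, ← h3, ← h2]
    ring
  -- `χ` restricted to `H`
  set f : ↥H →* A := χ.comp H.subtype with hf
  have hker : χ.ker ≤ H := fun σ hσ => by
    show θ (res σ) = 1
    rw [hθ, MonoidHom.mem_ker.1 hσ, map_one]
  have h5 : Nat.card f.ker = Nat.card χ.ker := by
    have e : f.ker = χ.ker.subgroupOf H := by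
      ext x
      simp [hf, Subgroup.mem_subgroupOf, MonoidHom.mem_ker]
    rw [e]
    exact Nat.card_congr (Subgroup.subgroupOfEquivOfLe hker).toEquiv
  have h6 : Nat.card f.ker * Nat.card f.range = Nat.card H := by
    have := Subgroup.card_mul_index f.ker
    rwa [Subgroup.index_ker] at this
  have hc : Nat.card χ.ker ≠ 0 := Nat.card_pos.ne'
  have h7 : d = Nat.card f.range := by
    apply Nat.eq_of_mul_eq_mul_right (Nat.pos_of_ne_zero hc)
    rw [hd, ← h4, ← h6, h5, mul_comm]
  rw [h7]
  apply Nat.Coprime.symm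
  rw [Nat.Prime.coprime_iff_not_dvd (Fact.out : p.Prime)]
  intro hp
  have : Finite f.range := Finite.of_surjective f.rangeRestrict f.rangeRestrict_surjective
  obtain ⟨x, hx⟩ := exists_prime_orderOf_dvd_card' (G := f.range) p hp
  apply hk
  rw [← hx]
  apply orderOf_dvd_of_pow_eq_one
  obtain ⟨⟨_, σ, rfl⟩, rfl⟩ : ∃ y : f.range, y = x := ⟨x, rfl⟩
  apply Subtype.ext
  show (f σ) ^ k = 1
  apply hlam
  show lam (χ (σ : G')) = 1
  rw [← hθ]
  exact σ.2

end group

/-! ### Galois theory (generic base field) -/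

section field

open IntermediateField

variable {F N' : Type} [Field F] [Field N'] [Algebra F N'] [FiniteDimensional F N']
  [IsGalois F N'] (R : Subgroup (N' ≃ₐ[F] N')) [R.Normal]
  {A B : Type} [Group A] [Group B]
  (χ : (N' ≃ₐ[F] N') →* A) (lam : A →* B)
  (θ : (↥(fixedField R) ≃ₐ[F] ↥(fixedField R)) →* B)

/-- the restriction `Aut(N') → Aut(N)`, `N = N'^R` -/
noncomputable def cepRes : (N' ≃ₐ[F] N') →* (↥(fixedField R) ≃ₐ[F] ↥(fixedField R)) :=
  AlgEquiv.restrictNormalHom (F := F) (K₁ := N') ↥(fixedField R)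

lemma cepRes_apply (σ' : N' ≃ₐ[F] N') (x : ↥(fixedField R)) :
    ((cepRes R σ' x : ↥(fixedField R)) : N') = σ' (x : N') :=
  AlgEquiv.restrictNormalHom_apply (fixedField R) σ' x

lemma cepRes_surjective : Function.Surjective (cepRes R) :=
  AlgEquiv.restrictNormalHom_surjective N'

lemma cepRes_ker : (cepRes R).ker = R :=
  (fixedField R).restrictNormalHom_ker.trans (fixingSubgroup_fixedField R)

variable {R χ lam θ}

lemma cep_mem
    (hθ : ∀ (σ' : N' ≃ₐ[F] N') (σ : ↥(fixedField R) ≃ₐ[F] ↥(fixedField R)),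
      (∀ x : ↥(fixedField R), σ' (x : N') = ((σ x : ↥(fixedField R)) : N')) →
      θ σ = lam (χ σ'))
    (x : ↥(fixedField θ.ker)) : ((x : ↥(fixedField R)) : N') ∈ fixedField χ.ker := by
  rw [IntermediateField.mem_fixedField_iff]
  intro σ' hσ'
  have h1 : cepRes R σ' ∈ θ.ker := by
    rw [MonoidHom.mem_ker, hθ σ' (cepRes R σ') (fun y => (cepRes_apply R σ' y).symm),
      MonoidHom.mem_ker.1 hσ', map_one]
  have h2 := (IntermediateField.mem_fixedField_iff _ _).1 x.2 _ h1
  rw [← cepRes_apply, h2]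

/-- the inclusion `E = N^{ker θ} → E' = N'^{ker χ}` -/
noncomputable def cepIncl
    (hθ : ∀ (σ' : N' ≃ₐ[F] N') (σ : ↥(fixedField R) ≃ₐ[F] ↥(fixedField R)),
      (∀ x : ↥(fixedField R), σ' (x : N') = ((σ x : ↥(fixedField R)) : N')) →
      θ σ = lam (χ σ')) :
    ↥(fixedField θ.ker) →+* ↥(fixedField χ.ker) where
  toFun x := ⟨((x : ↥(fixedField R)) : N'), cep_mem hθ x⟩
  map_one' := rfl
  map_mul' _ _ := rfl
  map_zero' := rfl
  map_add' _ _ := rfl

theorem cep_coprime
    (hθ : ∀ (σ' : N' ≃ₐ[F] N') (σ : ↥(fixedField R) ≃ₐ[F] ↥(fixedField R)),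
      (∀ x : ↥(fixedField R), σ' (x : N') = ((σ x : ↥(fixedField R)) : N')) →
      θ σ = lam (χ σ'))
    (p k : ℕ) [Fact p.Prime] (hk : ¬ p ∣ k) (hlam : ∀ u, lam u = 1 → u ^ k = 1) :
    (@Module.finrank ↥(fixedField θ.ker) ↥(fixedField χ.ker) _ _
      (cepIncl hθ).toAlgebra.toModule).Coprime p := by
  letI a0 : Algebra ↥(fixedField θ.ker) ↥(fixedField χ.ker) := (cepIncl hθ).toAlgebra
  letI a1 : Algebra ↥(fixedField θ.ker) N' :=
    ((algebraMap ↥(fixedField R) N').comp
      (algebraMap ↥(fixedField θ.ker) ↥(fixedField R))).toAlgebra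
  haveI t1 : IsScalarTower ↥(fixedField θ.ker) ↥(fixedField R) N' :=
    IsScalarTower.of_algebraMap_eq (fun _ => rfl)
  haveI t2 : IsScalarTower ↥(fixedField θ.ker) ↥(fixedField χ.ker) N' :=
    IsScalarTower.of_algebraMap_eq (fun _ => rfl)
  have e1 := Module.finrank_mul_finrank ↥(fixedField θ.ker) ↥(fixedField R) N'
  have e2 := Module.finrank_mul_finrank ↥(fixedField θ.ker) ↥(fixedField χ.ker) N'
  rw [finrank_fixedField_eq_card, finrank_fixedField_eq_card] at e1
  rw [finrank_fixedField_eq_card] at e2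
  refine cep_count (cepRes R) (cepRes_surjective R) θ χ lam
    (fun σ' => hθ σ' _ (fun y => (cepRes_apply R σ' y).symm)) p k hk hlam _ ?_
  rw [e2, ← e1, cepRes_ker]

end field

/-! ### the statement -/

/-- **cyc-E'**. -/
theorem stmtCycEPrime_of (hG : StmtCycGalois) (hN : StmtCycRNormal) : StmtCycEPrime := by
  intro p n _ L _ _ _ lam hlam θ hθ
  haveI := hG p n L
  haveI := hN p n L
  have hp2 : 2 ≤ p := (Fact.out : p.Prime).two_le
  have hk : ¬ p ∣ (p - 1) := fun h => by
    have := Nat.le_of_dvd (by omega) h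
    omega
  refine ⟨↥(IntermediateField.fixedField (cycChi p n L).ker), inferInstance, inferInstance,
    (cepIncl (R := cycR p n L) (χ := cycChi p n L) (lam := lam) (θ := θ) hθ).toAlgebra, ?_, ?_⟩
  · exact cep_coprime (R := cycR p n L) (χ := cycChi p n L) (lam := lam) (θ := θ) hθ p (p - 1) hk
      (fun u hu => (hlam u).1 hu)
  · have hζ : cycZeta p n L ∈ IntermediateField.fixedField (cycChi p n L).ker := by
      rw [IntermediateField.mem_fixedField_iff]
      intro σ' hσ'
      have h1 := (cycZeta_spec p n L).autToPow_spec ℚ σ'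
      have h2 : (cycZeta_spec p n L).autToPow ℚ σ' = 1 := MonoidHom.mem_ker.1 hσ'
      rw [h2, Units.val_one, ZMod.val_one_eq_one_mod, Nat.mod_eq_of_lt, pow_one] at h1
      · exact h1.symm
      · exact Nat.one_lt_pow (by omega) (by omega)
    have hζ' : IsPrimitiveRoot (⟨cycZeta p n L, hζ⟩ :
        ↥(IntermediateField.fixedField (cycChi p n L).ker)) (p ^ (n + 1)) :=
      IsPrimitiveRoot.of_map_of_injective
        (f := (IntermediateField.fixedField (cycChi p n L).ker).val)
        (cycZeta_spec p n L)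
        (IntermediateField.fixedField (cycChi p n L).ker).val.injective
    exact ⟨hζ'.toInteger, hζ'.toInteger_isPrimitiveRoot⟩

/-- **cyc-E'**, unconditional. -/
theorem stmtCycEPrime : StmtCycEPrime := stmtCycEPrime_of stmtCycGalois stmtCycRNormal

end Fermat.Agent.PT.G3
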