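/-
PT-G3, piece `cyc-ext` (helper75): automorphisms of `N = N'^R` extend to `N'`, automorphisms of
`N'` restrict to `N` (`R` normal), two extensions differ by an element of `R`.
-/
import Fermat.Agent.PT.G3.CycPlan

set_option autoImplicit false

namespace Fermat.Agent.PT.G3

open NumberField IsDedekindDomain
open Fermat.Agent.PT Fermat.Agent.PT.G Fermat.Agent.PT.G1

section

variable (p n : ℕ) [hp : Fact p.Prime] (L : Type) [Field L] [NumberField L]

theorem cycExt_fixing :
    (IntermediateField.fixedField (cycR p n L)).fixingSubgroup = cycR p n L :=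
  IntermediateField.fixingSubgroup_fixedField _

/-- two extensions of the same automorphism differ by an element of `R`. -/
theorem cycExt_diff (σ : CycN p n L ≃ₐ[ℚ] CycN p n L)
    (σ' σ'' : CycTop p n L ≃ₐ[ℚ] CycTop p n L)
    (h1 : CycExtends p n L σ' σ) (h2 : CycExtends p n L σ'' σ) :
    σ'⁻¹ * σ'' ∈ cycR p n L := by
  rw [← cycExt_fixing, IntermediateField.mem_fixingSubgroup_iff]
  intro x hx
  have e1 := h1 ⟨x, hx⟩
  have e2 := h2 ⟨x, hx⟩
  show σ'⁻¹ (σ'' x) = x
  have e3 : σ'' x = σ' x := by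
    simpa using e2.trans e1.symm
  rw [e3]
  exact σ'.symm_apply_apply x

/-- `σ'` maps `N` into `N` (`R` normal). -/
theorem cycExt_mem (hR : (cycR p n L).Normal) (σ' : CycTop p n L ≃ₐ[ℚ] CycTop p n L)
    (x : CycTop p n L) (hx : x ∈ IntermediateField.fixedField (cycR p n L)) :
    σ' x ∈ IntermediateField.fixedField (cycR p n L) := by
  intro τ
  have h1 : σ'⁻¹ * (τ : CycTop p n L ≃ₐ[ℚ] CycTop p n L) * σ' ∈ cycR p n L := by
    have := hR.conj_mem _ τ.2 σ'⁻¹
    rwa [inv_inv] at this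
  have h2 := hx ⟨_, h1⟩
  have h3 : σ'⁻¹ ((τ : CycTop p n L ≃ₐ[ℚ] CycTop p n L) (σ' x)) = x := h2
  have h4 := congrArg σ' h3
  rw [show σ' (σ'⁻¹ ((τ : CycTop p n L ≃ₐ[ℚ] CycTop p n L) (σ' x))) =
    (τ : CycTop p n L ≃ₐ[ℚ] CycTop p n L) (σ' x) from σ'.apply_symm_apply _] at h4
  exact h4

/-- the restriction of `σ'` to `N`. -/
noncomputable def cycExtRestrict (hR : (cycR p n L).Normal)
    (σ' : CycTop p n L ≃ₐ[ℚ] CycTop p n L) : CycN p n L ≃ₐ[ℚ] CycN p n L :=
  AlgEquiv.ofRingEquiv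
    (f := { toFun := fun x => ⟨σ' x.1, cycExt_mem p n L hR σ' x.1 x.2⟩
            invFun := fun x => ⟨σ'⁻¹ x.1, cycExt_mem p n L hR σ'⁻¹ x.1 x.2⟩
            left_inv := fun x => Subtype.ext (σ'.symm_apply_apply x.1)
            right_inv := fun x => Subtype.ext (σ'.apply_symm_apply x.1)
            map_mul' := fun x y => Subtype.ext (map_mul σ' x.1 y.1)
            map_add' := fun x y => Subtype.ext (map_add σ' x.1 y.1) })
    (fun r => by
      rw [eq_ratCast]
      exact map_ratCast _ r)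

theorem cycExt_restrict_spec (hR : (cycR p n L).Normal)
    (σ' : CycTop p n L ≃ₐ[ℚ] CycTop p n L) :
    CycExtends p n L σ' (cycExtRestrict p n L hR σ') :=
  fun _ => rfl

/-- the extension of `σ` to `N'`. -/
theorem cycExt_lift [Normal ℚ (CycTop p n L)] (σ : CycN p n L ≃ₐ[ℚ] CycN p n L) :
    ∃ σ', CycExtends p n L σ' σ :=
  ⟨σ.liftNormal (CycTop p n L), fun x => σ.liftNormal_commutes (CycTop p n L) x⟩

end

/-- **cyc-ext** from cyc-gal and cyc-normal. -/
theorem stmtCycExt_of (hG : StmtCycGalois) (hN : StmtCycRNormal) : StmtCycExt := by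
  intro p n _ L _ _ _
  have : IsGalois ℚ (CycTop p n L) := hG p n L
  have hR := hN p n L
  exact ⟨fun σ => cycExt_lift p n L σ,
    fun σ' => ⟨cycExtRestrict p n L hR σ', cycExt_restrict_spec p n L hR σ'⟩,
    fun σ σ' σ'' h1 h2 => cycExt_diff p n L σ σ' σ'' h1 h2⟩

end Fermat.Agent.PT.G3
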