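/-
PT-G3, piece `cyc-lam` (helper1): for `p` odd there is a surjective homomorphism
`lam : (ℤ/p^(n+1))ˣ → ℤ/p^n` whose kernel is the `(p-1)`-torsion.

Pure finite group theory: `(ℤ/p^(n+1))ˣ` is cyclic of order `p^n (p-1)`; `lam` is the discrete
logarithm followed by the reduction `ℤ/(p^n (p-1)) → ℤ/p^n`.
-/
import Fermat.Agent.PT.G3.CycPlan

set_option autoImplicit false

namespace Fermat.Agent.PT.G3

/-- abstract form: a finite cyclic group of order `a * b` surjects onto `ℤ/a` with kernel the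
`b`-torsion. -/
theorem cycLam_abstract (G : Type) [CommGroup G] [IsCyclic G] [Finite G] (a b : ℕ) [NeZero a]
    (hcard : Nat.card G = a * b) :
    ∃ lam : G →* Multiplicative (ZMod a),
      Function.Surjective lam ∧ ∀ u, lam u = 1 ↔ u ^ b = 1 := by
  classical
  have hb : b ≠ 0 := by
    rintro rfl
    rw [mul_zero] at hcard
    exact (Nat.card_pos (α := G)).ne' hcard
  have : NeZero (Nat.card G) := ⟨(Nat.card_pos (α := G)).ne'⟩
  -- the discrete logarithm
  let e : Multiplicative (ZMod (Nat.card G)) ≃* G := zmodCyclicMulEquiv (inferInstance : IsCyclic G)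
  have hdvd : a ∣ Nat.card G := ⟨b, hcard⟩
  let c : ZMod (Nat.card G) →+ ZMod a := (ZMod.castHom hdvd (ZMod a)).toAddMonoidHom
  let lam : G →* Multiplicative (ZMod a) :=
    (AddMonoidHom.toMultiplicative c).comp e.symm.toMonoidHom
  refine ⟨lam, ?_, ?_⟩
  · intro y
    obtain ⟨x, hx⟩ := ZMod.castHom_surjective hdvd (Multiplicative.toAdd y)
    refine ⟨e (Multiplicative.ofAdd x), ?_⟩
    show Multiplicative.ofAdd (c (Multiplicative.toAdd (e.symm (e (Multiplicative.ofAdd x))))) = y
    rw [MulEquiv.symm_apply_apply]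
    show Multiplicative.ofAdd (ZMod.castHom hdvd (ZMod a) x) = y
    rw [hx]; rfl
  · intro u
    obtain ⟨x, rfl⟩ := e.surjective u
    have h1 : lam (e x) =
        Multiplicative.ofAdd (ZMod.castHom hdvd (ZMod a) (Multiplicative.toAdd x)) := by
      show Multiplicative.ofAdd (c (Multiplicative.toAdd (e.symm (e x)))) = _
      rw [MulEquiv.symm_apply_apply]; rfl
    rw [h1]
    have h2 : (e x) ^ b = 1 ↔ x ^ b = 1 := by
      rw [← map_pow]
      constructor
      · intro h
        have := congrArg e.symm h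
        rwa [MulEquiv.symm_apply_apply, map_one] at this
      · intro h; rw [h, map_one]
    rw [h2]
    -- now everything is in `ZMod (card G)`
    obtain ⟨k, rfl⟩ : ∃ k : ℕ, x = Multiplicative.ofAdd ((k : ℕ) : ZMod (Nat.card G)) := by
      refine ⟨(Multiplicative.toAdd x).val, ?_⟩
      rw [ZMod.natCast_zmod_val]; rfl
    have h3 : (Multiplicative.ofAdd ((k : ℕ) : ZMod (Nat.card G))) ^ b = 1 ↔
        (Nat.card G) ∣ b * k := by
      rw [← ofAdd_nsmul, ofAdd_eq_one, nsmul_eq_mul, ← Nat.cast_mul,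
        ZMod.natCast_eq_zero_iff]
    rw [h3]
    have h4 : Multiplicative.ofAdd (ZMod.castHom hdvd (ZMod a)
        (Multiplicative.toAdd (Multiplicative.ofAdd ((k : ℕ) : ZMod (Nat.card G))))) = 1 ↔
          a ∣ k := by
      rw [ofAdd_eq_one, toAdd_ofAdd, map_natCast, ZMod.natCast_eq_zero_iff]
    rw [h4, hcard]
    constructor
    · intro h
      rw [mul_comm a b]
      exact Nat.mul_dvd_mul_left b h
    · intro h
      rw [mul_comm a b] at h
      exact (Nat.mul_dvd_mul_iff_left (Nat.pos_of_ne_zero hb)).mp h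

/-- the order of `(ℤ/p^(n+1))ˣ`. -/
theorem cycLam_card (p n : ℕ) [hp : Fact p.Prime] :
    Nat.card (ZMod (p ^ (n + 1)))ˣ = p ^ n * (p - 1) := by
  rw [Nat.card_eq_fintype_card, ZMod.card_units_eq_totient, Nat.totient_prime_pow_succ hp.out]

/-- **cyc-lam**. -/
theorem stmtCycLambda : StmtCycLambda := by
  intro p n hp hp2
  haveI : IsCyclic (ZMod (p ^ (n + 1)))ˣ := ZMod.isCyclic_units_of_prime_pow p hp.out hp2 (n + 1)
  haveI : NeZero (p ^ n) := ⟨pow_ne_zero _ hp.out.ne_zero⟩
  exact cycLam_abstract (ZMod (p ^ (n + 1)))ˣ (p ^ n) (p - 1) (cycLam_card p n)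

end Fermat.Agent.PT.G3
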