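/-
PT-G3, piece `cyc-theta` (helper75): `θ := lam ∘ χ ∘ (extension)` on `Aut(N)`.
-/
import Fermat.Agent.PT.G3.CycPlan

set_option autoImplicit false

namespace Fermat.Agent.PT.G3

open NumberField IsDedekindDomain
open Fermat.Agent.PT Fermat.Agent.PT.G Fermat.Agent.PT.G1

section

variable (p n : ℕ) [hp : Fact p.Prime] (L : Type) [Field L] [NumberField L]

theorem cycTheta_extends_one : CycExtends p n L 1 1 := fun _ => rfl

theorem cycTheta_extends_mul {σ₁' σ₂' : CycTop p n L ≃ₐ[ℚ] CycTop p n L}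
    {σ₁ σ₂ : CycN p n L ≃ₐ[ℚ] CycN p n L}
    (h1 : CycExtends p n L σ₁' σ₁) (h2 : CycExtends p n L σ₂' σ₂) :
    CycExtends p n L (σ₁' * σ₂') (σ₁ * σ₂) := by
  intro x
  show σ₁' (σ₂' (x : CycTop p n L)) = ((σ₁ (σ₂ x) : CycN p n L) : CycTop p n L)
  rw [h2 x, h1 (σ₂ x)]

/-- `lam ∘ χ` takes the same value on two extensions of the same automorphism. -/
theorem cycTheta_indep (lam : (ZMod (p ^ (n + 1)))ˣ →* Multiplicative (ZMod (p ^ n)))
    (hlam : ∀ u, u ^ (p - 1) = 1 → lam u = 1)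
    (hdiff : ∀ σ (σ' σ'' : CycTop p n L ≃ₐ[ℚ] CycTop p n L), CycExtends p n L σ' σ →
      CycExtends p n L σ'' σ → σ'⁻¹ * σ'' ∈ cycR p n L)
    (σ : CycN p n L ≃ₐ[ℚ] CycN p n L) (σ' σ'' : CycTop p n L ≃ₐ[ℚ] CycTop p n L)
    (h1 : CycExtends p n L σ' σ) (h2 : CycExtends p n L σ'' σ) :
    lam (cycChi p n L σ') = lam (cycChi p n L σ'') := by
  have h := (hdiff σ σ' σ'' h1 h2).1
  have h3 := hlam _ h
  rw [map_mul, map_mul, map_inv, map_inv] at h3
  exact (inv_mul_eq_one.mp h3)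

end

/-- **cyc-theta** from cyc-ext. -/
theorem stmtCycTheta_of (hE : StmtCycExt) : StmtCycTheta := by
  intro p n _ L _ _ _ lam hlam
  obtain ⟨hext, -, hdiff⟩ := hE p n L
  choose ext hextspec using hext
  have key : ∀ σ' σ, CycExtends p n L σ' σ →
      lam (cycChi p n L (ext σ)) = lam (cycChi p n L σ') := fun σ' σ h =>
    cycTheta_indep p n L lam hlam hdiff σ (ext σ) σ' (hextspec σ) h
  refine ⟨{ toFun := fun σ => lam (cycChi p n L (ext σ))
            map_one' := ?_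
            map_mul' := ?_ }, fun σ' σ h => key σ' σ h⟩
  · rw [key 1 1 (cycTheta_extends_one p n L), map_one, map_one]
  · intro σ τ
    rw [key (ext σ * ext τ) (σ * τ) (cycTheta_extends_mul p n L (hextspec σ) (hextspec τ)),
      map_mul, map_mul]

end Fermat.Agent.PT.G3
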