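/-
PT-G3, piece **cyc-unram** (helper26): the cyclotomic top field `N' = L(ζ)`, `ζ` a primitive
`p^(n+1)`-th root of unity, is unramified over `ℚ` outside `S ∋ p` if `L / ℚ` is
(`stmtCycUnramTop_of : StmtCycGalois → StmtCycUnramTop`).

Route: `e(P' | ℚ) = |I_{P'}|` (`G.uo_card_inertia`, `N' / ℚ` Galois).  An element `σ` of the inertia
group `I_{P'}`, `P' ∤ S`, fixes `ζ` (roots of unity of order `p^(n+1)` are distinct modulo `P'`,
`symCheb_root_eq_of_sub_mem`), and its restriction to `L` lies in the inertia group of `P' ∩ L`,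
which is trivial since `L / ℚ` is unramified at `P' ∩ L`.  As `N' = L(ζ)`, `σ = 1`.
-/
import Fermat.Agent.PT.G3.CycPlan
import Fermat.Agent.PT.G3.SymbolCheb
import Fermat.Agent.PT.G.UnramOff

set_option autoImplicit false
set_option linter.unusedSectionVars false
set_option linter.style.haveILetI false

namespace Fermat.Agent.PT.G3

open NumberField IsDedekindDomain
open Fermat.Agent.PT Fermat.Agent.PT.G Fermat.Agent.PT.G1

section

variable {K L : Type} [Field K] [NumberField K] [Field L] [NumberField L] [Algebra K L]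

/-- A prime off `S` does not contain a power of a prime of `S`. -/
theorem cu_pow_notMem (S : Finset Nat.Primes) {q : Nat.Primes} (hq : q ∈ S) (k : ℕ)
    (P : OffS S L) : (((q : ℕ) ^ k : ℕ) : 𝓞 L) ∉ P.1.asIdeal := by
  obtain ⟨P, hP⟩ := P
  show (((q : ℕ) ^ k : ℕ) : 𝓞 L) ∉ P.asIdeal
  intro hmem
  haveI := P.isPrime
  rw [Nat.cast_pow] at hmem
  have hqP : (((q : ℕ) : ℕ) : 𝓞 L) ∈ P.asIdeal := P.isPrime.mem_of_pow_mem _ hmem
  apply hP
  obtain ⟨c, hc⟩ : (q : ℕ) ∣ sProd S := Finset.dvd_prod_of_mem (fun q : Nat.Primes => (q : ℕ)) hq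
  rw [hc, Nat.cast_mul]
  exact P.asIdeal.mul_mem_right _ hqP

/-- If `L / K` is Galois and `e(P | P ∩ K) = 1`, the inertia group of `P` is trivial. -/
theorem cu_inertia_eq_bot [IsGalois K L] (P : HeightOneSpectrum (𝓞 L)) (h : ramIdx K P = 1)
    (τ : L ≃ₐ[K] L) (hτ : τ ∈ P.asIdeal.inertia (L ≃ₐ[K] L)) : τ = 1 := by
  have hcard : Nat.card (P.asIdeal.inertia (L ≃ₐ[K] L)) = 1 := by
    rw [uo_card_inertia (K := K) P, h]
  haveI : Subsingleton (P.asIdeal.inertia (L ≃ₐ[K] L)) :=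
    (Nat.card_eq_one_iff_unique.mp hcard).1
  have := Subsingleton.elim (⟨τ, hτ⟩ : P.asIdeal.inertia (L ≃ₐ[K] L)) 1
  exact congrArg Subtype.val this

/-- If the inertia group of `P` is trivial (`L / K` Galois), then `e(P | P ∩ K) = 1`. -/
theorem cu_ramIdx_eq_one [IsGalois K L] (P : HeightOneSpectrum (𝓞 L))
    (h : ∀ τ : L ≃ₐ[K] L, τ ∈ P.asIdeal.inertia (L ≃ₐ[K] L) → τ = 1) : ramIdx K P = 1 := by
  rw [← uo_card_inertia (K := K) P]
  haveI : Subsingleton (P.asIdeal.inertia (L ≃ₐ[K] L)) :=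
    ⟨fun a b => Subtype.ext ((h a.1 a.2).trans (h b.1 b.2).symm)⟩
  exact Nat.card_unique

end

/-- **cyc-unram**, given cyc-gal. -/
theorem stmtCycUnramTop_of (hgal : StmtCycGalois) : StmtCycUnramTop := by
  intro p n hp S hpS L _ _ _ hL P'
  haveI : IsGalois ℚ (CycTop p n L) := hgal p n L
  refine cu_ramIdx_eq_one (K := ℚ) P'.1 fun σ hσ => ?_
  have hσ' : ∀ x : 𝓞 (CycTop p n L), σ • x - x ∈ P'.1.asIdeal := hσ
  -- `σ` fixes `ζ`
  have hζ := cycZeta_spec p n L
  have hmQ : ((p ^ (n + 1) : ℕ) : 𝓞 (CycTop p n L)) ∉ P'.1.asIdeal :=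
    cu_pow_notMem S hpS (n + 1) P'
  have hζ1 : (hζ.toInteger : 𝓞 (CycTop p n L)) ^ (p ^ (n + 1)) = 1 :=
    hζ.toInteger_isPrimitiveRoot.pow_eq_one
  have hζ2 : (σ • (hζ.toInteger : 𝓞 (CycTop p n L))) ^ (p ^ (n + 1)) = 1 := by
    rw [← smul_pow', hζ1, smul_one]
  have hζ3 := symCheb_root_eq_of_sub_mem hmQ hζ2 hζ1 (hσ' hζ.toInteger)
  have hζfix : σ (cycZeta p n L) = cycZeta p n L :=
    congrArg (fun x : 𝓞 (CycTop p n L) => (x : CycTop p n L)) hζ3
  -- `σ` fixes `L`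
  have hLfix : ∀ x : L, σ (algebraMap L (CycTop p n L) x) = algebraMap L (CycTop p n L) x := by
    have hτ : σ.restrictNormal L = 1 := by
      refine cu_inertia_eq_bot (K := ℚ) (primeUnder L P'.1) (hL (offUnder S L P')) _ ?_
      intro y
      show (σ.restrictNormal L) • y - y ∈ (primeUnder L P'.1).asIdeal
      rw [mem_primeUnder]
      have h1 := hσ' (algebraMap (𝓞 L) (𝓞 (CycTop p n L)) y)
      have h2 : algebraMap (𝓞 L) (𝓞 (CycTop p n L)) ((σ.restrictNormal L) • y - y) =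
          σ • (algebraMap (𝓞 L) (𝓞 (CycTop p n L)) y) -
            algebraMap (𝓞 L) (𝓞 (CycTop p n L)) y := by
        rw [map_sub]
        congr 1
        apply RingOfIntegers.ext
        exact AlgEquiv.restrictNormal_commutes σ L (y : L)
      rw [h2]
      exact h1
    intro x
    rw [← AlgEquiv.restrictNormal_commutes σ L x, hτ]
    rfl
  -- `N' = L(ζ)`
  have htop : Algebra.adjoin L {cycZeta p n L} = ⊤ :=
    IsCyclotomicExtension.adjoin_primitive_root_eq_top (n := p ^ (n + 1)) hζ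
  let φ₁ : CycTop p n L →ₐ[L] CycTop p n L :=
    { (σ : CycTop p n L →+* CycTop p n L) with commutes' := hLfix }
  have hφ : φ₁ = AlgHom.id L (CycTop p n L) := by
    refine AlgHom.ext_of_adjoin_eq_top htop ?_
    intro x hx
    rw [Set.mem_singleton_iff] at hx
    subst hx
    exact hζfix
  ext x
  exact congrArg (fun f : CycTop p n L →ₐ[L] CycTop p n L => f x) hφ

end Fermat.Agent.PT.G3
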