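/-
PT-G3, piece `cyc` (sub-captain helper75): `StmtCyc`, UNCONDITIONAL.
Pieces: cyc-gal, cyc-chi, cyc-normal (helper48, CycGal.lean), cyc-unram (helper26, CycUnram.lean),
cyc-lam (helper1, CycLambda.lean), cyc-card (helper60, CycCard.lean), cyc-E' (helper67,
CycEPrime.lean), cyc-ext, cyc-theta, assembly (helper75, CycExt/CycTheta/Cyc.lean).
-/
import Fermat.Agent.PT.G3.Cyc
import Fermat.Agent.PT.G3.CycGal
import Fermat.Agent.PT.G3.CycUnram
import Fermat.Agent.PT.G3.CycLambda
import Fermat.Agent.PT.G3.CycCard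
import Fermat.Agent.PT.G3.CycEPrime
import Fermat.Agent.PT.G3.CycExt
import Fermat.Agent.PT.G3.CycTheta
import Fermat.Agent.PT.G3.MapComp

set_option autoImplicit false

namespace Fermat.Agent.PT.G3

/-- **cyc-ext**, unconditional. -/
theorem stmtCycExt : StmtCycExt := stmtCycExt_of stmtCycGalois stmtCycRNormal

/-- **cyc-theta**, unconditional. -/
theorem stmtCycTheta : StmtCycTheta := stmtCycTheta_of stmtCycExt

/-- **cyc-unram**, unconditional. -/
theorem stmtCycUnramTop : StmtCycUnramTop := stmtCycUnramTop_of stmtCycGalois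

/-- **G3-cyc**: the cyclotomic auxiliary field `N = L·ℚ_n` exists (`CycData`). UNCONDITIONAL. -/
theorem stmtCyc : StmtCyc :=
  stmtCyc_of stmtCycGalois stmtCycChiSurj stmtCycLambda stmtCycRNormal stmtCycUnramTop
    stmtCycExt stmtCycTheta stmtCycCard stmtCycEPrime stmtUnramTower

end Fermat.Agent.PT.G3
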