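import Fermat.Agent.PT.G3.PlanGBLocal
import Fermat.Agent.PT.G3.GBCarryNZ

/-!
# PT-GB / carryNZ' (helper79): `StmtCarryNZOfPsi` in the shape of PlanGBLocal.lean
-/

set_option autoImplicit false

namespace Fermat.Agent.PT.G3

/-- **gb-carrynz'**: `StmtCarryNZ` from `StmtGBPsi` (`StmtUnramTower` is landed and used
inside `stmtCarryNZ_of`). -/
theorem stmtCarryNZOfPsi : StmtCarryNZOfPsi := fun hPsi _ => stmtCarryNZ_of hPsi

end Fermat.Agent.PT.G3
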