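/-
PT-GB, piece carryOfNorm (helper11): the easy direction of periodicity, over the cosets of
`ker θ`.  `stmtCarryOfNorm : StmtCarryOfNorm`.

If `d` is fixed by `ker θ` and `a = Σ_{t ∈ G/ker θ} t • d`, the carry cocycle of `a` is the
coboundary of `φ(g) = Σ_{t, idx t < idx g} t • d`.
-/
import Fermat.Agent.PT.G3.PlanGB

set_option autoImplicit false
set_option linter.style.haveILetI false
set_option linter.unusedSectionVars false

noncomputable section

namespace Fermat.Agent.PT.G3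

open CategoryTheory groupCohomology

section

variable {G : Type} [Group G] (m : ℕ) (θ : G →* Multiplicative (ZMod m))

/-- the homomorphism induced by `θ` on `G ⧸ ker θ` -/
def carryOfNorm_bar : G ⧸ θ.ker →* Multiplicative (ZMod m) :=
  QuotientGroup.kerLift θ

@[simp] lemma carryOfNorm_bar_mk (g : G) :
    carryOfNorm_bar m θ (g : G ⧸ θ.ker) = θ g := rfl

lemma carryOfNorm_idx_mk (g : G) :
    cmpIdx m (carryOfNorm_bar m θ) (g : G ⧸ θ.ker) = cmpIdx m θ g := rfl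

variable (C : Rep.{0} ℤ G) (d : C.V)

/-- `t ↦ t • d` on the cosets of `ker θ` -/
def carryOfNorm_F (t : G ⧸ θ.ker) : C.V := C.ρ (Quotient.out t : G) d

variable {m θ C d}

lemma carryOfNorm_F_mk (hd : ∀ g ∈ θ.ker, C.ρ g d = d) (g : G) :
    carryOfNorm_F m θ C d (g : G ⧸ θ.ker) = C.ρ g d := by
  unfold carryOfNorm_F
  have h1 : (g⁻¹ * (Quotient.out (g : G ⧸ θ.ker) : G)) ∈ θ.ker := by
    have := QuotientGroup.out_eq' (g : G ⧸ θ.ker)
    exact QuotientGroup.leftRel_apply.mp (Quotient.exact' this.symm)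
  have h2 : (Quotient.out (g : G ⧸ θ.ker) : G) = g * (g⁻¹ * Quotient.out (g : G ⧸ θ.ker)) := by
    group
  rw [h2, map_mul]
  show C.ρ g (C.ρ _ d) = _
  rw [hd _ h1]

lemma carryOfNorm_ρ_F (hd : ∀ g ∈ θ.ker, C.ρ g d = d) (g : G) (t : G ⧸ θ.ker) :
    C.ρ g (carryOfNorm_F m θ C d t) = carryOfNorm_F m θ C d ((g : G ⧸ θ.ker) * t) := by
  induction t using QuotientGroup.induction_on with
  | H x =>
    rw [carryOfNorm_F_mk hd, ← QuotientGroup.mk_mul, carryOfNorm_F_mk hd, map_mul]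
    rfl

end

/-- **carryOfNorm**. -/
theorem stmtCarryOfNorm : StmtCarryOfNorm := by
  classical
  intro G _ _ C m _ θ d hd
  haveI : Fintype (G ⧸ θ.ker) := Fintype.ofFinite _
  rw [finsum_eq_sum_of_fintype]
  set θb := carryOfNorm_bar m θ with hθb
  set F := carryOfNorm_F m θ C d with hF
  refine ⟨fun g => ∑ t : G ⧸ θ.ker, if cmpIdx m θb t < cmpIdx m θ g then F t else 0, ?_⟩
  funext ⟨g₁, g₂⟩
  rw [d₁₂_hom_apply, cmpCarry_apply]
  dsimp only
  have h1 : C.ρ g₁ (∑ t : G ⧸ θ.ker, if cmpIdx m θb t < cmpIdx m θ g₂ then F t else 0) =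
      ∑ t : G ⧸ θ.ker,
        if cmpIdx m θb ((g₁ : G ⧸ θ.ker)⁻¹ * t) < cmpIdx m θ g₂ then F t else 0 := by
    rw [map_sum]
    rw [← Equiv.sum_comp (Equiv.mulLeft (g₁ : G ⧸ θ.ker))
      (fun t => if cmpIdx m θb ((g₁ : G ⧸ θ.ker)⁻¹ * t) < cmpIdx m θ g₂ then F t else 0)]
    refine Finset.sum_congr rfl (fun t _ => ?_)
    simp only [Equiv.coe_mulLeft, inv_mul_cancel_left]
    split_ifs
    · exact carryOfNorm_ρ_F hd g₁ t
    · exact map_zero _
  rw [h1]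
  have h4 : (if m ≤ cmpIdx m θ g₁ + cmpIdx m θ g₂ then (∑ t : G ⧸ θ.ker, F t) else 0) =
      ∑ t : G ⧸ θ.ker, if m ≤ cmpIdx m θ g₁ + cmpIdx m θ g₂ then F t else 0 := by
    split_ifs
    · rfl
    · simp
  have h5 : (∑ t : G ⧸ θ.ker, C.ρ (Quotient.out t : G) d) = ∑ t : G ⧸ θ.ker, F t := rfl
  rw [h5, h4, ← Finset.sum_sub_distrib, ← Finset.sum_add_distrib]
  refine Finset.sum_congr rfl (fun t _ => ?_)
  have hx := cmpIdx_lt m θ g₁
  have hy := cmpIdx_lt m θ g₂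
  have hv := cmpIdx_lt m θb t
  have hw := cmpIdx_lt m θb ((g₁ : G ⧸ θ.ker)⁻¹ * t)
  have hmul := cmpIdx_mul m θb (g₁ : G ⧸ θ.ker) ((g₁ : G ⧸ θ.ker)⁻¹ * t)
  rw [mul_inv_cancel_left, carryOfNorm_idx_mk] at hmul
  have hmul2 := cmpIdx_mul m θ g₁ g₂
  rw [hmul2]
  split_ifs at hmul ⊢ <;> first | (exfalso; omega) | simp

end Fermat.Agent.PT.G3

end
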