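/-
PT-GB, piece `cycDec` (helper75): the cyclotomic auxiliary field `N = L·ℚ_n` of `StmtCyc` has
`HasDec`: on the decomposition group of a maximal ideal of `ℚ_q ⊗ N`, `q ≠ p`, the character
`θ = lam ∘ χ` takes values in the group generated by `lam [q]`.

* `cycDec_frob`   : a ring endomorphism stabilising a maximal ideal with finite residue field of
                    characteristic `q` acts on the residue field as a power of the Frobenius;
* `cycDec_root`   : an automorphism stabilising a prime over `q ≠ p` raises `ζ_{p^m}` to a power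
                    of `q`;
* `cycDec_adjust` : an extension of `σ` can be modified by `Gal(M/K)` to stabilise a prime over `P`;
* `cycDec_key`, `stmtCycDec`.
-/
import Fermat.Agent.PT.G3.PlanGBLocal
import Fermat.Agent.PT.G3.SymbolCheb
import Fermat.Agent.PT.G3.CycFinal
import Fermat.Agent.PT.G1.MaxSpecCount

set_option autoImplicit false

namespace Fermat.Agent.PT.G3

open NumberField IsDedekindDomain
open Fermat.Agent.PT Fermat.Agent.PT.G Fermat.Agent.PT.G1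
open scoped Pointwise

/-- A ring endomorphism of `B` stabilising a maximal ideal `Q` with finite residue field of
characteristic `q` acts on `B ⧸ Q` as a power of the Frobenius. -/
theorem cycDec_frob {B : Type*} [CommRing B] (Q : Ideal B) [hQ : Q.IsMaximal] [Finite (B ⧸ Q)]
    (q : ℕ) [hq : Fact q.Prime] (hqQ : (q : B) ∈ Q) (f : B →+* B) (hf : ∀ x ∈ Q, f x ∈ Q) :
    ∃ j : ℕ, ∀ x : B, f x - x ^ (q ^ j) ∈ Q := by
  letI : Field (B ⧸ Q) := Ideal.Quotient.field Q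
  have : CharP (B ⧸ Q) q := by
    have h0 : ((q : ℕ) : B ⧸ Q) = 0 := by
      have := Ideal.Quotient.eq_zero_iff_mem.mpr hqQ
      simpa using this
    obtain ⟨r, hr⟩ := CharP.exists (B ⧸ Q)
    have hdvd : r ∣ q := (CharP.cast_eq_zero_iff (B ⧸ Q) r q).mp h0
    rcases (Nat.dvd_prime hq.out).mp hdvd with h1 | h1
    · exact absurd h1 (CharP.char_ne_one (B ⧸ Q) r)
    · subst h1; exact hr
  letI : Algebra (ZMod q) (B ⧸ Q) := ZMod.algebra _ q
  let φ0 : (B ⧸ Q) →+* (B ⧸ Q) := Ideal.quotientMap Q f (fun x hx => hf x hx)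
  have hcomm : ∀ r : ZMod q, φ0 (algebraMap (ZMod q) (B ⧸ Q) r) = algebraMap (ZMod q) (B ⧸ Q) r := by
    intro r
    have h : (φ0.comp (algebraMap (ZMod q) (B ⧸ Q))) = algebraMap (ZMod q) (B ⧸ Q) :=
      Subsingleton.elim _ _
    exact DFunLike.congr_fun h r
  let φ : (B ⧸ Q) →ₐ[ZMod q] (B ⧸ Q) := AlgHom.mk φ0 hcomm
  obtain ⟨j, hj⟩ := (FiniteField.bijective_frobeniusAlgHom_pow (ZMod q) (B ⧸ Q)).2 φ
  refine ⟨j.1, fun x => ?_⟩
  have h1 := DFunLike.congr_fun hj (Ideal.Quotient.mk Q x)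
  simp only [AlgHom.coe_pow, FiniteField.coe_frobeniusAlgHom, pow_iterate, ZMod.card] at h1
  rw [← Ideal.Quotient.eq, map_pow]
  exact h1.symm

/-- An automorphism stabilising a prime `Q ∋ q`, `q ≠ p`, raises a `p`-power root of unity to a
power of `q`. -/
theorem cycDec_root (p m : ℕ) [hp : Fact p.Prime] (M : Type) [Field M] [NumberField M]
    (ζ : M) (hζ : IsPrimitiveRoot ζ (p ^ m)) (q : ℕ) [hq : Fact q.Prime] (hqp : q ≠ p)
    (Q : Ideal (𝓞 M)) [hQ : Q.IsPrime] (hqQ : (q : 𝓞 M) ∈ Q)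
    (σ : M ≃ₐ[ℚ] M) (hσ : ∀ x ∈ Q, σ • x ∈ Q) :
    ∃ j : ℕ, σ ζ = ζ ^ (q ^ j) := by
  haveI : NeZero (p ^ m) := ⟨pow_ne_zero _ hp.out.ne_zero⟩
  have hQ0 : Q ≠ ⊥ := by
    rintro rfl
    have h0 : (q : 𝓞 M) = 0 := by simpa using hqQ
    exact hq.out.ne_zero (by exact_mod_cast h0)
  haveI : Q.IsMaximal := hQ.isMaximal hQ0
  haveI : Finite (𝓞 M ⧸ Q) := Ideal.finiteQuotientOfFreeOfNeBot Q hQ0
  obtain ⟨j, hj⟩ := cycDec_frob Q q hqQ
    (MulSemiringAction.toRingHom (M ≃ₐ[ℚ] M) (𝓞 M) σ) hσ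
  refine ⟨j, ?_⟩
  have hpQ : ((p ^ m : ℕ) : 𝓞 M) ∉ Q := by
    intro hmem
    rw [Nat.cast_pow] at hmem
    have hpmem : (p : 𝓞 M) ∈ Q := hQ.mem_of_pow_mem _ hmem
    have hcop : Nat.Coprime p q := (Nat.coprime_primes hp.out hq.out).mpr (Ne.symm hqp)
    obtain ⟨a, b, hab⟩ := Nat.Coprime.isCoprime hcop
    have h1 := congrArg (Int.cast : ℤ → 𝓞 M) hab
    push_cast at h1
    have h2 : (1 : 𝓞 M) ∈ Q := by
      rw [← h1]
      exact Q.add_mem (Q.mul_mem_left _ hpmem) (Q.mul_mem_left _ hqQ)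
    exact hQ.ne_top ((Ideal.eq_top_iff_one Q).mpr h2)
  have hζ' : (hζ.toInteger : 𝓞 M) ^ (p ^ m) = 1 := hζ.toInteger_isPrimitiveRoot.pow_eq_one
  have hx : (MulSemiringAction.toRingHom (M ≃ₐ[ℚ] M) (𝓞 M) σ hζ.toInteger) ^ (p ^ m) = 1 := by
    rw [← map_pow, hζ', map_one]
  have hy : ((hζ.toInteger : 𝓞 M) ^ (q ^ j)) ^ (p ^ m) = 1 := by
    rw [← pow_mul, mul_comm, pow_mul, hζ', one_pow]
  have h := symCheb_root_eq_of_sub_mem hpQ hx hy (hj hζ.toInteger)
  have h2 := congrArg (fun x : 𝓞 M => (x : M)) h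
  have h3 : (((MulSemiringAction.toRingHom (M ≃ₐ[ℚ] M) (𝓞 M) σ) hζ.toInteger : 𝓞 M) : M) = σ ζ :=
    rfl
  have h4 : ((hζ.toInteger ^ (q ^ j) : 𝓞 M) : M) = ζ ^ (q ^ j) :=
    (algebraMap (𝓞 M) M).map_pow _ _
  exact h3.symm.trans (h2.trans h4)

section T

variable (K M : Type) [Field K] [NumberField K] [Field M] [NumberField M] [Algebra K M]
  [IsGalois K M]

/-- An extension `σ'₀` of an automorphism `σ` of `K` stabilising the prime `P` can be modified by
an element of `Gal(M/K)` so that it stabilises a given prime `P'` over `P`. -/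
theorem cycDec_adjust (P : Ideal (𝓞 K)) (P' : Ideal (𝓞 M)) [hP' : P'.IsPrime]
    (hover : P'.under (𝓞 K) = P)
    (σ : K ≃ₐ[ℚ] K) (σ' : M ≃ₐ[ℚ] M) (hres : Restricts σ' σ)
    (hσ : ∀ x ∈ P, ∀ y : 𝓞 K, (y : K) = σ.symm (x : K) → y ∈ P)
    (hσ2 : ∀ x ∈ P, ∀ y : 𝓞 K, (y : K) = σ (x : K) → y ∈ P) :
    ∃ g : M ≃ₐ[K] M, ∀ x ∈ P', (g.restrictScalars ℚ * σ') • x ∈ P' := by
  have hunder : (σ' • P').under (𝓞 K) = P'.under (𝓞 K) := by
    ext x
    rw [Ideal.under_def, Ideal.under_def, Ideal.mem_comap, Ideal.mem_comap,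
      Ideal.mem_pointwise_smul_iff_inv_smul_mem]
    -- σ'⁻¹ • algebraMap x = algebraMap (σ⁻¹ x)
    obtain ⟨y, hy⟩ : ∃ y : 𝓞 K, (y : K) = σ.symm (x : K) :=
      ⟨RingOfIntegers.mapRingEquiv (σ.symm : K ≃+* K) x, rfl⟩
    have hxy : (x : K) = σ (y : K) := by rw [hy]; exact (σ.apply_symm_apply _).symm
    have key : σ'⁻¹ • (algebraMap (𝓞 K) (𝓞 M) x) = algebraMap (𝓞 K) (𝓞 M) y := by
      apply RingOfIntegers.ext
      show σ'⁻¹ (algebraMap K M (x : K)) = algebraMap K M (y : K)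
      rw [hxy, ← hres (y : K)]
      exact σ'.symm_apply_apply _
    rw [key]
    have h1 : algebraMap (𝓞 K) (𝓞 M) y ∈ P' ↔ y ∈ P := by
      rw [← hover, Ideal.under_def, Ideal.mem_comap]
    have h2 : algebraMap (𝓞 K) (𝓞 M) x ∈ P' ↔ x ∈ P := by
      rw [← hover, Ideal.under_def, Ideal.mem_comap]
    rw [h1, h2]
    exact ⟨fun h => hσ2 y h x hxy, fun h => hσ x h y hy⟩
  haveI : (σ' • P').IsPrime := hP'.smul σ'
  obtain ⟨g, hg⟩ := Algebra.IsInvariant.exists_smul_of_under_eq (𝓞 K) (𝓞 M) (M ≃ₐ[K] M)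
    (σ' • P') P' hunder
  refine ⟨g, fun x hx => ?_⟩
  have h1 : (g.restrictScalars ℚ * σ') • x = g • (σ' • x) := by
    apply RingOfIntegers.ext
    rfl
  rw [h1, hg]
  exact Ideal.smul_mem_pointwise_smul _ _ _ (Ideal.smul_mem_pointwise_smul _ _ _ hx)

end T

section key

variable (p n : ℕ) [hp : Fact p.Prime] (L : Type) [Field L] [NumberField L] [IsGalois ℚ L]

/-- the value of the local symbol at `q`: `ψ_q(q) = [q]^(p-1)`. -/
theorem cycDec_psiQ (q : ℕ) [hq : Fact q.Prime] (hqp : q ≠ p) :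
    psiQ p n q (qUnit q) = ZMod.unitOfCoprime q (coprime_pow_of_ne p n hq.out hqp) ^ (p - 1) := by
  rw [psiQ_of_ne p n q hqp]
  show ZMod.unitOfCoprime q (coprime_pow_of_ne p n hq.out hqp) ^
    (((p - 1 : ℕ) : ℤ) * ((qUnit q : ℚ_[q]ˣ) : ℚ_[q]).valuation) = _
  have hv : ((qUnit q : ℚ_[q]ˣ) : ℚ_[q]).valuation = 1 := Padic.valuation_p
  rw [hv, mul_one, zpow_natCast]

/-- **Key step**: on a decomposition group over `q ≠ p`, `θ = lam ∘ χ` takes values in the group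
generated by `lam [q]`. -/
theorem cycDec_key
    (lam : (ZMod (p ^ (n + 1)))ˣ →* Multiplicative (ZMod (p ^ n)))
    (hlam : ∀ u, lam u = 1 ↔ u ^ (p - 1) = 1)
    (θ : (CycN p n L ≃ₐ[ℚ] CycN p n L) →* Multiplicative (ZMod (p ^ n)))
    (hθ : ∀ σ' σ, CycExtends p n L σ' σ → θ σ = lam (cycChi p n L σ'))
    (q : ℕ) [hq : Fact q.Prime] (hqp : q ≠ p) (t : MaximalSpectrum (semiAlg q (CycN p n L)))
    (σ : CycN p n L ≃ₐ[ℚ] CycN p n L) (hσ : σ ∈ sdStab q (CycN p n L) t) :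
    θ σ ^ orderOf (psiQ p n q (qUnit q)) = 1 := by
  haveI : IsGalois ℚ (CycTop p n L) := stmtCycGalois p n L
  -- the prime `P` of `N` attached to `t`
  have hPprime : (mcPhi q t.asIdeal t.isMaximal).IsPrime := mcPhi_isPrime q t.asIdeal t.isMaximal
  have hqP : (q : 𝓞 (CycN p n L)) ∈ mcPhi q t.asIdeal t.isMaximal :=
    q_mem_mcPhi q t.asIdeal t.isMaximal
  have hst := mcPhi_stable q σ t.asIdeal t.isMaximal ((mem_sdStab q _ t σ).1 hσ)
  have hst' := mcPhi_stable q σ⁻¹ t.asIdeal t.isMaximal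
    ((mem_sdStab q _ t σ⁻¹).1 (inv_mem hσ))
  -- an extension of `σ`
  obtain ⟨σ₀, hσ₀⟩ := cycExt_lift p n L σ
  -- a prime `P'` of `N'` over `P`
  obtain ⟨P', hP'⟩ := Ideal.nonempty_primesOver (S := 𝓞 (CycTop p n L))
    (mcPhi q t.asIdeal t.isMaximal)
  haveI hP'prime : P'.IsPrime := hP'.1
  have hover : P'.under (𝓞 (CycN p n L)) = mcPhi q t.asIdeal t.isMaximal := hP'.2.over.symm
  obtain ⟨g, hg⟩ := cycDec_adjust (CycN p n L) (CycTop p n L) (mcPhi q t.asIdeal t.isMaximal) P'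
    hover σ σ₀ (fun x => hσ₀ x)
    (fun x hx y hy => by
      have h := hst' x hx
      have e : y = RingOfIntegers.mapRingEquiv ((σ⁻¹ : CycN p n L ≃ₐ[ℚ] CycN p n L) :
          CycN p n L ≃+* CycN p n L) x := RingOfIntegers.ext hy
      rw [e]; exact h)
    (fun x hx y hy => by
      have h := hst x hx
      have e : y = RingOfIntegers.mapRingEquiv ((σ : CycN p n L ≃ₐ[ℚ] CycN p n L) :
          CycN p n L ≃+* CycN p n L) x := RingOfIntegers.ext hy
      rw [e]; exact h)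
  -- the adjusted extension
  have hext : CycExtends p n L (g.restrictScalars ℚ * σ₀) σ := by
    intro x
    show g (σ₀ (x : CycTop p n L)) = _
    rw [hσ₀ x]
    exact g.commutes (σ x)
  have hqP' : (q : 𝓞 (CycTop p n L)) ∈ P' := by
    have h1 : (q : 𝓞 (CycN p n L)) ∈ P'.under (𝓞 (CycN p n L)) := by rw [hover]; exact hqP
    rw [Ideal.under_def, Ideal.mem_comap, map_natCast] at h1
    exact h1
  obtain ⟨j, hj⟩ := cycDec_root p (n + 1) (CycTop p n L) (cycZeta p n L) (cycZeta_spec p n L)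
    q hqp P' hqP' (g.restrictScalars ℚ * σ₀) hg
  -- the cyclotomic character
  have hχ : cycChi p n L (g.restrictScalars ℚ * σ₀) =
      ZMod.unitOfCoprime q (coprime_pow_of_ne p n hq.out hqp) ^ j := by
    apply Units.ext
    have h1 := (symCheb_apply_eq_pow_iff p n ℚ (CycTop p n L) (cycZeta p n L)
      (cycZeta_spec p n L) (g.restrictScalars ℚ * σ₀) (q ^ j)).mp hj
    rw [Units.val_pow_eq_pow_val, ZMod.coe_unitOfCoprime, ← Nat.cast_pow]
    exact h1
  rw [hθ _ σ hext, hχ, ← map_pow, ← pow_mul, mul_comm, pow_mul, map_pow]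
  have h2 : lam (ZMod.unitOfCoprime q (coprime_pow_of_ne p n hq.out hqp) ^
      orderOf (psiQ p n q (qUnit q))) = 1 := by
    rw [hlam, ← pow_mul, mul_comm, pow_mul, ← cycDec_psiQ p n q hqp]
    exact pow_orderOf_eq_one _
  rw [h2, one_pow]

end key

/-- **gb-cycdec**: the auxiliary field `N = L·ℚ_n` of `StmtCyc`, with `HasDec`. -/
theorem stmtCycDec : StmtCycDec := by
  intro p n hp S hp2 hpS L _ _ _ hunr
  have hGal : IsGalois ℚ (CycTop p n L) := stmtCycGalois p n L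
  have hR : (cycR p n L).Normal := stmtCycRNormal p n L
  have hgalQ : IsGalois ℚ (CycN p n L) := cycFinal_galQ p n L hR
  have hgalL : IsGalois L (CycN p n L) := IsGalois.tower_top_of_isGalois ℚ L (CycN p n L)
  obtain ⟨lam, hlsurj, hlker⟩ := stmtCycLambda p n hp2
  obtain ⟨θ, hθspec⟩ := stmtCycTheta p n L lam (fun u hu => (hlker u).mpr hu)
  obtain ⟨E', fE', nfE', algE', hcop, ζ, hζ⟩ := stmtCycEPrime p n L lam hlker θ hθspec
  obtain ⟨hcard, k, hk⟩ := stmtCycCard p n hp2 L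
  obtain ⟨-, hres, -⟩ := stmtCycExt p n L
  refine ⟨{ N := CycN p n L
            galQ := hgalQ
            galL := hgalL
            unram := (stmtUnramTower S ℚ (CycN p n L) (CycTop p n L)
              (stmtCycUnramTop p n S hpS L hunr)).2
            pgroup := ?_
            card_le := hcard.le
            θ := θ
            θ_surj := ?_
            E' := E'
            coprime := hcop
            ζ := ζ
            hζ := hζ }, ?_⟩
  · refine IsPGroup.of_card (n := k) ?_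
    rw [nsub_card_relAut, hk]
  · intro y
    obtain ⟨u, hu⟩ := hlsurj y
    obtain ⟨σ', hσ'⟩ := stmtCycChiSurj p n L u
    obtain ⟨σ, hσ⟩ := hres σ'
    exact ⟨σ, by rw [hθspec σ' σ hσ, hσ', hu]⟩
  · intro q _ hqp t σ hσ
    exact cycDec_key p n L lam hlker θ hθspec q hqp t σ hσ

end Fermat.Agent.PT.G3
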