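/-
PT-G3 / GB, local norms at `q = p` (helper67).

* `gbp_exists_pow` : `t ∈ ℤ_p`, `t ≡ 1 mod p^(n+1)`, `p` odd  ⇒  `t = y ^ (p^n (p-1))`
  (finite level: `(ℤ/p^N)ˣ` is cyclic; limit: `ℤ_p` is compact).
-/
import Mathlib

set_option autoImplicit false
set_option linter.style.haveILetI false

namespace Fermat.Agent.PT.G3

/-- In a finite cyclic group, the kernel of a surjection onto a group of order `d` consists of
`d`-th powers. -/
theorem gbp_cyclic_ker {G H : Type} [Group G] [Group H] [IsCyclic G] [Finite H]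
    (π : G →* H) (hπ : Function.Surjective π) (x : G) (hx : π x = 1) :
    ∃ y : G, y ^ Nat.card H = x := by
  obtain ⟨g, hg⟩ := IsCyclic.exists_generator (α := G)
  obtain ⟨a, rfl⟩ := Subgroup.mem_zpowers_iff.1 (hg x)
  have hgen : ∀ h : H, h ∈ Subgroup.zpowers (π g) := by
    intro h
    obtain ⟨z, rfl⟩ := hπ h
    obtain ⟨b, rfl⟩ := Subgroup.mem_zpowers_iff.1 (hg z)
    exact Subgroup.mem_zpowers_iff.2 ⟨b, (map_zpow π g b).symm⟩
  have hord : orderOf (π g) = Nat.card H := orderOf_eq_card_of_forall_mem_zpowers hgen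
  rw [map_zpow] at hx
  obtain ⟨c, hc⟩ := orderOf_dvd_iff_zpow_eq_one.2 hx
  refine ⟨g ^ c, ?_⟩
  rw [← zpow_natCast, ← zpow_mul, hc, hord, mul_comm]

section padic

variable (p : ℕ) [hp : Fact p.Prime]

/-- finite level: `t ≡ 1 mod p^(n+1)` is a `p^n (p-1)`-th power modulo `p^N`. -/
theorem gbp_exists_pow_mod (hp2 : p ≠ 2) (n : ℕ) (t : ℤ_[p])
    (ht : PadicInt.toZModPow (n + 1) t = 1) (N : ℕ) (hN : n + 1 ≤ N) :
    ∃ y : ℤ_[p], ‖y ^ (p ^ n * (p - 1)) - t‖ ≤ (p : ℝ) ^ (-(N : ℤ)) := by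
  haveI : NeZero (p ^ N) := ⟨pow_ne_zero _ hp.out.ne_zero⟩
  haveI : NeZero (p ^ (n + 1)) := ⟨pow_ne_zero _ hp.out.ne_zero⟩
  haveI := ZMod.isCyclic_units_of_prime_pow p hp.out hp2 N
  -- `t` is a unit modulo `p^N`
  have hcomp := PadicInt.zmod_cast_comp_toZModPow (p := p) (n + 1) N hN
  have h1 : ZMod.castHom (pow_dvd_pow p hN) (ZMod (p ^ (n + 1))) (PadicInt.toZModPow N t) = 1 := by
    rw [← ht, ← hcomp]; rfl
  have hunit : IsUnit (PadicInt.toZModPow N t) := by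
    have htu : IsUnit t := by
      rw [PadicInt.isUnit_iff]
      by_contra hcon
      have hlt : ‖t‖ < 1 := lt_of_le_of_ne (PadicInt.norm_le_one t) hcon
      have hmem : t ∈ Ideal.span {(p : ℤ_[p]) ^ 1} := by
        rw [pow_one]
        exact Ideal.mem_span_singleton.2 ((PadicInt.norm_lt_one_iff_dvd t).1 hlt)
      rw [← PadicInt.ker_toZModPow, RingHom.mem_ker] at hmem
      have hcomp1 := PadicInt.zmod_cast_comp_toZModPow (p := p) 1 (n + 1) (by omega)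
      have h0 : PadicInt.toZModPow 1 t = 1 := by
        rw [← hcomp1]
        show ZMod.castHom (pow_dvd_pow p (by omega : 1 ≤ n + 1)) (ZMod (p ^ 1))
          (PadicInt.toZModPow (n + 1) t) = 1
        rw [ht, map_one]
      rw [hmem] at h0
      haveI : Fact (1 < p ^ 1) := ⟨by rw [pow_one]; exact hp.out.one_lt⟩
      exact zero_ne_one h0
    exact htu.map _
  obtain ⟨u, hu⟩ := hunit
  have hπ : ZMod.unitsMap (pow_dvd_pow p hN) u = 1 := by
    apply Units.ext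
    show ZMod.castHom (pow_dvd_pow p hN) (ZMod (p ^ (n + 1))) (u : ZMod (p ^ N)) = 1
    rw [hu, h1]
  obtain ⟨y, hy⟩ := gbp_cyclic_ker (ZMod.unitsMap (pow_dvd_pow p hN))
    (ZMod.unitsMap_surjective _) u hπ
  have hcard : Nat.card (ZMod (p ^ (n + 1)))ˣ = p ^ n * (p - 1) := by
    rw [Nat.card_eq_fintype_card, ZMod.card_units_eq_totient, Nat.totient_prime_pow_succ hp.out]
  rw [hcard] at hy
  refine ⟨((y : ZMod (p ^ N)).val : ℤ_[p]), ?_⟩
  rw [PadicInt.norm_le_pow_iff_mem_span_pow, ← PadicInt.ker_toZModPow, RingHom.mem_ker, map_sub,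
    map_pow, map_natCast, ZMod.natCast_zmod_val, ← hu, ← hy, sub_eq_zero]
  rfl

/-- **(1 + p^(n+1) ℤ_p) = (ℤ_pˣ)^(p^n (p-1)) ∩ …**: every `t ≡ 1 mod p^(n+1)` is a
`p^n (p-1)`-th power in `ℤ_p` (`p` odd). -/
theorem gbp_exists_pow (hp2 : p ≠ 2) (n : ℕ) (t : ℤ_[p])
    (ht : PadicInt.toZModPow (n + 1) t = 1) : ∃ y : ℤ_[p], y ^ (p ^ n * (p - 1)) = t := by
  have hcl : IsClosed (Set.range fun y : ℤ_[p] => y ^ (p ^ n * (p - 1))) :=
    (isCompact_range (continuous_pow _)).isClosed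
  have hmem : t ∈ closure (Set.range fun y : ℤ_[p] => y ^ (p ^ n * (p - 1))) := by
    rw [Metric.mem_closure_iff]
    intro ε hε
    have hp1 : (1 : ℝ) < p := by exact_mod_cast hp.out.one_lt
    obtain ⟨N, hN⟩ := exists_pow_lt_of_lt_one hε (inv_lt_one_of_one_lt₀ hp1)
    obtain ⟨y, hy⟩ := gbp_exists_pow_mod p hp2 n t ht (N + (n + 1)) (by omega)
    refine ⟨_, ⟨y, rfl⟩, ?_⟩
    rw [dist_comm, dist_eq_norm]
    refine lt_of_le_of_lt hy (lt_of_le_of_lt ?_ hN)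
    rw [zpow_neg, zpow_natCast, inv_pow]
    apply inv_anti₀ (by positivity)
    exact pow_le_pow_right₀ hp1.le (by omega)
  rw [hcl.closure_eq] at hmem
  obtain ⟨y, hy⟩ := hmem
  exact ⟨y, hy⟩

end padic

end Fermat.Agent.PT.G3
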