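/-
PT-G3 / GB, piece `locNormP` (helper67): the case `q = p` of `StmtLocNormCyc`.

If `ψ_p(b) = 1` (`b ∈ ℚ_pˣ`, `p` odd) then `b^(p-1)` is a norm from `(ℚ_p ⊗ ℚ(ζ_{p^(n+1)}))ˣ`.

Proof.  `b = u p^v`, `u ∈ ℤ_pˣ`, and `ψ_p(b) = 1` says `u^(p-1) ≡ 1 mod p^(n+1)`.  Hence
`u^(p-1) = y^d`, `d = p^n (p-1) = [K : ℚ]` (`gbp_exists_pow`), which is the norm of `y ⊗ 1`;
and `p = N_{K/ℚ}(ζ - 1)` is the norm of `1 ⊗ (ζ - 1)`.
-/
import Fermat.Agent.PT.G3.IdeleSymbol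
import Fermat.Agent.PT.G3.GBLocalP

set_option autoImplicit false
set_option linter.style.haveILetI false

namespace Fermat.Agent.PT.G3

open NumberField TensorProduct Fermat.Agent.PT.G1

section

variable (p : ℕ) [hp : Fact p.Prime]

theorem gbp_neZero (n : ℕ) : NeZero (((p ^ (n + 1) : ℕ)) : ℚ) :=
  ⟨by exact_mod_cast pow_ne_zero _ hp.out.ne_zero⟩

theorem gbp_isCyc (n : ℕ) :
    IsCyclotomicExtension {p ^ (n + 1)} ℚ (CyclotomicField (p ^ (n + 1)) ℚ) :=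
  haveI := gbp_neZero p n
  CyclotomicField.isCyclotomicExtension _ _

/-- `[ℚ(ζ_{p^(n+1)}) : ℚ] = p^n (p - 1)` -/
theorem gbp_finrank (n : ℕ) :
    Module.finrank ℚ (CyclotomicField (p ^ (n + 1)) ℚ) = p ^ n * (p - 1) := by
  haveI : NeZero (p ^ (n + 1)) := ⟨pow_ne_zero _ hp.out.ne_zero⟩
  haveI := gbp_neZero p n
  haveI := gbp_isCyc p n
  rw [IsCyclotomicExtension.finrank (n := p ^ (n + 1)) (CyclotomicField (p ^ (n + 1)) ℚ)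
    (Polynomial.cyclotomic.irreducible_rat (pow_pos hp.out.pos _)),
    Nat.totient_prime_pow_succ hp.out]

/-- the norm of a constant `y ⊗ 1` -/
theorem gbp_norm_algebraMap (n : ℕ) (y : ℚ_[p]) :
    Algebra.norm ℚ_[p] (algebraMap ℚ_[p] (semiAlg p (CyclotomicField (p ^ (n + 1)) ℚ)) y) =
      y ^ (p ^ n * (p - 1)) := by
  rw [Algebra.norm_algebraMap, Module.finrank_baseChange, gbp_finrank]

/-- `p` is a norm from `ℚ_p ⊗ ℚ(ζ_{p^(n+1)})` (`p` odd): `p = N(1 ⊗ (ζ - 1))`. -/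
theorem gbp_norm_zeta_sub_one (hp2 : p ≠ 2) (n : ℕ) :
    ∃ z : CyclotomicField (p ^ (n + 1)) ℚ, z ≠ 0 ∧
      Algebra.norm ℚ_[p] ((1 : ℚ_[p]) ⊗ₜ[ℚ] z) = (p : ℚ_[p]) := by
  haveI : NeZero (p ^ (n + 1)) := ⟨pow_ne_zero _ hp.out.ne_zero⟩
  haveI := gbp_neZero p n
  haveI := gbp_isCyc p n
  have hp0 : (p : ℚ_[p]) ≠ 0 := by exact_mod_cast hp.out.ne_zero
  have hζ := IsCyclotomicExtension.zeta_spec (p ^ (n + 1)) ℚ (CyclotomicField (p ^ (n + 1)) ℚ)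
  have hN : Algebra.norm ℚ_[p] ((1 : ℚ_[p]) ⊗ₜ[ℚ]
      (IsCyclotomicExtension.zeta (p ^ (n + 1)) ℚ (CyclotomicField (p ^ (n + 1)) ℚ) - 1)) =
      (p : ℚ_[p]) := by
    rw [norm_one_tmul, hζ.norm_sub_one_of_prime_ne_two
      (Polynomial.cyclotomic.irreducible_rat (pow_pos hp.out.pos _)) hp2]
    simp
  refine ⟨_, ?_, hN⟩
  intro h0
  rw [h0, TensorProduct.tmul_zero, Algebra.norm_zero] at hN
  exact hp0 hN.symm

/-- **locNormP**: the case `q = p` of `StmtLocNormCyc`. -/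
theorem stmtLocNormP (n : ℕ) (hp2 : p ≠ 2) (b : ℚ_[p]ˣ) (hb : psiQ p n p b = 1) :
    ∃ x : (semiAlg p (CyclotomicField (p ^ (n + 1)) ℚ))ˣ,
      Algebra.norm ℚ_[p] (x : semiAlg p (CyclotomicField (p ^ (n + 1)) ℚ)) =
        (b : ℚ_[p]) ^ (p - 1) := by
  haveI : NeZero (p ^ (n + 1)) := ⟨pow_ne_zero _ hp.out.ne_zero⟩
  haveI := gbp_neZero p n
  haveI := gbp_isCyc p n
  have hp0 : (p : ℚ_[p]) ≠ 0 := by exact_mod_cast hp.out.ne_zero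
  -- the unit part
  set u : ℤ_[p]ˣ := padicUnitPart p b with hu
  have hub : ((u : ℤ_[p]) : ℚ_[p]) = (b : ℚ_[p]) * (p : ℚ_[p]) ^ (-(b : ℚ_[p]).valuation) :=
    coe_padicUnitPart p b
  have hbu : (b : ℚ_[p]) = ((u : ℤ_[p]) : ℚ_[p]) * (p : ℚ_[p]) ^ ((b : ℚ_[p]).valuation) := by
    rw [hub, mul_assoc, ← zpow_add₀ hp0, neg_add_cancel, zpow_zero, mul_one]
  -- `u^(p-1) ≡ 1`
  rw [psiQ_self, psiP_apply, inv_eq_one] at hb
  have ht : PadicInt.toZModPow (n + 1) ((u : ℤ_[p]) ^ (p - 1)) = 1 := by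
    have := congrArg (fun w : (ZMod (p ^ (n + 1)))ˣ => (w : ZMod (p ^ (n + 1)))) hb
    simpa using this
  obtain ⟨y, hy⟩ := gbp_exists_pow p hp2 n _ ht
  have hy0 : (y : ℚ_[p]) ≠ 0 := by
    intro h0
    have h1 : ((y ^ (p ^ n * (p - 1)) : ℤ_[p]) : ℚ_[p]) = 0 := by
      rw [PadicInt.coe_pow, h0, zero_pow]
      exact Nat.mul_ne_zero (pow_ne_zero _ hp.out.ne_zero)
        (Nat.sub_ne_zero_of_lt hp.out.one_lt)
    rw [hy, PadicInt.coe_pow] at h1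
    have h2 : ((u : ℤ_[p]) : ℚ_[p]) ≠ 0 := by
      rw [hub]
      exact mul_ne_zero b.ne_zero (zpow_ne_zero _ hp0)
    exact pow_ne_zero _ h2 h1
  -- the element `ζ - 1`
  obtain ⟨z₀, hz0, hzN⟩ := gbp_norm_zeta_sub_one p hp2 n
  set z : (CyclotomicField (p ^ (n + 1)) ℚ)ˣ := Units.mk0 z₀ hz0 with hz
  set Z : (semiAlg p (CyclotomicField (p ^ (n + 1)) ℚ))ˣ :=
    Units.map (Algebra.TensorProduct.includeRight :
      CyclotomicField (p ^ (n + 1)) ℚ →ₐ[ℚ] semiAlg p (CyclotomicField (p ^ (n + 1)) ℚ)).toMonoidHom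
      z with hZ
  set Y : (semiAlg p (CyclotomicField (p ^ (n + 1)) ℚ))ˣ :=
    Units.map (algebraMap ℚ_[p] (semiAlg p (CyclotomicField (p ^ (n + 1)) ℚ)) :
      ℚ_[p] →* semiAlg p (CyclotomicField (p ^ (n + 1)) ℚ)) (Units.mk0 (y : ℚ_[p]) hy0) with hY
  have hNZ : Units.map (Algebra.norm ℚ_[p] : semiAlg p (CyclotomicField (p ^ (n + 1)) ℚ) →* ℚ_[p])
      Z = Units.mk0 (p : ℚ_[p]) hp0 := by
    apply Units.ext
    exact hzN
  have hNY : Units.map (Algebra.norm ℚ_[p] : semiAlg p (CyclotomicField (p ^ (n + 1)) ℚ) →* ℚ_[p])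
      Y = Units.mk0 ((y : ℚ_[p]) ^ (p ^ n * (p - 1))) (pow_ne_zero _ hy0) := by
    apply Units.ext
    exact gbp_norm_algebraMap p n (y : ℚ_[p])
  refine ⟨Y * Z ^ (((p - 1 : ℕ) : ℤ) * (b : ℚ_[p]).valuation), ?_⟩
  have key : Units.map (Algebra.norm ℚ_[p] :
      semiAlg p (CyclotomicField (p ^ (n + 1)) ℚ) →* ℚ_[p])
      (Y * Z ^ (((p - 1 : ℕ) : ℤ) * (b : ℚ_[p]).valuation)) =
      Units.mk0 ((y : ℚ_[p]) ^ (p ^ n * (p - 1))) (pow_ne_zero _ hy0) *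
        (Units.mk0 (p : ℚ_[p]) hp0) ^ (((p - 1 : ℕ) : ℤ) * (b : ℚ_[p]).valuation) := by
    rw [map_mul, map_zpow, hNY, hNZ]
  have key2 := congrArg (fun w : ℚ_[p]ˣ => (w : ℚ_[p])) key
  simp only [Units.coe_map, Units.val_mul, Units.val_mk0,
    Units.val_zpow_eq_zpow_val] at key2
  refine key2.trans ?_
  have hyu : (y : ℚ_[p]) ^ (p ^ n * (p - 1)) = ((u : ℤ_[p]) : ℚ_[p]) ^ (p - 1) := by
    rw [← PadicInt.coe_pow, hy, PadicInt.coe_pow]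
  rw [hyu]
  conv_rhs => rw [hbu]
  rw [mul_pow, ← zpow_natCast (((p : ℚ_[p]) ^ (b : ℚ_[p]).valuation)) (p - 1), ← zpow_mul,
    mul_comm ((b : ℚ_[p]).valuation)]

end

end Fermat.Agent.PT.G3
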