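/-
PT-GB, piece locNormQ, part II (helper57): abstract norm transfer.  For a finite reduced algebra
`A` over a field `k`, a maximal ideal `t` and `y ≠ 0` in the field `A ⧸ t` there is a unit `x` of
`A` with `norm_k x = norm_k y` (`x ≡ y mod t`, `x ≡ 1` modulo the other maximal ideals).
-/
import Mathlib

set_option autoImplicit false
set_option linter.unusedSectionVars false
set_option linter.style.haveILetI false

namespace Fermat.Agent.PT.G3

theorem gbq_norm_transfer {k : Type*} [Field k] {A : Type*} [CommRing A] [Algebra k A]
    [Module.Finite k A] [IsReduced A] (t : Ideal A) [ht : t.IsMaximal] (y : A ⧸ t)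
    (hy : IsUnit y) :
    ∃ x : Aˣ, Algebra.norm k (x : A) = Algebra.norm k y := by
  classical
  haveI : IsArtinianRing A := IsArtinianRing.of_finite k A
  let T : MaximalSpectrum A := ⟨t, ht⟩
  let z : ∀ I : MaximalSpectrum A, A ⧸ I.asIdeal := Function.update 1 T y
  have hzT : z T = y := Function.update_self ..
  have hzI : ∀ I, I ≠ T → z I = 1 := fun I hI => by
    simp only [z, Function.update_of_ne hI, Pi.one_apply]
  have hzunit : IsUnit z := by
    rw [Pi.isUnit_iff]
    intro I
    by_cases hI : I = T
    · subst hI; rw [hzT]; exact hy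
    · rw [hzI I hI]; exact isUnit_one
  set x₀ : A := (IsArtinianRing.equivPi A).symm z with hx₀
  have hex : IsArtinianRing.equivPi A x₀ = z := (IsArtinianRing.equivPi A).apply_symm_apply z
  have hxunit : IsUnit x₀ := by
    have := hzunit.map ((IsArtinianRing.equivPi A).symm : _ →* A)
    exact this
  have hπ : Ideal.Quotient.mk t x₀ = y := by
    have := congrFun hex T
    rw [IsArtinianRing.equivPi_apply] at this
    rw [← hzT, ← this]
  have hkill : ∀ w ∈ t, x₀ * w = w := by
    intro w hw
    have h1 : (x₀ - 1) * w = 0 := by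
      apply (IsArtinianRing.equivPi A).injective
      rw [map_mul, map_sub, map_one, map_zero, hex]
      funext I
      simp only [Pi.mul_apply, Pi.sub_apply, Pi.one_apply, Pi.zero_apply]
      by_cases hI : I = T
      · subst hI
        rw [IsArtinianRing.equivPi_apply]
        have : (Ideal.Quotient.mk t w) = 0 := Ideal.Quotient.eq_zero_iff_mem.2 hw
        rw [show ((w : A) : A ⧸ T.asIdeal) = Ideal.Quotient.mk t w from rfl, this, mul_zero]
      · rw [hzI I hI, sub_self, zero_mul]
    have h2 : x₀ * w - w = 0 := by rw [← h1]; ring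
    exact sub_eq_zero.1 h2
  refine ⟨hxunit.unit, ?_⟩
  show Algebra.norm k x₀ = Algebra.norm k y
  rw [Algebra.norm_apply, Algebra.norm_apply]
  set W : Submodule k A := t.restrictScalars k with hW
  have he : W ≤ W.comap (Algebra.lmul k A x₀) := by
    intro w hw
    rw [Submodule.mem_comap]
    show x₀ * w ∈ t
    exact t.mul_mem_left _ hw
  rw [LinearMap.det_eq_det_mul_det W (Algebra.lmul k A x₀) he]
  have h1 : (Algebra.lmul k A x₀).restrict he = LinearMap.id := by
    ext w
    show x₀ * (w : A) = w
    exact hkill w w.2
  rw [h1, LinearMap.det_id, one_mul]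
  have h2 : Algebra.lmul k (A ⧸ t) y =
      ((Submodule.Quotient.restrictScalarsEquiv k t).toLinearMap.comp
        (W.mapQ W (Algebra.lmul k A x₀) he)).comp
        (Submodule.Quotient.restrictScalarsEquiv k t).symm.toLinearMap := by
    apply LinearMap.ext
    intro a
    obtain ⟨a', rfl⟩ := Ideal.Quotient.mk_surjective a
    show y * Ideal.Quotient.mk t a' = _
    rw [← hπ, ← map_mul]
    rfl
  rw [h2]
  exact (LinearMap.det_conj _ (Submodule.Quotient.restrictScalarsEquiv k t)).symm

end Fermat.Agent.PT.G3
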