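/-
PT-GB, piece locNormQ, part I (helper57): the local cyclotomic extension `F = ℚ_q(ζ)`,
`ζ` a primitive `m`-th root of unity, `q ∤ m`:
* `gbq_isUnram`      : `F/ℚ_q` is unramified (`L.IsUnram`);
* `gbq_finrank_dvd`  : `[F : ℚ_q]` divides every `d` with `m ∣ q ^ d - 1`;
via: the reduction of the minimal polynomial of `ζ` is the minimal polynomial of the residue
class of `ζ` (the conjugates of `ζ` have distinct residue classes).
-/
import Fermat.Agent.PT.L.CyclicFinal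
import Fermat.Agent.PT.L.UnramExists
import Fermat.Agent.PT.L.Val
import Fermat.Agent.PT.L.Unif

set_option autoImplicit false
set_option linter.unusedSectionVars false
set_option linter.style.haveILetI false

open Polynomial

namespace Fermat.Agent.PT.G3

open Fermat.Agent.PT.L Fermat.Agent.PT.L.UE

section Local

variable (q : ℕ) [Fact q.Prime] {F : Type} [Field F] [Algebra ℚ_[q] F]
  [FiniteDimensional ℚ_[q] F]

/-- a root of unity is a unit of the valuation ring -/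
theorem gbq_wv_eq_zero_of_pow_eq_one {m : ℕ} (hm : m ≠ 0) {ξ : F} (hξ : ξ ^ m = 1) :
    wv q ξ = 0 := by
  have h := l0b_wv_pow q ξ m
  rw [hξ, l0b_wv_one] at h
  have hm' : (m : ℤ) ≠ 0 := by exact_mod_cast hm
  rcases mul_eq_zero.1 h.symm with h | h
  · exact absurd h hm'
  · exact h

theorem gbq_mem_OV_of_pow_eq_one {m : ℕ} (hm : m ≠ 0) {ξ : F} (hξ : ξ ^ m = 1) :
    ξ ∈ OV q stmtWAdd F :=
  Or.inr (by rw [gbq_wv_eq_zero_of_pow_eq_one q hm hξ])

/-- `m` is a unit of the valuation ring if `q ∤ m` -/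
theorem gbq_wv_natCast {m : ℕ} (hqm : ¬ q ∣ m) : wv q ((m : ℕ) : F) = 0 := by
  have h := l0b_wv_algebraMap q (F := F) ((m : ℕ) : ℚ_[q])
  rw [map_natCast, Padic.valuation_natCast, padicValNat.eq_zero_of_not_dvd hqm] at h
  simpa using h

include q in
theorem gbq_natCast_ne_zero {m : ℕ} (hm : m ≠ 0) : ((m : ℕ) : F) ≠ 0 := by
  haveI : CharZero F := charZero_of_injective_algebraMap (algebraMap ℚ_[q] F).injective
  exact_mod_cast hm

/-- the reduction map is injective on roots of unity of order prime to `q` -/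
theorem gbq_eq_one_of_residue_eq_one {m : ℕ} (hm : m ≠ 0) (hqm : ¬ q ∣ m)
    (ξ : OV q stmtWAdd F) (hξ : ξ ^ m = 1)
    (hres : IsLocalRing.residue (OV q stmtWAdd F) ξ = 1) : ξ = 1 := by
  by_contra hne
  have hsum : (∑ i ∈ Finset.range m, ξ ^ i) = 0 := by
    have h1 : (ξ - 1) * ∑ i ∈ Finset.range m, ξ ^ i = 0 := by
      rw [mul_geom_sum, hξ, sub_self]
    rcases mul_eq_zero.1 h1 with h | h
    · exact absurd (sub_eq_zero.1 h) hne
    · exact h
  have h2 := congrArg (IsLocalRing.residue (OV q stmtWAdd F)) hsum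
  rw [map_sum, map_zero] at h2
  simp only [map_pow, hres, one_pow, Finset.sum_const, Finset.card_range, nsmul_eq_mul,
    mul_one] at h2
  have h3 : IsLocalRing.residue (OV q stmtWAdd F) ((m : ℕ) : OV q stmtWAdd F) = 0 := by
    rw [map_natCast]; exact h2
  rw [IsLocalRing.residue_eq_zero_iff, mem_maximalIdeal_iff] at h3
  have hc : (((m : ℕ) : OV q stmtWAdd F) : F) = ((m : ℕ) : F) := by simp
  rw [hc] at h3
  rcases h3 with h | h
  · exact gbq_natCast_ne_zero q hm h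
  · rw [gbq_wv_natCast q hqm] at h
    omega


/-! ### The residue field of `ℚ_q` has `q` elements -/

theorem gbq_wv_self (x : ℚ_[q]) : wv q x = Padic.valuation x := by
  unfold wv
  rw [Algebra.norm_self]
  rfl

theorem gbq_card_residue :
    Nat.card (IsLocalRing.ResidueField (OV q stmtWAdd ℚ_[q])) = q := by
  have hq0 : ((q : ℕ) : IsLocalRing.ResidueField (OV q stmtWAdd ℚ_[q])) = 0 := by
    have hmem : ((q : ℕ) : OV q stmtWAdd ℚ_[q]) ∈
        IsLocalRing.maximalIdeal (OV q stmtWAdd ℚ_[q]) := by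
      rw [mem_maximalIdeal_iff]
      right
      have hc : (((q : ℕ) : OV q stmtWAdd ℚ_[q]) : ℚ_[q]) = ((q : ℕ) : ℚ_[q]) := by simp
      rw [hc, gbq_wv_self, Padic.valuation_p]
    have := (IsLocalRing.residue_eq_zero_iff _).2 hmem
    rwa [map_natCast] at this
  haveI : CharP (IsLocalRing.ResidueField (OV q stmtWAdd ℚ_[q])) q :=
    (CharP.charP_iff_prime_eq_zero (Fact.out : q.Prime)).2 hq0
  let f : ZMod q →+* IsLocalRing.ResidueField (OV q stmtWAdd ℚ_[q]) :=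
    ZMod.castHom (dvd_refl q) _
  have hinj : Function.Injective f := f.injective
  have hsurj : Function.Surjective f := by
    intro c
    obtain ⟨x, rfl⟩ := IsLocalRing.residue_surjective c
    have hx : ‖(x : ℚ_[q])‖ ≤ 1 := by
      rw [Padic.norm_le_one_iff_val_nonneg]
      rcases x.2 with h | h
      · rw [h]; simp
      · rwa [gbq_wv_self] at h
    obtain ⟨n, -, hmem⟩ := PadicInt.exists_mem_range (⟨(x : ℚ_[q]), hx⟩ : ℤ_[q])
    refine ⟨(n : ZMod q), ?_⟩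
    rw [map_natCast, ← map_natCast (IsLocalRing.residue (OV q stmtWAdd ℚ_[q])), eq_comm,
      ← sub_eq_zero, ← map_sub, IsLocalRing.residue_eq_zero_iff, mem_maximalIdeal_iff]
    have hc : ((x - ((n : ℕ) : OV q stmtWAdd ℚ_[q]) : OV q stmtWAdd ℚ_[q]) : ℚ_[q]) =
        (x : ℚ_[q]) - (n : ℚ_[q]) := by simp
    rw [hc]
    rw [IsLocalRing.mem_maximalIdeal, PadicInt.mem_nonunits] at hmem
    have hnorm : ‖(x : ℚ_[q]) - (n : ℚ_[q])‖ < 1 := by
      have : ((⟨(x : ℚ_[q]), hx⟩ - (n : ℤ_[q]) : ℤ_[q]) : ℚ_[q]) = (x : ℚ_[q]) - (n : ℚ_[q]) := by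
        simp
      rw [← this]
      exact hmem
    by_cases h0 : (x : ℚ_[q]) - (n : ℚ_[q]) = 0
    · exact Or.inl h0
    · right
      rw [gbq_wv_self]
      rw [Padic.norm_eq_zpow_neg_valuation h0] at hnorm
      have hq1 : (1 : ℝ) < (q : ℝ) := by exact_mod_cast (Fact.out : q.Prime).one_lt
      have := (zpow_lt_one_iff_right₀ hq1).1 hnorm
      omega
  rw [← Nat.card_congr (Equiv.ofBijective f ⟨hinj, hsurj⟩), Nat.card_zmod]


/-! ### The minimal polynomial of `ζ` and its reduction -/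

theorem gbq_exists_lift {m : ℕ} (hm : m ≠ 0) (ζ : F) (hζ : ζ ^ m = 1) :
    ∃ g₀ : (OV q stmtWAdd ℚ_[q])[X], g₀.Monic ∧
      g₀.map (algebraMap (OV q stmtWAdd ℚ_[q]) ℚ_[q]) = minpoly ℚ_[q] ζ := by
  letI : Algebra (OV q stmtWAdd ℚ_[q]) F :=
    ((algebraMap ℚ_[q] F).comp (algebraMap (OV q stmtWAdd ℚ_[q]) ℚ_[q])).toAlgebra
  haveI : IsScalarTower (OV q stmtWAdd ℚ_[q]) ℚ_[q] F :=
    IsScalarTower.of_algebraMap_eq (fun _ => rfl)
  have hint : IsIntegral (OV q stmtWAdd ℚ_[q]) ζ := by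
    refine ⟨X ^ m - C 1, monic_X_pow_sub_C 1 hm, ?_⟩
    simp [hζ]
  exact ⟨minpoly _ ζ, minpoly.monic hint,
    (minpoly.isIntegrallyClosed_eq_field_fractions' ℚ_[q] hint).symm⟩

theorem gbq_core [IsGalois ℚ_[q] F] {m : ℕ} (hm : m ≠ 0) (hqm : ¬ q ∣ m) (ζ : F)
    (hζ : ζ ^ m = 1)
    (hgen : ∀ y : F, ∃ P : ℚ_[q][X], eval₂ (algebraMap ℚ_[q] F) ζ P = y) :
    ∃ g₀ : (OV q stmtWAdd ℚ_[q])[X], g₀.Monic ∧
      eval₂ (algebraMap ℚ_[q] F) ζ (g₀.map (algebraMap (OV q stmtWAdd ℚ_[q]) ℚ_[q])) = 0 ∧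
      Irreducible (g₀.map (IsLocalRing.residue (OV q stmtWAdd ℚ_[q]))) ∧
      (g₀.map (IsLocalRing.residue (OV q stmtWAdd ℚ_[q]))).natDegree =
        Module.finrank ℚ_[q] F ∧
      (g₀.map (IsLocalRing.residue (OV q stmtWAdd ℚ_[q]))) ∣ X ^ m - 1 := by
  classical
  obtain ⟨g₀, hmon, hmap⟩ := gbq_exists_lift q hm ζ hζ
  have hroot : eval₂ (algebraMap ℚ_[q] F) ζ
      (g₀.map (algebraMap (OV q stmtWAdd ℚ_[q]) ℚ_[q])) = 0 := by
    rw [hmap]; exact minpoly.aeval ℚ_[q] ζ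
  letI : Algebra (IsLocalRing.ResidueField (OV q stmtWAdd ℚ_[q]))
      (IsLocalRing.ResidueField (OV q stmtWAdd F)) :=
    (phi q stmtWAdd (F := ℚ_[q]) (E := F)).toAlgebra
  have hζO : ζ ∈ OV q stmtWAdd F := gbq_mem_OV_of_pow_eq_one q hm hζ
  set t : OV q stmtWAdd F := ⟨ζ, hζO⟩ with ht
  set ζb : IsLocalRing.ResidueField (OV q stmtWAdd F) := IsLocalRing.residue _ t with hζb
  set gb : (IsLocalRing.ResidueField (OV q stmtWAdd ℚ_[q]))[X] :=
    g₀.map (IsLocalRing.residue (OV q stmtWAdd ℚ_[q])) with hgb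
  have hgbmon : gb.Monic := hmon.map _
  have hgb0 : eval₂ (phi q stmtWAdd (F := ℚ_[q]) (E := F)) ζb gb = 0 := by
    rw [hζb, hgb, ← residue_eval₂]
    have : eval₂ (iota q stmtWAdd (F := ℚ_[q]) (E := F)) t g₀ = 0 := by
      apply Subtype.ext
      rw [coe_eval₂]
      exact hroot
    rw [this, map_zero]
  have hintb : IsIntegral (IsLocalRing.ResidueField (OV q stmtWAdd ℚ_[q])) ζb :=
    ⟨gb, hgbmon, hgb0⟩
  set hb : (IsLocalRing.ResidueField (OV q stmtWAdd ℚ_[q]))[X] := minpoly _ ζb with hhb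
  have hdvd : hb ∣ gb := minpoly.dvd _ ζb hgb0
  have hσO : ∀ σ : F ≃ₐ[ℚ_[q]] F, σ ζ ∈ OV q stmtWAdd F := fun σ =>
    gbq_mem_OV_of_pow_eq_one q hm (by rw [← map_pow, hζ, map_one])
  let s : (F ≃ₐ[ℚ_[q]] F) → OV q stmtWAdd F := fun σ => ⟨σ ζ, hσO σ⟩
  have hsm : ∀ σ, (s σ) ^ m = 1 := fun σ => Subtype.ext (by
    show (σ ζ) ^ m = 1
    rw [← map_pow, hζ, map_one])
  have hsroot : ∀ σ, eval₂ (phi q stmtWAdd (F := ℚ_[q]) (E := F))
      (IsLocalRing.residue _ (s σ)) hb = 0 := by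
    intro σ
    obtain ⟨H, hH⟩ := Polynomial.map_surjective
      (IsLocalRing.residue (OV q stmtWAdd ℚ_[q])) IsLocalRing.residue_surjective hb
    have h1 : eval₂ (phi q stmtWAdd (F := ℚ_[q]) (E := F)) ζb hb = 0 := minpoly.aeval _ ζb
    rw [← hH, hζb, ← residue_eval₂, IsLocalRing.residue_eq_zero_iff, mem_maximalIdeal_iff,
      coe_eval₂] at h1
    rw [← hH, ← residue_eval₂, IsLocalRing.residue_eq_zero_iff, mem_maximalIdeal_iff, coe_eval₂]
    have h2 : eval₂ (algebraMap ℚ_[q] F) (σ ζ)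
        (H.map (algebraMap (OV q stmtWAdd ℚ_[q]) ℚ_[q])) =
        σ (eval₂ (algebraMap ℚ_[q] F) ζ (H.map (algebraMap (OV q stmtWAdd ℚ_[q]) ℚ_[q]))) :=
      Polynomial.aeval_algHom_apply σ ζ _
    show eval₂ (algebraMap ℚ_[q] F) (σ ζ) _ = 0 ∨ 1 ≤ wv q (eval₂ (algebraMap ℚ_[q] F) (σ ζ) _)
    rw [h2]
    rcases h1 with h | h
    · left; rw [h, map_zero]
    · right; rwa [UE.wv_algEquiv]
  have hm1 : m - 1 + 1 = m := Nat.sub_add_cancel (Nat.one_le_iff_ne_zero.2 hm)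
  have hsinj : Function.Injective
      (fun σ : F ≃ₐ[ℚ_[q]] F => IsLocalRing.residue (OV q stmtWAdd F) (s σ)) := by
    intro σ τ hστ
    simp only at hστ
    have hξ := gbq_eq_one_of_residue_eq_one q hm hqm (s σ * (s τ) ^ (m - 1))
      (by rw [mul_pow, ← pow_mul, mul_comm (m - 1) m, pow_mul, hsm, hsm, one_pow, one_mul])
      (by rw [map_mul, map_pow, hστ, ← pow_succ', hm1, ← map_pow, hsm, map_one])
    have h3 : s σ = s τ := by
      have := congrArg (· * s τ) hξ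
      simp only [one_mul] at this
      rw [mul_assoc, ← pow_succ, hm1, hsm, mul_one] at this
      exact this
    have h4 : σ ζ = τ ζ := congrArg Subtype.val h3
    apply AlgEquiv.ext
    intro y
    obtain ⟨P, rfl⟩ := hgen y
    have e1 : σ (eval₂ (algebraMap ℚ_[q] F) ζ P) = eval₂ (algebraMap ℚ_[q] F) (σ ζ) P :=
      (Polynomial.aeval_algHom_apply σ ζ P).symm
    have e2 : τ (eval₂ (algebraMap ℚ_[q] F) ζ P) = eval₂ (algebraMap ℚ_[q] F) (τ ζ) P :=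
      (Polynomial.aeval_algHom_apply τ ζ P).symm
    rw [e1, e2, h4]
  have hcard : Module.finrank ℚ_[q] F ≤ hb.natDegree := by
    rw [← IsGalois.card_aut_eq_finrank, Nat.card_eq_fintype_card]
    have hZ : (Finset.univ.image
        (fun σ : F ≃ₐ[ℚ_[q]] F => IsLocalRing.residue (OV q stmtWAdd F) (s σ))).val ⊆
        (hb.map (phi q stmtWAdd (F := ℚ_[q]) (E := F))).roots := by
      intro z hz
      rw [Finset.mem_val, Finset.mem_image] at hz
      obtain ⟨σ, -, rfl⟩ := hz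
      rw [mem_roots (Polynomial.map_ne_zero (minpoly.ne_zero hintb)), IsRoot, eval_map]
      exact hsroot σ
    have := Polynomial.card_le_degree_of_subset_roots hZ
    rw [Finset.card_image_of_injective _ hsinj, Finset.card_univ, natDegree_map] at this
    exact this
  have hdeg1 : gb.natDegree ≤ Module.finrank ℚ_[q] F := by
    rw [hgb, hmon.natDegree_map, ← natDegree_map_eq_of_injective
      (f := algebraMap (OV q stmtWAdd ℚ_[q]) ℚ_[q]) Subtype.coe_injective g₀, hmap]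
    exact minpoly.natDegree_le ζ
  have heq : gb = hb := Polynomial.eq_of_monic_of_dvd_of_natDegree_le
    (minpoly.monic hintb) hgbmon hdvd (hdeg1.trans hcard)
  refine ⟨g₀, hmon, hroot, ?_, ?_, ?_⟩
  · rw [← hgb, heq]; exact minpoly.irreducible hintb
  · rw [← hgb]
    exact le_antisymm hdeg1 (by rw [heq]; exact hcard)
  · rw [← hgb, heq]
    apply minpoly.dvd
    have : ζb ^ m = 1 := by
      rw [hζb, ← map_pow]
      have : t ^ m = 1 := Subtype.ext (by show ζ ^ m = 1; exact hζ)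
      rw [this, map_one]
    simp [this]


/-- `ℚ_q(ζ)/ℚ_q` is unramified (`ζ ^ m = 1`, `q ∤ m`). -/
theorem gbq_isUnram [IsGalois ℚ_[q] F] {m : ℕ} (hm : m ≠ 0) (hqm : ¬ q ∣ m) (ζ : F)
    (hζ : ζ ^ m = 1)
    (hgen : ∀ y : F, ∃ P : ℚ_[q][X], eval₂ (algebraMap ℚ_[q] F) ζ P = y) :
    IsUnram q ℚ_[q] F := by
  obtain ⟨g₀, hmon, hroot, hirr, -, -⟩ := gbq_core q hm hqm ζ hζ hgen
  exact isUnram_of_root q stmtWAdd hmon hirr hroot hgen

/-- `[ℚ_q(ζ) : ℚ_q]` divides every `d` with `m ∣ q ^ d - 1`. -/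
theorem gbq_finrank_dvd [IsGalois ℚ_[q] F] {m : ℕ} (hm : m ≠ 0) (hqm : ¬ q ∣ m) (ζ : F)
    (hζ : ζ ^ m = 1)
    (hgen : ∀ y : F, ∃ P : ℚ_[q][X], eval₂ (algebraMap ℚ_[q] F) ζ P = y)
    {d : ℕ} (hd : m ∣ q ^ d - 1) : Module.finrank ℚ_[q] F ∣ d := by
  obtain ⟨g₀, hmon, hroot, hirr, hdeg, hdvd⟩ := gbq_core q hm hqm ζ hζ hgen
  rw [← hdeg]
  apply hirr.natDegree_dvd_of_dvd_X_pow_card_pow_sub_X
  rw [gbq_card_residue]
  refine hdvd.trans ?_
  have hq1 : 1 ≤ q ^ d := Nat.one_le_pow _ _ (Fact.out : q.Prime).pos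
  have h1 : (X : (IsLocalRing.ResidueField (OV q stmtWAdd ℚ_[q]))[X]) ^ (q ^ d) - X =
      X * (X ^ (q ^ d - 1) - 1) := by
    rw [mul_sub, mul_one, ← pow_succ', Nat.sub_add_cancel hq1]
  rw [h1]
  exact Dvd.dvd.mul_left (dvd_pow_sub_one_of_dvd hd) X

/-- **Local norms**: if `d ∣ k · v_q(b)` (`m ∣ q ^ d - 1`) then `b ^ k` is a norm from
`ℚ_q(ζ)`. -/
theorem gbq_local_norm [IsGalois ℚ_[q] F] (hcyc : IsCyclic (F ≃ₐ[ℚ_[q]] F))
    {m : ℕ} (hm : m ≠ 0) (hqm : ¬ q ∣ m) (ζ : F) (hζ : ζ ^ m = 1)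
    (hgen : ∀ y : F, ∃ P : ℚ_[q][X], eval₂ (algebraMap ℚ_[q] F) ζ P = y)
    {d : ℕ} (hd : m ∣ q ^ d - 1) (b : ℚ_[q]) (hb : b ≠ 0) (k : ℕ)
    (hk : (d : ℤ) ∣ (k : ℤ) * Padic.valuation b) :
    ∃ y : F, y ≠ 0 ∧ Algebra.norm ℚ_[q] y = b ^ k := by
  have hun := gbq_isUnram q hm hqm ζ hζ hgen
  have hfd := gbq_finrank_dvd q hm hqm ζ hζ hgen hd
  have hq0 : (q : ℚ_[q]) ≠ 0 := by exact_mod_cast (Fact.out : q.Prime).ne_zero
  set v : ℤ := Padic.valuation b with hv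
  set u : ℚ_[q] := b * (q : ℚ_[q]) ^ (-v) with hu
  have hu0 : u ≠ 0 := mul_ne_zero hb (zpow_ne_zero _ hq0)
  have huU : IsU q u := by
    refine ⟨hu0, ?_⟩
    rw [gbq_wv_self, hu, Padic.valuation_mul hb (zpow_ne_zero _ hq0), Padic.valuation_zpow,
      Padic.valuation_p]
    simp [hv]
  obtain ⟨y₀, hy₀, hNy₀⟩ := unitNorm q ℚ_[q] F hcyc hun u huU
  have hfk : (Module.finrank ℚ_[q] F : ℤ) ∣ (k : ℤ) * v :=
    (Int.natCast_dvd_natCast.2 hfd).trans hk
  obtain ⟨c, hc⟩ := hfk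
  refine ⟨(algebraMap ℚ_[q] F (q : ℚ_[q])) ^ c * y₀ ^ k, ?_, ?_⟩
  · exact mul_ne_zero (zpow_ne_zero _ (by rw [Ne, map_eq_zero]; exact hq0))
      (pow_ne_zero _ hy₀.1)
  · rw [map_mul, Algebra.norm_zpow, Algebra.norm_algebraMap, map_pow, hNy₀, hu, mul_pow,
      ← zpow_natCast ((q : ℚ_[q]) ^ (-v)) k, ← zpow_mul, ← zpow_natCast (q : ℚ_[q])
      (Module.finrank ℚ_[q] F), ← zpow_mul, ← hc]
    rw [mul_comm (b ^ k), ← mul_assoc, ← zpow_add₀ hq0]
    have : (k : ℤ) * v + -v * (k : ℤ) = 0 := by ring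
    rw [this, zpow_zero, one_mul]

end Local

end Fermat.Agent.PT.G3
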