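/-
PT-GB, piece locNormQ (helper57): `StmtLocNormCyc` for `q ≠ p`.
If `ψ_q(b) = 1` then `b^(p-1)` is a norm from `(ℚ_q ⊗ ℚ(ζ_{p^(n+1)}))ˣ`.

Route: `F := (ℚ_q ⊗ K) ⧸ t` (`t` a maximal ideal) is `ℚ_q(ζ)`, unramified and cyclic over `ℚ_q`
of degree dividing the order `d` of `q` modulo `p^(n+1)` (`GBLocNormQUnram.lean`); units are norms
(PT-L `unitNorm`) and `q^[F:ℚ_q] = N(q)`; finally norms from `F` are norms from `ℚ_q ⊗ K`
(`GBLocNormQAlg.lean`).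
-/
import Fermat.Agent.PT.G3.PlanGB
import Fermat.Agent.PT.G1.TensorHQ
import Fermat.Agent.PT.G3.GBLocNormQUnram
import Fermat.Agent.PT.G3.GBLocNormQAlg

set_option autoImplicit false
set_option linter.unusedSectionVars false
set_option linter.style.haveILetI false

open Polynomial TensorProduct

namespace Fermat.Agent.PT.G3

open Fermat.Agent.PT.L Fermat.Agent.PT.G1

/-- `ℚ_q ⊗ K` is generated by `1 ⊗ ζ` if `K` is generated by `ζ` over `ℚ`. -/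
theorem gbq_tensor_gen (q : ℕ) [Fact q.Prime] (K : Type) [Field K] [NumberField K] (ζ : K)
    (hζ : Algebra.adjoin ℚ {ζ} = ⊤) (a : semiAlg q K) :
    ∃ P : ℚ_[q][X], aeval ((1 : ℚ_[q]) ⊗ₜ[ℚ] ζ : semiAlg q K) P = a := by
  induction a using TensorProduct.induction_on with
  | zero => exact ⟨0, by simp⟩
  | tmul c x =>
    have hx : x ∈ Algebra.adjoin ℚ {ζ} := by rw [hζ]; trivial
    rw [Algebra.adjoin_singleton_eq_range_aeval] at hx
    obtain ⟨P₀, rfl⟩ := hx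
    refine ⟨C c * P₀.map (algebraMap ℚ ℚ_[q]), ?_⟩
    rw [map_mul, aeval_C, aeval_map_algebraMap]
    have h1 : aeval ((1 : ℚ_[q]) ⊗ₜ[ℚ] ζ : semiAlg q K) P₀ =
        (1 : ℚ_[q]) ⊗ₜ[ℚ] (aeval ζ P₀) := by
      have := aeval_algHom_apply (Algebra.TensorProduct.includeRight : K →ₐ[ℚ] semiAlg q K) ζ P₀
      simpa using this
    rw [h1, Algebra.TensorProduct.algebraMap_apply, Algebra.TensorProduct.tmul_mul_tmul,
      mul_one, one_mul]
    rfl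
  | add a b ha hb =>
    obtain ⟨P, rfl⟩ := ha
    obtain ⟨Q, rfl⟩ := hb
    exact ⟨P + Q, map_add _ _ _⟩


/-- **locNormQ**: `StmtLocNormCyc` for `q ≠ p`. -/
theorem stmtLocNormQ (p n : ℕ) [hp : Fact p.Prime] (hp2 : p ≠ 2) (q : ℕ) [hq : Fact q.Prime]
    (hqp : q ≠ p) (b : ℚ_[q]ˣ) (hb : psiQ p n q b = 1) :
    ∃ x : (semiAlg q (CyclotomicField (p ^ (n + 1)) ℚ))ˣ,
      Algebra.norm ℚ_[q] (x : semiAlg q (CyclotomicField (p ^ (n + 1)) ℚ)) =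
        (b : ℚ_[q]) ^ (p - 1) := by
  classical
  have hm0 : p ^ (n + 1) ≠ 0 := pow_ne_zero _ hp.out.ne_zero
  haveI : NeZero (p ^ (n + 1)) := ⟨hm0⟩
  haveI : NeZero (((p ^ (n + 1) : ℕ)) : ℚ) := ⟨by exact_mod_cast hm0⟩
  haveI : IsCyclotomicExtension {p ^ (n + 1)} ℚ (CyclotomicField (p ^ (n + 1)) ℚ) :=
    CyclotomicField.isCyclotomicExtension _ _
  have hqm : ¬ q ∣ p ^ (n + 1) := fun h =>
    hqp ((Nat.prime_dvd_prime_iff_eq hq.out hp.out).1 (hq.out.dvd_of_dvd_pow h))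
  haveI : IsReduced (semiAlg q (CyclotomicField (p ^ (n + 1)) ℚ)) := tens_semiAlg_isReduced q _
  haveI : Nontrivial (semiAlg q (CyclotomicField (p ^ (n + 1)) ℚ)) := by
    apply Module.nontrivial_of_finrank_pos (R := ℚ_[q])
    rw [Module.finrank_baseChange]
    exact Module.finrank_pos
  obtain ⟨t, ht⟩ := Ideal.exists_maximal (semiAlg q (CyclotomicField (p ^ (n + 1)) ℚ))
  haveI := ht
  letI : Field (semiAlg q (CyclotomicField (p ^ (n + 1)) ℚ) ⧸ t) := Ideal.Quotient.field t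
  haveI : FiniteDimensional ℚ_[q] (semiAlg q (CyclotomicField (p ^ (n + 1)) ℚ) ⧸ t) :=
    Module.Finite.of_surjective (Ideal.Quotient.mkₐ ℚ_[q] t).toLinearMap
      (Ideal.Quotient.mkₐ_surjective ℚ_[q] t)
  -- the root of unity
  set ζ : CyclotomicField (p ^ (n + 1)) ℚ :=
    IsCyclotomicExtension.zeta (p ^ (n + 1)) ℚ (CyclotomicField (p ^ (n + 1)) ℚ) with hζdef
  have hζ : IsPrimitiveRoot ζ (p ^ (n + 1)) := IsCyclotomicExtension.zeta_spec _ ℚ _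
  have hζtop : Algebra.adjoin ℚ {ζ} = ⊤ :=
    IsCyclotomicExtension.adjoin_primitive_root_eq_top hζ
  set ζF : semiAlg q (CyclotomicField (p ^ (n + 1)) ℚ) ⧸ t :=
    Ideal.Quotient.mk t ((1 : ℚ_[q]) ⊗ₜ[ℚ] ζ) with hζF
  -- the ring homomorphism `K → F`
  let ι : CyclotomicField (p ^ (n + 1)) ℚ →+* semiAlg q (CyclotomicField (p ^ (n + 1)) ℚ) ⧸ t :=
    (Ideal.Quotient.mk t).comp
      (Algebra.TensorProduct.includeRight :
        CyclotomicField (p ^ (n + 1)) ℚ →ₐ[ℚ] semiAlg q (CyclotomicField (p ^ (n + 1)) ℚ)).toRingHom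
  have hprim : IsPrimitiveRoot ζF (p ^ (n + 1)) := hζ.map_of_injective (f := ι) ι.injective
  have hζFpow : ζF ^ (p ^ (n + 1)) = 1 := hprim.pow_eq_one
  have hgen : ∀ y : semiAlg q (CyclotomicField (p ^ (n + 1)) ℚ) ⧸ t,
      ∃ P : ℚ_[q][X], eval₂ (algebraMap ℚ_[q] _) ζF P = y := by
    intro y
    obtain ⟨a, rfl⟩ := Ideal.Quotient.mk_surjective y
    obtain ⟨P, rfl⟩ := gbq_tensor_gen q _ ζ hζtop a
    refine ⟨P, ?_⟩
    exact (aeval_algHom_apply (Ideal.Quotient.mkₐ ℚ_[q] t) _ P)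
  haveI hcycl : IsCyclotomicExtension {p ^ (n + 1)} ℚ_[q]
      (semiAlg q (CyclotomicField (p ^ (n + 1)) ℚ) ⧸ t) := by
    refine ⟨fun {k} hk _ => ?_, fun y => ?_⟩
    · rw [Set.mem_singleton_iff] at hk
      subst hk
      exact ⟨ζF, hprim⟩
    · obtain ⟨P, rfl⟩ := hgen y
      have h1 : eval₂ (algebraMap ℚ_[q] _) ζF P ∈ Algebra.adjoin ℚ_[q] {ζF} :=
        aeval_mem_adjoin_singleton ℚ_[q] ζF
      refine Algebra.adjoin_mono ?_ h1
      intro z hz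
      rw [Set.mem_singleton_iff] at hz
      subst hz
      exact ⟨p ^ (n + 1), rfl, hm0, hζFpow⟩
  haveI : IsGalois ℚ_[q] (semiAlg q (CyclotomicField (p ^ (n + 1)) ℚ) ⧸ t) :=
    IsCyclotomicExtension.isGalois {p ^ (n + 1)} ℚ_[q] _
  have hcyc : IsCyclic ((semiAlg q (CyclotomicField (p ^ (n + 1)) ℚ) ⧸ t) ≃ₐ[ℚ_[q]]
      (semiAlg q (CyclotomicField (p ^ (n + 1)) ℚ) ⧸ t)) := by
    haveI := ZMod.isCyclic_units_of_prime_pow p hp.out hp2 (n + 1)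
    exact isCyclic_of_injective (hprim.autToPow ℚ_[q]) (hprim.autToPow_injective ℚ_[q])
  -- the order of `q` modulo `p ^ (n + 1)`
  have hcop : q.Coprime (p ^ (n + 1)) := coprime_pow_of_ne p n hq.out hqp
  set u : (ZMod (p ^ (n + 1)))ˣ := ZMod.unitOfCoprime q hcop with hu
  have hd : p ^ (n + 1) ∣ q ^ orderOf u - 1 := by
    have h1 : u ^ orderOf u = 1 := pow_orderOf_eq_one u
    have h2 := congrArg (fun z : (ZMod (p ^ (n + 1)))ˣ => (z : ZMod (p ^ (n + 1)))) h1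
    simp only [Units.val_pow_eq_pow_val, Units.val_one, hu, ZMod.coe_unitOfCoprime] at h2
    have h3 : ((q ^ orderOf u : ℕ) : ZMod (p ^ (n + 1))) = ((1 : ℕ) : ZMod (p ^ (n + 1))) := by
      push_cast; exact h2
    rw [ZMod.natCast_eq_natCast_iff] at h3
    exact (Nat.modEq_iff_dvd' (Nat.one_le_pow _ _ hq.out.pos)).1 h3.symm
  have hk : (orderOf u : ℤ) ∣ ((p - 1 : ℕ) : ℤ) * Padic.valuation (b : ℚ_[q]) := by
    rw [orderOf_dvd_iff_zpow_eq_one]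
    rw [psiQ_of_ne p n q hqp] at hb
    exact hb
  obtain ⟨y, hy0, hy⟩ := gbq_local_norm q hcyc hm0 hqm ζF hζFpow hgen hd (b : ℚ_[q]) b.ne_zero
    (p - 1) hk
  obtain ⟨x, hx⟩ := gbq_norm_transfer (k := ℚ_[q]) t y (IsUnit.mk0 y hy0)
  exact ⟨x, hx.trans hy⟩

end Fermat.Agent.PT.G3
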