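/-
PT-GB, piece locNormCyc (helper57): `StmtLocNormCyc`, from the two halves
`stmtLocNormP` (`q = p`, helper67) and `stmtLocNormQ` (`q ≠ p`, helper57).
-/
import Fermat.Agent.PT.G3.GBLocNormP
import Fermat.Agent.PT.G3.GBLocNormQ

set_option autoImplicit false

namespace Fermat.Agent.PT.G3

/-- **locNormCyc**: if `ψ_q(b) = 1` then `b^(p-1)` is a norm from `(ℚ_q ⊗ ℚ(ζ_{p^(n+1)}))ˣ`. -/
theorem stmtLocNormCyc : StmtLocNormCyc := by
  intro p n _ hp2 q _ b hb
  by_cases h : q = p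
  · subst h
    exact stmtLocNormP q n hp2 b hb
  · exact stmtLocNormQ p n hp2 q h b hb

end Fermat.Agent.PT.G3
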