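/-
PT-GB, shared sub-piece TRANSITIVITY (helper11), for sdShapiro / sdGal:
for `N / ℚ` Galois, `Aut N` is transitive on the maximal ideals of `ℚ_q ⊗ N`.

* `sdTrans_mcPhi_comap` : `Φ(comap (semiMap σ) 𝔪) = comap σ (Φ 𝔪)` (`Φ = mcPhi`, G1/MaxSpecCount.lean);
* `sdTrans_exists`      : `∃ σ, ∀ x, x ∈ t' ↔ semiMap q σ x ∈ t`;
* `sdTrans_exists_comap`, `sdTrans_exists_map` : the same with `Ideal.comap` / `Ideal.map`.
-/
import Fermat.Agent.PT.G3.PlanGBLocal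
import Fermat.Agent.PT.G1.MaxSpecCount
import Fermat.Agent.PT.G1.PrimeCount

set_option autoImplicit false
set_option linter.unusedSectionVars false
set_option linter.style.haveILetI false

noncomputable section

namespace Fermat.Agent.PT.G3

open NumberField IsDedekindDomain
open Fermat.Agent.PT Fermat.Agent.PT.G Fermat.Agent.PT.G1
open scoped Pointwise

variable (q : ℕ) [Fact q.Prime] {N : Type} [Field N] [NumberField N]

/-- The transport of a maximal ideal along `semiMap q σ` is maximal. -/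
theorem sdTrans_comap_isMaximal (σ : N ≃ₐ[ℚ] N) (𝔪 : Ideal (semiAlg q N)) (h : 𝔪.IsMaximal) :
    (Ideal.comap (semiMap q σ) 𝔪).IsMaximal := by
  haveI := h
  have : Ideal.comap (semiMap q σ) 𝔪 =
      Ideal.comap (tens_semiEquiv q σ : semiAlg q N →+* semiAlg q N) 𝔪 := rfl
  rw [this]
  exact Ideal.comap_isMaximal_of_equiv (tens_semiEquiv q σ)

/-- The absolute value attached to the transported ideal. -/
theorem sdTrans_mcAbs_comap (σ : N ≃ₐ[ℚ] N) (𝔪 : Ideal (semiAlg q N)) (h : 𝔪.IsMaximal)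
    (x : N) :
    haveI := h
    haveI := sdTrans_comap_isMaximal q σ 𝔪 h
    letI := Ideal.Quotient.field 𝔪
    letI := Ideal.Quotient.field (Ideal.comap (semiMap q σ) 𝔪)
    mcAbs q (Ideal.Quotient.mkₐ ℚ_[q] (Ideal.comap (semiMap q σ) 𝔪)) x =
      mcAbs q (Ideal.Quotient.mkₐ ℚ_[q] 𝔪) (σ x) := by
  haveI := h
  haveI := sdTrans_comap_isMaximal q σ 𝔪 h
  letI := Ideal.Quotient.field 𝔪
  letI := Ideal.Quotient.field (Ideal.comap (semiMap q σ) 𝔪)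
  let f : (semiAlg q N ⧸ Ideal.comap (semiMap q σ) 𝔪) →ₐ[ℚ_[q]] (semiAlg q N ⧸ 𝔪) :=
    Ideal.Quotient.liftₐ (Ideal.comap (semiMap q σ) 𝔪)
      ((Ideal.Quotient.mkₐ ℚ_[q] 𝔪).comp (semiMap q σ)) (by
        intro a ha
        rw [AlgHom.comp_apply]
        exact Ideal.Quotient.eq_zero_iff_mem.mpr ha)
  have hf : ∀ a : semiAlg q N,
      f (Ideal.Quotient.mkₐ ℚ_[q] (Ideal.comap (semiMap q σ) 𝔪) a) =
        Ideal.Quotient.mkₐ ℚ_[q] 𝔪 (semiMap q σ a) := fun a => rfl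
  rw [← mcAbs_comp]
  unfold mcAbs
  rw [AlgHom.comp_apply, ← hf, mc_sn_algHom]

/-- **Equivariance of `Φ`**: `Φ(comap (semiMap σ) 𝔪) = comap σ (Φ 𝔪)`. -/
theorem sdTrans_mcPhi_comap (σ : N ≃ₐ[ℚ] N) (𝔪 : Ideal (semiAlg q N)) (h : 𝔪.IsMaximal) :
    mcPhi q (Ideal.comap (semiMap q σ) 𝔪) (sdTrans_comap_isMaximal q σ 𝔪 h) =
      Ideal.comap (RingOfIntegers.mapRingEquiv (σ : N ≃+* N)) (mcPhi q 𝔪 h) := by
  haveI := h
  haveI := sdTrans_comap_isMaximal q σ 𝔪 h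
  letI := Ideal.Quotient.field 𝔪
  letI := Ideal.Quotient.field (Ideal.comap (semiMap q σ) 𝔪)
  ext x
  rw [Ideal.mem_comap]
  show mcAbs q (Ideal.Quotient.mkₐ ℚ_[q] (Ideal.comap (semiMap q σ) 𝔪)) (x : N) < 1 ↔
    mcAbs q (Ideal.Quotient.mkₐ ℚ_[q] 𝔪)
      ((RingOfIntegers.mapRingEquiv (σ : N ≃+* N) x : 𝓞 N) : N) < 1
  rw [RingOfIntegers.mapRingEquiv_apply]
  have := sdTrans_mcAbs_comap q σ 𝔪 h (x : N)
  rw [this]
  rfl

variable [IsGalois ℚ N]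

/-- **Transitivity**, `comap` form. -/
theorem sdTrans_exists_comap (t t' : MaximalSpectrum (semiAlg q N)) :
    ∃ σ : N ≃ₐ[ℚ] N, t'.asIdeal = Ideal.comap (semiMap q σ) t.asIdeal := by
  set P := mcPhi q t.asIdeal t.isMaximal with hP
  set P' := mcPhi q t'.asIdeal t'.isMaximal with hP'
  haveI hPp : P.IsPrime := mcPhi_isPrime q _ _
  haveI hP'p : P'.IsPrime := mcPhi_isPrime q _ _
  have hq : (q : ℤ) ≠ 0 := by exact_mod_cast (Fact.out : q.Prime).ne_zero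
  haveI hqmax : (Ideal.span {(q : ℤ)}).IsMaximal := by
    have hpr : Prime (q : ℤ) := Nat.prime_iff_prime_int.mp (Fact.out : q.Prime)
    exact PrincipalIdealRing.isMaximal_of_irreducible hpr.irreducible
  have hover : ∀ (Q : Ideal (𝓞 N)), Q.IsPrime → (q : 𝓞 N) ∈ Q →
      Q.LiesOver (Ideal.span {(q : ℤ)}) := by
    intro Q hQ hqQ
    constructor
    have hle : Ideal.span {(q : ℤ)} ≤ Ideal.under ℤ Q := by
      rw [Ideal.span_singleton_le_iff_mem, Ideal.under_def, Ideal.mem_comap]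
      simpa using hqQ
    haveI : (Ideal.under ℤ Q).IsPrime := Ideal.comap_isPrime _ Q
    exact hqmax.eq_of_le (Ideal.IsPrime.ne_top inferInstance) hle
  haveI := hover P hPp (q_mem_mcPhi q _ _)
  haveI := hover P' hP'p (q_mem_mcPhi q _ _)
  obtain ⟨τ, hτ⟩ := Ideal.exists_smul_eq_of_isGaloisGroup (Ideal.span {(q : ℤ)}) P' P (N ≃ₐ[ℚ] N)
  refine ⟨τ, ?_⟩
  apply mcPhi_injective q _ _ t'.isMaximal (sdTrans_comap_isMaximal q τ _ t.isMaximal)
  rw [sdTrans_mcPhi_comap q τ _ t.isMaximal]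
  ext x
  rw [Ideal.mem_comap, ← hP, ← hτ, ← pc_smul_eq, Ideal.smul_mem_pointwise_smul_iff]

/-- **Transitivity**, element form. -/
theorem sdTrans_exists (t t' : MaximalSpectrum (semiAlg q N)) :
    ∃ σ : N ≃ₐ[ℚ] N, ∀ x : semiAlg q N, x ∈ t'.asIdeal ↔ semiMap q σ x ∈ t.asIdeal := by
  obtain ⟨σ, hσ⟩ := sdTrans_exists_comap q t t'
  exact ⟨σ, fun x => by rw [hσ]; rfl⟩

/-- **Transitivity**, `map` form. -/
theorem sdTrans_exists_map (t t' : MaximalSpectrum (semiAlg q N)) :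
    ∃ σ : N ≃ₐ[ℚ] N,
      t'.asIdeal = Ideal.map (tens_semiEquiv q σ : semiAlg q N →+* semiAlg q N) t.asIdeal := by
  obtain ⟨σ, hσ⟩ := sdTrans_exists q t t'
  refine ⟨σ⁻¹, ?_⟩
  ext x
  rw [Ideal.mem_map_iff_of_surjective
    (tens_semiEquiv q σ⁻¹ : semiAlg q N →+* semiAlg q N) (tens_semiEquiv q σ⁻¹).surjective]
  constructor
  · intro hx
    refine ⟨semiMap q σ x, (hσ x).1 hx, ?_⟩
    show semiMap q σ⁻¹ (semiMap q σ x) = x
    rw [← tens_semiMap_mul, inv_mul_cancel, tens_semiMap_one]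
  · rintro ⟨y, hy, rfl⟩
    rw [hσ]
    show semiMap q σ (semiMap q σ⁻¹ y) ∈ t.asIdeal
    rw [← tens_semiMap_mul, mul_inv_cancel, tens_semiMap_one]
    exact hy

end Fermat.Agent.PT.G3

end
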