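/-
PT-GB — piece **sdShapiro** (helper32): semilocal Shapiro in degree 2.

For `N / ℚ` Galois, `t` a maximal ideal of `A = ℚ_q ⊗ N`, `D_t = sdStab q N t` and
`π : Res (semiRep q N) ⟶ sdY q N t` the projection, "restrict to `D_t` and project" is bijective
`H²(Aut N, Aˣ) → H²(D_t, (A/t)ˣ)`.

* `sdShapiro_abstract` : for any `π : Res_P X ⟶ Y` such that `x ↦ (g ↦ π (g x))` is bijective
  `X → Coind_P^G Y`, the map `map P.subtype π 2` is bijective (`PT.Red.shMap_two_bijective`);
* `sdShapiro_adj_injective`, `sdShapiro_adj_surjective` : the coind-iso for `Aˣ` (transitivity: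
  helper11's `sdTrans_exists`; CRT: `tensUnitsEquiv`);
* `stmtSDShapiro : StmtSDShapiro`.
-/
import Fermat.Agent.PT.G3.PlanGBLocal
import Fermat.Agent.PT.G3.GBSDTrans
import Fermat.Agent.PT.A.Shapiro

set_option autoImplicit false
set_option linter.unusedSectionVars false
set_option linter.style.haveILetI false

noncomputable section

namespace Fermat.Agent.PT.G3

open CategoryTheory groupCohomology NumberField IsDedekindDomain
open Fermat.Agent.PT Fermat.Agent.PT.G Fermat.Agent.PT.G1 Fermat.Agent.PT.Red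

attribute [local instance 1100] Rep.hV2

/-! ### Abstract Shapiro -/

/-- the morphism `X ⟶ Coind_P^G Y` adjoint to `π : Res_P X ⟶ Y`: `x ↦ (g ↦ π (g x))` -/
abbrev sdShapiro_adj {G : Type} [Group G] (P : Subgroup G) (X : Rep.{0} ℤ G)
    (Y : Rep.{0} ℤ P) (π : Rep.res P.subtype X ⟶ Y) : X ⟶ Rep.coind P.subtype Y :=
  Rep.resCoindToHom P.subtype X Y π

lemma sdShapiro_adj_apply {G : Type} [Group G] (P : Subgroup G) (X : Rep.{0} ℤ G)
    (Y : Rep.{0} ℤ P) (π : Rep.res P.subtype X ⟶ Y) (x : X.V) (g : G) :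
    ((sdShapiro_adj P X Y π).hom x).1 g = π.hom (X.ρ g x) := rfl

lemma sdShapiro_map_eq {G : Type} [Group G] (P : Subgroup G) (X : Rep.{0} ℤ G)
    (Y : Rep.{0} ℤ P) (π : Rep.res P.subtype X ⟶ Y) (n : ℕ) :
    map (MonoidHom.id G) (sdShapiro_adj P X Y π) n ≫ shMap P Y n = map P.subtype π n := by
  unfold shMap
  rw [← map_comp]
  refine map_congr (MonoidHom.id_comp _) ?_ n
  ext m
  change π.hom (X.ρ (1 : G) m) = π.hom m
  rw [map_one]
  rfl

/-- **abstract Shapiro**: if `x ↦ (g ↦ π (g x))` is bijective `X → Coind_P^G Y`, then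
"restrict to `P` and push along `π`" is bijective on `H²`. -/
theorem sdShapiro_abstract {G : Type} [Group G] (P : Subgroup G) (X : Rep.{0} ℤ G)
    (Y : Rep.{0} ℤ P) (π : Rep.res P.subtype X ⟶ Y)
    (hbij : Function.Bijective (sdShapiro_adj P X Y π).hom) :
    Function.Bijective (map P.subtype π 2).hom := by
  haveI : IsIso (sdShapiro_adj P X Y π) :=
    (ConcreteCategory.isIso_iff_bijective (sdShapiro_adj P X Y π)).2 hbij
  have h1 : Function.Bijective (map (MonoidHom.id G) (sdShapiro_adj P X Y π) 2).hom := by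
    have : IsIso ((groupCohomology.functor ℤ G 2).map (sdShapiro_adj P X Y π)) := inferInstance
    exact ConcreteCategory.bijective_of_isIso
      ((groupCohomology.functor ℤ G 2).map (sdShapiro_adj P X Y π))
  have h2 := shMap_two_bijective P Y
  rw [← sdShapiro_map_eq P X Y π 2]
  exact h2.comp h1

/-! ### The coind-iso for the semilocal units -/

section Semi

variable (q : ℕ) [Fact q.Prime] (N : Type) [Field N] [NumberField N]
  (t : MaximalSpectrum (semiAlg q N))
  (π : Rep.res (sdStab q N t).subtype (semiRep q N) ⟶ sdY q N t)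

/-- the value of the adjoint map -/
lemma sdShapiro_adj_val (hπ : ∀ x : Additive (semiAlg q N)ˣ, π.hom x = sdProjLin q N t x)
    (u : (semiAlg q N)ˣ) (g : N ≃ₐ[ℚ] N) :
    ((Additive.toMul (((sdShapiro_adj (sdStab q N t) (semiRep q N) (sdY q N t) π).hom
      (Additive.ofMul u)).1 g) : (sdField q N t)ˣ) : sdField q N t) =
      Ideal.Quotient.mk t.asIdeal (semiMap q g (u : semiAlg q N)) := by
  rw [sdShapiro_adj_apply, hπ]
  rfl

/-- the action on `sdY` -/
lemma sdShapiro_sdY_ρ (p : ↥(sdStab q N t)) (y : (sdY q N t).V) :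
    ((Additive.toMul ((sdY q N t).ρ p y) : (sdField q N t)ˣ) : sdField q N t) =
      sdRes q N t p ((Additive.toMul y : (sdField q N t)ˣ) : sdField q N t) := rfl

lemma sdShapiro_semiMap_inv_left (σ : N ≃ₐ[ℚ] N) (x : semiAlg q N) :
    semiMap q σ⁻¹ (semiMap q σ x) = x := by
  rw [← tens_semiMap_mul, inv_mul_cancel, tens_semiMap_one]

lemma sdShapiro_semiMap_inv_right (σ : N ≃ₐ[ℚ] N) (x : semiAlg q N) :
    semiMap q σ (semiMap q σ⁻¹ x) = x := by
  rw [← tens_semiMap_mul, mul_inv_cancel, tens_semiMap_one]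

variable [IsGalois ℚ N]

theorem sdShapiro_adj_injective
    (hπ : ∀ x : Additive (semiAlg q N)ˣ, π.hom x = sdProjLin q N t x) :
    Function.Injective (sdShapiro_adj (sdStab q N t) (semiRep q N) (sdY q N t) π).hom := by
  haveI := tens_semiAlg_isArtinian q N
  haveI := tens_semiAlg_isReduced q N
  rw [injective_iff_map_eq_zero]
  intro x hx
  obtain ⟨u, rfl⟩ : ∃ u : (semiAlg q N)ˣ, (Additive.ofMul u : Additive (semiAlg q N)ˣ) = x :=
    ⟨Additive.toMul (show Additive (semiAlg q N)ˣ from x), rfl⟩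
  have key : ∀ t' : MaximalSpectrum (semiAlg q N),
      Ideal.Quotient.mk t'.asIdeal (u : semiAlg q N) = 1 := by
    intro t'
    obtain ⟨σ, hσ⟩ := sdTrans_exists q t t'
    have h1 := sdShapiro_adj_val q N t π hπ u σ
    have h2 : Ideal.Quotient.mk t.asIdeal (semiMap q σ (u : semiAlg q N)) = 1 := by
      rw [← h1]
      have h0 := congrArg (fun F : (Rep.coind (sdStab q N t).subtype (sdY q N t)).V => F.1 σ) hx
      exact congrArg (fun y : (sdY q N t).V =>
        ((Additive.toMul (show Additive (sdField q N t)ˣ from y) : (sdField q N t)ˣ) :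
          sdField q N t)) h0
    have h3 : semiMap q σ ((u : semiAlg q N) - 1) ∈ t.asIdeal := by
      rw [map_sub, map_one, ← Ideal.Quotient.eq_zero_iff_mem, map_sub, h2, map_one, sub_self]
    have h4 := (hσ _).2 h3
    rw [← Ideal.Quotient.eq_zero_iff_mem, map_sub, map_one, sub_eq_zero] at h4
    exact h4
  have h5 : tensUnitsEquiv (semiAlg q N) u = 1 := by
    funext t'
    apply Units.ext
    rw [tensUnitsEquiv_apply, key t']
    rfl
  have h6 : u = 1 := (tensUnitsEquiv (semiAlg q N)).injective (h5.trans (map_one _).symm)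
  rw [h6]
  rfl

theorem sdShapiro_adj_surjective
    (hπ : ∀ x : Additive (semiAlg q N)ˣ, π.hom x = sdProjLin q N t x) :
    Function.Surjective (sdShapiro_adj (sdStab q N t) (semiRep q N) (sdY q N t) π).hom := by
  haveI := tens_semiAlg_isArtinian q N
  haveI := tens_semiAlg_isReduced q N
  intro F
  -- choices
  choose σ hσ using fun t' : MaximalSpectrum (semiAlg q N) => sdTrans_exists q t t'
  choose a ha using fun t' : MaximalSpectrum (semiAlg q N) =>
    Ideal.Quotient.mk_surjective (I := t.asIdeal)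
      ((Additive.toMul (F.1 (σ t')) : (sdField q N t)ˣ) : sdField q N t)
  have hunit : ∀ t' : MaximalSpectrum (semiAlg q N),
      IsUnit (Ideal.Quotient.mk t'.asIdeal (semiMap q (σ t')⁻¹ (a t'))) := by
    intro t'
    haveI := t'.isMaximal
    have hne : Ideal.Quotient.mk t'.asIdeal (semiMap q (σ t')⁻¹ (a t')) ≠ 0 := by
      intro h0
      rw [Ideal.Quotient.eq_zero_iff_mem, hσ t', sdShapiro_semiMap_inv_right,
        ← Ideal.Quotient.eq_zero_iff_mem, ha t'] at h0
      exact (Additive.toMul (F.1 (σ t')) : (sdField q N t)ˣ).ne_zero h0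
    obtain ⟨b, hb⟩ := Ideal.Quotient.exists_inv hne
    exact IsUnit.of_mul_eq_one b hb
  set u : (semiAlg q N)ˣ := (tensUnitsEquiv (semiAlg q N)).symm (fun t' => (hunit t').unit)
    with hu
  have hu1 : ∀ t' : MaximalSpectrum (semiAlg q N),
      Ideal.Quotient.mk t'.asIdeal (u : semiAlg q N) =
        Ideal.Quotient.mk t'.asIdeal (semiMap q (σ t')⁻¹ (a t')) := by
    intro t'
    rw [← tensUnitsEquiv_apply, hu, MulEquiv.apply_symm_apply]
    rfl
  have hu2 : ∀ t' : MaximalSpectrum (semiAlg q N),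
      Ideal.Quotient.mk t.asIdeal (semiMap q (σ t') (u : semiAlg q N)) =
        ((Additive.toMul (F.1 (σ t')) : (sdField q N t)ˣ) : sdField q N t) := by
    intro t'
    rw [← ha t']
    have h1 : (u : semiAlg q N) - semiMap q (σ t')⁻¹ (a t') ∈ t'.asIdeal := by
      rw [← Ideal.Quotient.eq_zero_iff_mem, map_sub, hu1 t', sub_self]
    rw [hσ t', map_sub, sdShapiro_semiMap_inv_right, ← Ideal.Quotient.eq_zero_iff_mem,
      map_sub, sub_eq_zero] at h1
    exact h1
  refine ⟨Additive.ofMul u, ?_⟩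
  apply Subtype.ext
  funext g
  apply Additive.toMul.injective
  apply Units.ext
  refine Eq.trans (sdShapiro_adj_val q N t π hπ u g) ?_
  -- the maximal ideal `g⁻¹ t`
  set t' : MaximalSpectrum (semiAlg q N) :=
    ⟨Ideal.comap (semiMap q g) t.asIdeal, sdTrans_comap_isMaximal q g _ t.isMaximal⟩ with ht'
  have hmem : ∀ x : semiAlg q N, x ∈ t'.asIdeal ↔ semiMap q g x ∈ t.asIdeal := fun x => Iff.rfl
  have hp : σ t' * g⁻¹ ∈ sdStab q N t := by
    intro x hx
    rw [tens_semiMap_mul, ← hσ t', hmem, sdShapiro_semiMap_inv_right]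
    exact hx
  have hσg : σ t' = ((⟨σ t' * g⁻¹, hp⟩ : ↥(sdStab q N t)) : N ≃ₐ[ℚ] N) * g := by
    simp
  have hF : F.1 (σ t') = (sdY q N t).ρ ⟨σ t' * g⁻¹, hp⟩ (F.1 g) := by
    have := F.2 ⟨σ t' * g⁻¹, hp⟩ g
    rw [← this]
    exact congrArg F.1 hσg
  have h3 := hu2 t'
  rw [hF, sdShapiro_sdY_ρ] at h3
  have h4 : semiMap q (σ t') (u : semiAlg q N) =
      semiMap q ((⟨σ t' * g⁻¹, hp⟩ : ↥(sdStab q N t)) : N ≃ₐ[ℚ] N)
        (semiMap q g (u : semiAlg q N)) := by
    rw [← tens_semiMap_mul, ← hσg]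
  rw [h4, ← sdRes_mk] at h3
  exact (sdRes q N t ⟨σ t' * g⁻¹, hp⟩).injective h3

end Semi

/-- **gb-sdshapiro**. -/
theorem stmtSDShapiro : StmtSDShapiro := by
  intro q _ N _ _ _ t π hπ
  exact sdShapiro_abstract (sdStab q N t) (semiRep q N) (sdY q N t) π
    ⟨sdShapiro_adj_injective q N t π hπ, sdShapiro_adj_surjective q N t π hπ⟩

end Fermat.Agent.PT.G3

end
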